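import Mathlib
import Fermat.Prelude.Def_ModularCurve_HeckeOperatorTotal
import Fermat.Agent.Lib.FFRel
import Fermat.Agent.S24.Defs
import Fermat.Agent.S24.JGlue
import Fermat.Agent.S24.Datum
import Fermat.Agent.S24.PlaceGaloisFixed
import Fermat.Agent.S24.Assembly

/-!
# S37 — package [H]: the inputs of the Hecke correspondence (helper94)

The Prelude's Hecke operator `ModularCurve.heckeOperatorAlong L N ℓ` on `Pic⁰` of the function
field of `X₀(N)` is the honest correspondence `α_* ∘ β^*` attached to the two degeneracy maps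
`α, β : F_N → F_{Nℓ}` *provided* `ModularCurve.HeckeInputsAlong L N ℓ` holds (integrality and
finiteness of `α`, `β`, existence of principal divisors on `F_{Nℓ}`, the fundamental identity for
`β` and the norm formula for `α`), and the junk value `0` otherwise.

This file proves `HeckeInputsAlong (AlgebraicClosure ℚ) N ℓ` for all `N, ℓ ≥ 1`, so that the junk
branch never occurs over `Q̄`.
-/

set_option autoImplicit false
set_option linter.unusedSectionVars false
set_option linter.style.haveILetI false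

noncomputable section

namespace Fermat.Agent.S37.HeckeInputs

open AlgebraicCurve ModularCurve Fermat.Agent.S24 Fermat.Agent.Lib

/-- The Prelude function field of `X₀(N)` over `Q̄` is a function field in one variable. -/
theorem isFF1_FN (N : ℕ) [NeZero N] : IsFF1 Kbar (FN N) := by
  obtain ⟨M, _, _, _, _, ρ, h⟩ := exists_modular_datum N
  haveI : Finite ρ.range := h.finite_range
  have hG0 := Assembly.fixed_iff N ρ h (jBar N) rfl
  exact (isFF1_of_fixed ρ.range (jBar N) (JGlue.transcendental_jBar N) hG0).1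

/-- Every nonzero modular function of level `N` over `Q̄` has a divisor of degree zero. -/
theorem hasPrincipalDivisors_FN (N : ℕ) [NeZero N] :
    HasPrincipalDivisors (AlgebraicClosure ℚ)
      (laurentBaseChange (AlgebraicClosure ℚ) (modularFunctionFieldFull N)) := by
  haveI : IsFF1 Kbar (FN N) := isFF1_FN N
  exact FFRel.hasPrincipalDivisors Kbar (FN N)

variable (N ℓ : ℕ) [NeZero N] [NeZero ℓ]

theorem heckeAlphaBarIntegral : HeckeAlphaBarIntegral (AlgebraicClosure ℚ) N ℓ := by
  haveI : IsFF1 Kbar (FN N) := isFF1_FN N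
  haveI : IsFF1 Kbar (FN (N * ℓ)) := isFF1_FN (N * ℓ)
  exact FFRel.isIntegralAlong (heckeAlphaBar (AlgebraicClosure ℚ) N ℓ)

theorem heckeBetaBarIntegral : HeckeBetaBarIntegral (AlgebraicClosure ℚ) N ℓ := by
  haveI : IsFF1 Kbar (FN N) := isFF1_FN N
  haveI : IsFF1 Kbar (FN (N * ℓ)) := isFF1_FN (N * ℓ)
  exact FFRel.isIntegralAlong (heckeBetaBar (AlgebraicClosure ℚ) N ℓ)

theorem finiteAlong_alpha : FiniteAlong (AlgebraicClosure ℚ) (heckeAlphaBar (AlgebraicClosure ℚ) N ℓ) := by
  haveI : IsFF1 Kbar (FN N) := isFF1_FN N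
  haveI : IsFF1 Kbar (FN (N * ℓ)) := isFF1_FN (N * ℓ)
  exact FFRel.finiteAlong (heckeAlphaBar (AlgebraicClosure ℚ) N ℓ)

theorem finiteAlong_beta : FiniteAlong (AlgebraicClosure ℚ) (heckeBetaBar (AlgebraicClosure ℚ) N ℓ) := by
  haveI : IsFF1 Kbar (FN N) := isFF1_FN N
  haveI : IsFF1 Kbar (FN (N * ℓ)) := isFF1_FN (N * ℓ)
  exact FFRel.finiteAlong (heckeBetaBar (AlgebraicClosure ℚ) N ℓ)

theorem fundamentalIdentityAlong_beta :
    haveI := hasPrincipalDivisors_FN (N * ℓ)
    FundamentalIdentityAlong (AlgebraicClosure ℚ) (heckeBetaBar (AlgebraicClosure ℚ) N ℓ)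
      (heckeBetaBarIntegral N ℓ) := by
  haveI : IsFF1 Kbar (FN N) := isFF1_FN N
  haveI : IsFF1 Kbar (FN (N * ℓ)) := isFF1_FN (N * ℓ)
  haveI := hasPrincipalDivisors_FN (N * ℓ)
  exact FFRel.fundamentalIdentityAlong _ _

theorem fundamentalIdentityAlong_alpha :
    haveI := hasPrincipalDivisors_FN (N * ℓ)
    FundamentalIdentityAlong (AlgebraicClosure ℚ) (heckeAlphaBar (AlgebraicClosure ℚ) N ℓ)
      (heckeAlphaBarIntegral N ℓ) := by
  haveI : IsFF1 Kbar (FN N) := isFF1_FN N
  haveI : IsFF1 Kbar (FN (N * ℓ)) := isFF1_FN (N * ℓ)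
  haveI := hasPrincipalDivisors_FN (N * ℓ)
  exact FFRel.fundamentalIdentityAlong _ _

theorem normFormulaAlong_alpha :
    NormFormulaAlong (AlgebraicClosure ℚ) (heckeAlphaBar (AlgebraicClosure ℚ) N ℓ)
      (finiteAlong_alpha N ℓ) := by
  haveI : IsFF1 Kbar (FN N) := isFF1_FN N
  haveI : IsFF1 Kbar (FN (N * ℓ)) := isFF1_FN (N * ℓ)
  exact FFRel.normFormulaAlong _ _

theorem normFormulaAlong_beta :
    NormFormulaAlong (AlgebraicClosure ℚ) (heckeBetaBar (AlgebraicClosure ℚ) N ℓ)
      (finiteAlong_beta N ℓ) := by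
  haveI : IsFF1 Kbar (FN N) := isFF1_FN N
  haveI : IsFF1 Kbar (FN (N * ℓ)) := isFF1_FN (N * ℓ)
  exact FFRel.normFormulaAlong _ _

/-- **The inputs of the Hecke correspondence hold over `Q̄`**: the Prelude's `T_ℓ` on
`Pic⁰(X₀(N))` is never the junk value. -/
theorem heckeInputsAlong : HeckeInputsAlong (AlgebraicClosure ℚ) N ℓ := by
  haveI := hasPrincipalDivisors_FN (N * ℓ)
  exact heckeInputsAlong_intro (heckeAlphaBarIntegral N ℓ) (heckeBetaBarIntegral N ℓ)
    (fundamentalIdentityAlong_beta N ℓ) (finiteAlong_alpha N ℓ) (normFormulaAlong_alpha N ℓ)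

/-- The Prelude's Hecke operator over `Q̄` is the honest correspondence `α_* ∘ β^*`. -/
theorem heckeOperatorAlong_eq_heckePic0Bar :
    haveI := hasPrincipalDivisors_FN (N * ℓ)
    heckeOperatorAlong (AlgebraicClosure ℚ) N ℓ =
      heckePic0Bar (heckeAlphaBarIntegral N ℓ) (heckeBetaBarIntegral N ℓ)
        (fundamentalIdentityAlong_beta N ℓ) (finiteAlong_alpha N ℓ) (normFormulaAlong_alpha N ℓ) := by
  haveI := hasPrincipalDivisors_FN (N * ℓ)
  exact heckeOperatorAlong_eq _ _ _ _ _

/-- The Hecke operator on the class of a degree zero divisor `D` is the class of the divisor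
`α_* β^* D`. -/
theorem heckeOperatorAlong_mk
    (D : Divisor.degZero (K := AlgebraicClosure ℚ)
      (F := laurentBaseChange (AlgebraicClosure ℚ) (modularFunctionFieldFull N))) :
    haveI := hasPrincipalDivisors_FN (N * ℓ)
    ∃ h : heckeDivBar (heckeAlphaBarIntegral N ℓ) (heckeBetaBarIntegral N ℓ)
        (D : Divisor (AlgebraicClosure ℚ)
          (laurentBaseChange (AlgebraicClosure ℚ) (modularFunctionFieldFull N))) ∈
        Divisor.degZero (K := AlgebraicClosure ℚ)
          (F := laurentBaseChange (AlgebraicClosure ℚ) (modularFunctionFieldFull N)),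
      heckeOperatorAlong (AlgebraicClosure ℚ) N ℓ (Pic0.mk D) =
        Pic0.mk ⟨heckeDivBar (heckeAlphaBarIntegral N ℓ) (heckeBetaBarIntegral N ℓ)
          (D : Divisor (AlgebraicClosure ℚ)
            (laurentBaseChange (AlgebraicClosure ℚ) (modularFunctionFieldFull N))), h⟩ := by
  haveI := hasPrincipalDivisors_FN (N * ℓ)
  refine ⟨Divisor.correspondence_mem_degZero _ _ _ _ (fundamentalIdentityAlong_beta N ℓ) D.2, ?_⟩
  rw [heckeOperatorAlong_eq_heckePic0Bar]
  rfl

/-- All places of `F_{Nℓ}` have inertia degree one over `F_N` along `α`. -/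
theorem inertiaDegAlong_alpha
    (w : Place (AlgebraicClosure ℚ)
      (laurentBaseChange (AlgebraicClosure ℚ) (modularFunctionFieldFull (N * ℓ)))) :
    w.inertiaDegAlong (heckeAlphaBar (AlgebraicClosure ℚ) N ℓ) (heckeAlphaBarIntegral N ℓ) = 1 := by
  haveI : IsFF1 Kbar (FN N) := isFF1_FN N
  haveI : IsFF1 Kbar (FN (N * ℓ)) := isFF1_FN (N * ℓ)
  exact FFRel.inertiaDegAlong_eq_one _ _ w

/-- The Hecke correspondence on a single place: `T_ℓ (n • v) = ∑_{w : β-restriction of w is v}
(n • e_β(w)) • (α-restriction of w)`. -/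
theorem heckeDivBar_single
    (v : Place (AlgebraicClosure ℚ)
      (laurentBaseChange (AlgebraicClosure ℚ) (modularFunctionFieldFull N))) (n : ℤ) :
    haveI := hasPrincipalDivisors_FN (N * ℓ)
    heckeDivBar (heckeAlphaBarIntegral N ℓ) (heckeBetaBarIntegral N ℓ) (Finsupp.single v n) =
      ∑ w ∈ Place.fiberAlong (heckeBetaBar (AlgebraicClosure ℚ) N ℓ) (heckeBetaBarIntegral N ℓ) v,
        Finsupp.single
          (w.restrictAlong (heckeAlphaBar (AlgebraicClosure ℚ) N ℓ) (heckeAlphaBarIntegral N ℓ))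
          (n * w.ramificationIndexAlong (heckeBetaBar (AlgebraicClosure ℚ) N ℓ)) := by
  haveI := hasPrincipalDivisors_FN (N * ℓ)
  rw [heckeDivBar, Divisor.correspondence_apply, Divisor.pullbackAlong_single, map_sum]
  refine Finset.sum_congr rfl fun w _ => ?_
  rw [Divisor.pushforwardAlong_single, inertiaDegAlong_alpha]
  simp

end Fermat.Agent.S37.HeckeInputs
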