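import Mathlib
import Fermat.Prelude.Def_ModularCurve_HeckeModule

/-!
# S37: reduction of `SpecializationExists` to a "reduction map with three properties"

`SpecializationExists` lets us choose `(J', sp, F)`.  We take `J' := J ⧸ H0` where `H0` is the
Hecke submodule generated by `σ • x - x` (`σ` in inertia) and `φ • φ • x - T_ℓ • φ • x + ℓ • x`
(`φ` one fixed Frobenius), `sp` the projection and `F` the map induced by `φ`.  All clauses except
`injective_torsion` then hold by construction; `injective_torsion` follows from any additive map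
`red` out of `J` that kills the two families of generators and is injective on `p`-power torsion.
-/

set_option autoImplicit false

open ModularCurve

namespace Fermat.Agent.S37.Reduce

section Abstract

variable {G : Type*} [Group G] {R : Type*} [CommRing R] {J : Type*} [AddCommGroup J] [Module R J]
  [DistribMulAction G J] [SMulCommClass G R J]

/-- generators of the kernel: inertia coinvariants and the Eichler--Shimura relation. -/
def gens (I : Subgroup G) (φ : G) (t : R) (ℓ : ℕ) : Set J :=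
  {y | ∃ σ ∈ I, ∃ x : J, y = σ • x - x} ∪ {y | ∃ x : J, y = φ • φ • x - t • (φ • x) + ℓ • x}

/-- the kernel submodule `H0`. -/
def kerSub (I : Subgroup G) (φ : G) (t : R) (ℓ : ℕ) : Submodule R J :=
  Submodule.span R (gens (J := J) I φ t ℓ)

theorem smul_gens (I : Subgroup G) (φ : G) (t : R) (ℓ : ℕ) (r : R) {y : J}
    (hy : y ∈ gens (J := J) I φ t ℓ) : r • y ∈ gens (J := J) I φ t ℓ := by
  rcases hy with ⟨σ, hσ, x, rfl⟩ | ⟨x, rfl⟩
  · left
    refine ⟨σ, hσ, r • x, ?_⟩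
    rw [smul_sub, smul_comm σ r x]
  · right
    refine ⟨r • x, ?_⟩
    rw [smul_add, smul_sub, smul_comm r t (φ • x), smul_comm φ r x, smul_comm φ r (φ • x),
      smul_comm r (ℓ : ℕ) x]

theorem red_eq_zero_of_mem_kerSub {M : Type*} [AddCommGroup M] (I : Subgroup G) (φ : G) (t : R)
    (ℓ : ℕ) (red : J →+ M)
    (h1 : ∀ σ ∈ I, ∀ x : J, red (σ • x) = red x)
    (h2 : ∀ x : J, red (φ • φ • x - t • (φ • x) + ℓ • x) = 0)
    {y : J} (hy : y ∈ kerSub (J := J) I φ t ℓ) : red y = 0 := by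
  have key : ∀ r : R, red (r • y) = 0 := by
    induction hy using Submodule.span_induction with
    | mem y hy =>
      intro r
      rcases smul_gens I φ t ℓ r hy with ⟨σ, hσ, x, hx⟩ | ⟨x, hx⟩
      · rw [hx, map_sub, h1 σ hσ, sub_self]
      · rw [hx, h2]
    | zero => intro r; rw [smul_zero, map_zero]
    | add y z _ _ hy hz => intro r; rw [smul_add, map_add, hy r, hz r, add_zero]
    | smul s y _ hy => intro r; rw [smul_smul]; exact hy (r * s)
  simpa using key 1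

theorem smul_mem_kerSub (I : Subgroup G) (φ : G) (t : R) (ℓ : ℕ)
    (hnorm : ∀ σ ∈ I, φ * σ * φ⁻¹ ∈ I) {y : J} (hy : y ∈ kerSub (J := J) I φ t ℓ) :
    φ • y ∈ kerSub (J := J) I φ t ℓ := by
  induction hy using Submodule.span_induction with
  | mem y hy =>
    refine Submodule.subset_span ?_
    rcases hy with ⟨σ, hσ, x, rfl⟩ | ⟨x, rfl⟩
    · left
      refine ⟨φ * σ * φ⁻¹, hnorm σ hσ, φ • x, ?_⟩
      rw [smul_sub, mul_smul, mul_smul, inv_smul_smul]
    · right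
      refine ⟨φ • x, ?_⟩
      rw [smul_add, smul_sub, smul_comm φ t (φ • x), smul_comm φ (ℓ : ℕ) x]
  | zero => rw [smul_zero]; exact Submodule.zero_mem _
  | add y z _ _ hy hz => rw [smul_add]; exact Submodule.add_mem _ hy hz
  | smul s y _ hy => rw [smul_comm φ s y]; exact Submodule.smul_mem _ s hy

/-- the endomorphism of `J ⧸ H0` induced by `φ`. -/
noncomputable def frobQ (I : Subgroup G) (φ : G) (t : R) (ℓ : ℕ)
    (hnorm : ∀ σ ∈ I, φ * σ * φ⁻¹ ∈ I) :
    (J ⧸ kerSub (J := J) I φ t ℓ) →ₗ[R] (J ⧸ kerSub (J := J) I φ t ℓ) :=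
  Submodule.mapQ _ _ (DistribSMul.toLinearMap R J φ)
    (fun _ hy => smul_mem_kerSub I φ t ℓ hnorm hy)

theorem frobQ_mk (I : Subgroup G) (φ : G) (t : R) (ℓ : ℕ)
    (hnorm : ∀ σ ∈ I, φ * σ * φ⁻¹ ∈ I) (x : J) :
    frobQ I φ t ℓ hnorm (Submodule.Quotient.mk x) = Submodule.Quotient.mk (φ • x) := rfl

end Abstract

section Valuation

variable {K L : Type*} [Field K] [Field L] [Algebra K L]

theorem conj_mem_inertiaSubgroupIn (A : ValuationSubring L) {φ σ : L ≃ₐ[K] L}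
    (hφ : φ ∈ A.decompositionSubgroup K) (hσ : σ ∈ A.inertiaSubgroupIn K) :
    φ * σ * φ⁻¹ ∈ A.inertiaSubgroupIn K := by
  obtain ⟨s, hs, rfl⟩ := hσ
  refine ⟨(⟨φ, hφ⟩ : A.decompositionSubgroup K) * s * (⟨φ, hφ⟩ : A.decompositionSubgroup K)⁻¹,
    ?_, rfl⟩
  have hn : (A.inertiaSubgroup K).Normal := by
    unfold ValuationSubring.inertiaSubgroup
    infer_instance
  exact hn.conj_mem s hs _

theorem mul_inv_mem_inertiaSubgroupIn (A : ValuationSubring L) {φ σ : L ≃ₐ[K] L} {q : ℕ}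
    (hφ : A.IsFrobeniusAt φ q) (hσ : A.IsFrobeniusAt σ q) :
    σ * φ⁻¹ ∈ A.inertiaSubgroupIn K := by
  refine ⟨(⟨σ, hσ.mem_decompositionSubgroup⟩ : A.decompositionSubgroup K) *
    (⟨φ, hφ.mem_decompositionSubgroup⟩ : A.decompositionSubgroup K)⁻¹, ?_, rfl⟩
  show _ ∈ MonoidHom.ker _
  rw [MonoidHom.mem_ker]
  ext x
  show ((⟨σ, hσ.mem_decompositionSubgroup⟩ : A.decompositionSubgroup K) *
    (⟨φ, hφ.mem_decompositionSubgroup⟩ : A.decompositionSubgroup K)⁻¹) • x = x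
  have hx : x = (⟨φ, hφ.mem_decompositionSubgroup⟩ : A.decompositionSubgroup K) •
      ((⟨φ, hφ.mem_decompositionSubgroup⟩ : A.decompositionSubgroup K)⁻¹ • x) := by
    rw [smul_inv_smul]
  rw [mul_smul]
  conv_rhs => rw [hx]
  rw [hσ.smul_residue_eq, hφ.smul_residue_eq]

end Valuation

section Main

variable {K L : Type*} [Field K] [Field L] [Algebra K L]

/-- **Reduction of `SpecializationExists`**: it suffices to produce, for every good `ℓ` and every
`A` above `ℓ`, one Frobenius `φ` and an additive map `red` out of `J` which is invariant under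
inertia, kills `φ² - T_ℓ φ + ℓ`, and is injective on `p`-power torsion. -/
theorem specializationExists_of_red (N p : ℕ)
    (J : Type) [AddCommGroup J] [Module HeckeAlg J]
    [DistribMulAction (L ≃ₐ[K] L) J] [SMulCommClass (L ≃ₐ[K] L) HeckeAlg J]
    (H : ∀ ℓ : ℕ, (hℓ : ℓ.Prime) → ¬ ℓ ∣ N * p → ∀ A : ValuationSubring L, A.LiesOverPrime ℓ →
      ∃ φ : L ≃ₐ[K] L, A.IsFrobeniusAt φ ℓ ∧
        ∃ (M : Type) (_ : AddCommGroup M) (red : J →+ M),
          (∀ σ ∈ A.inertiaSubgroupIn K, ∀ x : J, red (σ • x) = red x) ∧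
          (∀ x : J, red (φ • φ • x - heckeGen ⟨ℓ, hℓ⟩ • (φ • x) + ℓ • x) = 0) ∧
          (∀ x : J, (∃ n : ℕ, p ^ n • x = 0) → red x = 0 → x = 0)) :
    SpecializationExists (K := K) (L := L) N p J := by
  intro ℓ hℓ hℓNp A hA
  obtain ⟨φ, hφ, M, _, red, h1, h2, h3⟩ := H ℓ hℓ hℓNp A hA
  have hnorm : ∀ σ ∈ A.inertiaSubgroupIn K, φ * σ * φ⁻¹ ∈ A.inertiaSubgroupIn K :=
    fun σ hσ => conj_mem_inertiaSubgroupIn A hφ.mem_decompositionSubgroup hσ
  set H0 : Submodule HeckeAlg J :=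
    kerSub (J := J) (A.inertiaSubgroupIn K) φ (heckeGen ⟨ℓ, hℓ⟩) ℓ with hH0
  have hmk0 : ∀ y : J, y ∈ H0 → (Submodule.Quotient.mk y : J ⧸ H0) = 0 := fun y hy =>
    (Submodule.Quotient.mk_eq_zero H0).mpr hy
  have hgen1 : ∀ σ ∈ A.inertiaSubgroupIn K, ∀ x : J, σ • x - x ∈ H0 := fun σ hσ x =>
    Submodule.subset_span (Or.inl ⟨σ, hσ, x, rfl⟩)
  have hgen2 : ∀ x : J, φ • φ • x - heckeGen ⟨ℓ, hℓ⟩ • (φ • x) + ℓ • x ∈ H0 := fun x =>
    Submodule.subset_span (Or.inr ⟨x, rfl⟩)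
  refine ⟨J ⧸ H0, inferInstance, inferInstance, (H0.mkQ : J →ₗ[HeckeAlg] J ⧸ H0).toAddMonoidHom,
    (frobQ (A.inertiaSubgroupIn K) φ (heckeGen ⟨ℓ, hℓ⟩) ℓ hnorm).toAddMonoidHom, ⟨?_, ?_, ?_, ?_⟩,
    ?_⟩
  · intro T x
    exact map_smul H0.mkQ T x
  · intro σ hσ x
    show (Submodule.Quotient.mk (σ • x) : J ⧸ H0) = Submodule.Quotient.mk x
    rw [← sub_eq_zero, ← Submodule.Quotient.mk_sub]
    exact hmk0 _ (hgen1 σ hσ x)
  · intro σ hσ x
    show (Submodule.Quotient.mk (σ • x) : J ⧸ H0) = Submodule.Quotient.mk (φ • x)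
    have hmem : σ * φ⁻¹ ∈ A.inertiaSubgroupIn K := mul_inv_mem_inertiaSubgroupIn A hφ hσ
    have hx : σ • x = (σ * φ⁻¹) • (φ • x) := by rw [mul_smul, inv_smul_smul]
    rw [hx, ← sub_eq_zero, ← Submodule.Quotient.mk_sub]
    exact hmk0 _ (hgen1 _ hmem (φ • x))
  · intro x hx hsp
    have hxH : x ∈ H0 := (Submodule.Quotient.mk_eq_zero H0).mp hsp
    exact h3 x hx (red_eq_zero_of_mem_kerSub _ φ _ ℓ red h1 h2 hxH)
  · intro y
    obtain ⟨x, rfl⟩ := Submodule.Quotient.mk_surjective H0 y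
    show (Submodule.Quotient.mk (φ • φ • x) : J ⧸ H0)
        - heckeGen ⟨ℓ, hℓ⟩ • (Submodule.Quotient.mk (φ • x) : J ⧸ H0)
        + ℓ • (Submodule.Quotient.mk x : J ⧸ H0) = 0
    rw [← Submodule.Quotient.mk_smul, ← Submodule.Quotient.mk_sub,
      ← Submodule.Quotient.mk_smul H0 (ℓ : ℕ) x, ← Submodule.Quotient.mk_add]
    exact hmk0 _ (hgen2 x)

end Main

end Fermat.Agent.S37.Reduce
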