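import Mathlib
import Fermat.Prelude.Def_ModularCurve_HeckeModule
import Fermat.Agent.S37.Reduce
import Fermat.Agent.Lib.FrobExists

/-!
# S37: the `J`-level local core, free of the Hecke-commutation hypothesis (owner: helper26)

Everything here is stated with the operator `heckeOperatorBar N ℓ` on `JZero N`; neither the
`HeckeAlg`-module structure `heckeModuleBar` nor `HeckeOperatorsCommuteBar` occurs.

* `LocalCore N p ℓ hℓ A` : there is an additive map `red` out of `JZero N` which is invariant under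
  the inertia group of `A`, kills `φ² - T_ℓ φ + ℓ` for every Frobenius `φ` at `A`, and is injective
  on `p`-power torsion.  (Provider: `S37/TopBridge`, with `red` = reduction modulo `A`.)
* `CoreStmt N p ℓ hℓ A`  : the consequence on `p`-power torsion: inertia acts trivially and the
  Eichler--Shimura relation `φ² - T_ℓ φ + ℓ = 0` holds.  (`CoreAll N p` : at all `ℓ ∤ N p`.)
* `coreStmt_of_localCore` : `LocalCore → CoreStmt`.
* `result_of_localCore`   : the frozen S37 conclusion from `LocalCore` at all `ℓ ∤ N p`.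
-/

set_option autoImplicit false

open ModularCurve

namespace Fermat.Agent.S37.Core

section Defs

variable (N p ℓ : ℕ) [NeZero N] (hℓ : ℓ.Prime) (A : ValuationSubring (AlgebraicClosure ℚ))

/-- The `J`-level local core: a map `red` out of `JZero N`, invariant under inertia, killing
`φ² - T_ℓ φ + ℓ` for every Frobenius `φ`, injective on `p`-power torsion. -/
def LocalCore : Prop :=
  ∃ (M : Type) (_ : AddCommGroup M) (red : JZero N →+ M),
    (∀ σ ∈ A.inertiaSubgroupIn ℚ, ∀ x : JZero N, red (σ • x) = red x) ∧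
    (∀ φ : AlgebraicClosure ℚ ≃ₐ[ℚ] AlgebraicClosure ℚ, A.IsFrobeniusAt φ ℓ → ∀ x : JZero N,
      red (φ • φ • x - heckeOperatorBar N ⟨ℓ, hℓ⟩ (φ • x) + ℓ • x) = 0) ∧
    (∀ x : JZero N, (∃ n : ℕ, p ^ n • x = 0) → red x = 0 → x = 0)

/-- The hcomm-free core on `p`-power torsion: inertia acts trivially and every Frobenius satisfies
the Eichler--Shimura relation. -/
def CoreStmt : Prop :=
  (∀ σ ∈ A.inertiaSubgroupIn ℚ, ∀ x : JZero N, (∃ n : ℕ, p ^ n • x = 0) → σ • x = x) ∧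
  (∀ φ : AlgebraicClosure ℚ ≃ₐ[ℚ] AlgebraicClosure ℚ, A.IsFrobeniusAt φ ℓ → ∀ x : JZero N,
    (∃ n : ℕ, p ^ n • x = 0) →
      φ • φ • x - heckeOperatorBar N ⟨ℓ, hℓ⟩ (φ • x) + ℓ • x = 0)

end Defs

/-- `LocalCore` at every good prime. -/
def LocalCoreAll (N p : ℕ) [NeZero N] : Prop :=
  ∀ ℓ : ℕ, (hℓ : ℓ.Prime) → ¬ ℓ ∣ N * p →
    ∀ A : ValuationSubring (AlgebraicClosure ℚ), A.LiesOverPrime ℓ → LocalCore N p ℓ hℓ A

/-- `CoreStmt` at every good prime. -/
def CoreAll (N p : ℕ) [NeZero N] : Prop :=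
  ∀ ℓ : ℕ, (hℓ : ℓ.Prime) → ¬ ℓ ∣ N * p →
    ∀ A : ValuationSubring (AlgebraicClosure ℚ), A.LiesOverPrime ℓ → CoreStmt N p ℓ hℓ A

theorem nsmul_smul_sub_eq_zero {G J : Type*} [Group G] [AddCommGroup J] [DistribMulAction G J]
    (σ : G) (m : ℕ) (x : J) (hx : m • x = 0) : m • (σ • x - x) = 0 := by
  rw [smul_sub, smul_comm m σ x, hx, smul_zero, sub_zero]

theorem nsmul_relation_eq_zero {G J : Type*} [Group G] [AddCommGroup J] [DistribMulAction G J]
    (T : Module.End ℤ J) (φ : G) (ℓ m : ℕ) (x : J) (hx : m • x = 0) :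
    m • (φ • φ • x - T (φ • x) + ℓ • x) = 0 := by
  have e1 : m • (φ • φ • x) = 0 := by
    rw [smul_comm m φ (φ • x), smul_comm m φ x, hx, smul_zero, smul_zero]
  have e2 : m • (T (φ • x)) = 0 := by
    rw [← map_nsmul, smul_comm m φ x, hx, smul_zero, map_zero]
  have e3 : m • (ℓ • x) = 0 := by
    rw [smul_comm m ℓ x, hx, smul_zero]
  rw [smul_add, smul_sub, e1, e2, e3, sub_zero, add_zero]

theorem coreStmt_of_localCore (N p ℓ : ℕ) [NeZero N] (hℓ : ℓ.Prime)
    (A : ValuationSubring (AlgebraicClosure ℚ)) (h : LocalCore N p ℓ hℓ A) :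
    CoreStmt N p ℓ hℓ A := by
  obtain ⟨M, _, red, h1, h2, h3⟩ := h
  refine ⟨fun σ hσ x hx => ?_, fun φ hφ x hx => ?_⟩
  · obtain ⟨n, hn⟩ := hx
    have h0 : σ • x - x = 0 := by
      refine h3 _ ⟨n, nsmul_smul_sub_eq_zero σ (p ^ n) x hn⟩ ?_
      rw [map_sub, h1 σ hσ, sub_self]
    exact sub_eq_zero.mp h0
  · obtain ⟨n, hn⟩ := hx
    exact h3 _ ⟨n, nsmul_relation_eq_zero (heckeOperatorBar N ⟨ℓ, hℓ⟩) φ ℓ (p ^ n) x hn⟩
      (h2 φ hφ x)

theorem coreAll_of_localCoreAll (N p : ℕ) [NeZero N] (h : LocalCoreAll N p) : CoreAll N p :=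
  fun ℓ hℓ hℓNp A hA => coreStmt_of_localCore N p ℓ hℓ A (h ℓ hℓ hℓNp A hA)

/-- **The frozen S37 conclusion from the local core.** -/
theorem result_of_localCore (N p : ℕ) [NeZero N] (hcomm : HeckeOperatorsCommuteBar N)
    (H : LocalCoreAll N p) :
    letI := heckeModuleBar N
    ∀ (_ : SMulCommClass (AlgebraicClosure ℚ ≃ₐ[ℚ] AlgebraicClosure ℚ) HeckeAlg (JZero N)),
      SpecializationExists (K := ℚ) (L := AlgebraicClosure ℚ) N p (JZero N) := by
  let _ := heckeModuleBar N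
  intro hsmul
  refine Reduce.specializationExists_of_red N p (JZero N) ?_
  intro ℓ hℓ hℓNp A hA
  obtain ⟨φ, hφ⟩ := Lib.FrobExists.exists_isFrobeniusAt A ℓ hℓ hA
  obtain ⟨M, _, red, h1, h2, h3⟩ := H ℓ hℓ hℓNp A hA
  refine ⟨φ, hφ, M, inferInstance, red, h1, fun x => ?_, h3⟩
  rw [heckeModuleBar_heckeGen_smul hcomm]
  exact h2 φ hφ x

end Fermat.Agent.S37.Core
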