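import Mathlib
import Fermat.Prelude.Def_ModularCurve_HeckeModule
import Fermat.Prelude.Def_ModularCurve_ReductionModL

/-!
# S37 definitions: the coefficientwise semilinear automorphisms of `F_k = k(j(q^d) : d ∣ N)`

For a ring automorphism `τ` of a field `k`, `coeffMap τ` preserves
`modularFunctionFieldFullC k N ⊆ k((q))` (its generators have coefficients in the prime ring), hence
gives a `SemilinearAut k F_k`, which acts on places, divisors and `JZeroC k N` by the Prelude.
-/

set_option autoImplicit false

open ModularCurve AlgebraicCurve HahnSeries IntermediateField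

namespace Fermat.Agent.S37.Defs

noncomputable section

variable (k : Type*) [Field k] (N : ℕ) [NeZero N]

omit [NeZero N] in
theorem coeffMap_mem_fullC (τ : k →+* k) {x : LaurentSeries k}
    (hx : x ∈ modularFunctionFieldFullC k N) : coeffMap τ x ∈ modularFunctionFieldFullC k N := by
  unfold modularFunctionFieldFullC at hx ⊢
  induction hx using IntermediateField.adjoin_induction with
  | mem x hx =>
    obtain ⟨d, hne, hd, rfl⟩ := hx
    have := hne
    rw [coeffMap_qExpand, ModularCurve.coeffMap_jqModC]
    exact subset_adjoin _ _ ⟨d, hne, hd, rfl⟩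
  | algebraMap c =>
    rw [coeffMap_algebraMap]
    exact IntermediateField.algebraMap_mem _ _
  | add x y _ _ hx hy => rw [map_add]; exact add_mem hx hy
  | inv x _ hx => rw [map_inv₀]; exact inv_mem hx
  | mul x y _ _ hx hy => rw [map_mul]; exact mul_mem hx hy

/-- coefficientwise action of `τ : k ≃+* k` on `F_k`. -/
def coeffRingAut (τ : k ≃+* k) :
    (modularFunctionFieldFullC k N) ≃+* (modularFunctionFieldFullC k N) where
  toFun x := ⟨coeffMap (τ : k →+* k) (x : LaurentSeries k), coeffMap_mem_fullC k N _ x.2⟩
  invFun x := ⟨coeffMap (τ.symm : k →+* k) (x : LaurentSeries k), coeffMap_mem_fullC k N _ x.2⟩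
  left_inv x := Subtype.ext <| by
    show coeffMap (τ.symm : k →+* k) (coeffMap (τ : k →+* k) (x : LaurentSeries k))
      = (x : LaurentSeries k)
    rw [coeffMap_coeffMap,
      coeffMap_congr (g := RingHom.id k) (RingHom.ext fun a => τ.symm_apply_apply a)
        (x : LaurentSeries k),
      coeffMap_id]
  right_inv x := Subtype.ext <| by
    show coeffMap (τ : k →+* k) (coeffMap (τ.symm : k →+* k) (x : LaurentSeries k))
      = (x : LaurentSeries k)
    rw [coeffMap_coeffMap,
      coeffMap_congr (g := RingHom.id k) (RingHom.ext fun a => τ.apply_symm_apply a)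
        (x : LaurentSeries k),
      coeffMap_id]
  map_mul' x y :=
    Subtype.ext (map_mul (coeffMap (τ : k →+* k)) (x : LaurentSeries k) (y : LaurentSeries k))
  map_add' x y :=
    Subtype.ext (map_add (coeffMap (τ : k →+* k)) (x : LaurentSeries k) (y : LaurentSeries k))

@[simp]
theorem coe_coeffRingAut_apply (τ : k ≃+* k) (x : modularFunctionFieldFullC k N) :
    (coeffRingAut k N τ x : LaurentSeries k) = coeffMap (τ : k →+* k) (x : LaurentSeries k) :=
  rfl

theorem coeffRingAut_algebraMap (τ : k ≃+* k) (a : k) :
    coeffRingAut k N τ (algebraMap k (modularFunctionFieldFullC k N) a)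
      = algebraMap k (modularFunctionFieldFullC k N) (τ a) :=
  Subtype.ext (coeffMap_algebraMap (τ : k →+* k) a)

/-- the semilinear automorphism of `F_k` over `k` given by `τ` on coefficients. -/
def coeffAut : (k ≃+* k) →* SemilinearAut k (modularFunctionFieldFullC k N) where
  toFun τ := ⟨(coeffRingAut k N τ, τ), fun a => coeffRingAut_algebraMap k N τ a⟩
  map_one' := by
    refine Subtype.ext (Prod.ext (RingEquiv.ext fun x => Subtype.ext ?_) rfl)
    show coeffMap (((1 : k ≃+* k)) : k →+* k) (x : LaurentSeries k) = (x : LaurentSeries k)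
    rw [show (((1 : k ≃+* k)) : k →+* k) = RingHom.id k from RingHom.ext fun _ => rfl,
      coeffMap_id]
  map_mul' σ τ := by
    refine Subtype.ext (Prod.ext (RingEquiv.ext fun x => Subtype.ext ?_) rfl)
    show coeffMap ((σ * τ : k ≃+* k) : k →+* k) (x : LaurentSeries k)
      = coeffMap (σ : k →+* k) (coeffMap (τ : k →+* k) (x : LaurentSeries k))
    rw [coeffMap_coeffMap]
    exact coeffMap_congr (RingHom.ext fun _ => rfl) _

theorem coe_coeffAut_smul (τ : k ≃+* k) (x : modularFunctionFieldFullC k N) :
    ((coeffAut k N τ • x : modularFunctionFieldFullC k N) : LaurentSeries k)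
      = coeffMap (τ : k →+* k) (x : LaurentSeries k) :=
  rfl

end

end Fermat.Agent.S37.Defs
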