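import Mathlib
import Fermat.Agent.S18.Plan
import Fermat.Agent.S28.Defs
import Fermat.Agent.S37.Defs

/-!
# S37 plan, second level: the contracts of the place-reduction design (owner: helper26)

Vocabulary of `S18/Plan.lean`: `Kbar = Q̄`, `FN N = F_N ⊂ Om = Q̄((q))`, `kk A = k`,
`Fk A N = F_{N,k} ⊂ Omk A = k((q))`, `Ocal A` (content valuation ring), `red A : Ocal A →+* k((q))`.

The place map `r` is never constructed by a consumer: it is pinned down by the *evaluation
property* `Eval A N r` (`ȳ(r P) = y(P) mod 𝔪_A` for `y` in the chart ring of `P`), and every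
package proves its statement for **every** `r` with `Eval A N r`.

* places of finite type `FinPl` (`j(P) ∈ A`) use the chart ring `IsChartFin` (elements of
  `F_N ∩ Ocal` regular at all finite-type places); the other places use `IsChartInf`;
* `RMap`  : such an `r` exists;               `Uniq` : it is unique;     `Sep` : separation;
* `Loc`   : `Eval r → IsPlaceReductionModL A N r`;        `Gen` : `PrincipalGeneratedByIntegral`;
* `Gal`   : `Eval r → r (σ P) = σ̄ (r P)` for `σ` in the decomposition group;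
* `ES`    : `Eval r → r_*(T_ℓ P) = τ(r P) + ℓ · τ⁻¹(r P)` (`τ` = Frobenius);
* `Conj`  : the characteristic polynomial of `α u` over `β F_N` in `q`-expansion form
            (characteristic zero, independent of S18);
* `Kron`  : its coefficients lie in `Ocal` and reduce to those of `(X - ū(q^ℓ)) (X^ℓ - τ ū)`.
-/

set_option autoImplicit false

noncomputable section

namespace Fermat.Agent.S37.Plan2

open ModularCurve AlgebraicCurve Fermat.Agent.S24 Fermat.Agent.S18.Content Fermat.Agent.S18.Plan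

set_option synthInstance.maxHeartbeats 400000
set_option maxHeartbeats 3200000

variable (A : ValuationSubring Kbar) (N : ℕ) [NeZero N]

/-! ## Charts and the evaluation property -/

/-- A place of `F_N` is of finite type if `j(P) ∈ A`, i.e. `j - a ∈ 𝔪_P` for some `a ∈ A`. -/
def FinPl (P : Place Kbar (FN N)) : Prop :=
  ∃ a : A, jBar N - algebraMap Kbar (FN N) (a : Kbar) ∈ P.toValuationSubring.nonunits

/-- Chart ring of the finite-type places: `F_N ∩ Ocal`, regular at every finite-type place. -/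
def IsChartFin (y : FN N) : Prop :=
  (y : Om) ∈ Ocal A ∧ ∀ P : Place Kbar (FN N), FinPl A N P → y ∈ P.toValuationSubring

/-- Chart ring of the other places: `F_N ∩ Ocal`, regular at every place not of finite type. -/
def IsChartInf (y : FN N) : Prop :=
  (y : Om) ∈ Ocal A ∧ ∀ P : Place Kbar (FN N), ¬ FinPl A N P → y ∈ P.toValuationSubring

/-- `y` belongs to the chart ring of the type of `P`. -/
def IsChart (P : Place Kbar (FN N)) (y : FN N) : Prop :=
  (FinPl A N P ∧ IsChartFin A N y) ∨ (¬ FinPl A N P ∧ IsChartInf A N y)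

/-- `j̄` as an element of `F_{N,k}`. -/
def jkEl : Fk A N := ⟨jqModC (kk A), jqModC_mem_full (kk A) N⟩

/-- A place of `F_{N,k}` is of finite type if `j̄` is regular at it. -/
def FinPlk (Q : Place (kk A) (Fk A N)) : Prop := jkEl A N ∈ Q.toValuationSubring

/-- **The evaluation property** `(χ)`: for `y` in the chart ring of `P` vanishing at `P`, the
reduction `ȳ` lies in `F_{N,k}` and vanishes at `r P`. -/
def Eval (r : Place Kbar (FN N) → Place (kk A) (Fk A N)) : Prop :=
  ∀ (P : Place Kbar (FN N)) (y : FN N) (hy : (y : Om) ∈ Ocal A), IsChart A N P y →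
    y ∈ P.toValuationSubring.nonunits →
    ∃ hk : red A ⟨(y : Om), hy⟩ ∈ Fk A N,
      (⟨red A ⟨(y : Om), hy⟩, hk⟩ : Fk A N) ∈ (r P).toValuationSubring.nonunits

/-! ## Contracts on the place map -/

/-- **[RMAP]** a place map with the evaluation property exists. -/
def RMap : Prop := ∃ r : Place Kbar (FN N) → Place (kk A) (Fk A N), Eval A N r

/-- **[UNIQ]** it is unique. -/
def Uniq : Prop :=
  ∀ r r' : Place Kbar (FN N) → Place (kk A) (Fk A N), Eval A N r → Eval A N r' → r = r'

/-- **[SEP]** reductions of chart elements separate finitely many places of `F_{N,k}` of the same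
type: there is `y` in the chart ring such that `ȳ` takes pairwise distinct values on them. -/
def Sep : Prop :=
  ∀ S : Finset (Place (kk A) (Fk A N)),
    ((∀ Q ∈ S, FinPlk A N Q) →
      ∃ (y : FN N) (hy : (y : Om) ∈ Ocal A) (hk : red A ⟨(y : Om), hy⟩ ∈ Fk A N),
        IsChartFin A N y ∧ (∀ Q ∈ S, (⟨_, hk⟩ : Fk A N) ∈ Q.toValuationSubring) ∧
        ∀ Q ∈ S, ∀ Q' ∈ S, Q ≠ Q' → ∀ a : kk A,
          ¬ (((⟨_, hk⟩ : Fk A N) - algebraMap (kk A) (Fk A N) a ∈ Q.toValuationSubring.nonunits) ∧
            ((⟨_, hk⟩ : Fk A N) - algebraMap (kk A) (Fk A N) a ∈ Q'.toValuationSubring.nonunits))) ∧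
    ((∀ Q ∈ S, ¬ FinPlk A N Q) →
      ∃ (y : FN N) (hy : (y : Om) ∈ Ocal A) (hk : red A ⟨(y : Om), hy⟩ ∈ Fk A N),
        IsChartInf A N y ∧ (∀ Q ∈ S, (⟨_, hk⟩ : Fk A N) ∈ Q.toValuationSubring) ∧
        ∀ Q ∈ S, ∀ Q' ∈ S, Q ≠ Q' → ∀ a : kk A,
          ¬ (((⟨_, hk⟩ : Fk A N) - algebraMap (kk A) (Fk A N) a ∈ Q.toValuationSubring.nonunits) ∧
            ((⟨_, hk⟩ : Fk A N) - algebraMap (kk A) (Fk A N) a ∈ Q'.toValuationSubring.nonunits)))

/-- **[TYPE]** the type of a place is preserved: `r P` is of finite type iff `P` is. -/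
def TypePres : Prop :=
  ∀ r : Place Kbar (FN N) → Place (kk A) (Fk A N), Eval A N r →
    ∀ P : Place Kbar (FN N), FinPlk A N (r P) ↔ FinPl A N P

/-- **[LOC]** the evaluation property implies the Prelude's place-reduction axioms. -/
def Loc : Prop :=
  ∀ r : Place Kbar (FN N) → Place (kk A) (Fk A N), Eval A N r → IsPlaceReductionModL A N r

/-- **[GEN]** principal divisors are generated by integral principal divisors. -/
def Gen : Prop := PrincipalGeneratedByIntegral A (IsLocalRing.residue A) N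

/-- **[GAL]** the place map commutes with the decomposition group. -/
def Gal : Prop :=
  ∀ r : Place Kbar (FN N) → Place (kk A) (Fk A N), Eval A N r →
    ∀ (σ : A.decompositionSubgroup ℚ) (P : Place Kbar (FN N)),
      r (arithmeticGalois (modularFunctionFieldFull N) (σ : Kbar ≃ₐ[ℚ] Kbar) • P) =
        Defs.coeffAut (kk A) N
            (MulSemiringAction.toRingAut (A.decompositionSubgroup ℚ) (kk A) σ) • r P

/-- **[ES]** Eichler--Shimura on places. -/
def ES (ℓ : ℕ) [NeZero ℓ] : Prop :=
  ∀ r : Place Kbar (FN N) → Place (kk A) (Fk A N), Eval A N r →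
    ∀ (hα : HeckeAlphaBarIntegral Kbar N ℓ) (hβ : HeckeBetaBarIntegral Kbar N ℓ)
      [HasPrincipalDivisors Kbar (laurentBaseChange Kbar (modularFunctionFieldFull (N * ℓ)))]
      (τ : kk A ≃+* kk A), (∀ x, τ x = x ^ ℓ) →
      ∀ P : Place Kbar (FN N),
        Finsupp.mapDomain r (heckeDivBar hα hβ (Finsupp.single P 1)) =
          Finsupp.single (Defs.coeffAut (kk A) N τ • r P) 1 +
            Finsupp.single ((Defs.coeffAut (kk A) N τ)⁻¹ • r P) (ℓ : ℤ)

/-! ## Contracts on the Hecke correspondence (independent of S18) -/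

/-- **[CONJ]** (characteristic zero).  View `F_{Nℓ}` as an extension of `F_N` through
`β : f(q) ↦ f(q^ℓ)`.  For `u ∈ F_N`, the characteristic polynomial of `α u = u(q)` over `β F_N`,
with its coefficients expanded through `β` (i.e. `c ↦ c(q^ℓ)`), is
`(X - u(q^(ℓ²))) · ∏_{b < ℓ} (X - u(ζ^b q))`, `ζ` a primitive `ℓ`-th root of unity. -/
def Conj (ℓ : ℕ) [NeZero ℓ] : Prop :=
  ∀ hfin : FiniteAlong Kbar (heckeBetaBar Kbar N ℓ),
    ∀ ζ : Kbarˣ, IsPrimitiveRoot ζ ℓ → ∀ u : FN N,
      letI := algebraAlong (heckeBetaBar Kbar N ℓ)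
      haveI : Module.Finite (FN N) (FN (N * ℓ)) := hfin
      (LinearMap.charpoly (LinearMap.mulLeft (FN N) (heckeAlphaBar Kbar N ℓ u))).map
          ((qExpand Kbar ℓ).comp (algebraMap (FN N) Om)) =
        (Polynomial.X - Polynomial.C (qExpand Kbar (ℓ ^ 2) (u : Om))) *
          ∏ b ∈ Finset.range ℓ,
            (Polynomial.X - Polynomial.C (Fermat.Agent.S28.scale (ζ ^ b) (u : Om)))

/-- **[KRON]** Kronecker congruence for the characteristic polynomial of `α u` over `β F_N`:
for `u ∈ F_N ∩ Ocal` its coefficients lie in `Ocal` and reduce to the coefficients of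
`(X - ū(q^ℓ)) · (X^ℓ - τ ū)`, `τ` the coefficientwise Frobenius. -/
def Kron (ℓ : ℕ) [NeZero ℓ] : Prop :=
  ∀ hfin : FiniteAlong Kbar (heckeBetaBar Kbar N ℓ),
    ∀ (τ : kk A ≃+* kk A), (∀ x, τ x = x ^ ℓ) →
    ∀ (u : FN N) (hu : (u : Om) ∈ Ocal A),
      letI := algebraAlong (heckeBetaBar Kbar N ℓ)
      haveI : Module.Finite (FN N) (FN (N * ℓ)) := hfin
      ∀ i : ℕ, ∃ hc : (((LinearMap.charpoly
          (LinearMap.mulLeft (FN N) (heckeAlphaBar Kbar N ℓ u))).coeff i : FN N) : Om) ∈ Ocal A,
        red A ⟨_, hc⟩ =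
          ((Polynomial.X - Polynomial.C (qExpand (kk A) ℓ (red A ⟨(u : Om), hu⟩))) *
            (Polynomial.X ^ ℓ -
              Polynomial.C (coeffMap (τ : kk A →+* kk A) (red A ⟨(u : Om), hu⟩)))).coeff i

/-- **[CHARTHECKE]** chart compatibility of the two degeneracy maps: a place `W` of `F_{Nℓ}`
restricts to a finite-type place along `α` iff it does along `β`. -/
def ChartHecke (ℓ : ℕ) [NeZero ℓ] : Prop :=
  ∀ (hα : HeckeAlphaBarIntegral Kbar N ℓ) (hβ : HeckeBetaBarIntegral Kbar N ℓ)
    (W : Place Kbar (FN (N * ℓ))),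
    FinPl A N (W.restrictAlong (heckeAlphaBar Kbar N ℓ) hα) ↔
      FinPl A N (W.restrictAlong (heckeBetaBar Kbar N ℓ) hβ)

end Fermat.Agent.S37.Plan2

end
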