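import Mathlib
import Fermat.Agent.S37.Plan2
import Fermat.Agent.S37.HeckeInputs

/-!
# S37 — the formal layer of `Plan2.Eval` (helper94)

Everything in this file follows from the evaluation property `Plan2.Eval A N r` by bookkeeping:

* `eval_value` : for a chart element `y` at `P` with value `b` at `P` (i.e. `y - b ∈ 𝔪_P`), the
  value `b` lies in `A`, the reduction `ȳ` lies in `F_{N,k}` and `ȳ - b̄ ∈ 𝔪_{r P}`;
* `typePres : Plan2.TypePres A N` (unconditional);
* `uniq_of_sep : Plan2.Sep A N → Plan2.Uniq A N`.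
-/

set_option autoImplicit false

noncomputable section

namespace Fermat.Agent.S37.EvalBasic

open ModularCurve AlgebraicCurve Fermat.Agent.S24 Fermat.Agent.S18.Content Fermat.Agent.S18.Plan
  Fermat.Agent.S37.Plan2

set_option synthInstance.maxHeartbeats 400000
set_option maxHeartbeats 1600000

/-! ### Generic lemmas on valuation subrings and places -/

section Generic

variable {F : Type*} [Field F] (B : ValuationSubring F)

theorem mul_mem_nonunits {a m : F} (ha : a ∈ B) (hm : m ∈ B.nonunits) : a * m ∈ B.nonunits := by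
  rw [ValuationSubring.mem_nonunits_iff] at hm ⊢
  rw [map_mul]
  exact mul_lt_one_of_nonneg_of_lt_one_right ((B.valuation_le_one_iff a).mpr ha) zero_le hm

theorem one_notMem_nonunits : (1 : F) ∉ B.nonunits := by
  rw [ValuationSubring.mem_nonunits_iff, map_one]
  exact lt_irrefl _

theorem notMem_of_inv_mem_nonunits {x : F} (hx : x ≠ 0) (h : x⁻¹ ∈ B.nonunits) : x ∉ B := by
  intro hxB
  have := mul_mem_nonunits B hxB h
  rw [mul_inv_cancel₀ hx] at this
  exact one_notMem_nonunits B this

theorem inv_mem_nonunits_of_notMem {x : F} (h : x ∉ B) : x⁻¹ ∈ B.nonunits :=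
  B.inv_mem_nonunits_iff.mpr (Or.inr h)

end Generic

section PlaceGeneric

variable {K F : Type*} [Field K] [Field F] [Algebra K F] (v : Place K F)

theorem mem_of_sub_mem_nonunits {f : F} {a : K}
    (h : f - algebraMap K F a ∈ v.toValuationSubring.nonunits) : f ∈ v.toValuationSubring := by
  have := v.toValuationSubring.add_mem _ _ (ValuationSubring.nonunits_subset h)
    (v.algebraMap_mem' a)
  simpa using this

theorem algebraMap_mem_nonunits_iff (a : K) :
    algebraMap K F a ∈ v.toValuationSubring.nonunits ↔ a = 0 := by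
  constructor
  · intro h
    by_contra ha
    have h1 := mul_mem_nonunits v.toValuationSubring (v.algebraMap_mem' a⁻¹) h
    rw [← map_mul, inv_mul_cancel₀ ha, map_one] at h1
    exact one_notMem_nonunits _ h1
  · rintro rfl
    rw [map_zero]
    exact v.toValuationSubring.nonunits.zero_mem

/-- The value of a function at a place is unique. -/
theorem value_unique {f : F} {a b : K}
    (ha : f - algebraMap K F a ∈ v.toValuationSubring.nonunits)
    (hb : f - algebraMap K F b ∈ v.toValuationSubring.nonunits) : a = b := by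
  have h := v.toValuationSubring.nonunits.sub_mem hb ha
  have e : f - algebraMap K F b - (f - algebraMap K F a) = algebraMap K F (a - b) := by
    rw [map_sub]; ring
  rw [e, algebraMap_mem_nonunits_iff] at h
  exact sub_eq_zero.mp h

end PlaceGeneric

/-! ### Values at places of `F_N` -/

variable (A : ValuationSubring Kbar) (N : ℕ) [NeZero N]

/-- The residue field of every place of `F_N` is `Q̄`. -/
theorem exists_value (P : Place Kbar (FN N)) {y : FN N} (hy : y ∈ P.toValuationSubring) :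
    ∃ b : Kbar, y - algebraMap Kbar (FN N) b ∈ P.toValuationSubring.nonunits := by
  have : IsFF1 Kbar (FN N) := HeckeInputs.isFF1_FN N
  obtain ⟨b, hb⟩ := Lib.PlaceChart.exists_sub_mem_maximalIdeal
    (IsFF1.exists_gen (K := Kbar) (F := FN N)) P ⟨y, hy⟩
  exact ⟨b, ValuationSubring.coe_mem_nonunits_iff.mpr hb⟩

omit [NeZero N] in
theorem coe_algebraMap_FN (a : Kbar) :
    ((algebraMap Kbar (FN N) a : FN N) : Om) = HahnSeries.C a := by
  rw [← algebraMap_LS_eq_C]
  rfl

omit [NeZero N] in
theorem coe_algebraMap_Fk (a : kk A) :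
    ((algebraMap (kk A) (Fk A N) a : Fk A N) : Omk A) = HahnSeries.C a := by
  rw [← algebraMap_LS_eq_C]
  rfl

/-! ### `j` in `Ocal` -/

theorem coe_jBar : ((jBar N : FN N) : Om) = iota A (jqModC A) := by
  show coeffEmb Kbar jq = iota A (jqModC A)
  rw [iota, coeffMap_jqModC, coeffEmb, ← jqModC_rat, coeffMap_jqModC]

theorem jBar_mem_Ocal : ((jBar N : FN N) : Om) ∈ Ocal A := by
  rw [coe_jBar A N]
  exact iota_mem_Ocal A _

theorem red_jBar : red A ⟨((jBar N : FN N) : Om), jBar_mem_Ocal A N⟩ = jqModC (kk A) := by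
  rw [red_congr A (coe_jBar A N) _ (iota_mem_Ocal A _), red_iota]
  exact coeffMap_jqModC _

omit A in
theorem jBar_ne_zero : jBar N ≠ 0 := by
  intro h
  have h1 : coeffEmb Kbar jq = 0 := congrArg Subtype.val h
  rw [map_eq_zero, ← jqModC_rat] at h1
  exact jqModC_ne_zero_of_nontrivial ℚ h1

theorem inv_jBar_mem_Ocal : (((jBar N)⁻¹ : FN N) : Om) ∈ Ocal A := by
  have h := inv_mem_Ocal A ⟨((jBar N : FN N) : Om), jBar_mem_Ocal A N⟩
    (by rw [red_jBar]; exact jqModC_ne_zero_of_nontrivial (kk A))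
  exact h

theorem red_inv_jBar :
    red A ⟨(((jBar N)⁻¹ : FN N) : Om), inv_jBar_mem_Ocal A N⟩ = (jqModC (kk A))⁻¹ := by
  have h := red_inv A ⟨((jBar N : FN N) : Om), jBar_mem_Ocal A N⟩
    (by rw [red_jBar]; exact jqModC_ne_zero_of_nontrivial (kk A))
  exact (red_congr A rfl _ _).trans (h.trans (congrArg _ (red_jBar A N)))

/-! ### Charts -/

/-- The chart ring of `P` consists of the elements of `F_N ∩ Ocal` regular at every place of the
same type as `P`. -/
theorem isChart_iff (P : Place Kbar (FN N)) (y : FN N) :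
    IsChart A N P y ↔ (y : Om) ∈ Ocal A ∧
      ∀ P' : Place Kbar (FN N), (FinPl A N P' ↔ FinPl A N P) → y ∈ P'.toValuationSubring := by
  unfold IsChart IsChartFin IsChartInf
  by_cases h : FinPl A N P
  · simp only [h, true_and, not_true_eq_false, false_and, or_false, iff_true]
  · simp only [h, false_and, not_false_eq_true, true_and, false_or, iff_false]

variable {A N}

theorem isChart_mem_Ocal {P : Place Kbar (FN N)} {y : FN N} (h : IsChart A N P y) :
    (y : Om) ∈ Ocal A := ((isChart_iff A N P y).mp h).1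

theorem isChart_mem {P : Place Kbar (FN N)} {y : FN N} (h : IsChart A N P y) :
    y ∈ P.toValuationSubring := ((isChart_iff A N P y).mp h).2 P Iff.rfl

theorem isChart_mem_of_type {P P' : Place Kbar (FN N)} {y : FN N} (h : IsChart A N P y)
    (hP' : FinPl A N P' ↔ FinPl A N P) : y ∈ P'.toValuationSubring :=
  ((isChart_iff A N P y).mp h).2 P' hP'

theorem isChart_of_type {P P' : Place Kbar (FN N)} {y : FN N} (h : IsChart A N P y)
    (hP' : FinPl A N P' ↔ FinPl A N P) : IsChart A N P' y := by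
  rw [isChart_iff] at h ⊢
  exact ⟨h.1, fun P'' h'' => h.2 P'' (h''.trans hP')⟩

theorem isChart_algebraMap (P : Place Kbar (FN N)) {b : Kbar} (hb : b ∈ A) :
    IsChart A N P (algebraMap Kbar (FN N) b) := by
  rw [isChart_iff]
  refine ⟨?_, fun P' _ => P'.algebraMap_mem' b⟩
  rw [coe_algebraMap_FN]
  exact C_mem_Ocal A hb

theorem isChart_sub {P : Place Kbar (FN N)} {y z : FN N} (hy : IsChart A N P y)
    (hz : IsChart A N P z) : IsChart A N P (y - z) := by
  rw [isChart_iff] at hy hz ⊢
  exact ⟨(Ocal A).sub_mem hy.1 hz.1, fun P' h' => sub_mem (hy.2 P' h') (hz.2 P' h')⟩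

theorem isChart_mul {P : Place Kbar (FN N)} {y z : FN N} (hy : IsChart A N P y)
    (hz : IsChart A N P z) : IsChart A N P (y * z) := by
  rw [isChart_iff] at hy hz ⊢
  exact ⟨(Ocal A).mul_mem hy.1 hz.1, fun P' h' => mul_mem (hy.2 P' h') (hz.2 P' h')⟩

theorem isChart_one (P : Place Kbar (FN N)) : IsChart A N P (1 : FN N) := by
  rw [isChart_iff]
  exact ⟨(Ocal A).one_mem, fun P' _ => one_mem _⟩

/-! ### The evaluation property for arbitrary values -/

/-- **Evaluation property, value form.**  If `y` is a chart element at `P` with value `b` at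
`P`, then `b ∈ A`, the reduction `ȳ` lies in `F_{N,k}`, and `ȳ` has value `b̄` at `r P`. -/
theorem eval_value {r : Place Kbar (FN N) → Place (kk A) (Fk A N)} (hr : Eval A N r)
    (P : Place Kbar (FN N)) (y : FN N) (hy : (y : Om) ∈ Ocal A) (hch : IsChart A N P y)
    (b : Kbar) (hb : y - algebraMap Kbar (FN N) b ∈ P.toValuationSubring.nonunits) :
    ∃ (hbA : b ∈ A) (hk : red A ⟨(y : Om), hy⟩ ∈ Fk A N),
      (⟨red A ⟨(y : Om), hy⟩, hk⟩ : Fk A N) -
          algebraMap (kk A) (Fk A N) (IsLocalRing.residue A ⟨b, hbA⟩) ∈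
        (r P).toValuationSubring.nonunits := by
  have hbA : b ∈ A := by
    by_contra hbA
    have hb0 : b ≠ 0 := fun h => hbA (h ▸ A.zero_mem)
    have hc : b⁻¹ ∈ A.nonunits := inv_mem_nonunits_of_notMem A hbA
    have hcA : b⁻¹ ∈ A := ValuationSubring.nonunits_subset hc
    have hres : IsLocalRing.residue A ⟨b⁻¹, hcA⟩ = 0 := by
      rw [IsLocalRing.residue_eq_zero_iff]
      exact ValuationSubring.coe_mem_nonunits_iff.mp hc
    set y' : FN N := algebraMap Kbar (FN N) b⁻¹ * y - 1 with hy'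
    have hy'O : (y' : Om) ∈ Ocal A := by
      have : (y' : Om) = HahnSeries.C b⁻¹ * (y : Om) - 1 := by
        rw [← coe_algebraMap_FN N]; rfl
      rw [this]
      exact (Ocal A).sub_mem ((Ocal A).mul_mem (C_mem_Ocal A hcA) hy) (Ocal A).one_mem
    have hch' : IsChart A N P y' := isChart_sub (isChart_mul (isChart_algebraMap P hcA) hch) (isChart_one P)
    have hmem : y' ∈ P.toValuationSubring.nonunits := by
      have e : y' = algebraMap Kbar (FN N) b⁻¹ * (y - algebraMap Kbar (FN N) b) := by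
        rw [hy', mul_sub, ← map_mul, inv_mul_cancel₀ hb0, map_one]
      rw [e]
      exact mul_mem_nonunits _ (P.algebraMap_mem' _) hb
    obtain ⟨hk', hmem'⟩ := hr P y' hy'O hch' hmem
    have hred : red A ⟨(y' : Om), hy'O⟩ = -1 := by
      have e : (⟨(y' : Om), hy'O⟩ : Ocal A) = constO A ⟨b⁻¹, hcA⟩ * ⟨(y : Om), hy⟩ - 1 := by
        apply Subtype.ext
        show (y' : Om) = ((constO A ⟨b⁻¹, hcA⟩ : Ocal A) : Om) * (y : Om) - 1
        rw [coe_constO, ← coe_algebraMap_FN N]; rfl
      rw [e, map_sub, map_mul, red_constO, hres, map_one, map_zero, zero_mul, zero_sub]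
    have h1 : (⟨red A ⟨(y' : Om), hy'O⟩, hk'⟩ : Fk A N) = -1 := Subtype.ext hred
    rw [h1] at hmem'
    have h2 := (r P).toValuationSubring.nonunits.neg_mem hmem'
    rw [neg_neg] at h2
    exact one_notMem_nonunits _ h2
  refine ⟨hbA, ?_⟩
  set y' : FN N := y - algebraMap Kbar (FN N) b with hy'
  have hy'O : (y' : Om) ∈ Ocal A := by
    have : (y' : Om) = (y : Om) - HahnSeries.C b := by
      rw [← coe_algebraMap_FN N]; rfl
    rw [this]
    exact (Ocal A).sub_mem hy (C_mem_Ocal A hbA)
  have hch' : IsChart A N P y' := isChart_sub hch (isChart_algebraMap P hbA)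
  obtain ⟨hk', hmem'⟩ := hr P y' hy'O hch' hb
  have hred : red A ⟨(y' : Om), hy'O⟩ =
      red A ⟨(y : Om), hy⟩ - HahnSeries.C (IsLocalRing.residue A ⟨b, hbA⟩) := by
    have e : (⟨(y' : Om), hy'O⟩ : Ocal A) = ⟨(y : Om), hy⟩ - constO A ⟨b, hbA⟩ := by
      apply Subtype.ext
      show (y' : Om) = (y : Om) - ((constO A ⟨b, hbA⟩ : Ocal A) : Om)
      rw [coe_constO, ← coe_algebraMap_FN N]; rfl
    rw [e, map_sub, red_constO]
  have hk : red A ⟨(y : Om), hy⟩ ∈ Fk A N := by
    have h1 : red A ⟨(y : Om), hy⟩ =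
        red A ⟨(y' : Om), hy'O⟩ + HahnSeries.C (IsLocalRing.residue A ⟨b, hbA⟩) := by
      rw [hred]; ring
    rw [h1]
    refine add_mem hk' ?_
    rw [← coe_algebraMap_Fk A N]
    exact SetLike.coe_mem _
  refine ⟨hk, ?_⟩
  have e : (⟨red A ⟨(y : Om), hy⟩, hk⟩ : Fk A N) -
      algebraMap (kk A) (Fk A N) (IsLocalRing.residue A ⟨b, hbA⟩) =
        ⟨red A ⟨(y' : Om), hy'O⟩, hk'⟩ := by
    apply Subtype.ext
    show red A ⟨(y : Om), hy⟩ -
      ((algebraMap (kk A) (Fk A N) (IsLocalRing.residue A ⟨b, hbA⟩) : Fk A N) : Omk A) = _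
    rw [coe_algebraMap_Fk]
    exact hred.symm
  rw [e]
  exact hmem'

/-! ### Type preservation -/

variable (A N)

omit [NeZero N] in
theorem jkEl_ne_zero : jkEl A N ≠ 0 := by
  intro h
  exact jqModC_ne_zero_of_nontrivial (kk A) (congrArg Subtype.val h)

/-- `j` is a chart element at the places of finite type. -/
theorem isChart_jBar (P : Place Kbar (FN N)) (hP : FinPl A N P) : IsChart A N P (jBar N) := by
  rw [isChart_iff]
  refine ⟨jBar_mem_Ocal A N, fun P' h' => ?_⟩
  obtain ⟨a, ha⟩ := h'.mpr hP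
  exact mem_of_sub_mem_nonunits P' ha

/-- `1/j` is a chart element at the other places. -/
theorem isChart_inv_jBar (P : Place Kbar (FN N)) (hP : ¬ FinPl A N P) :
    IsChart A N P (jBar N)⁻¹ := by
  rw [isChart_iff]
  refine ⟨inv_jBar_mem_Ocal A N, fun P' h' => ?_⟩
  by_contra hmem
  have h1 : jBar N ∈ P'.toValuationSubring.nonunits := by
    have := inv_mem_nonunits_of_notMem _ hmem
    rwa [inv_inv] at this
  refine hP (h'.mp ⟨0, ?_⟩)
  simpa only [ZeroMemClass.coe_zero, map_zero, sub_zero] using h1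

/-- **[TYPE]** the type of a place is preserved by every place map with the evaluation
property. -/
theorem typePres : TypePres A N := by
  intro r hr P
  constructor
  · intro hQ
    by_contra hP
    obtain ⟨b, hbm, hb⟩ : ∃ b : Kbar, b ∈ A.nonunits ∧
        (jBar N)⁻¹ - algebraMap Kbar (FN N) b ∈ P.toValuationSubring.nonunits := by
      by_cases hj : jBar N ∈ P.toValuationSubring
      · obtain ⟨a, ha⟩ := exists_value N P hj
        have haA : a ∉ A := fun h => hP ⟨⟨a, h⟩, ha⟩
        have ha0 : a ≠ 0 := fun h => haA (h ▸ A.zero_mem)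
        refine ⟨a⁻¹, inv_mem_nonunits_of_notMem A haA, ?_⟩
        have hjinv : (jBar N)⁻¹ ∈ P.toValuationSubring := by
          by_contra h
          have h1 := inv_mem_nonunits_of_notMem _ h
          rw [inv_inv] at h1
          have h2 := P.toValuationSubring.nonunits.sub_mem h1 ha
          rw [sub_sub_cancel, algebraMap_mem_nonunits_iff] at h2
          exact ha0 h2
        have e : (jBar N)⁻¹ - algebraMap Kbar (FN N) a⁻¹ =
            (algebraMap Kbar (FN N) a⁻¹ * (jBar N)⁻¹) *
              (-(jBar N - algebraMap Kbar (FN N) a)) := by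
          have hj0 := jBar_ne_zero N
          have ha0' : algebraMap Kbar (FN N) a ≠ 0 := by
            rwa [Ne, map_eq_zero]
          rw [map_inv₀]
          field_simp
          ring
        rw [e]
        exact mul_mem_nonunits _ (mul_mem (P.algebraMap_mem' _) hjinv)
          (P.toValuationSubring.nonunits.neg_mem ha)
      · refine ⟨0, A.nonunits.zero_mem, ?_⟩
        rw [map_zero, sub_zero]
        exact inv_mem_nonunits_of_notMem _ hj
    have hbA : b ∈ A := ValuationSubring.nonunits_subset hbm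
    obtain ⟨_, hk, hval⟩ := eval_value hr P (jBar N)⁻¹ (inv_jBar_mem_Ocal A N)
      (isChart_inv_jBar A N P hP) b hb
    have hres : IsLocalRing.residue A ⟨b, hbA⟩ = 0 := by
      rw [IsLocalRing.residue_eq_zero_iff]
      exact ValuationSubring.coe_mem_nonunits_iff.mp hbm
    rw [hres, map_zero, sub_zero] at hval
    have e : (⟨red A ⟨_, inv_jBar_mem_Ocal A N⟩, hk⟩ : Fk A N) = (jkEl A N)⁻¹ :=
      Subtype.ext (red_inv_jBar A N)
    rw [e] at hval
    exact notMem_of_inv_mem_nonunits _ (jkEl_ne_zero A N) hval hQ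
  · rintro ⟨a, ha⟩
    obtain ⟨_, hk, hval⟩ := eval_value hr P (jBar N) (jBar_mem_Ocal A N)
      (isChart_jBar A N P ⟨a, ha⟩) a ha
    have e : (⟨red A ⟨_, jBar_mem_Ocal A N⟩, hk⟩ : Fk A N) = jkEl A N :=
      Subtype.ext (red_jBar A N)
    rw [e] at hval
    exact mem_of_sub_mem_nonunits _ hval

/-! ### Separation in the chart of a given place, and uniqueness -/

/-- `Plan2.Sep`, uniformly in the type of the places. -/
theorem sep_same_type (hsep : Sep A N) (P : Place Kbar (FN N))
    (S : Finset (Place (kk A) (Fk A N))) (hS : ∀ Q ∈ S, FinPlk A N Q ↔ FinPl A N P) :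
    ∃ (y : FN N) (hy : (y : Om) ∈ Ocal A) (hk : red A ⟨(y : Om), hy⟩ ∈ Fk A N),
      IsChart A N P y ∧ (∀ Q ∈ S, (⟨_, hk⟩ : Fk A N) ∈ Q.toValuationSubring) ∧
      ∀ Q ∈ S, ∀ Q' ∈ S, Q ≠ Q' → ∀ a : kk A,
        ¬ (((⟨_, hk⟩ : Fk A N) - algebraMap (kk A) (Fk A N) a ∈ Q.toValuationSubring.nonunits) ∧
          ((⟨_, hk⟩ : Fk A N) - algebraMap (kk A) (Fk A N) a ∈
            Q'.toValuationSubring.nonunits)) := by
  by_cases hP : FinPl A N P
  · obtain ⟨y, hy, hk, hch, h1, h2⟩ := (hsep S).1 (fun Q hQ => (hS Q hQ).mpr hP)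
    exact ⟨y, hy, hk, Or.inl ⟨hP, hch⟩, h1, h2⟩
  · obtain ⟨y, hy, hk, hch, h1, h2⟩ := (hsep S).2 (fun Q hQ h => hP ((hS Q hQ).mp h))
    exact ⟨y, hy, hk, Or.inr ⟨hP, hch⟩, h1, h2⟩

/-- **[UNIQ]** separation implies uniqueness of the place map. -/
theorem uniq_of_sep (hsep : Sep A N) : Uniq A N := by
  classical
  intro r r' hr hr'
  funext P
  by_contra hne
  have hS : ∀ Q ∈ ({r P, r' P} : Finset (Place (kk A) (Fk A N))),
      FinPlk A N Q ↔ FinPl A N P := by
    intro Q hQ
    rw [Finset.mem_insert, Finset.mem_singleton] at hQ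
    rcases hQ with rfl | rfl
    · exact typePres A N r hr P
    · exact typePres A N r' hr' P
  obtain ⟨y, hy, hk, hch, -, h2⟩ := sep_same_type A N hsep P _ hS
  obtain ⟨b, hb⟩ := exists_value N P (isChart_mem hch)
  obtain ⟨hbA, hk1, hv1⟩ := eval_value hr P y hy hch b hb
  obtain ⟨_, hk2, hv2⟩ := eval_value hr' P y hy hch b hb
  exact h2 (r P) (Finset.mem_insert_self _ _) (r' P)
    (Finset.mem_insert_of_mem (Finset.mem_singleton_self _)) hne _ ⟨hv1, hv2⟩

end Fermat.Agent.S37.EvalBasic
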