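import Mathlib
import Fermat.Agent.S37.EvalBasic

/-!
# S37 — `[GAL]`: the place map commutes with the decomposition group (helper94)

`gal_of_uniq : Plan2.Uniq A N → Plan2.Gal A N` and `gal_of_sep : Plan2.Sep A N → Plan2.Gal A N`.

For `σ` in the decomposition group of `A`, the coefficientwise action of `σ` preserves `F_N`,
`Ocal A`, the type of a place and the chart rings, and `red (σ y) = σ̄ (red y)`.  Hence
`σ̄⁻¹ ∘ r ∘ σ` has the evaluation property whenever `r` has it, and uniqueness gives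
`r (σ P) = σ̄ (r P)`.
-/

set_option autoImplicit false

noncomputable section

namespace Fermat.Agent.S37.Gal

open ModularCurve AlgebraicCurve Fermat.Agent.S24 Fermat.Agent.S18.Content Fermat.Agent.S18.Plan
  Fermat.Agent.S37.Plan2 Fermat.Agent.S37.EvalBasic

open scoped Pointwise

set_option synthInstance.maxHeartbeats 400000
set_option maxHeartbeats 1600000

/-! ### Semilinear automorphisms and places -/

section Generic

variable {K F : Type*} [Field K] [Field F] [Algebra K F] (g : SemilinearAut K F) (v : Place K F)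

theorem smul_mem_smul_iff (x : F) :
    g • x ∈ (g • v).toValuationSubring ↔ x ∈ v.toValuationSubring := by
  rw [SemilinearAut.smul_toValuationSubring]
  exact ValuationSubring.smul_mem_pointwise_smul_iff

theorem smul_mem_nonunits_smul_iff (x : F) :
    g • x ∈ (g • v).toValuationSubring.nonunits ↔ x ∈ v.toValuationSubring.nonunits := by
  rw [ValuationSubring.mem_nonunits_iff_or, ValuationSubring.mem_nonunits_iff_or,
    smul_eq_zero_iff_eq, ← smul_inv'', smul_mem_smul_iff]

end Generic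

/-! ### The decomposition group acts on `Ocal` compatibly with `red` -/

section Decomp

variable {K L : Type*} [Field K] [Field L] [Algebra K L] (A : ValuationSubring L)
  (σ : A.decompositionSubgroup K)

/-- `σ` restricted to `A`. -/
def sigmaA : A →+* A := MulSemiringAction.toRingHom (A.decompositionSubgroup K) A σ

/-- `σ` on the residue field. -/
def sigmaBar : IsLocalRing.ResidueField A →+* IsLocalRing.ResidueField A :=
  ((MulSemiringAction.toRingAut (A.decompositionSubgroup K) (IsLocalRing.ResidueField A) σ :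
    IsLocalRing.ResidueField A ≃+* IsLocalRing.ResidueField A) :
      IsLocalRing.ResidueField A →+* IsLocalRing.ResidueField A)

theorem subtype_comp_sigmaA :
    A.subtype.comp (sigmaA A σ) = ((σ : L ≃ₐ[K] L) : L →+* L).comp A.subtype :=
  RingHom.ext fun _ => rfl

theorem residue_comp_sigmaA :
    (IsLocalRing.residue A).comp (sigmaA A σ) = (sigmaBar A σ).comp (IsLocalRing.residue A) :=
  RingHom.ext fun a => IsLocalRing.ResidueField.residue_smul _ σ a

theorem iota_coeffMap_sigmaA (u : LaurentSeries A) :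
    iota A (coeffMap (sigmaA A σ) u) = coeffMap ((σ : L ≃ₐ[K] L) : L →+* L) (iota A u) := by
  rw [iota, coeffMap_coeffMap, coeffMap_coeffMap, subtype_comp_sigmaA]

theorem rho_coeffMap_sigmaA (u : LaurentSeries A) :
    rho A (coeffMap (sigmaA A σ) u) = coeffMap (sigmaBar A σ) (rho A u) := by
  rw [rho, coeffMap_coeffMap, coeffMap_coeffMap, residue_comp_sigmaA]

theorem coeffMap_injective_of_injective {R S : Type*} [CommRing R] [CommRing S] (f : R →+* S)
    (hf : Function.Injective f) : Function.Injective (coeffMap f) := by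
  intro x y h
  ext k
  exact hf (by simpa using congrArg (fun z => z.coeff k) h)

theorem rho_coeffMap_sigmaA_ne_zero {v : LaurentSeries A} (hv : rho A v ≠ 0) :
    rho A (coeffMap (sigmaA A σ) v) ≠ 0 := by
  rw [rho_coeffMap_sigmaA]
  intro h0
  exact hv (coeffMap_injective_of_injective _ (sigmaBar A σ).injective (by rw [h0, map_zero]))

theorem coeffMap_mem_Ocal {y : LaurentSeries L} (hy : y ∈ Ocal A) :
    coeffMap ((σ : L ≃ₐ[K] L) : L →+* L) y ∈ Ocal A := by
  obtain ⟨u, v, hv, h⟩ := hy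
  refine ⟨coeffMap (sigmaA A σ) u, coeffMap (sigmaA A σ) v, rho_coeffMap_sigmaA_ne_zero A σ hv, ?_⟩
  rw [iota_coeffMap_sigmaA, iota_coeffMap_sigmaA, ← map_mul, h]

/-- `red (σ y) = σ̄ (red y)`. -/
theorem red_coeffMap (y : LaurentSeries L) (hy : y ∈ Ocal A) :
    red A ⟨coeffMap ((σ : L ≃ₐ[K] L) : L →+* L) y, coeffMap_mem_Ocal A σ hy⟩ =
      coeffMap (sigmaBar A σ) (red A ⟨y, hy⟩) := by
  obtain ⟨u, v, hv, h⟩ := hy
  rw [red_mk_eq A y _ u v hv h,
    red_mk_eq A _ _ (coeffMap (sigmaA A σ) u) (coeffMap (sigmaA A σ) v)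
      (rho_coeffMap_sigmaA_ne_zero A σ hv)
      (by rw [iota_coeffMap_sigmaA, iota_coeffMap_sigmaA, ← map_mul, h]),
    rho_coeffMap_sigmaA, rho_coeffMap_sigmaA, map_div₀]

end Decomp

/-! ### The decomposition group and the charts of `F_N` -/

variable (A : ValuationSubring Kbar) (N : ℕ) [NeZero N] (σ : A.decompositionSubgroup ℚ)

/-- The semilinear automorphism of `F_N` induced by `σ`. -/
abbrev gK : SemilinearAut Kbar (FN N) :=
  arithmeticGalois (modularFunctionFieldFull N) (σ : Kbar ≃ₐ[ℚ] Kbar)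

/-- The semilinear automorphism of `F_{N,k}` induced by `σ̄`. -/
abbrev gk : SemilinearAut (kk A) (Fk A N) :=
  Defs.coeffAut (kk A) N (MulSemiringAction.toRingAut (A.decompositionSubgroup ℚ) (kk A) σ)

omit [NeZero N] in
theorem coe_gK_smul (y : FN N) :
    ((gK A N σ • y : FN N) : Om) = coeffMap ((σ : Kbar ≃ₐ[ℚ] Kbar) : Kbar →+* Kbar) (y : Om) :=
  rfl

theorem coe_gk_smul (x : Fk A N) :
    ((gk A N σ • x : Fk A N) : Omk A) = coeffMap (sigmaBar A σ) (x : Omk A) :=
  rfl

theorem gK_smul_jBar : gK A N σ • jBar N = jBar N :=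
  Subtype.ext (coeffMap_coeffEmb _ jq)

omit [NeZero N] in
theorem gK_smul_algebraMap (a : Kbar) :
    gK A N σ • algebraMap Kbar (FN N) a = algebraMap Kbar (FN N) ((σ : Kbar ≃ₐ[ℚ] Kbar) a) :=
  SemilinearAut.smul_algebraMap _ a

omit [NeZero N] in
theorem gK_inv : gK A N σ⁻¹ = (gK A N σ)⁻¹ :=
  map_inv (arithmeticGalois (modularFunctionFieldFull N)) (σ : Kbar ≃ₐ[ℚ] Kbar)

theorem finPl_smul (P : Place Kbar (FN N)) (h : FinPl A N P) : FinPl A N (gK A N σ • P) := by
  obtain ⟨a, ha⟩ := h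
  refine ⟨sigmaA A σ a, ?_⟩
  have h1 := (smul_mem_nonunits_smul_iff (gK A N σ) P _).mpr ha
  rw [smul_sub, gK_smul_jBar, gK_smul_algebraMap] at h1
  exact h1

theorem finPl_smul_iff (P : Place Kbar (FN N)) : FinPl A N (gK A N σ • P) ↔ FinPl A N P := by
  refine ⟨fun h => ?_, finPl_smul A N σ P⟩
  have h1 := finPl_smul A N σ⁻¹ _ h
  rwa [gK_inv, inv_smul_smul] at h1

variable {A N}

theorem isChart_smul {P : Place Kbar (FN N)} {y : FN N} (h : IsChart A N P y) :
    IsChart A N (gK A N σ • P) (gK A N σ • y) := by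
  rw [isChart_iff] at h ⊢
  refine ⟨coeffMap_mem_Ocal A σ h.1, fun P'' h'' => ?_⟩
  have e : P'' = gK A N σ • ((gK A N σ)⁻¹ • P'') := (smul_inv_smul _ _).symm
  rw [e]
  apply (smul_mem_smul_iff _ _ _).mpr
  apply h.2
  rw [← finPl_smul_iff A N σ ((gK A N σ)⁻¹ • P''), smul_inv_smul, h'', finPl_smul_iff]

/-- If `r` has the evaluation property, so has `σ̄⁻¹ ∘ r ∘ σ`. -/
theorem eval_conj {r : Place Kbar (FN N) → Place (kk A) (Fk A N)} (hr : Eval A N r) :
    Eval A N (fun P => (gk A N σ)⁻¹ • r (gK A N σ • P)) := by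
  intro P y hy hch hm
  have hy' : ((gK A N σ • y : FN N) : Om) ∈ Ocal A := coeffMap_mem_Ocal A σ hy
  obtain ⟨hk', hm'⟩ := hr (gK A N σ • P) (gK A N σ • y) hy' (isChart_smul σ hch)
    ((smul_mem_nonunits_smul_iff _ _ _).mpr hm)
  have hred : red A ⟨((gK A N σ • y : FN N) : Om), hy'⟩ =
      coeffMap (sigmaBar A σ) (red A ⟨(y : Om), hy⟩) := red_coeffMap A σ (y : Om) hy
  have hk : red A ⟨(y : Om), hy⟩ ∈ Fk A N := by
    have h2 : (((gk A N σ)⁻¹ • (⟨_, hk'⟩ : Fk A N) : Fk A N) : Omk A) =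
        red A ⟨(y : Om), hy⟩ := by
      have h3 : ((gk A N σ • ((gk A N σ)⁻¹ • (⟨_, hk'⟩ : Fk A N)) : Fk A N) : Omk A) =
          coeffMap (sigmaBar A σ) (red A ⟨(y : Om), hy⟩) := by
        rw [smul_inv_smul]
        exact hred
      rw [coe_gk_smul] at h3
      exact coeffMap_injective_of_injective _ (sigmaBar A σ).injective h3
    rw [← h2]
    exact SetLike.coe_mem _
  refine ⟨hk, ?_⟩
  have e : (⟨red A ⟨((gK A N σ • y : FN N) : Om), hy'⟩, hk'⟩ : Fk A N) =
      gk A N σ • (⟨red A ⟨(y : Om), hy⟩, hk⟩ : Fk A N) := Subtype.ext hred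
  rw [e] at hm'
  have h4 := (smul_mem_nonunits_smul_iff (gk A N σ)⁻¹ (r (gK A N σ • P)) _).mpr hm'
  rwa [inv_smul_smul] at h4

variable (A N)

/-- **[GAL]** from uniqueness. -/
theorem gal_of_uniq (huniq : Uniq A N) : Plan2.Gal A N := by
  intro r hr σ P
  have h := congrFun (huniq _ r (eval_conj σ hr) hr) P
  show r (gK A N σ • P) = gk A N σ • r P
  rw [← h, smul_inv_smul]

/-- **[GAL]** from separation. -/
theorem gal_of_sep (hsep : Sep A N) : Plan2.Gal A N :=
  gal_of_uniq A N (uniq_of_sep A N hsep)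

end Fermat.Agent.S37.Gal
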