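/-
S37 [CONJ] (helper97): the characteristic polynomial of `α u = u(q)` over `β F_N` (`β : f(q) ↦ f(q^ℓ)`)
in `q`-expansion form — the contract `Plan2.Conj`, from the degree `[F_{Nℓ} : β F_N] = ℓ + 1`.

The `ℓ + 1` embeddings of `F_{Nℓ}` into `Q̄((q))` over `β F_N` are

* `σ_b : f(q) ↦ f(ζ^b q)`, `b < ℓ` (they fix every series in `q^ℓ`), and
* `σ_∞ : f ↦ (w f)(q^ℓ)`, `w` the Atkin–Lehner involution (`Kron/AtkinLehner.lean`, helper60), which
  swaps `α` and `β`: `σ_∞ (β x) = (α x)(q^ℓ) = β x` and `σ_∞ (α u) = (β u)(q^ℓ) = u(q^(ℓ²))`.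

They are pairwise distinct on `j` (coefficient of `q⁻¹`), and the generic lemma of
`Conj/Embeddings.lean` gives the characteristic polynomial as the product over them.
-/
import Mathlib
import Fermat.Agent.S37.Plan2
import Fermat.Agent.S37.Kron.AtkinLehner
import Fermat.Agent.S37.Conj.Embeddings
import Fermat.Agent.S28.PrimeCore

set_option autoImplicit false

noncomputable section

namespace Fermat.Agent.S37.Conj

open Polynomial ModularCurve AlgebraicCurve
open Fermat.Agent.S24 Fermat.Agent.S18.Plan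

set_option synthInstance.maxHeartbeats 400000
set_option maxHeartbeats 1600000

section

variable (N ℓ : ℕ) [NeZero N] [NeZero ℓ]

/-- The `ℓ + 1` embeddings of `F_{Nℓ}` into `Q̄((q))`: `none ↦ σ_∞`, `some b ↦ σ_b`. -/
def emb (w : FN (N * ℓ) →+* FN (N * ℓ)) (ζ : Kbarˣ) : Option (Fin ℓ) → (FN (N * ℓ) →+* Om)
  | none => (qExpand Kbar ℓ).comp ((algebraMap (FN (N * ℓ)) Om).comp w)
  | some b => (Fermat.Agent.S28.scale (ζ ^ (b : ℕ))).comp (algebraMap (FN (N * ℓ)) Om)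

variable {N ℓ}

theorem emb_none (w : FN (N * ℓ) →+* FN (N * ℓ)) (ζ : Kbarˣ) (y : FN (N * ℓ)) :
    emb N ℓ w ζ none y = qExpand Kbar ℓ ((w y : FN (N * ℓ)) : Om) := rfl

theorem emb_some (w : FN (N * ℓ) →+* FN (N * ℓ)) (ζ : Kbarˣ) (b : Fin ℓ) (y : FN (N * ℓ)) :
    emb N ℓ w ζ (some b) y = Fermat.Agent.S28.scale (ζ ^ (b : ℕ)) (y : Om) := rfl

/-- All the embeddings restrict to `x ↦ x(q^ℓ)` on `β F_N`. -/
theorem emb_beta (w : FN (N * ℓ) →+* FN (N * ℓ)) (ζ : Kbarˣ) (hζ : ζ ^ ℓ = 1)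
    (hw : ∀ f : FN N, w (heckeBetaBar Kbar N ℓ f) = heckeAlphaBar Kbar N ℓ f)
    (i : Option (Fin ℓ)) (x : FN N) :
    emb N ℓ w ζ i (heckeBetaBar Kbar N ℓ x) = qExpand Kbar ℓ (x : Om) := by
  cases i with
  | none => rw [emb_none, hw, coe_heckeAlphaBar]
  | some b =>
      rw [emb_some, coe_heckeBetaBar]
      refine Fermat.Agent.S28.scale_eq_self_of_mem_range_expand (ζ ^ (b : ℕ)) (NeZero.ne ℓ) ?_ ?_
      · rw [← pow_mul, mul_comm, pow_mul, hζ, one_pow]
      · rw [Fermat.Agent.S28.expand_eq_qExpand]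
        exact ⟨_, rfl⟩

theorem emb_none_alpha (w : FN (N * ℓ) →+* FN (N * ℓ)) (ζ : Kbarˣ)
    (hw : ∀ f : FN N, w (heckeAlphaBar Kbar N ℓ f) = heckeBetaBar Kbar N ℓ f) (u : FN N) :
    emb N ℓ w ζ none (heckeAlphaBar Kbar N ℓ u) = qExpand Kbar (ℓ ^ 2) (u : Om) := by
  rw [emb_none, hw, coe_heckeBetaBar, qExpand_qExpand ℓ ℓ]
  exact qExpand_congr (sq ℓ).symm _

theorem emb_some_alpha (w : FN (N * ℓ) →+* FN (N * ℓ)) (ζ : Kbarˣ) (b : Fin ℓ) (u : FN N) :
    emb N ℓ w ζ (some b) (heckeAlphaBar Kbar N ℓ u) =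
      Fermat.Agent.S28.scale (ζ ^ (b : ℕ)) (u : Om) := by
  rw [emb_some, coe_heckeAlphaBar]

theorem coe_jBar (N : ℕ) [NeZero N] : ((jBar N : FN N) : Om) = jqModC Kbar := by
  show coeffEmb Kbar jq = jqModC Kbar
  rw [coeffEmb, ← jqModC_rat, coeffMap_jqModC]

/-- The embeddings are pairwise distinct: they differ on `j`. -/
theorem emb_injective (hℓ : ℓ.Prime) (w : FN (N * ℓ) →+* FN (N * ℓ)) (ζ : Kbarˣ)
    (hζ : IsPrimitiveRoot ζ ℓ)
    (hw : ∀ f : FN N, w (heckeAlphaBar Kbar N ℓ f) = heckeBetaBar Kbar N ℓ f) :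
    Function.Injective (emb N ℓ w ζ) := by
  -- values at `j`
  have hnone : (emb N ℓ w ζ none (heckeAlphaBar Kbar N ℓ (jBar N))).coeff (-1) = 0 := by
    rw [emb_none_alpha w ζ hw, coe_jBar]
    apply qExpand_coeff_of_not_dvd
    intro h
    have h' : (ℓ ^ 2 : ℕ) ∣ 1 := by
      have := (dvd_neg (α := ℤ)).mp h
      exact_mod_cast this
    have h2 := Nat.le_of_dvd one_pos h'
    have h3 := hℓ.two_le
    nlinarith
  have hsome : ∀ b : Fin ℓ, (emb N ℓ w ζ (some b) (heckeAlphaBar Kbar N ℓ (jBar N))).coeff (-1) ≠ 0 := by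
    intro b
    rw [emb_some_alpha, coe_jBar, Fermat.Agent.S28.scale_coeff, coeff_jqModC_neg_one, mul_one]
    exact Units.ne_zero _
  intro i j hij
  have hval := RingHom.congr_fun hij (heckeAlphaBar Kbar N ℓ (jBar N))
  cases i with
  | none =>
      cases j with
      | none => rfl
      | some b =>
          exfalso
          apply hsome b
          rw [← hval]
          exact hnone
  | some b =>
      cases j with
      | none =>
          exfalso
          apply hsome b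
          rw [hval]
          exact hnone
      | some b' =>
          rw [emb_some_alpha, emb_some_alpha, coe_jBar] at hval
          have hb := Fermat.Agent.S28.Prime.scale_pow_jq_injOn hζ
            (Finset.mem_coe.mpr (Finset.mem_range.mpr b.2))
            (Finset.mem_coe.mpr (Finset.mem_range.mpr b'.2)) hval
          exact congrArg some (Fin.ext hb)

variable (N ℓ)

/-- **[CONJ] from the degree.**  If `[F_{Nℓ} : β F_N] = ℓ + 1` then the contract `Plan2.Conj`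
holds: the characteristic polynomial of `α u` over `β F_N`, expanded through `β`, is
`(X - u(q^(ℓ²))) ∏_{b < ℓ} (X - u(ζ^b q))`. -/
theorem conj_of_finrank (hℓ : ℓ.Prime) (hℓN : ¬ ℓ ∣ N)
    (hfr : finrankAlong Kbar (heckeBetaBar Kbar N ℓ) = ℓ + 1) :
    Fermat.Agent.S37.Plan2.Conj N ℓ := by
  intro hfin ζ hζ u
  obtain ⟨w, hwα, hwβ⟩ := Fermat.Agent.S37.Kron.AtkinLehner.exists_atkinLehner N ℓ
    (Nat.coprime_comm.mp ((Nat.Prime.coprime_iff_not_dvd hℓ).mpr hℓN))
  letI := algebraAlong (heckeBetaBar Kbar N ℓ)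
  haveI : Module.Finite (FN N) (FN (N * ℓ)) := hfin
  have hcard : Fintype.card (Option (Fin ℓ)) = Module.finrank (FN N) (FN (N * ℓ)) := by
    rw [Fintype.card_option, Fintype.card_fin]
    exact hfr.symm
  have key := charpoly_mulLeft_map_eq_prod_of_card (K := FN N) (L := FN (N * ℓ)) (Ω := Om)
    ((qExpand Kbar ℓ).comp (algebraMap (FN N) Om))
    (emb N ℓ (w : FN (N * ℓ) →+* FN (N * ℓ)) ζ)
    (fun i x => emb_beta (w : FN (N * ℓ) →+* FN (N * ℓ)) ζ hζ.pow_eq_one hwβ i x)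
    (emb_injective hℓ (w : FN (N * ℓ) →+* FN (N * ℓ)) ζ hζ hwα) hcard
    (heckeAlphaBar Kbar N ℓ u)
  show (LinearMap.charpoly (LinearMap.mulLeft (FN N) (heckeAlphaBar Kbar N ℓ u))).map
      ((qExpand Kbar ℓ).comp (algebraMap (FN N) Om)) = _
  rw [key, Fintype.prod_option, emb_none_alpha (w : FN (N * ℓ) →+* FN (N * ℓ)) ζ hwα]
  congr 1
  have h := Fin.prod_univ_eq_prod_range
    (fun b : ℕ => (X - C (Fermat.Agent.S28.scale (ζ ^ b) (u : Om)) : Om[X])) ℓ
  rw [← h]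
  exact Finset.prod_congr rfl fun b _ => by rw [emb_some_alpha]

end

end Fermat.Agent.S37.Conj
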