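/-
S37 [CONJ] (helper97): the contract `Plan2.Conj`, unconditionally, for `ℓ` prime, `ℓ ∤ N`.
-/
import Mathlib
import Fermat.Agent.S37.Conj
import Fermat.Agent.S37.Conj.Degree

set_option autoImplicit false

namespace Fermat.Agent.S37.Conj

/-- **[CONJ].**  For `ℓ` prime, `ℓ ∤ N`: the characteristic polynomial of `α u` over `β F_N`,
expanded through `β`, is `(X - u(q^(ℓ²))) ∏_{b < ℓ} (X - u(ζ^b q))`. -/
theorem conj (N ℓ : ℕ) [NeZero N] [NeZero ℓ] (hℓ : ℓ.Prime) (hℓN : ¬ ℓ ∣ N) :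
    Fermat.Agent.S37.Plan2.Conj N ℓ :=
  conj_of_finrank N ℓ hℓ hℓN (finrankAlong_beta N ℓ hℓ hℓN)

end Fermat.Agent.S37.Conj
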