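import Mathlib
import Fermat.Agent.S37.Plan2
import Fermat.Agent.Lib.KroneckerCongOcal

/-!
# S37 [KRON]: `Plan2.Conj N ℓ → Plan2.Kron A N ℓ` (owner: helper77)

The Kronecker congruence for the characteristic polynomial of `α u` over `β F_N`, verbatim in the
`Plan2` contract, from the `q`-expansion form `Plan2.Conj` of that characteristic polynomial and the
Laurent-series core `Lib/KroneckerCong` + `Lib/KroneckerCongOcal`.
-/

set_option autoImplicit false

noncomputable section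

namespace Fermat.Agent.S37.KronMain

open ModularCurve AlgebraicCurve Fermat.Agent.S24 Fermat.Agent.S18.Content Fermat.Agent.S18.Plan
open Fermat.Agent.Lib.KroneckerCong Polynomial

set_option synthInstance.maxHeartbeats 400000
set_option maxHeartbeats 3200000

/-- `Lib/KroneckerCong.twist` is `S28.scale`. -/
lemma twist_eq_scale {R : Type*} [CommRing R] (u : Rˣ) : twist u = Fermat.Agent.S28.scale u :=
  RingHom.ext fun _ => HahnSeries.ext rfl

/-- A primitive `ℓ`-th root of unity in `Q̄`, as a unit. -/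
lemma exists_primitiveRoot_unit (ℓ : ℕ) [NeZero ℓ] : ∃ ζ : Kbarˣ, IsPrimitiveRoot ζ ℓ := by
  have : NeZero ((ℓ : ℕ) : Kbar) := ⟨by exact_mod_cast NeZero.ne ℓ⟩
  obtain ⟨ζ, hζ⟩ := HasEnoughRootsOfUnity.exists_primitiveRoot Kbar ℓ
  exact ⟨(hζ.isUnit (NeZero.ne ℓ)).unit, IsPrimitiveRoot.coe_units_iff.mp (by simpa using hζ)⟩

/-- **[KRON]** from **[CONJ]**, for `ℓ` prime and `A` of residue characteristic `ℓ`. -/
theorem kron_of_conj (A : ValuationSubring Kbar) (N : ℕ) [NeZero N] (ℓ : ℕ) [NeZero ℓ]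
    [Fact ℓ.Prime] [CharP (kk A) ℓ] (hconj : Plan2.Conj N ℓ) : Plan2.Kron A N ℓ := by
  intro hfin τ hτ u hu
  letI := algebraAlong (heckeBetaBar Kbar N ℓ)
  haveI : Module.Finite (FN N) (FN (N * ℓ)) := hfin
  intro i
  obtain ⟨ζ, hζ⟩ := exists_primitiveRoot_unit ℓ
  have hc := hconj hfin ζ hζ u
  -- the characteristic polynomial with coefficients in `Om`
  have h1 : ((LinearMap.charpoly (LinearMap.mulLeft (FN N) (heckeAlphaBar Kbar N ℓ u))).map
        (algebraMap (FN N) Om)).map (qExpand Kbar ℓ)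
      = ((X - C (qExpand Kbar ℓ (u : Om))) * phi hζ (u : Om)).map (qExpand Kbar ℓ) := by
    rw [Polynomial.map_map, hc, Polynomial.map_mul, phi_map, Polynomial.map_sub, map_X, map_C,
      qExpand_qExpand, conjProd, qExpand_congr (sq ℓ)]
    simp only [twist_eq_scale]
  have h2 := Polynomial.map_injective _ (qExpand_injective (R := Kbar) ℓ) h1
  obtain ⟨Χ, hΧ1, hΧ2⟩ := exists_chiO' A hζ ⟨(u : Om), hu⟩
  have h3 : (((LinearMap.charpoly (LinearMap.mulLeft (FN N) (heckeAlphaBar Kbar N ℓ u))).coeff i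
      : FN N) : Om) = ((Χ.coeff i : Ocal A) : Om) := by
    have h4 := congrArg (fun Q : Om[X] => Q.coeff i) (h2.trans hΧ1.symm)
    simp only [Polynomial.coeff_map] at h4
    exact h4
  have hmem : (((LinearMap.charpoly (LinearMap.mulLeft (FN N) (heckeAlphaBar Kbar N ℓ u))).coeff i
      : FN N) : Om) ∈ Ocal A := by
    rw [h3]; exact SetLike.coe_mem _
  refine ⟨hmem, ?_⟩
  have h5 : red A ⟨_, hmem⟩ = red A (Χ.coeff i) := red_congr A h3 hmem (SetLike.coe_mem _)
  rw [h5, ← Polynomial.coeff_map, hΧ2]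
  have h6 : coeffMap (frobenius (kk A) ℓ) = coeffMap (τ : kk A →+* kk A) := by
    congr 1
    ext x
    simp [frobenius_def, hτ]
  rw [h6]

/-- The residue field of a valuation subring of `Q̄` over `ℓ` has characteristic `ℓ`. -/
lemma charP_kk (A : ValuationSubring Kbar) {ℓ : ℕ} (hℓ : ℓ.Prime) (hA : A.LiesOverPrime ℓ) :
    CharP (kk A) ℓ := by
  rw [CharP.charP_iff_prime_eq_zero hℓ]
  obtain ⟨ha, hmem⟩ := ValuationSubring.mem_nonunits_iff_exists_mem_maximalIdeal.mp hA
  have h1 : (⟨(ℓ : Kbar), ha⟩ : A) = ((ℓ : ℕ) : A) := Subtype.ext (by simp)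
  rw [h1] at hmem
  have h2 := (IsLocalRing.residue_eq_zero_iff (R := A) _).mpr hmem
  rwa [map_natCast] at h2

/-- **[KRON]** from **[CONJ]**, in the hypotheses of the S37 consumers: `ℓ` prime, `A` over `ℓ`. -/
theorem kron_of_conj_of_liesOver (A : ValuationSubring Kbar) (N : ℕ) [NeZero N] (ℓ : ℕ) [NeZero ℓ]
    (hℓ : ℓ.Prime) (hA : A.LiesOverPrime ℓ) (hconj : Plan2.Conj N ℓ) : Plan2.Kron A N ℓ := by
  haveI : Fact ℓ.Prime := ⟨hℓ⟩
  haveI : CharP (kk A) ℓ := charP_kk A hℓ hA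
  exact kron_of_conj A N ℓ hconj

end Fermat.Agent.S37.KronMain
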