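/-
S37 [KRON] (helper77): the contract `Plan2.Kron`, unconditionally, for `ℓ` prime, `ℓ ∤ N`
and a valuation subring `A` of `Q̄` over `ℓ`:  `KronMain.kron_of_conj_of_liesOver` fed with
helper97's `Conj.conj`.
-/
import Mathlib
import Fermat.Agent.S37.KronMain
import Fermat.Agent.S37.ConjMain

set_option autoImplicit false

namespace Fermat.Agent.S37.KronMain

open Fermat.Agent.S24

/-- **[KRON].**  Kronecker's congruence in the packaged form `Plan2.Kron`, unconditional. -/
theorem kron (A : ValuationSubring Kbar) (N : ℕ) [NeZero N] (ℓ : ℕ) [NeZero ℓ]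
    (hℓ : ℓ.Prime) (hℓN : ¬ ℓ ∣ N) (hA : A.LiesOverPrime ℓ) :
    Fermat.Agent.S37.Plan2.Kron A N ℓ :=
  kron_of_conj_of_liesOver A N ℓ hℓ hA (Fermat.Agent.S37.Conj.conj N ℓ hℓ hℓN)

end Fermat.Agent.S37.KronMain
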