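import Mathlib
import Fermat.Agent.S37.Plan2

/-!
# S37 plan, second level, part B: chart structure, fibre sums, radicial lemma, good reduction,
fibres of the Hecke correspondence (owner: helper26)

Same vocabulary and namespace as `S37/Plan2.lean`.

* `AJ A = A[j]`, `AJinv A = A[j⁻¹]` (subrings of `Q̄((q))`), `polyJinv κ = κ[j̄⁻¹]`;
* `ChartStrFin/Inf` : **[CHART]** a chart element becomes integral over `A[j]` (resp. `A[j⁻¹]`)
  after multiplication by some `s ∈ A[j]` with constant nonzero reduction (resp. `s ∈ A[j⁻¹]`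
  with `s̄(0) ≠ 0`);   `ChartVal`, `ChartRed` : its two consequences used by the consumers;
* `FibreSum`   : **[NORM]** for a `v`-unit `y`: `Σ_{P ↦ c} ord_P y = Σ_{Q | c} ord_Q ȳ`, `c ∈ ℙ¹(k)`;
* `GoodRed n`  : **[GR]** integral elements of `F_{n,k}` lift to integral elements of `F_n`;
* `Rad ℓ`      : **[RAD]** at level `N` they lift after raising to a power `ℓ^b`;
* `Fibre ℓ`    : **[FIBRE]** the characteristic polynomial of `α u` over `β F_N`, evaluated at a
                 place `P`, is `∏_{W |_β P} (X - u(α W))^{e_β(W)}`.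
-/

set_option autoImplicit false

noncomputable section

namespace Fermat.Agent.S37.Plan2

open ModularCurve AlgebraicCurve Fermat.Agent.S24 Fermat.Agent.S18.Content Fermat.Agent.S18.Plan

set_option synthInstance.maxHeartbeats 400000
set_option maxHeartbeats 3200000

variable (A : ValuationSubring Kbar) (N : ℕ) [NeZero N]

/-! ## Coordinate rings of the two charts of the `j`-line -/

/-- `A[j] ⊂ Q̄((q))`. -/
def AJ : Subring Om :=
  Subring.closure (Set.range (fun a : A => (HahnSeries.C (a : Kbar) : Om)) ∪ {jK})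

/-- `A[j⁻¹] ⊂ Q̄((q))`. -/
def AJinv : Subring Om :=
  Subring.closure (Set.range (fun a : A => (HahnSeries.C (a : Kbar) : Om)) ∪ {jK⁻¹})

/-- `κ[j̄⁻¹] ⊂ κ((q))`. -/
def polyJinv (κ : Type) [Field κ] : Subalgebra κ (LaurentSeries κ) :=
  Algebra.adjoin κ {(jqModC κ)⁻¹}

/-! ## [CHART] structure of the chart rings -/

/-- **[CHART], finite chart.** `y ∈ F_N ∩ Ocal` regular at all finite-type places: there is
`s ∈ A[j]` whose reduction is a nonzero constant with `s y` integral over `A[j]`. -/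
def ChartStrFin : Prop :=
  ∀ y : FN N, IsChartFin A N y →
    ∃ s : Om, s ∈ AJ A ∧
      (∃ (hs : s ∈ Ocal A) (c : kk A), c ≠ 0 ∧ red A ⟨s, hs⟩ = HahnSeries.C c) ∧
      IsIntegral (AJ A) (s * (y : Om))

/-- **[CHART], chart at infinity.** `y ∈ F_N ∩ Ocal` regular at all places not of finite type:
there is `s ∈ A[j⁻¹]` with `s̄(0) ≠ 0` (constant term of the `q`-expansion of `s̄`) with `s y`
integral over `A[j⁻¹]`. -/
def ChartStrInf : Prop :=
  ∀ y : FN N, IsChartInf A N y →
    ∃ s : Om, s ∈ AJinv A ∧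
      (∃ hs : s ∈ Ocal A, (red A ⟨s, hs⟩).coeff 0 ≠ 0) ∧
      IsIntegral (AJinv A) (s * (y : Om))

/-- **[CHART] (C1)** the value of a chart element at a place of its chart lies in `A`. -/
def ChartVal : Prop :=
  ∀ (P : Place Kbar (FN N)) (y : FN N), IsChart A N P y →
    ∃ a : A, y - algebraMap Kbar (FN N) (a : Kbar) ∈ P.toValuationSubring.nonunits

/-- **[CHART] (C2)** the reduction of a chart element lies in `F_{N,k}` and is regular at all
places of `F_{N,k}` of the type of its chart. -/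
def ChartRed : Prop :=
  (∀ (y : FN N) (hy : (y : Om) ∈ Ocal A), IsChartFin A N y →
    ∃ hk : red A ⟨(y : Om), hy⟩ ∈ Fk A N, ∀ Q : Place (kk A) (Fk A N), FinPlk A N Q →
      (⟨_, hk⟩ : Fk A N) ∈ Q.toValuationSubring) ∧
  (∀ (y : FN N) (hy : (y : Om) ∈ Ocal A), IsChartInf A N y →
    ∃ hk : red A ⟨(y : Om), hy⟩ ∈ Fk A N, ∀ Q : Place (kk A) (Fk A N), ¬ FinPlk A N Q →
      (⟨_, hk⟩ : Fk A N) ∈ Q.toValuationSubring)

/-! ## [NORM] fibre sums -/

/-- The places of `F_N` over the residue disc of `c ∈ ℙ¹(k)`: `some c` = places `P` with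
`j(P) ∈ A` reducing to `c`; `none` = places not of finite type. -/
def fibK : Option (kk A) → Set (Place Kbar (FN N))
  | some c => {P | ∃ a : A, IsLocalRing.residue A a = c ∧
      jBar N - algebraMap Kbar (FN N) (a : Kbar) ∈ P.toValuationSubring.nonunits}
  | none => {P | ¬ FinPl A N P}

/-- The places of `F_{N,k}` over `c ∈ ℙ¹(k)`: `some c` = zeros of `j̄ - c`; `none` = poles of `j̄`. -/
def fibk : Option (kk A) → Set (Place (kk A) (Fk A N))
  | some c => {Q | jkEl A N - algebraMap (kk A) (Fk A N) c ∈ Q.toValuationSubring.nonunits}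
  | none => {Q | ¬ FinPlk A N Q}

/-- **[NORM]** for `y ∈ F_N ∩ Ocal` with `ȳ ≠ 0` and every `c ∈ ℙ¹(k)`:
`Σ_{P ∈ fibK c} ord_P y = Σ_{Q ∈ fibk c} ord_Q ȳ`. -/
def FibreSum : Prop :=
  ∀ (y : FN N) (hy : (y : Om) ∈ Ocal A) (hk : red A ⟨(y : Om), hy⟩ ∈ Fk A N),
    red A ⟨(y : Om), hy⟩ ≠ 0 →
    ∀ c : Option (kk A),
      ∑ᶠ P ∈ fibK A N c, P.ord y = ∑ᶠ Q ∈ fibk A N c, Q.ord (⟨_, hk⟩ : Fk A N)

/-! ## [GR], [RAD] lifting integral elements -/

/-- **[GR]** good reduction of the two charts at level `n`: every element of `F_{n,k}` integral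
over `k[j̄]` (resp. `k[j̄⁻¹]`) is the reduction of an element of `F_n ∩ Ocal` integral over `A[j]`
(resp. `A[j⁻¹]`). -/
def GoodRed (n : ℕ) : Prop :=
  (∀ x : Omk A, x ∈ Fk A n → IsIntegral (polyJ (kk A)) x →
    ∃ y : Ocal A, (y : Om) ∈ modularFunctionFieldBar n ∧ IsIntegral (AJ A) (y : Om) ∧
      red A y = x) ∧
  (∀ x : Omk A, x ∈ Fk A n → IsIntegral (polyJinv (kk A)) x →
    ∃ y : Ocal A, (y : Om) ∈ modularFunctionFieldBar n ∧ IsIntegral (AJinv A) (y : Om) ∧
      red A y = x)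

/-- **[RAD]** the radicial lemma at level `N`: every element of `F_{N,k}` integral over `k[j̄]`
(resp. `k[j̄⁻¹]`) has a power `x ^ (ℓ ^ b)` which is the reduction of an element of `F_N ∩ Ocal`
integral over `A[j]` (resp. `A[j⁻¹]`). -/
def Rad (ℓ : ℕ) : Prop :=
  (∀ x : Omk A, x ∈ Fk A N → IsIntegral (polyJ (kk A)) x →
    ∃ (b : ℕ) (y : Ocal A), (y : Om) ∈ modularFunctionFieldBar N ∧ IsIntegral (AJ A) (y : Om) ∧
      red A y = x ^ (ℓ ^ b)) ∧
  (∀ x : Omk A, x ∈ Fk A N → IsIntegral (polyJinv (kk A)) x →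
    ∃ (b : ℕ) (y : Ocal A), (y : Om) ∈ modularFunctionFieldBar N ∧ IsIntegral (AJinv A) (y : Om) ∧
      red A y = x ^ (ℓ ^ b))

/-! ## [FIBRE] the characteristic polynomial over `β F_N` at a place -/

/-- **[FIBRE]** (characteristic zero, independent of `A`).  Let `P` be a place of `F_N` and
`u ∈ F_N` with value `a W` at the place `α(W)` for every place `W` of `F_{Nℓ}` over `P` along `β`.
Then every coefficient of the characteristic polynomial of `α u` over `β F_N` is regular at `P`,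
with value the corresponding coefficient of `∏_W (X - a W) ^ e_β(W)`. -/
def Fibre (ℓ : ℕ) [NeZero ℓ] : Prop :=
  ∀ (hα : HeckeAlphaBarIntegral Kbar N ℓ) (hβ : HeckeBetaBarIntegral Kbar N ℓ)
    (hfin : FiniteAlong Kbar (heckeBetaBar Kbar N ℓ))
    [HasPrincipalDivisors Kbar (laurentBaseChange Kbar (modularFunctionFieldFull (N * ℓ)))]
    (P : Place Kbar (FN N)) (u : FN N) (a : Place Kbar (FN (N * ℓ)) → Kbar),
    (∀ W ∈ Place.fiberAlong (heckeBetaBar Kbar N ℓ) hβ P,
      u - algebraMap Kbar (FN N) (a W) ∈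
        (W.restrictAlong (heckeAlphaBar Kbar N ℓ) hα).toValuationSubring.nonunits) →
    letI := algebraAlong (heckeBetaBar Kbar N ℓ)
    haveI : Module.Finite (FN N) (FN (N * ℓ)) := hfin
    ∀ i : ℕ,
      (LinearMap.charpoly (LinearMap.mulLeft (FN N) (heckeAlphaBar Kbar N ℓ u))).coeff i -
          algebraMap Kbar (FN N)
            ((∏ W ∈ Place.fiberAlong (heckeBetaBar Kbar N ℓ) hβ P,
              (Polynomial.X - Polynomial.C (a W)) ^
                W.ramificationIndexAlong (heckeBetaBar Kbar N ℓ)).coeff i) ∈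
        P.toValuationSubring.nonunits

end Fermat.Agent.S37.Plan2

end
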