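import Mathlib
import Fermat.Agent.S37.Plan2b
import Fermat.Agent.S18.Red
import Fermat.Agent.S18.MainLemmas
import Fermat.Agent.S18.RRl.WJPlace

/-!
# S37 [CHART]: `ChartRed` from `ChartStr` (owner: helper23)

`Plan2.ChartRed A N` (the reduction of a chart element lies in `F_{N,k}` and is regular at all
places of `F_{N,k}` of the type of its chart) from the structure statements
`Plan2.ChartStrFin A N` / `Plan2.ChartStrInf A N`, one chart at a time.

Ingredients: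

* `isIntegral_red` : integrality is preserved by the reduction map `red A` (generic);
* `red_mem_polyJ_of_mem_AJ`, `red_mem_polyJinv_of_mem_AJinv` : `A[j] ⊂ Ocal` reduces into `k[j̄]`,
  `A[j⁻¹] ⊂ Ocal` reduces into `k[j̄⁻¹]`;  `polyJinv_le_OinfJ : k[j̄⁻¹] ⊆ O_∞`;
* `isIntegral_polyJ_red`, `isIntegral_polyJinv_red`, `isIntegral_OinfJ_red` : the corollaries;
* `inv_mem_OinfJ` : an element of `O_∞` with nonzero constant term is a unit of `O_∞`;
* S18 `RRl/WJPlace` : `k[j̄]` (resp. `O_∞`) lies in the valuation ring of every place where `j̄`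
  is regular (resp. has a pole), and valuation rings are integrally closed.
-/

set_option autoImplicit false

noncomputable section

namespace Fermat.Agent.S37.ChartRedOf

open ModularCurve AlgebraicCurve Fermat.Agent.S24 Fermat.Agent.S18.Content Fermat.Agent.S18.Plan
open Fermat.Agent.S37.Plan2 Fermat.Agent.S18

set_option synthInstance.maxHeartbeats 400000
set_option maxHeartbeats 1600000

variable (A : ValuationSubring Kbar)

/-! ## Reduction of integrality -/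

/-- **Integrality is preserved by reduction.**  Let `R ⊆ Q̄((q))` be a subring all of whose
elements lie in `Ocal A` and reduce into (the image of) a ring `S'` over `k((q))`.  If
`z ∈ Ocal A` is integral over `R`, then `red z` is integral over `S'`. -/
theorem isIntegral_red {R : Subring Om} {S' : Type*} [CommRing S'] [Algebra S' (Omk A)]
    (hinj : Function.Injective (algebraMap S' (Omk A)))
    (hR : ∀ r : R, ∃ (hr : (r : Om) ∈ Ocal A) (t : S'),
      algebraMap S' (Omk A) t = red A ⟨(r : Om), hr⟩)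
    {z : Om} (hz : z ∈ Ocal A) (hint : IsIntegral R z) :
    IsIntegral S' (red A ⟨z, hz⟩) := by
  choose hr t ht using hR
  let φ : R →+* Ocal A :=
    { toFun := fun r => ⟨(r : Om), hr r⟩
      map_one' := rfl
      map_mul' := fun _ _ => rfl
      map_zero' := rfl
      map_add' := fun _ _ => rfl }
  have htφ : ∀ r : R, algebraMap S' (Omk A) (t r) = red A (φ r) := ht
  let ψ : R →+* S' :=
    { toFun := t
      map_one' := hinj (by rw [htφ, map_one, map_one, map_one])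
      map_mul' := fun a b => hinj (by rw [htφ, map_mul, map_mul, map_mul, htφ, htφ])
      map_zero' := hinj (by rw [htφ, map_zero, map_zero, map_zero])
      map_add' := fun a b => hinj (by rw [htφ, map_add, map_add, map_add, htφ, htφ]) }
  obtain ⟨p, hp, hpz⟩ := hint
  have h0 : Polynomial.eval₂ φ (⟨z, hz⟩ : Ocal A) p = 0 := by
    apply Subtype.val_injective
    have h1 := Polynomial.hom_eval₂ p φ (Ocal A).subtype (⟨z, hz⟩ : Ocal A)
    have h2 : (Ocal A).subtype.comp φ = algebraMap R Om := by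
      ext r; rfl
    rw [h2] at h1
    show (Ocal A).subtype (Polynomial.eval₂ φ (⟨z, hz⟩ : Ocal A) p) = 0
    rw [h1]
    exact hpz
  refine ⟨p.map ψ, hp.map ψ, ?_⟩
  rw [Polynomial.eval₂_map]
  have hcomp : (algebraMap S' (Omk A)).comp ψ = (red A).comp φ := by
    ext r : 1
    exact htφ r
  rw [hcomp, ← Polynomial.hom_eval₂, h0, map_zero]

/-! ## `A[j]` and `A[j⁻¹]` reduce into `k[j̄]` and `k[j̄⁻¹]` -/

/-- Elements of `A[j]` lie in `Ocal` and reduce into `k[j̄]`. -/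
theorem red_mem_polyJ_of_mem_AJ {r : Om} (hr : r ∈ AJ A) :
    ∃ hr' : r ∈ Ocal A, red A ⟨r, hr'⟩ ∈ polyJ (kk A) := by
  let T : Subring Om := (((polyJ (kk A)).toSubring).comap (red A)).map (Ocal A).subtype
  have hle : AJ A ≤ T := by
    refine Subring.closure_le.mpr ?_
    rintro x (⟨a, rfl⟩ | hx)
    · refine ⟨constO A a, ?_, coe_constO A a⟩
      show red A (constO A a) ∈ polyJ (kk A)
      rw [red_constO, ← algebraMap_LS_eq_C]
      exact (polyJ (kk A)).algebraMap_mem _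
    · rw [Set.mem_singleton_iff] at hx
      subst hx
      refine ⟨Main.jO A, ?_, rfl⟩
      show red A (Main.jO A) ∈ polyJ (kk A)
      rw [Main.red_jO]
      exact Main.jqModC_mem_polyJ _
  obtain ⟨x, hx, rfl⟩ := hle hr
  exact ⟨x.2, hx⟩

/-- Elements of `A[j⁻¹]` lie in `Ocal` and reduce into `k[j̄⁻¹]`. -/
theorem red_mem_polyJinv_of_mem_AJinv {r : Om} (hr : r ∈ AJinv A) :
    ∃ hr' : r ∈ Ocal A, red A ⟨r, hr'⟩ ∈ polyJinv (kk A) := by
  let T : Subring Om := (((polyJinv (kk A)).toSubring).comap (red A)).map (Ocal A).subtype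
  have hle : AJinv A ≤ T := by
    refine Subring.closure_le.mpr ?_
    rintro x (⟨a, rfl⟩ | hx)
    · refine ⟨constO A a, ?_, coe_constO A a⟩
      show red A (constO A a) ∈ polyJinv (kk A)
      rw [red_constO, ← algebraMap_LS_eq_C]
      exact (polyJinv (kk A)).algebraMap_mem _
    · rw [Set.mem_singleton_iff] at hx
      subst hx
      refine ⟨Main.jInvO A, ?_, rfl⟩
      show red A (Main.jInvO A) ∈ polyJinv (kk A)
      rw [Main.red_jInvO]
      exact Algebra.subset_adjoin (Set.mem_singleton _)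
  obtain ⟨x, hx, rfl⟩ := hle hr
  exact ⟨x.2, hx⟩

/-- `κ[j̄⁻¹] ⊆ O_∞ = κ(j̄) ∩ κ[[q]]`. -/
theorem polyJinv_le_OinfJ (κ : Type) [Field κ] {t : LaurentSeries κ} (ht : t ∈ polyJinv κ) :
    t ∈ OinfJ κ := by
  induction ht using Algebra.adjoin_induction with
  | mem x hx =>
    rw [Set.mem_singleton_iff] at hx
    subst hx
    exact Main.jqModC_inv_mem_OinfJ κ
  | algebraMap a =>
    refine ⟨(IntermediateField.adjoin κ {jqModC κ}).algebraMap_mem a, PowerSeries.C a, ?_⟩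
    rw [algebraMap_LS_eq_C]
    simp
  | add x y _ _ hx hy => exact (OinfJ κ).add_mem hx hy
  | mul x y _ _ hx hy => exact (OinfJ κ).mul_mem hx hy

/-- Reduction of integrality over `A[j]`. -/
theorem isIntegral_polyJ_red {z : Om} (hz : z ∈ Ocal A) (hint : IsIntegral (AJ A) z) :
    IsIntegral (polyJ (kk A)) (red A ⟨z, hz⟩) := by
  refine isIntegral_red A (S' := polyJ (kk A)) Subtype.val_injective (fun r => ?_) hz hint
  obtain ⟨hr', h⟩ := red_mem_polyJ_of_mem_AJ A r.2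
  exact ⟨hr', ⟨_, h⟩, rfl⟩

/-- Reduction of integrality over `A[j⁻¹]`. -/
theorem isIntegral_polyJinv_red {z : Om} (hz : z ∈ Ocal A) (hint : IsIntegral (AJinv A) z) :
    IsIntegral (polyJinv (kk A)) (red A ⟨z, hz⟩) := by
  refine isIntegral_red A (S' := polyJinv (kk A)) Subtype.val_injective (fun r => ?_) hz hint
  obtain ⟨hr', h⟩ := red_mem_polyJinv_of_mem_AJinv A r.2
  exact ⟨hr', ⟨_, h⟩, rfl⟩

/-- Reduction of integrality over `A[j⁻¹]`, with values in `O_∞`. -/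
theorem isIntegral_OinfJ_red {z : Om} (hz : z ∈ Ocal A) (hint : IsIntegral (AJinv A) z) :
    IsIntegral (OinfJ (kk A)) (red A ⟨z, hz⟩) := by
  refine isIntegral_red A (S' := OinfJ (kk A)) Subtype.val_injective (fun r => ?_) hz hint
  obtain ⟨hr', h⟩ := red_mem_polyJinv_of_mem_AJinv A r.2
  exact ⟨hr', ⟨_, polyJinv_le_OinfJ (kk A) h⟩, rfl⟩

/-! ## Units of `O_∞` -/

/-- An element of `O_∞` with nonzero constant term is a unit of `O_∞`. -/
theorem inv_mem_OinfJ (κ : Type) [Field κ] {t : LaurentSeries κ} (ht : t ∈ OinfJ κ)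
    (h0 : t.coeff 0 ≠ 0) : t⁻¹ ∈ OinfJ κ := by
  obtain ⟨h1, p, rfl⟩ := ht
  have h1' : ((HahnSeries.ofPowerSeries ℤ κ) p) ∈ IntermediateField.adjoin κ {jqModC κ} := h1
  refine ⟨show ((HahnSeries.ofPowerSeries ℤ κ) p)⁻¹ ∈ IntermediateField.adjoin κ {jqModC κ} from
    inv_mem h1', ?_⟩
  have hp : PowerSeries.constantCoeff p ≠ 0 := by
    intro h
    apply h0
    have := PowerSeries.coeff_coe (R := κ) (f := p) 0
    simp only [lt_self_iff_false, if_false, Int.natAbs_zero] at this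
    show ((p : LaurentSeries κ)).coeff 0 = 0
    rw [this, PowerSeries.coeff_zero_eq_constantCoeff_apply, h]
  refine ⟨p⁻¹, ?_⟩
  symm
  apply inv_eq_of_mul_eq_one_right
  rw [← map_mul, PowerSeries.mul_inv_cancel _ hp, map_one]

/-! ## The two halves of `ChartRed` -/

variable (N : ℕ) [NeZero N]

/-- **`ChartRed`, finite chart**, from `ChartStrFin`. -/
theorem chartRedFin_of_str (ℓ : ℕ) [Fact ℓ.Prime] (hℓ : ¬ ℓ ∣ N) (hA : A.LiesOverPrime ℓ)
    (hfin : ChartStrFin A N) :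
    ∀ (y : FN N) (hy : (y : Om) ∈ Ocal A), IsChartFin A N y →
      ∃ hk : red A ⟨(y : Om), hy⟩ ∈ Fk A N, ∀ Q : Place (kk A) (Fk A N), FinPlk A N Q →
        (⟨_, hk⟩ : Fk A N) ∈ Q.toValuationSubring := by
  intro y hy hch
  have hk : red A ⟨(y : Om), hy⟩ ∈ Fk A N := (Red.redStmt N ℓ hℓ A hA).2.1 ⟨(y : Om), hy⟩ y.2
  refine ⟨hk, fun Q hQ => ?_⟩
  obtain ⟨s, -, ⟨hs, c, hc, hred⟩, hint⟩ := hfin y hch
  have hz : s * (y : Om) ∈ Ocal A := (Ocal A).mul_mem hs hy
  have hredz : red A ⟨s * (y : Om), hz⟩ = HahnSeries.C c * red A ⟨(y : Om), hy⟩ := by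
    rw [← hred, ← map_mul]
    rfl
  have hint' : IsIntegral (polyJ (kk A)) (red A ⟨s * (y : Om), hz⟩) :=
    isIntegral_polyJ_red A hz hint
  set w : Fk A N := algebraMap (kk A) (Fk A N) c * ⟨_, hk⟩ with hwdef
  have hw : (w : Omk A) = red A ⟨s * (y : Om), hz⟩ := by
    rw [hredz, ← algebraMap_LS_eq_C]
    rfl
  have hwQ : w ∈ Q.toValuationSubring :=
    RRl.WJPlace.mem_of_isIntegral (Fk A N) Q (R' := polyJ (kk A))
      (RRl.WJPlace.polyJ_lift (Fk A N) (jqModC_mem_full (kk A) N) Q hQ) w (by rw [hw]; exact hint')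
  have he : (⟨_, hk⟩ : Fk A N) = algebraMap (kk A) (Fk A N) c⁻¹ * w := by
    rw [hwdef, ← mul_assoc, ← map_mul, inv_mul_cancel₀ hc, map_one, one_mul]
  rw [he]
  exact Q.toValuationSubring.mul_mem _ _ (Q.algebraMap_mem' _) hwQ

/-- **`ChartRed`, chart at infinity**, from `ChartStrInf`. -/
theorem chartRedInf_of_str (ℓ : ℕ) [Fact ℓ.Prime] (hℓ : ¬ ℓ ∣ N) (hA : A.LiesOverPrime ℓ)
    (hinf : ChartStrInf A N) :
    ∀ (y : FN N) (hy : (y : Om) ∈ Ocal A), IsChartInf A N y →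
      ∃ hk : red A ⟨(y : Om), hy⟩ ∈ Fk A N, ∀ Q : Place (kk A) (Fk A N), ¬ FinPlk A N Q →
        (⟨_, hk⟩ : Fk A N) ∈ Q.toValuationSubring := by
  intro y hy hch
  have hk : red A ⟨(y : Om), hy⟩ ∈ Fk A N := (Red.redStmt N ℓ hℓ A hA).2.1 ⟨(y : Om), hy⟩ y.2
  refine ⟨hk, fun Q hQ => ?_⟩
  obtain ⟨s, hsJ, ⟨hs, hs0⟩, hint⟩ := hinf y hch
  have hjL : jqModC (kk A) ∈ Fk A N := jqModC_mem_full (kk A) N
  -- `j̄` has a pole at `Q`
  have hjQ : Q.ord (⟨jqModC (kk A), hjL⟩ : Fk A N) < 0 := by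
    by_contra hcon
    exact hQ (Lib.RRCoord.mem_of_ord_nonneg Q (not_lt.mp hcon))
  have hz : s * (y : Om) ∈ Ocal A := (Ocal A).mul_mem hs hy
  have hredz : red A ⟨s * (y : Om), hz⟩ = red A ⟨s, hs⟩ * red A ⟨(y : Om), hy⟩ := by
    rw [← map_mul]
    rfl
  have hint' : IsIntegral (OinfJ (kk A)) (red A ⟨s * (y : Om), hz⟩) :=
    isIntegral_OinfJ_red A hz hint
  -- `s̄` is a unit of `O_∞`
  obtain ⟨hs', hsinv⟩ := red_mem_polyJinv_of_mem_AJinv A hsJ
  have hsO : red A ⟨s, hs⟩ ∈ OinfJ (kk A) := polyJinv_le_OinfJ (kk A) hsinv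
  have hsOinv : (red A ⟨s, hs⟩)⁻¹ ∈ OinfJ (kk A) := inv_mem_OinfJ (kk A) hsO hs0
  have hsne : red A ⟨s, hs⟩ ≠ 0 := by
    intro h
    rw [h] at hs0
    exact hs0 rfl
  obtain ⟨u, huQ, hu⟩ := RRl.WJPlace.OinfJ_lift (Fk A N) hjL Q hjQ ⟨_, hsOinv⟩
  have hsk : red A ⟨s, hs⟩ ∈ Fk A N := by
    have h1 : (u : Omk A)⁻¹ ∈ Fk A N := (Fk A N).inv_mem u.2
    have h2 : (u : Omk A) = (red A ⟨s, hs⟩)⁻¹ := hu
    rw [h2, inv_inv] at h1
    exact h1
  set w : Fk A N := ⟨_, hsk⟩ * ⟨_, hk⟩ with hwdef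
  have hw : (w : Omk A) = red A ⟨s * (y : Om), hz⟩ := by
    rw [hredz]
    rfl
  have hwQ : w ∈ Q.toValuationSubring :=
    RRl.WJPlace.mem_of_isIntegral (Fk A N) Q (R' := OinfJ (kk A))
      (RRl.WJPlace.OinfJ_lift (Fk A N) hjL Q hjQ) w (by rw [hw]; exact hint')
  have he : (⟨_, hk⟩ : Fk A N) = u * w := by
    apply Subtype.ext
    show red A ⟨(y : Om), hy⟩ = (u : Omk A) * (red A ⟨s, hs⟩ * red A ⟨(y : Om), hy⟩)
    have h2 : (u : Omk A) = (red A ⟨s, hs⟩)⁻¹ := hu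
    rw [h2, ← mul_assoc, inv_mul_cancel₀ hsne, one_mul]
  rw [he]
  exact Q.toValuationSubring.mul_mem _ _ huQ hwQ

/-- **`Plan2.ChartRed A N`** from `Plan2.ChartStrFin A N` and `Plan2.ChartStrInf A N`. -/
theorem chartRed_of_str (ℓ : ℕ) [Fact ℓ.Prime] (hℓ : ¬ ℓ ∣ N) (hA : A.LiesOverPrime ℓ)
    (hfin : ChartStrFin A N) (hinf : ChartStrInf A N) : ChartRed A N :=
  ⟨chartRedFin_of_str A N ℓ hℓ hA hfin, chartRedInf_of_str A N ℓ hℓ hA hinf⟩

end Fermat.Agent.S37.ChartRedOf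

end
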