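/-
S37 / [RAD] (helper5): the radicial lemma `Plan2.Rad A N ℓ` from good reduction at a higher level.

* generic: `isIntegral_coeff_charpoly` (coefficients of the characteristic polynomial of an
  integral element are integral; no separability, via eigenvalues over the algebraic closure),
  `charpoly_lmul_algebraMap`, `exists_pow_lift` (an extension `E₁ ⊆ E₂` of valued fields without
  defect, residue characteristic `ℓ`: if `g ∈ E₂ ∩ Oc` is integral over `R ⊆ E₁` and `rd g ∈ κ₁`,
  then `(rd g) ^ (ℓ ^ b)` lifts to `E₁ ∩ Oc`, integrally over `R`);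
* modular: `rad_of_goodRed : Plan2.GoodRed A N' → Plan2.Rad A N ℓ` for `N ∣ N'`, `ℓ ∤ N'`.
-/
import Mathlib
import Fermat.Agent.S18.CharStmt
import Fermat.Agent.S37.Plan2b

set_option autoImplicit false

namespace Fermat.Agent.S37.Rad

open Polynomial

section Generic

/-- Roots (in an extension field) of the characteristic polynomial of an endomorphism `f` are
roots of every polynomial killing `f`. -/
theorem eval_eq_zero_of_isRoot_charpoly {K V Ω : Type*} [Field K] [AddCommGroup V] [Module K V]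
    [Module.Finite K V] [Field Ω] [Algebra K Ω] (f : Module.End K V) (p : K[X])
    (hp : aeval f p = 0) (μ : Ω) (hμ : (f.charpoly.map (algebraMap K Ω)).IsRoot μ) :
    (p.map (algebraMap K Ω)).eval μ = 0 := by
  rw [← LinearMap.charpoly_baseChange] at hμ
  have hev := (Module.End.hasEigenvalue_iff_isRoot_charpoly (f.baseChange Ω) μ).mpr hμ
  obtain ⟨v, hv⟩ := hev.exists_hasEigenvector
  have h1 := Module.End.aeval_apply_of_hasEigenvector (p := p.map (algebraMap K Ω)) hv
  have h2 : aeval (f.baseChange Ω) (p.map (algebraMap K Ω)) = 0 := by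
    rw [aeval_map_algebraMap]
    have h3 := aeval_algHom_apply (Module.End.baseChangeHom K Ω V) f p
    have h4 : Module.End.baseChangeHom K Ω V f = f.baseChange Ω := rfl
    rw [h4] at h3
    rw [h3, hp, map_zero]
  rw [h2, LinearMap.zero_apply] at h1
  exact (smul_eq_zero.mp h1.symm).resolve_right hv.2

/-- The coefficients of the characteristic polynomial (over a field `K`) of an element integral
over a ring `R → K` are integral over `R`. -/
theorem isIntegral_coeff_charpoly {R K L : Type*} [CommRing R] [Field K] [CommRing L]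
    [Algebra R K] [Algebra K L] [Algebra R L] [IsScalarTower R K L] [Module.Finite K L]
    (y : L) (hy : IsIntegral R y) (i : ℕ) :
    IsIntegral R ((LinearMap.charpoly (Algebra.lmul K L y)).coeff i) := by
  obtain ⟨Q, hQm, hQ⟩ := hy
  set f : Module.End K L := Algebra.lmul K L y with hf
  have hkill : aeval f (Q.map (algebraMap R K)) = 0 := by
    have h1 := aeval_algHom_apply (Algebra.lmul K L) y (Q.map (algebraMap R K))
    rw [hf, h1, aeval_map_algebraMap, aeval_def, hQ, map_zero]
  let Ω := AlgebraicClosure K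
  have hsplit : (f.charpoly.map (algebraMap K Ω)).Splits := IsAlgClosed.splits _
  have hmonic : (f.charpoly.map (algebraMap K Ω)).Monic := (LinearMap.charpoly_monic f).map _
  have hroots : ∀ a ∈ (f.charpoly.map (algebraMap K Ω)).roots,
      a ∈ (algebraMap (integralClosure R Ω) Ω).range := by
    intro a ha
    have hr : (f.charpoly.map (algebraMap K Ω)).IsRoot a := (mem_roots'.mp ha).2
    have h0 := eval_eq_zero_of_isRoot_charpoly f _ hkill a hr
    have hint : IsIntegral R a := by
      refine ⟨Q, hQm, ?_⟩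
      rw [← eval_map, IsScalarTower.algebraMap_eq R K Ω, ← Polynomial.map_map]
      exact h0
    exact ⟨⟨a, hint⟩, rfl⟩
  have hl := hsplit.mem_lift_of_roots_mem_range hmonic _ hroots
  rw [lifts_iff_coeff_lifts] at hl
  obtain ⟨c, hc⟩ := hl i
  rw [coeff_map] at hc
  have h5 : IsIntegral R (algebraMap K Ω (f.charpoly.coeff i)) := by
    rw [← hc]; exact c.2
  exact (isIntegral_algebraMap_iff (algebraMap K Ω).injective).mp h5

/-- Ring-hom form of `isIntegral_coeff_charpoly`. -/
theorem isIntegralElem_coeff_charpoly {R K L : Type*} [CommRing R] [Field K] [CommRing L]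
    [Algebra K L] [Module.Finite K L] (φ : R →+* K) (y : L)
    (hy : ((algebraMap K L).comp φ).IsIntegralElem y) (i : ℕ) :
    φ.IsIntegralElem ((LinearMap.charpoly (Algebra.lmul K L y)).coeff i) := by
  let _ : Algebra R K := φ.toAlgebra
  let _ : Algebra R L := ((algebraMap K L).comp φ).toAlgebra
  have : IsScalarTower R K L := IsScalarTower.of_algebraMap_eq (fun _ => rfl)
  exact isIntegral_coeff_charpoly (R := R) y hy i

/-- The characteristic polynomial of multiplication by a scalar. -/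
theorem charpoly_lmul_algebraMap {κ κ' : Type*} [Field κ] [CommRing κ'] [Algebra κ κ']
    [Module.Finite κ κ'] (z : κ) :
    LinearMap.charpoly (Algebra.lmul κ κ' (algebraMap κ κ' z)) =
      (X - C z) ^ Module.finrank κ κ' := by
  classical
  rw [← LinearMap.charpoly_toMatrix _ (Module.finBasis κ κ'), Algebra.lmul_algebraMap,
    Algebra.toMatrix_lsmul, Matrix.charpoly_diagonal, Finset.prod_const, Finset.card_univ,
    Fintype.card_fin]

end Generic

/-! ### The radicial lemma for a pair `E₁ ⊆ E₂` without defect -/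

section Pair

open Fermat.Agent.S18 Fermat.Agent.S18.CharStmt

variable {Ω Ωk : Type*} [Field Ω] [Field Ωk] {Oc : Subring Ω} {rd : Oc →+* Ωk}
variable {K₀ : Type*} [Field K₀] [Algebra K₀ Ω] {E₁ E₂ : IntermediateField K₀ Ω}
variable {k₀ : Type*} [Field k₀] [Algebra k₀ Ωk] {κ₁ κ₂ : IntermediateField k₀ Ωk}

/-- The inclusion of a subring `R ⊆ E` of `Ω` into the subfield `E`. -/
def inclR (R : Subring Ω) (E : IntermediateField K₀ Ω) (h : ∀ r ∈ R, r ∈ E) : R →+* E where
  toFun r := ⟨(r : Ω), h _ r.2⟩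
  map_one' := rfl
  map_mul' _ _ := rfl
  map_zero' := rfl
  map_add' _ _ := rfl

attribute [local instance 2000] Module.Free.of_divisionRing

/-- Coefficients of the characteristic polynomial over `E₁` of an element of `E₂` integral over a
subring `R ⊆ E₁` are integral over `R`. -/
theorem isIntegral_coeff_charpoly_pair (hle : E₁ ≤ E₂)
    [Module.Finite E₁ (IntermediateField.extendScalars hle)]
    (R : Subring Ω) (hRE : ∀ r ∈ R, r ∈ E₁)
    (g₂ : IntermediateField.extendScalars hle) (hint : IsIntegral R (g₂ : Ω)) (i : ℕ) :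
    IsIntegral R ((((LinearMap.charpoly
      (Algebra.lmul E₁ (IntermediateField.extendScalars hle) g₂)).coeff i : E₁) : Ω)) := by
  obtain ⟨Q, hQm, hQ⟩ := hint
  have hy : ((algebraMap E₁ (IntermediateField.extendScalars hle)).comp
      (inclR R E₁ hRE)).IsIntegralElem g₂ := by
    refine ⟨Q, hQm, Subtype.ext ?_⟩
    have h := hom_eval₂ Q ((algebraMap E₁ (IntermediateField.extendScalars hle)).comp
      (inclR R E₁ hRE)) ((IntermediateField.extendScalars hle).val :
        (IntermediateField.extendScalars hle) →+* Ω) g₂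
    have e : (((IntermediateField.extendScalars hle).val :
        (IntermediateField.extendScalars hle) →+* Ω)).comp
        ((algebraMap E₁ (IntermediateField.extendScalars hle)).comp (inclR R E₁ hRE)) =
        algebraMap R Ω := RingHom.ext fun r => rfl
    rw [e] at h
    exact h.trans hQ
  obtain ⟨Q', hQ'm, hQ'⟩ := isIntegralElem_coeff_charpoly (inclR R E₁ hRE) g₂ hy i
  refine ⟨Q', hQ'm, ?_⟩
  have h := hom_eval₂ Q' (inclR R E₁ hRE) (E₁.val : E₁ →+* Ω)
    ((LinearMap.charpoly (Algebra.lmul E₁ (IntermediateField.extendScalars hle) g₂)).coeff i)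
  have e : ((E₁.val : E₁ →+* Ω)).comp (inclR R E₁ hRE) = algebraMap R Ω :=
    RingHom.ext fun r => rfl
  rw [e, hQ', map_zero] at h
  exact h.symm

/-- **Generic radicial lemma.** Let `E₁ ⊆ E₂` be without defect (`[κ₂ : κ₁] = [E₂ : E₁]`), the
residue fields of characteristic `ℓ`, and `R ⊆ E₁` a subring. If `g ∈ E₂ ∩ Oc` is integral over
`R` and its reduction lies in `κ₁`, then `(rd g) ^ (ℓ ^ b)` is the reduction of an element of
`E₁ ∩ Oc` integral over `R`, for some `b`. -/
theorem exists_pow_lift (D : Data Oc rd E₁ E₂ κ₁ κ₂) (hle : E₁ ≤ E₂) (hkle : κ₁ ≤ κ₂)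
    [Module.Finite E₁ (IntermediateField.extendScalars hle)]
    (heq : Module.finrank κ₁ (IntermediateField.extendScalars hkle) =
      Module.finrank E₁ (IntermediateField.extendScalars hle))
    (ℓ : ℕ) [Fact ℓ.Prime] [CharP k₀ ℓ] (R : Subring Ω) (hRE : ∀ r ∈ R, r ∈ E₁)
    (g : Oc) (hg : (g : Ω) ∈ E₂) (hint : IsIntegral R (g : Ω)) (hx : rd g ∈ κ₁) :
    ∃ (b : ℕ) (y : Oc), (y : Ω) ∈ E₁ ∧ IsIntegral R (y : Ω) ∧ rd y = rd g ^ (ℓ ^ b) := by
  classical
  have hℓ : ℓ.Prime := Fact.out
  have hpos : 0 < Module.finrank E₁ (IntermediateField.extendScalars hle) := Module.finrank_pos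
  have S := setup D hle hkle hpos heq
  have : Module.Finite κ₁ (IntermediateField.extendScalars hkle) :=
    Module.finite_of_finrank_pos (heq ▸ hpos)
  have : CharP κ₁ ℓ := charP_of_injective_algebraMap (algebraMap k₀ κ₁).injective ℓ
  set g₂ : IntermediateField.extendScalars hle :=
    ⟨(g : Ω), (IntermediateField.mem_extendScalars hle).mpr hg⟩ with hg₂
  let g' : O₂ D hle := ⟨g₂, g.2⟩
  obtain ⟨P, hm, hd, h1, h2⟩ := OrthoBasis.Setup.exists_charpoly S g'
  have hcoe : ((g' : O₂ D hle) : IntermediateField.extendScalars hle) = g₂ := rfl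
  rw [hcoe] at h1
  set z : κ₁ := ⟨rd g, hx⟩ with hz
  have hred : red₂ D hle hkle g' = algebraMap κ₁ (IntermediateField.extendScalars hkle) z := by
    apply Subtype.ext
    rw [coe_red₂]
    conv_rhs => rw [IntermediateField.coe_algebraMap_apply, IntermediateField.algebraMap_apply]
  rw [hred, charpoly_lmul_algebraMap, heq] at h2
  obtain ⟨b, hb, -, hnd⟩ := OrthoDesc.exists_pow_dvd_not_dvd_choose ℓ _ hpos
  set d := Module.finrank E₁ (IntermediateField.extendScalars hle) with hd'
  have hle' : ℓ ^ b ≤ d := Nat.le_of_dvd hpos hb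
  have hcoef : red₁ D (P.coeff (d - ℓ ^ b)) = (-z) ^ (ℓ ^ b) * (d.choose (ℓ ^ b) : κ₁) := by
    have := congrArg (fun Q : κ₁[X] => Q.coeff (d - ℓ ^ b)) h2
    simp only [coeff_map] at this
    rw [← this, show (X - C z) = X + C (-z) by rw [C_neg, sub_eq_add_neg], coeff_X_add_C_pow,
      Nat.sub_sub_self hle', Nat.choose_symm hle']
  have hcop : Nat.Coprime (d.choose (ℓ ^ b)) ℓ :=
    Nat.Coprime.symm ((Nat.Prime.coprime_iff_not_dvd hℓ).mpr hnd)
  obtain ⟨m, -, hm1⟩ := Nat.exists_mul_mod_eq_one_of_coprime hcop hℓ.one_lt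
  have hm2 : (d.choose (ℓ ^ b) : κ₁) * (m : κ₁) = 1 := by
    have h3 : ((d.choose (ℓ ^ b) * m : ℕ) : κ₁) = ((1 : ℕ) : κ₁) := by
      rw [CharP.natCast_eq_natCast κ₁ ℓ]
      show d.choose (ℓ ^ b) * m % ℓ = 1 % ℓ
      rw [hm1, Nat.mod_eq_of_lt hℓ.one_lt]
    push_cast at h3
    exact h3
  -- the lift
  have hcO : ((P.coeff (d - ℓ ^ b) : E₁) : Ω) ∈ Oc := (P.coeff (d - ℓ ^ b)).2
  let c : Oc := ⟨((P.coeff (d - ℓ ^ b) : E₁) : Ω), hcO⟩
  let u : ℤ := (-1) ^ (ℓ ^ b) * (m : ℤ)
  have hcE : ((P.coeff (d - ℓ ^ b) : E₁) : Ω) =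
      (((LinearMap.charpoly (Algebra.lmul E₁ (IntermediateField.extendScalars hle) g₂)).coeff
        (d - ℓ ^ b) : E₁) : Ω) := by
    rw [h1, coeff_map]; rfl
  refine ⟨b, (u : Oc) * c, ?_, ?_, ?_⟩
  · rw [Subring.coe_mul, Subring.coe_intCast]
    exact E₁.mul_mem (intCast_mem E₁ u) (P.coeff (d - ℓ ^ b) : E₁).2
  · rw [Subring.coe_mul, Subring.coe_intCast]
    refine IsIntegral.mul ?_ ?_
    · exact isIntegral_algebraMap (R := R) (x := ⟨(u : Ω), intCast_mem R u⟩)
    · show IsIntegral R ((P.coeff (d - ℓ ^ b) : E₁) : Ω)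
      rw [hcE]
      exact isIntegral_coeff_charpoly_pair hle R hRE g₂ hint _
  · have e1 : rd c = (κ₁.val : κ₁ →+* Ωk) (red₁ D (P.coeff (d - ℓ ^ b))) := by
      show rd c = ((red₁ D (P.coeff (d - ℓ ^ b)) : κ₁) : Ωk)
      rw [coe_red₁]
    have ez : (κ₁.val : κ₁ →+* Ωk) z = rd g := rfl
    have hm3 : ((d.choose (ℓ ^ b) : ℕ) : Ωk) * ((m : ℕ) : Ωk) = 1 := by
      have := congrArg (κ₁.val : κ₁ →+* Ωk) hm2
      rwa [map_mul, map_natCast, map_natCast, map_one] at this
    have e4 : ((-1 : Ωk) ^ (ℓ ^ b)) * ((-1 : Ωk) ^ (ℓ ^ b)) = 1 := by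
      rw [← mul_pow]; simp
    rw [map_mul, map_intCast, e1, hcoef, map_mul, map_pow, map_neg, map_natCast, ez, neg_pow]
    have eu : ((u : ℤ) : Ωk) = (-1) ^ (ℓ ^ b) * ((m : ℕ) : Ωk) := by
      simp only [u]
      push_cast
      rfl
    rw [eu]
    linear_combination ((-1 : Ωk) ^ (ℓ ^ b) * (-1 : Ωk) ^ (ℓ ^ b) * rd g ^ (ℓ ^ b)) * hm3 +
      rd g ^ (ℓ ^ b) * e4

end Pair

/-! ### The modular instance: `Plan2.GoodRed A N' → Plan2.Rad A N ℓ` -/

section Modular

open ModularCurve AlgebraicCurve Fermat.Agent.S24 Fermat.Agent.S18.Content Fermat.Agent.S18.Plan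
open Fermat.Agent.S18 Fermat.Agent.S18.CharStmt

variable (A : ValuationSubring Kbar)

/-- `j ∈ F_N`. -/
theorem jK_mem (N : ℕ) [NeZero N] : jK ∈ modularFunctionFieldBar N := by
  have e : coeffEmb Kbar jq = jqModC Kbar := coeffMap_jqModC (R := ℚ) (algebraMap ℚ Kbar)
  have h := (jBar N).2
  have h' : coeffEmb Kbar jq ∈ modularFunctionFieldBar N := h
  rw [e] at h'
  exact h'

/-- `A[j] ⊆ F_N`. -/
theorem AJ_le (N : ℕ) [NeZero N] : ∀ r ∈ Plan2.AJ A, r ∈ modularFunctionFieldBar N := by
  have h : Plan2.AJ A ≤ (modularFunctionFieldBar N).toSubring := by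
    refine Subring.closure_le.mpr ?_
    rintro r (⟨a, rfl⟩ | hr)
    · show (HahnSeries.C (a : Kbar) : Om) ∈ modularFunctionFieldBar N
      rw [← algebraMap_LS_eq_C]
      exact (modularFunctionFieldBar N).algebraMap_mem _
    · rw [Set.mem_singleton_iff] at hr
      rw [hr]
      exact jK_mem N
  exact fun r hr => h hr

/-- `A[j⁻¹] ⊆ F_N`. -/
theorem AJinv_le (N : ℕ) [NeZero N] : ∀ r ∈ Plan2.AJinv A, r ∈ modularFunctionFieldBar N := by
  have h : Plan2.AJinv A ≤ (modularFunctionFieldBar N).toSubring := by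
    refine Subring.closure_le.mpr ?_
    rintro r (⟨a, rfl⟩ | hr)
    · show (HahnSeries.C (a : Kbar) : Om) ∈ modularFunctionFieldBar N
      rw [← algebraMap_LS_eq_C]
      exact (modularFunctionFieldBar N).algebraMap_mem _
    · rw [Set.mem_singleton_iff] at hr
      rw [hr]
      exact (modularFunctionFieldBar N).inv_mem (jK_mem N)
  exact fun r hr => h hr

set_option synthInstance.maxHeartbeats 400000 in
/-- **[RAD]** `Plan2.Rad A N ℓ` from good reduction at a level `N'` with `N ∣ N'`, `ℓ ∤ N'`. -/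
theorem rad_of_goodRed (N N' : ℕ) [NeZero N] [NeZero N'] (hdiv : N ∣ N') (ℓ : ℕ) [Fact ℓ.Prime]
    (hℓ : ¬ ℓ ∣ N') (A : ValuationSubring Kbar) (hA : A.LiesOverPrime ℓ)
    (hGR : Plan2.GoodRed A N') : Plan2.Rad A N ℓ := by
  have := charP_residueField_of_liesOverPrime A ℓ hA
  have hℓN : ¬ ℓ ∣ N := fun h => hℓ (h.trans hdiv)
  have hR := Red.redStmt N ℓ hℓN A hA
  have hR' := Red.redStmt N' ℓ hℓ A hA
  have hle := bar_le hdiv
  have hkle := fk_le A hdiv
  have h0 := psi_mul_finrank hle
  have hk := psi_mul_finrank_k A hdiv ℓ hℓ hkle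
  have hψ : 0 < dedekindPsi N := FibreCount.dedekindPsi_pos N
  have hψ' : 0 < dedekindPsi N' := FibreCount.dedekindPsi_pos N'
  have hpos : 0 < Module.finrank (FN N) (IntermediateField.extendScalars hle) := by
    rcases Nat.eq_zero_or_pos (Module.finrank (FN N) (IntermediateField.extendScalars hle))
      with h | h
    · rw [h, mul_zero] at h0; omega
    · exact h
  have : Module.Finite (FN N) (IntermediateField.extendScalars hle) :=
    Module.finite_of_finrank_pos hpos
  have heq : Module.finrank (Fk A N) (IntermediateField.extendScalars hkle) =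
      Module.finrank (FN N) (IntermediateField.extendScalars hle) :=
    Nat.eq_of_mul_eq_mul_left hψ (hk.trans h0.symm)
  refine ⟨fun x hx hint => ?_, fun x hx hint => ?_⟩
  · obtain ⟨y', hy'N, hy'int, hy'red⟩ := hGR.1 x (hkle hx) hint
    obtain ⟨b, y, hyE, hyint, hyred⟩ := exists_pow_lift (data A hR hR') hle hkle heq ℓ
      (Plan2.AJ A) (AJ_le A N) y' hy'N hy'int (hy'red ▸ hx)
    exact ⟨b, y, hyE, hyint, by rw [hyred, hy'red]⟩
  · obtain ⟨y', hy'N, hy'int, hy'red⟩ := hGR.2 x (hkle hx) hint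
    obtain ⟨b, y, hyE, hyint, hyred⟩ := exists_pow_lift (data A hR hR') hle hkle heq ℓ
      (Plan2.AJinv A) (AJinv_le A N) y' hy'N hy'int (hy'red ▸ hx)
    exact ⟨b, y, hyE, hyint, by rw [hyred, hy'red]⟩

end Modular

end Fermat.Agent.S37.Rad
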