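import Mathlib
import Fermat.Agent.S37.Plan2b
import Fermat.Agent.S37.Rad
import Fermat.Agent.S18.CharStmt
import Fermat.Agent.S18.MainLemmas
import Fermat.Agent.Lib.FFPlaces

/-!
# S37: no-defect integrality descent (owner: helper23)

For `z ∈ F_N ∩ Ocal`:

* `isIntegral_AJ`    : `z` integral over `Q̄[j]`   ⟹ `z` integral over `A[j]`;
* `isIntegral_AJinv` : `z` integral over `Q̄[j⁻¹]` ⟹ `z` integral over `A[j⁻¹]`.

Proof: the characteristic polynomial of `z` over `F_1 = Q̄(j)` has coefficients in `Ocal`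
(no defect: `S18/CharStmt` at the levels `(1, N)`), which are integral over `Q̄[j]`
(`S37/Rad.isIntegral_coeff_charpoly_pair`), hence lie in `Q̄[j]` (a PID) and therefore in
`Q̄[j] ∩ Ocal = A[j]` (Gauss: `mem_AJ_of_mem_polyJ`).

The argument is written once for a coordinate `x ∈ Ocal ∩ F_1` with `F_1 ⊆ Q̄(x)` and `x̄`
transcendental over `k` (`isIntegral_closure`), and applied to `x = j` and `x = j⁻¹`.
-/

set_option autoImplicit false

noncomputable section

namespace Fermat.Agent.S37.IntDescent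

open ModularCurve AlgebraicCurve Fermat.Agent.S24 Fermat.Agent.S18.Content Fermat.Agent.S18.Plan
open Fermat.Agent.S37.Plan2 Fermat.Agent.S18 Polynomial

set_option synthInstance.maxHeartbeats 400000
set_option maxHeartbeats 1600000

/-! ## Generic facts -/

section Generic

open scoped IntermediateField.algebraAdjoinAdjoin in
/-- `K[x]` is integrally closed in `K(x)`. -/
theorem mem_adjoin_of_isIntegral {K F : Type*} [Field K] [Field F] [Algebra K F] (x : F) {c : F}
    (hc : c ∈ IntermediateField.adjoin K {x}) (hint : IsIntegral (Algebra.adjoin K {x}) c) :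
    c ∈ Algebra.adjoin K {x} := by
  have h1 : IsIntegral (Algebra.adjoin K {x}) (⟨c, hc⟩ : IntermediateField.adjoin K {x}) := by
    rw [← isIntegral_algebraMap_iff (B := F)
      (algebraMap (IntermediateField.adjoin K {x}) F).injective]
    exact hint
  haveI : IsPrincipalIdealRing (Algebra.adjoin K {x}) :=
    Lib.FFPlaces.instIsPrincipalIdealRingPolyRing K x
  obtain ⟨y, hy⟩ := IsIntegrallyClosed.isIntegral_iff.mp h1
  have h2 : (y : F) = c := congrArg Subtype.val hy
  rw [← h2]
  exact y.2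

/-- Integrality over a subalgebra and over its underlying subring. -/
theorem isIntegral_toSubring {R₀ B : Type*} [CommRing R₀] [CommRing B] [Algebra R₀ B]
    (S : Subalgebra R₀ B) {z : B} (h : IsIntegral S z) : IsIntegral S.toSubring z := by
  obtain ⟨p, hp, hpz⟩ := h
  let φ : S →+* S.toSubring :=
    { toFun := fun r => ⟨(r : B), r.2⟩
      map_one' := rfl
      map_mul' := fun _ _ => rfl
      map_zero' := rfl
      map_add' := fun _ _ => rfl }
  refine ⟨p.map φ, hp.map φ, ?_⟩
  rw [Polynomial.eval₂_map]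
  exact hpz

/-- An element of a subring is integral over it. -/
theorem isIntegral_of_mem_subring {B : Type*} [CommRing B] (S : Subring B) {c : B} (hc : c ∈ S) :
    IsIntegral S c :=
  isIntegral_algebraMap (R := S) (x := ⟨c, hc⟩)

end Generic

variable (A : ValuationSubring Kbar)

/-! ## The Gauss step: `Q̄[x] ∩ Ocal = A[x]` -/

/-- `A[x] ⊂ Q̄((q))` for `x ∈ Q̄((q))`. -/
def AX (x : Om) : Subring Om :=
  Subring.closure (Set.range (fun a : A => (HahnSeries.C (a : Kbar) : Om)) ∪ {x})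

theorem AX_jK : AX A jK = AJ A := rfl

theorem AX_jK_inv : AX A jK⁻¹ = AJinv A := rfl

theorem C_mem_AX (x : Om) (a : A) : (HahnSeries.C (a : Kbar) : Om) ∈ AX A x :=
  Subring.subset_closure (Or.inl ⟨a, rfl⟩)

theorem self_mem_AX (x : Om) : x ∈ AX A x :=
  Subring.subset_closure (Or.inr rfl)

/-- Values of `A`-polynomials at `x` lie in `A[x]`. -/
theorem aeval_map_mem_AX (x : Om) (Q : A[X]) : aeval x (Q.map A.subtype) ∈ AX A x := by
  rw [aeval_def, eval₂_map, eval₂_eq_sum_range]
  refine Subring.sum_mem _ fun i _ => ?_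
  refine (AX A x).mul_mem ?_ ((AX A x).pow_mem (self_mem_AX A x) i)
  rw [RingHom.comp_apply, algebraMap_LS_eq_C]
  exact C_mem_AX A x (Q.coeff i)

/-- **Gauss.** If `x ∈ Ocal` has transcendental reduction, a polynomial expression `f(x)`,
`f ∈ Q̄[X]`, which lies in `Ocal` lies in `A[x]`. -/
theorem aeval_mem_AX (x : Ocal A) (htr : Transcendental (kk A) (red A x)) (f : Kbar[X])
    (hf : aeval (x : Om) f ∈ Ocal A) : aeval (x : Om) f ∈ AX A (x : Om) := by
  rcases eq_or_ne f 0 with rfl | hf0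
  · rw [map_zero]; exact zero_mem _
  obtain ⟨c, Q, hc, hQ, rfl⟩ := exists_primitive A f hf0
  have hinj : Function.Injective (aeval (R := kk A) (red A x)) :=
    transcendental_iff_injective.mp htr
  have hne : red A (evalO A x Q) ≠ 0 := by
    rw [red_evalO]
    intro h0
    exact hQ (hinj (by rw [h0, map_zero]))
  have he : aeval (x : Om) (C c * Q.map A.subtype) =
      HahnSeries.C c * ((evalO A x Q : Ocal A) : Om) := by
    rw [coe_evalO, map_mul, aeval_C, algebraMap_LS_eq_C]
  rw [he] at hf ⊢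
  have hcA : c ∈ A := (C_mul_mem_Ocal_iff A c (evalO A x Q) hne).mp hf
  refine (AX A (x : Om)).mul_mem (C_mem_AX A (x : Om) ⟨c, hcA⟩) ?_
  rw [coe_evalO]
  exact aeval_map_mem_AX A (x : Om) Q

/-- `Q̄[x] ∩ Ocal ⊆ A[x]`. -/
theorem mem_AX_of_mem_adjoin (x : Ocal A) (htr : Transcendental (kk A) (red A x)) {z : Om}
    (hz : z ∈ Algebra.adjoin Kbar {(x : Om)}) (hzO : z ∈ Ocal A) : z ∈ AX A (x : Om) := by
  rw [Algebra.adjoin_singleton_eq_range_aeval] at hz
  obtain ⟨f, rfl⟩ := hz
  exact aeval_mem_AX A x htr f hzO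

/-- `j̄` is transcendental over `k`. -/
theorem transcendental_jk : Transcendental (kk A) (jk A) := by
  have h := transcendental_rho_jA (L := Kbar) A
  rwa [rho_jA] at h

/-- `j̄⁻¹` is transcendental over `k`. -/
theorem transcendental_jk_inv : Transcendental (kk A) (jk A)⁻¹ := by
  intro h
  apply transcendental_jk A
  have := h.inv
  rwa [inv_inv] at this

/-- `Q̄[j] ∩ Ocal ⊆ A[j]`. -/
theorem mem_AJ_of_mem_polyJ {z : Om} (hz : z ∈ polyJ Kbar) (hzO : z ∈ Ocal A) : z ∈ AJ A :=
  mem_AX_of_mem_adjoin A (Main.jO A) (by rw [Main.red_jO]; exact transcendental_jk A) hz hzO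

/-- `Q̄[j⁻¹] ∩ Ocal ⊆ A[j⁻¹]`. -/
theorem mem_AJinv_of_mem_polyJinv {z : Om} (hz : z ∈ polyJinv Kbar) (hzO : z ∈ Ocal A) :
    z ∈ AJinv A :=
  mem_AX_of_mem_adjoin A (Main.jInvO A)
    (by rw [Main.red_jInvO]; exact transcendental_jk_inv A) hz hzO

/-! ## Level one: `F_1 = Q̄(j)` -/

/-- `F_1 ⊆ Q̄(j)` inside `Q̄((q))`. -/
theorem bar_one_le : modularFunctionFieldBar 1 ≤ IntermediateField.adjoin Kbar {jK} := by
  intro c hc
  have h1 : Module.finrank (IntermediateField.adjoin Kbar {jBar 1}) (FN 1) = 1 := by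
    rw [FibreCount.finrank_eq, dedekindPsi_one]
  have h2 : IntermediateField.adjoin Kbar {jBar 1} = ⊤ :=
    IntermediateField.finrank_eq_one_iff_eq_top.mp h1
  have h3 : (⟨c, hc⟩ : FN 1) ∈ IntermediateField.adjoin Kbar {jBar 1} := by
    rw [h2]; exact IntermediateField.mem_top
  obtain ⟨r, s, hrs⟩ := (IntermediateField.mem_adjoin_simple_iff Kbar _).mp h3
  have h4 := congrArg (fun y : FN 1 => (y : Om)) hrs
  have h5 : ∀ p : Kbar[X], ((aeval (jBar 1) p : FN 1) : Om) = aeval jK p := by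
    intro p
    have := aeval_algHom_apply (modularFunctionFieldBar 1).val (jBar 1) p
    rw [← Main.coe_jBar 1]
    exact this.symm
  have h6 : c = aeval jK r / aeval jK s := by
    have : ((aeval (jBar 1) r / aeval (jBar 1) s : FN 1) : Om) =
        ((aeval (jBar 1) r : FN 1) : Om) / ((aeval (jBar 1) s : FN 1) : Om) := rfl
    simp only [] at h4
    rw [h4, this, h5, h5]
  rw [h6]
  exact (IntermediateField.mem_adjoin_simple_iff Kbar _).mpr ⟨r, s, rfl⟩

/-- `F_1 ⊆ Q̄(j⁻¹)` inside `Q̄((q))`. -/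
theorem bar_one_le_inv : modularFunctionFieldBar 1 ≤ IntermediateField.adjoin Kbar {jK⁻¹} := by
  refine (bar_one_le).trans ?_
  rw [IntermediateField.adjoin_le_iff]
  rintro _ rfl
  have h : (jK : Om)⁻¹ ∈ IntermediateField.adjoin Kbar {(jK : Om)⁻¹} :=
    IntermediateField.mem_adjoin_simple_self Kbar _
  have h' := inv_mem h
  rwa [inv_inv] at h'

theorem jK_mem_bar_one : (jK : Om) ∈ modularFunctionFieldBar 1 := by
  rw [← Main.coe_jBar 1]
  exact (jBar 1).2

/-! ## The descent -/

attribute [local instance 2000] Module.Free.of_divisionRing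

/-- **No-defect integrality descent, generic coordinate.**  Let `x ∈ Ocal ∩ F_1` with
`F_1 ⊆ Q̄(x)` and `x̄` transcendental over `k`.  If `z ∈ F_N ∩ Ocal` is integral over `Q̄[x]`, then
`z` is integral over `A[x]`. -/
theorem isIntegral_closure (N : ℕ) [NeZero N] (ℓ : ℕ) [Fact ℓ.Prime] (hℓ : ¬ ℓ ∣ N)
    (hA : A.LiesOverPrime ℓ) (x : Ocal A) (hx1 : (x : Om) ∈ modularFunctionFieldBar 1)
    (hgen : modularFunctionFieldBar 1 ≤ IntermediateField.adjoin Kbar {(x : Om)})
    (htr : Transcendental (kk A) (red A x))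
    {z : Om} (hzN : z ∈ modularFunctionFieldBar N) (hz : z ∈ Ocal A)
    (hint : IsIntegral (Algebra.adjoin Kbar {(x : Om)}) z) :
    IsIntegral (AX A (x : Om)) z := by
  classical
  haveI : CharP (kk A) ℓ := charP_residueField_of_liesOverPrime A ℓ hA
  have hℓ1 : ¬ ℓ ∣ 1 := fun h => (Fact.out : ℓ.Prime).one_lt.ne' (Nat.dvd_one.mp h)
  have hR1 : RedStmt A 1 := Red.redStmt 1 ℓ hℓ1 A hA
  have hRN : RedStmt A N := Red.redStmt N ℓ hℓ A hA
  have hle : modularFunctionFieldBar 1 ≤ modularFunctionFieldBar N :=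
    CharStmt.bar_le (one_dvd N)
  have hkle : Fk A 1 ≤ Fk A N := CharStmt.fk_le A (one_dvd N)
  have h0 := CharStmt.psi_mul_finrank hle
  have hk := CharStmt.psi_mul_finrank_k A (one_dvd N) ℓ hℓ hkle
  have hψ : 0 < dedekindPsi 1 := FibreCount.dedekindPsi_pos 1
  have hψ' : 0 < dedekindPsi N := FibreCount.dedekindPsi_pos N
  have hpos : 0 < Module.finrank (FN 1) (IntermediateField.extendScalars hle) := by
    rcases Nat.eq_zero_or_pos (Module.finrank (FN 1) (IntermediateField.extendScalars hle))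
      with h | h
    · rw [h, mul_zero] at h0; omega
    · exact h
  haveI : Module.Finite (FN 1) (IntermediateField.extendScalars hle) :=
    Module.finite_of_finrank_pos hpos
  have heq : Module.finrank (Fk A 1) (IntermediateField.extendScalars hkle) =
      Module.finrank (FN 1) (IntermediateField.extendScalars hle) :=
    Nat.eq_of_mul_eq_mul_left hψ (hk.trans h0.symm)
  obtain ⟨χ, hχ, hmonic, -, haeval, hO, -⟩ :=
    CharStmt.exists_char (CharStmt.data A hR1 hRN) hle hkle heq ⟨z, hz⟩ hzN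
  -- the coefficients are integral over `Q̄[x]`
  set R : Subring Om := (Algebra.adjoin Kbar {(x : Om)}).toSubring with hRdef
  have hRE : ∀ r ∈ R, r ∈ modularFunctionFieldBar 1 := by
    intro r hr
    have hle' : Algebra.adjoin Kbar {(x : Om)} ≤ (modularFunctionFieldBar 1).toSubalgebra :=
      Algebra.adjoin_le (by rintro _ rfl; exact hx1)
    exact hle' hr
  have hintR : IsIntegral R z := isIntegral_toSubring _ hint
  have hci : ∀ i : ℕ, IsIntegral R (((χ.coeff i : FN 1)) : Om) := by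
    intro i
    rw [hχ]
    exact Rad.isIntegral_coeff_charpoly_pair hle R hRE
      ⟨z, (IntermediateField.mem_extendScalars hle).mpr hzN⟩ hintR i
  -- hence lie in `Q̄[x]`, hence in `A[x]`
  have hcA : ∀ i : ℕ, (((χ.coeff i : FN 1)) : Om) ∈ AX A (x : Om) := by
    intro i
    have h1 : (((χ.coeff i : FN 1)) : Om) ∈ IntermediateField.adjoin Kbar {(x : Om)} :=
      hgen (χ.coeff i).2
    have h2 : IsIntegral (Algebra.adjoin Kbar {(x : Om)}) (((χ.coeff i : FN 1)) : Om) := hci i
    exact mem_AX_of_mem_adjoin A x htr (mem_adjoin_of_isIntegral (x : Om) h1 h2) (hO i)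
  -- conclusion
  refine OrthoDesc.isIntegral_of_monic_root (χ.map (algebraMap (FN 1) Om)) (hmonic.map _)
    (fun k => ?_) z ?_
  · rw [coeff_map]
    exact isIntegral_of_mem_subring _ (hcA k)
  · rw [eval_map, ← aeval_def]
    exact haeval

/-- **No-defect integrality descent, finite chart**: `z ∈ F_N ∩ Ocal` integral over `Q̄[j]` is
integral over `A[j]`. -/
theorem isIntegral_AJ (N : ℕ) [NeZero N] (ℓ : ℕ) [Fact ℓ.Prime] (hℓ : ¬ ℓ ∣ N)
    (hA : A.LiesOverPrime ℓ) {z : Om} (hzN : z ∈ modularFunctionFieldBar N) (hz : z ∈ Ocal A)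
    (hint : IsIntegral (polyJ Kbar) z) : IsIntegral (AJ A) z :=
  isIntegral_closure A N ℓ hℓ hA (Main.jO A) jK_mem_bar_one bar_one_le
    (by rw [Main.red_jO]; exact transcendental_jk A) hzN hz hint

/-- **No-defect integrality descent, chart at infinity**: `z ∈ F_N ∩ Ocal` integral over
`Q̄[j⁻¹]` is integral over `A[j⁻¹]`. -/
theorem isIntegral_AJinv (N : ℕ) [NeZero N] (ℓ : ℕ) [Fact ℓ.Prime] (hℓ : ¬ ℓ ∣ N)
    (hA : A.LiesOverPrime ℓ) {z : Om} (hzN : z ∈ modularFunctionFieldBar N) (hz : z ∈ Ocal A)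
    (hint : IsIntegral (polyJinv Kbar) z) : IsIntegral (AJinv A) z :=
  isIntegral_closure A N ℓ hℓ hA (Main.jInvO A) ((modularFunctionFieldBar 1).inv_mem jK_mem_bar_one)
    bar_one_le_inv (by rw [Main.red_jInvO]; exact transcendental_jk_inv A) hzN hz hint

end Fermat.Agent.S37.IntDescent

end
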