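import Mathlib
import Fermat.Agent.S37.Plan2b
import Fermat.Agent.S37.EvalBasic
import Fermat.Agent.S18.Char0
import Fermat.Agent.S18.MainLemmas
import Fermat.Agent.S18.WJCalc
import Fermat.Agent.Lib.FFPoles

/-!
# S37 [CHART]: clearing the poles of a chart element (owner: helper23)

Let `y ∈ F_N` be regular at every place of finite type (`j(P) ∈ A`).  Then there is
`s = ∏_v (1 - b_v j)^{m_v}` with `b_v ∈ 𝔪_A` (so `s ∈ A[j]`, `s̄ = 1`) such that `s y` is regular
at every place where `j` is regular, i.e. `s y` is integral over `Q̄[j]` (`exists_clear_fin`).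

Symmetrically, if `y` is regular at every place not of finite type, there is
`s = ∏_v (1 - a_v j⁻¹)^{m_v}` with `a_v ∈ A` (so `s ∈ A[j⁻¹]`, `s̄ ≡ 1 mod q`) such that `s y` is
integral over `Q̄[j⁻¹]` (`exists_clear_inf`).

No hypothesis on the valuation ring `A` is needed.
-/

set_option autoImplicit false

noncomputable section

namespace Fermat.Agent.S37.PoleClear

open ModularCurve AlgebraicCurve Fermat.Agent.S24 Fermat.Agent.S18.Content Fermat.Agent.S18.Plan
open Fermat.Agent.S37.Plan2 Fermat.Agent.S18 Fermat.Agent.Lib IntermediateField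

set_option synthInstance.maxHeartbeats 400000
set_option maxHeartbeats 1600000

/-! ## Generic pole clearing in a chart -/

section Generic

variable {K F : Type*} [Field K] [Field F] [Algebra K F]

/-- Local pole clearing: if `t ∈ 𝔪_w` then `t ^ m * y ∈ O_w` for `m = max 0 (-ord_w y)`. -/
theorem pow_mul_mem (w : Place K F) {t y : F} (ht : t ∈ w.toValuationSubring.nonunits)
    (hy : y ≠ 0) : t ^ (-(w.ord y)).toNat * y ∈ w.toValuationSubring := by
  have htw : t ∈ w.toValuationSubring := ValuationSubring.nonunits_subset ht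
  by_cases hyw : y ∈ w.toValuationSubring
  · exact mul_mem (pow_mem htw _) hyw
  have hord : w.ord y < 0 := (FFPlaces.ord_neg_iff w hy).mpr hyw
  rcases eq_or_ne t 0 with rfl | ht0
  · have hm : (-(w.ord y)).toNat ≠ 0 := by omega
    rw [zero_pow hm, zero_mul]
    exact zero_mem _
  have htinv : t⁻¹ ∉ w.toValuationSubring := by
    have h := EvalBasic.notMem_of_inv_mem_nonunits w.toValuationSubring (x := t⁻¹)
      (inv_ne_zero ht0) (by rwa [inv_inv])
    exact h
  have hpos : 0 < w.ord t := (FFPlaces.ord_pos_iff w ht0).mpr ⟨htw, htinv⟩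
  rw [FFPlaces.mem_iff_ord_nonneg w (mul_ne_zero (pow_ne_zero _ ht0) hy),
    w.ord_mul (pow_ne_zero _ ht0) hy, Main.ord_pow]
  have h1 : ((-(w.ord y)).toNat : ℤ) = -(w.ord y) := Int.toNat_of_nonneg (by omega)
  rw [h1]
  nlinarith

variable {x : F} [FiniteDimensional K⟮x⟯ F] [Algebra.IsSeparable K⟮x⟯ F]

/-- Pole clearing in the chart of `x`: if the factors `t v` are regular on the chart and `t w`
vanishes at every pole `w` of `y` in the chart, then `∏_v (t v) ^ m_v * y` is integral over
`K[x]`. -/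
theorem isIntegral_prod_mul (S : Finset (Place K F)) {y : F} (hy0 : y ≠ 0)
    (hS : ∀ w : Place K F, y ∉ w.toValuationSubring → w ∈ S) (t : Place K F → F)
    (ht : ∀ v w : Place K F, x ∈ w.toValuationSubring → t v ∈ w.toValuationSubring)
    (ht' : ∀ w : Place K F, x ∈ w.toValuationSubring → y ∉ w.toValuationSubring →
      t w ∈ w.toValuationSubring.nonunits) :
    IsIntegral (FFPlaces.polyRing K x) ((∏ v ∈ S, t v ^ (-(v.ord y)).toNat) * y) := by
  classical
  refine FFPoles.isIntegral_polyRing_of_forall_mem fun w hxw => ?_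
  by_cases hyw : y ∈ w.toValuationSubring
  · exact mul_mem (prod_mem fun v _ => pow_mem (ht v w hxw) _) hyw
  rw [← Finset.mul_prod_erase S _ (hS w hyw), mul_right_comm]
  exact mul_mem (pow_mul_mem w (ht' w hxw hyw) hy0)
    (prod_mem fun v _ => pow_mem (ht v w hxw) _)

end Generic

/-! ## Transfer of integrality from `F_N` to `Q̄((q))` -/

/-- Integrality over `Q̄[x]` inside a subfield `L ⊆ Ω` gives integrality over `Q̄[x]` in `Ω`. -/
theorem isIntegral_coe {K Ω : Type*} [Field K] [Field Ω] [Algebra K Ω] (L : IntermediateField K Ω)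
    (x f : L) (h : IsIntegral (Algebra.adjoin K {x}) f) :
    IsIntegral (Algebra.adjoin K {(x : Ω)}) (f : Ω) := by
  have hmap : ∀ r : Algebra.adjoin K {x}, ((r : L) : Ω) ∈ Algebra.adjoin K {(x : Ω)} := by
    intro r
    have h1 : (Algebra.adjoin K {x}).map L.val = Algebra.adjoin K {(x : Ω)} := by
      rw [AlgHom.map_adjoin, Set.image_singleton]
      rfl
    rw [← h1]
    exact ⟨(r : L), r.2, rfl⟩
  let φ : Algebra.adjoin K {x} →+* Algebra.adjoin K {(x : Ω)} :=
    { toFun := fun r => ⟨((r : L) : Ω), hmap r⟩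
      map_one' := rfl
      map_mul' := fun _ _ => rfl
      map_zero' := rfl
      map_add' := fun _ _ => rfl }
  exact IsIntegral.map_of_comp_eq φ (L.val : L →+* Ω) (RingHom.ext fun r => rfl) h

variable (A : ValuationSubring Kbar) (N : ℕ) [NeZero N]

/-! ## The finite chart -/

/-- **Pole clearing, finite chart.**  If `y ∈ F_N` is regular at all places of finite type, there
is `s ∈ F_N` with `s ∈ A[j]`, `s̄ = 1` and `s y` integral over `Q̄[j]`. -/
theorem exists_clear_fin (y : FN N)
    (hy : ∀ P : Place Kbar (FN N), FinPl A N P → y ∈ P.toValuationSubring) :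
    ∃ s : FN N, (s : Om) ∈ AJ A ∧ (∃ hs : (s : Om) ∈ Ocal A, red A ⟨(s : Om), hs⟩ = 1) ∧
      IsIntegral (polyJ Kbar) (((s * y : FN N)) : Om) := by
  classical
  rcases eq_or_ne y 0 with rfl | hy0
  · refine ⟨1, (AJ A).one_mem, ⟨(Ocal A).one_mem, map_one _⟩, ?_⟩
    rw [mul_zero]
    exact isIntegral_zero
  haveI := FibreCount.finiteDimensional N
  haveI := Char0.isSeparable_jBar N
  obtain ⟨D, hD, -⟩ := Char0.exists_divisor N y hy0
  have hS : ∀ w : Place Kbar (FN N), y ∉ w.toValuationSubring → w ∈ D.support := by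
    intro w hw
    rw [Finsupp.mem_support_iff, hD]
    have := (FFPlaces.ord_neg_iff w hy0).mpr hw
    omega
  -- the centres of the factors
  have hb : ∀ v : Place Kbar (FN N), ∃ b : A, b ∈ IsLocalRing.maximalIdeal A ∧
      (jBar N ∈ v.toValuationSubring → y ∉ v.toValuationSubring →
        1 - algebraMap Kbar (FN N) (b : Kbar) * jBar N ∈ v.toValuationSubring.nonunits) := by
    intro v
    by_cases h : jBar N ∈ v.toValuationSubring ∧ y ∉ v.toValuationSubring
    · obtain ⟨hj, hyv⟩ := h
      obtain ⟨a, ha⟩ := EvalBasic.exists_value N v hj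
      have haA : a ∉ A := fun haA => hyv (hy v ⟨⟨a, haA⟩, ha⟩)
      have hinvA : a⁻¹ ∈ A := (A.mem_or_inv_mem a).resolve_left haA
      have ha0 : a ≠ 0 := fun h0 => haA (h0 ▸ A.zero_mem)
      refine ⟨⟨a⁻¹, hinvA⟩, ?_, fun _ _ => ?_⟩
      · exact ValuationSubring.coe_mem_nonunits_iff.mp
          (EvalBasic.inv_mem_nonunits_of_notMem A haA)
      · have e : 1 - algebraMap Kbar (FN N) a⁻¹ * jBar N =
            -algebraMap Kbar (FN N) a⁻¹ * (jBar N - algebraMap Kbar (FN N) a) := by
          rw [neg_mul, mul_sub, ← map_mul, inv_mul_cancel₀ ha0, map_one]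
          ring
        show 1 - algebraMap Kbar (FN N) a⁻¹ * jBar N ∈ v.toValuationSubring.nonunits
        rw [e]
        exact EvalBasic.mul_mem_nonunits _ (neg_mem (v.algebraMap_mem' _)) ha
    · exact ⟨0, zero_mem _, fun hj hyv => absurd ⟨hj, hyv⟩ h⟩
  choose b hbm hbv using hb
  set t : Place Kbar (FN N) → FN N :=
    fun v => 1 - algebraMap Kbar (FN N) (b v : Kbar) * jBar N with ht
  have hint := isIntegral_prod_mul (x := jBar N) D.support hy0 hS t
    (fun v w hxw => sub_mem (one_mem _) (mul_mem (w.algebraMap_mem' _) hxw))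
    (fun w hxw hyw => hbv w hxw hyw)
  set s : FN N := ∏ v ∈ D.support, t v ^ (-(v.ord y)).toNat with hs
  -- the same product in `Ocal`
  set sO : Ocal A :=
    ∏ v ∈ D.support, (1 - constO A (b v) * Main.jO A) ^ (-(v.ord y)).toNat with hsO
  have hcoe : (s : Om) = (sO : Om) := by
    show (modularFunctionFieldBar N).val s = (Ocal A).subtype sO
    rw [hs, hsO, map_prod, map_prod]
    refine Finset.prod_congr rfl fun v _ => ?_
    rw [map_pow, map_pow, ht]
    congr 1
    show ((1 - algebraMap Kbar (FN N) (b v : Kbar) * jBar N : FN N) : Om) =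
      ((1 - constO A (b v) * Main.jO A : Ocal A) : Om)
    show (1 : Om) - ((algebraMap Kbar (FN N) (b v : Kbar) : FN N) : Om) * ((jBar N : FN N) : Om) =
      1 - ((constO A (b v) : Ocal A) : Om) * jK
    rw [EvalBasic.coe_algebraMap_FN, Main.coe_jBar, coe_constO]
  have hred : red A sO = 1 := by
    rw [hsO, map_prod]
    refine Finset.prod_eq_one fun v _ => ?_
    rw [map_pow, map_sub, map_one, map_mul, red_constO,
      (IsLocalRing.residue_eq_zero_iff (b v)).mpr (hbm v), map_zero, zero_mul, sub_zero, one_pow]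
  have hsAJ : (s : Om) ∈ AJ A := by
    rw [hcoe]
    show (Ocal A).subtype sO ∈ AJ A
    rw [hsO, map_prod]
    refine Subring.prod_mem _ fun v _ => ?_
    rw [map_pow]
    refine Subring.pow_mem _ ?_ _
    show (1 : Om) - ((constO A (b v) : Ocal A) : Om) * jK ∈ AJ A
    rw [coe_constO]
    exact Subring.sub_mem _ (Subring.one_mem _) (Subring.mul_mem _
      (Subring.subset_closure (Or.inl ⟨b v, rfl⟩)) (Subring.subset_closure (Or.inr rfl)))
  refine ⟨s, hsAJ, ⟨by rw [hcoe]; exact sO.2, ?_⟩, ?_⟩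
  · rw [← hred]
    exact red_congr A hcoe _ _
  · have h := isIntegral_coe (modularFunctionFieldBar N) (jBar N) (s * y) hint
    rw [Main.coe_jBar] at h
    exact h

/-! ## The chart at infinity -/

/-- `j̄⁻¹` as a power series without constant term. -/
theorem exists_powerSeries_inv_j (κ : Type) [Field κ] :
    ∃ p : PowerSeries κ, PowerSeries.constantCoeff p = 0 ∧
      (HahnSeries.ofPowerSeries ℤ κ) p = (jqModC κ)⁻¹ := by
  obtain ⟨-, p, hp⟩ := Main.jqModC_inv_mem_OinfJ κ
  refine ⟨p, ?_, hp⟩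
  have h1 := PowerSeries.coeff_coe (R := κ) (f := p) 0
  simp only [lt_self_iff_false, if_false, Int.natAbs_zero] at h1
  have h2 : ((HahnSeries.ofPowerSeries ℤ κ) p).coeff 0 = 0 := by
    rw [hp]
    apply HahnSeries.coeff_eq_zero_of_lt_order
    rw [WJCalc.order_inv_j]
    exact one_pos
  rw [← PowerSeries.coeff_zero_eq_constantCoeff_apply, ← h1]
  exact h2

/-- **Pole clearing, chart at infinity.**  If `y ∈ F_N` is regular at all places not of finite
type, there is `s ∈ F_N` with `s ∈ A[j⁻¹]`, `s̄(0) = 1` and `s y` integral over `Q̄[j⁻¹]`. -/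
theorem exists_clear_inf (y : FN N)
    (hy : ∀ P : Place Kbar (FN N), ¬ FinPl A N P → y ∈ P.toValuationSubring) :
    ∃ s : FN N, (s : Om) ∈ AJinv A ∧
      (∃ hs : (s : Om) ∈ Ocal A, (red A ⟨(s : Om), hs⟩).coeff 0 = 1) ∧
      IsIntegral (polyJinv Kbar) (((s * y : FN N)) : Om) := by
  classical
  rcases eq_or_ne y 0 with rfl | hy0
  · refine ⟨1, (AJinv A).one_mem, ⟨(Ocal A).one_mem, ?_⟩, ?_⟩
    · have : red A ⟨((1 : FN N) : Om), (Ocal A).one_mem⟩ = 1 := map_one _
      rw [this]
      simp
    · rw [mul_zero]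
      exact isIntegral_zero
  have hfd := FibreCount.finiteDimensional N
  have hsep := Char0.isSeparable_jBar N
  have hadj : Kbar⟮(jBar N)⁻¹⟯ = Kbar⟮jBar N⟯ := FFPlaces.adjoin_inv (K := Kbar) (jBar N)
  haveI : FiniteDimensional Kbar⟮(jBar N)⁻¹⟯ (FN N) := by rw [hadj]; exact hfd
  haveI : Algebra.IsSeparable Kbar⟮(jBar N)⁻¹⟯ (FN N) := by rw [hadj]; exact hsep
  obtain ⟨D, hD, -⟩ := Char0.exists_divisor N y hy0
  have hS : ∀ w : Place Kbar (FN N), y ∉ w.toValuationSubring → w ∈ D.support := by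
    intro w hw
    rw [Finsupp.mem_support_iff, hD]
    have := (FFPlaces.ord_neg_iff w hy0).mpr hw
    omega
  have hj0 : jBar N ≠ 0 := Main.jBar_ne_zero N
  -- the centres of the factors
  have ha : ∀ v : Place Kbar (FN N), ∃ a : A,
      ((jBar N)⁻¹ ∈ v.toValuationSubring → y ∉ v.toValuationSubring →
        1 - algebraMap Kbar (FN N) (a : Kbar) * (jBar N)⁻¹ ∈ v.toValuationSubring.nonunits) := by
    intro v
    by_cases h : y ∈ v.toValuationSubring
    · exact ⟨0, fun _ hyv => absurd h hyv⟩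
    · have hfin : FinPl A N v := by
        by_contra hnf
        exact h (hy v hnf)
      obtain ⟨a, ha⟩ := hfin
      refine ⟨a, fun hj _ => ?_⟩
      have e : 1 - algebraMap Kbar (FN N) (a : Kbar) * (jBar N)⁻¹ =
          (jBar N)⁻¹ * (jBar N - algebraMap Kbar (FN N) (a : Kbar)) := by
        rw [mul_sub, inv_mul_cancel₀ hj0]
        ring
      rw [e]
      exact EvalBasic.mul_mem_nonunits _ hj ha
  choose a hav using ha
  set t : Place Kbar (FN N) → FN N :=
    fun v => 1 - algebraMap Kbar (FN N) (a v : Kbar) * (jBar N)⁻¹ with ht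
  have hint := isIntegral_prod_mul (x := (jBar N)⁻¹) D.support hy0 hS t
    (fun v w hxw => sub_mem (one_mem _) (mul_mem (w.algebraMap_mem' _) hxw))
    (fun w hxw hyw => hav w hxw hyw)
  set s : FN N := ∏ v ∈ D.support, t v ^ (-(v.ord y)).toNat with hs
  set sO : Ocal A :=
    ∏ v ∈ D.support, (1 - constO A (a v) * Main.jInvO A) ^ (-(v.ord y)).toNat with hsO
  have hcoe : (s : Om) = (sO : Om) := by
    show (modularFunctionFieldBar N).val s = (Ocal A).subtype sO
    rw [hs, hsO, map_prod, map_prod]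
    refine Finset.prod_congr rfl fun v _ => ?_
    rw [map_pow, map_pow, ht]
    congr 1
    show (1 : Om) - ((algebraMap Kbar (FN N) (a v : Kbar) : FN N) : Om) *
        ((jBar N : FN N) : Om)⁻¹ = 1 - ((constO A (a v) : Ocal A) : Om) * jK⁻¹
    rw [EvalBasic.coe_algebraMap_FN, Main.coe_jBar, coe_constO]
  -- the reduction is a power series with constant term one
  obtain ⟨p₀, hp₀, hp₀j⟩ := exists_powerSeries_inv_j (kk A)
  have hred : red A sO = (HahnSeries.ofPowerSeries ℤ (kk A))
      (∏ v ∈ D.support,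
        (1 - PowerSeries.C (IsLocalRing.residue A (a v)) * p₀) ^ (-(v.ord y)).toNat) := by
    rw [hsO, map_prod, map_prod]
    refine Finset.prod_congr rfl fun v _ => ?_
    rw [map_pow, map_pow, map_sub, map_sub, map_one, map_one, map_mul, map_mul, red_constO,
      Main.red_jInvO, hp₀j]
    congr 2
    simp
  have hred0 : (red A sO).coeff 0 = 1 := by
    rw [hred]
    have h1 := PowerSeries.coeff_coe (R := kk A)
      (f := ∏ v ∈ D.support,
        (1 - PowerSeries.C (IsLocalRing.residue A (a v)) * p₀) ^ (-(v.ord y)).toNat) 0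
    simp only [lt_self_iff_false, if_false, Int.natAbs_zero] at h1
    refine h1.trans ?_
    rw [PowerSeries.coeff_zero_eq_constantCoeff_apply, map_prod]
    refine Finset.prod_eq_one fun v _ => ?_
    rw [map_pow, map_sub, map_one, map_mul, hp₀, mul_zero, sub_zero, one_pow]
  have hsAJ : (s : Om) ∈ AJinv A := by
    rw [hcoe]
    show (Ocal A).subtype sO ∈ AJinv A
    rw [hsO, map_prod]
    refine Subring.prod_mem _ fun v _ => ?_
    rw [map_pow]
    refine Subring.pow_mem _ ?_ _
    show (1 : Om) - ((constO A (a v) : Ocal A) : Om) * jK⁻¹ ∈ AJinv A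
    rw [coe_constO]
    exact Subring.sub_mem _ (Subring.one_mem _) (Subring.mul_mem _
      (Subring.subset_closure (Or.inl ⟨a v, rfl⟩)) (Subring.subset_closure (Or.inr rfl)))
  refine ⟨s, hsAJ, ⟨by rw [hcoe]; exact sO.2, ?_⟩, ?_⟩
  · rw [← hred0]
    exact congrArg (fun f => f.coeff 0) (red_congr A hcoe _ _)
  · have h := isIntegral_coe (modularFunctionFieldBar N) (jBar N)⁻¹ (s * y) hint
    have e : (((jBar N)⁻¹ : FN N) : Om) = jK⁻¹ := by
      show ((jBar N : FN N) : Om)⁻¹ = jK⁻¹
      rw [Main.coe_jBar]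
    rw [e] at h
    exact h

end Fermat.Agent.S37.PoleClear

end
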