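import Mathlib
import Fermat.Agent.S37.GoodRed.Core
import Fermat.Agent.S18.RR0
import Fermat.Agent.S18.RRl.Main
import Fermat.Agent.S18.CharStmt
import Fermat.Agent.S18.Red

/-!
# S37 [GR] — `Plan2.GoodRed A (M * N)`, unconditional (helper86)

`M = 9` if `ℓ = 2` and `M = 4` otherwise (the auxiliary level of S18), `ℓ ∤ N`, `A` over `ℓ`:
every element of `F_{MN,k}` integral over `k[j̄]` (resp. `k[j̄⁻¹]`) is the reduction of an element
of `F_{MN} ∩ Ocal` integral over `A[j]` (resp. `A[j⁻¹]`).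

Inputs (all S18 contracts, applied with base level `1`; no place map):
`RRl.Main.rrl`, `RR0.rr0 1 (M * N)`, `CharStmt.charStmt 1 (M * N)`, `Red.redStmt (M * N)`.
-/

set_option autoImplicit false

namespace Fermat.Agent.S37.GoodRed

open Fermat.Agent.S24 Fermat.Agent.S18

/-- **[GR]** `Plan2.GoodRed A (M * N)`. -/
theorem goodRed (N : ℕ) [NeZero N] (ℓ : ℕ) [Fact ℓ.Prime] (hℓ : ¬ ℓ ∣ N)
    (A : ValuationSubring Kbar) (hA : A.LiesOverPrime ℓ) :
    Plan2.GoodRed A ((if ℓ = 2 then 9 else 4) * N) := by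
  have hp : ℓ.Prime := Fact.out
  have hM : (if ℓ = 2 then 9 else 4) ≠ 0 := by split_ifs <;> norm_num
  haveI : NeZero ((if ℓ = 2 then 9 else 4) * N) := ⟨mul_ne_zero hM (NeZero.ne N)⟩
  have hℓn : ¬ ℓ ∣ (if ℓ = 2 then 9 else 4) * N := by
    intro hd
    rcases (Nat.Prime.dvd_mul hp).mp hd with h | h
    · by_cases h2 : ℓ = 2
      · rw [if_pos h2, h2] at h
        omega
      · rw [if_neg h2] at h
        have h4 : ℓ ∣ 2 := Nat.Prime.dvd_of_dvd_pow hp (show ℓ ∣ 2 ^ 2 from h)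
        exact h2 ((Nat.prime_dvd_prime_iff_eq hp Nat.prime_two).mp h4)
    · exact hℓ h
  have hTF : 4 ∣ (if ℓ = 2 then 9 else 4) * N ∨ 9 ∣ (if ℓ = 2 then 9 else 4) * N := by
    by_cases h2 : ℓ = 2
    · right
      rw [if_pos h2]
      exact dvd_mul_right 9 N
    · left
      rw [if_neg h2]
      exact dvd_mul_right 4 N
  exact goodRed_of A _ (RRl.Main.rrl ℓ N A hℓ hA) (RR0.rr0 1 _ (one_dvd _) hTF)
    (CharStmt.charStmt 1 _ (one_dvd _) ℓ hℓn A hA) (Red.redStmt _ ℓ hℓn A hA)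

/-- **[GR]**, packaged for consumers: an auxiliary level `N'` with `N ∣ N'`, `ℓ ∤ N'` and good
reduction of both charts. -/
theorem exists_goodRed (N : ℕ) [NeZero N] (ℓ : ℕ) [Fact ℓ.Prime] (hℓ : ¬ ℓ ∣ N)
    (A : ValuationSubring Kbar) (hA : A.LiesOverPrime ℓ) :
    ∃ N' : ℕ, N' ≠ 0 ∧ N ∣ N' ∧ ¬ ℓ ∣ N' ∧ Plan2.GoodRed A N' := by
  have hp : ℓ.Prime := Fact.out
  have hM : (if ℓ = 2 then 9 else 4) ≠ 0 := by split_ifs <;> norm_num
  refine ⟨(if ℓ = 2 then 9 else 4) * N, mul_ne_zero hM (NeZero.ne N), Dvd.intro_left _ rfl, ?_,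
    goodRed N ℓ hℓ A hA⟩
  intro hd
  rcases (Nat.Prime.dvd_mul hp).mp hd with h | h
  · by_cases h2 : ℓ = 2
    · rw [if_pos h2, h2] at h
      omega
    · rw [if_neg h2] at h
      have h4 : ℓ ∣ 2 := Nat.Prime.dvd_of_dvd_pow hp (show ℓ ∣ 2 ^ 2 from h)
      exact h2 ((Nat.prime_dvd_prime_iff_eq hp Nat.prime_two).mp h4)
  · exact hℓ h

end Fermat.Agent.S37.GoodRed
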