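/-
S37 / [NORM] (II) (helper5): the norm (and the whole characteristic polynomial) from `F_N` down to
`Q̄(j)` commutes with reduction.

* generic: `DataJ` (hypotheses on `(Oc, rd)` for a field `E ⊆ Ω` over `K₀(x)`), the valuation
  rings `OJ'`, `OJ`, the reductions `redJ'`, `redJ`, the `OrthoBasis.Setup` `setupJ` of
  `K₀(x) ⊆ E`, and `charpoly_red_generic`, `norm_red_generic`;
* modular: `dataJ`, `setupJ_modular`, `charpoly_red`, `norm_red` for `Q̄(j) ⊆ F_N`,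
  `k(j̄) ⊆ F_{N,k}`.
-/
import Mathlib
import Fermat.Agent.S18.CharStmt
import Fermat.Agent.S37.Plan2

set_option autoImplicit false

namespace Fermat.Agent.S37.NormRed

open Polynomial IntermediateField

open Fermat.Agent.S18 Fermat.Agent.S18.CharStmt

/-! ### Generic part -/

section Lemmas

/-- Membership in a simple extension inside a subfield `E ⊆ Ω` can be tested in `Ω`. -/
theorem mem_adjoin_simple_iff_coe {K Ω : Type*} [Field K] [Field Ω] [Algebra K Ω]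
    (E : IntermediateField K Ω) (a z : E) : z ∈ K⟮a⟯ ↔ (z : Ω) ∈ K⟮(a : Ω)⟯ := by
  have h := IntermediateField.adjoin_map K {a} E.val
  rw [Set.image_singleton] at h
  constructor
  · intro hz
    have h1 : E.val z ∈ (IntermediateField.adjoin K {a}).map E.val := ⟨z, hz, rfl⟩
    rw [h] at h1
    exact h1
  · intro hz
    have h1 : E.val z ∈ (IntermediateField.adjoin K {a}).map E.val := by
      rw [h]; exact hz
    obtain ⟨w, hw, hwz⟩ := h1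
    have e : w = z := Subtype.ext hwz
    rwa [e] at hw

/-- A non-zero element of a valuation subring is a unit iff its inverse belongs to it. -/
theorem isUnit_of_inv_mem {K : Type*} [Field K] (O : ValuationSubring K) (x : O)
    (hx : (x : K) ≠ 0) (h : (x : K)⁻¹ ∈ O) : IsUnit x :=
  IsUnit.of_mul_eq_one (⟨(x : K)⁻¹, h⟩ : O) (Subtype.ext (mul_inv_cancel₀ hx))

theorem inv_mem_of_isUnit {K : Type*} [Field K] (O : ValuationSubring K) (x : O)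
    (h : IsUnit x) : (x : K)⁻¹ ∈ O := by
  obtain ⟨u, rfl⟩ := h
  have h1 : ((u : O) : K) * (((u⁻¹ : Oˣ) : O) : K) = 1 :=
    congrArg Subtype.val (Units.mul_inv u)
  have h2 : ((u : O) : K)⁻¹ = (((u⁻¹ : Oˣ) : O) : K) := inv_eq_of_mul_eq_one_right h1
  rw [h2]
  exact ((u⁻¹ : Oˣ) : O).2

end Lemmas

section GenericJ

variable {Ω Ωk : Type*} [Field Ω] [Field Ωk] (Oc : Subring Ω) (rd : Oc →+* Ωk)
variable {K₀ : Type*} [Field K₀] [Algebra K₀ Ω] (E : IntermediateField K₀ Ω)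
variable {k₀ : Type*} [Field k₀] [Algebra k₀ Ωk] (κ' : IntermediateField k₀ Ωk)
variable (x : E) (xk : κ')

/-- The hypotheses on `(Oc, rd)` relative to `K₀(x) ⊆ E` and `k₀(xk) ⊆ κ'`. -/
structure DataJ : Prop where
  /-- elements with non-zero reduction are units of `Oc` -/
  hinv : ∀ y : Oc, rd y ≠ 0 → (y : Ω)⁻¹ ∈ Oc
  /-- `E ∩ Oc` is a valuation ring -/
  hv : ∀ y : Ω, y ∈ E → y ∈ Oc ∨ y⁻¹ ∈ Oc
  /-- reductions of `E ∩ Oc` lie in `κ'` -/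
  hb : ∀ y : Oc, (y : Ω) ∈ E → rd y ∈ κ'
  /-- and exhaust `κ'` -/
  hc : ∀ z : Ωk, z ∈ κ' → ∃ y : Oc, (y : Ω) ∈ E ∧ rd y = z
  /-- reductions of `K₀(x) ∩ Oc` lie in `k₀(xk)` -/
  hJ : ∀ y : Oc, (y : Ω) ∈ K₀⟮(x : Ω)⟯ → rd y ∈ k₀⟮(xk : Ωk)⟯

variable {Oc rd E κ' x xk}
variable (D : DataJ Oc rd E κ' x xk)

/-- `O' = E ∩ Oc`. -/
abbrev OJ' : ValuationSubring E := valO Oc E D.hv

/-- `O = K₀(x) ∩ Oc`. -/
abbrev OJ : ValuationSubring K₀⟮x⟯ := (OJ' D).comap (algebraMap K₀⟮x⟯ E)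

/-- `red' : O' → κ'`. -/
abbrev redJ' : OJ' D →+* κ' := redO Oc rd E κ' D.hv D.hb

/-- The inclusion `O → O'`. -/
def inclJ : OJ D →+* OJ' D where
  toFun y := ⟨algebraMap K₀⟮x⟯ E (y : K₀⟮x⟯), y.2⟩
  map_one' := by ext; simp
  map_mul' _ _ := by ext; simp
  map_zero' := by ext; simp
  map_add' _ _ := by ext; simp

theorem coe_inclJ (y : OJ D) : ((inclJ D y : OJ' D) : E) = ((y : K₀⟮x⟯) : E) := rfl

theorem redJ'_inclJ_mem (y : OJ D) : redJ' D (inclJ D y) ∈ k₀⟮xk⟯ := by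
  rw [mem_adjoin_simple_iff_coe]
  have h1 : ((((y : K₀⟮x⟯) : E)) : Ω) ∈ K₀⟮(x : Ω)⟯ :=
    (mem_adjoin_simple_iff_coe E x (y : K₀⟮x⟯)).mp (y : K₀⟮x⟯).2
  exact D.hJ ⟨_, (inclJ D y).2⟩ h1

/-- `red : O → k₀(xk)`. -/
def redJ : OJ D →+* k₀⟮xk⟯ :=
  ((redJ' D).comp (inclJ D)).codRestrict k₀⟮xk⟯ (redJ'_inclJ_mem D)

theorem coe_redJ (y : OJ D) : ((redJ D y : k₀⟮xk⟯) : κ') = redJ' D (inclJ D y) := rfl

theorem coe_coe_redJ' (y : OJ' D) : ((redJ' D y : κ') : Ωk) = rd ⟨((y : E) : Ω), y.2⟩ := rfl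

theorem redJ_nonunit (y : OJ D) (hy : ¬ IsUnit y) : redJ D y = 0 := by
  by_contra hne
  apply hy
  have hne' : redJ' D (inclJ D y) ≠ 0 := fun h0 => hne (Subtype.ext h0)
  have hu : IsUnit (inclJ D y) := by
    by_contra hnu
    exact hne' (redO_nonunit Oc rd E κ' D.hinv D.hv D.hb _ hnu)
  have hinv := inv_mem_of_isUnit (OJ' D) _ hu
  have hy0 : (y : K₀⟮x⟯) ≠ 0 := by
    intro h0
    apply hne'
    have : inclJ D y = 0 := by
      apply Subtype.ext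
      rw [coe_inclJ, h0]
      rfl
    rw [this, map_zero]
  refine isUnit_of_inv_mem (OJ D) y hy0 ?_
  show algebraMap K₀⟮x⟯ E ((y : K₀⟮x⟯))⁻¹ ∈ OJ' D
  rw [map_inv₀]
  exact hinv

theorem surjJ' : Function.Surjective (redJ' D) := by
  intro z
  obtain ⟨y, hy, hyz⟩ := D.hc (z : Ωk) z.2
  refine ⟨⟨⟨(y : Ω), hy⟩, y.2⟩, Subtype.ext ?_⟩
  rw [coe_coe_redJ', ← hyz]

/-- **The `OrthoBasis.Setup` of `K₀(x) ⊆ E`**, given the degree facts. -/
theorem setupJ (hpos : 0 < Module.finrank K₀⟮x⟯ E)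
    (heq : Module.finrank k₀⟮xk⟯ κ' = Module.finrank K₀⟮x⟯ E) :
    OrthoBasis.Setup (OJ D) (OJ' D) (redJ D) (redJ' D) where
  incl := fun y => y.2
  red_nonunit := redJ_nonunit D
  compat := fun _ => rfl
  surj' := surjJ' D
  finrank_pos := hpos
  finrank_eq := heq

attribute [local instance 2000] Module.Free.of_divisionRing

include D in
/-- **Generic form: the characteristic polynomial over `K₀(x)` commutes with reduction.** -/
theorem charpoly_red_generic [Module.Finite K₀⟮x⟯ E] [Module.Finite k₀⟮xk⟯ κ']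
    (hpos : 0 < Module.finrank K₀⟮x⟯ E)
    (heq : Module.finrank k₀⟮xk⟯ κ' = Module.finrank K₀⟮x⟯ E)
    (y : E) (hy : (y : Ω) ∈ Oc) (hk : rd ⟨(y : Ω), hy⟩ ∈ κ') (i : ℕ) :
    ∃ hc : ((((LinearMap.charpoly (Algebra.lmul K₀⟮x⟯ E y)).coeff i : K₀⟮x⟯) : E) : Ω) ∈ Oc,
      rd ⟨_, hc⟩ = ((((LinearMap.charpoly (Algebra.lmul k₀⟮xk⟯ κ'
        (⟨rd ⟨(y : Ω), hy⟩, hk⟩ : κ'))).coeff i : k₀⟮xk⟯) : κ') : Ωk) := by
  have S := setupJ D hpos heq
  let g' : OJ' D := ⟨y, hy⟩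
  obtain ⟨P, -, -, h1, h2⟩ := OrthoBasis.Setup.exists_charpoly S g'
  have hcoe : ((g' : OJ' D) : E) = y := rfl
  have hred : redJ' D g' = (⟨rd ⟨(y : Ω), hy⟩, hk⟩ : κ') := Subtype.ext rfl
  rw [hcoe] at h1
  rw [hred] at h2
  have e1 : (((LinearMap.charpoly (Algebra.lmul K₀⟮x⟯ E y)).coeff i : K₀⟮x⟯) : E) =
      (((P.coeff i : OJ D) : K₀⟮x⟯) : E) := by
    rw [h1, coeff_map]; rfl
  have hc : ((((LinearMap.charpoly (Algebra.lmul K₀⟮x⟯ E y)).coeff i : K₀⟮x⟯) : E) : Ω) ∈ Oc := by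
    rw [e1]
    exact (P.coeff i).2
  refine ⟨hc, ?_⟩
  have e2 : (LinearMap.charpoly (Algebra.lmul k₀⟮xk⟯ κ'
      (⟨rd ⟨(y : Ω), hy⟩, hk⟩ : κ'))).coeff i = redJ D (P.coeff i) := by
    rw [h2, coeff_map]
  rw [e2, coe_redJ, coe_coe_redJ']
  refine congrArg rd (Subtype.ext ?_)
  show ((((LinearMap.charpoly (Algebra.lmul K₀⟮x⟯ E y)).coeff i : K₀⟮x⟯) : E) : Ω) =
    ((((P.coeff i : OJ D) : K₀⟮x⟯) : E) : Ω)
  rw [e1]

include D in
/-- **Generic form: the norm to `K₀(x)` commutes with reduction.** -/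
theorem norm_red_generic (hpos : 0 < Module.finrank K₀⟮x⟯ E)
    (heq : Module.finrank k₀⟮xk⟯ κ' = Module.finrank K₀⟮x⟯ E)
    (y : E) (hy : (y : Ω) ∈ Oc) (hk : rd ⟨(y : Ω), hy⟩ ∈ κ') :
    ∃ hN : ((algebraMap K₀⟮x⟯ E (Algebra.norm K₀⟮x⟯ y) : E) : Ω) ∈ Oc,
      rd ⟨_, hN⟩ = ((algebraMap k₀⟮xk⟯ κ'
        (Algebra.norm k₀⟮xk⟯ (⟨rd ⟨(y : Ω), hy⟩, hk⟩ : κ')) : κ') : Ωk) := by
  have : Module.Finite K₀⟮x⟯ E := Module.finite_of_finrank_pos hpos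
  have : Module.Finite k₀⟮xk⟯ κ' := Module.finite_of_finrank_pos (heq ▸ hpos)
  obtain ⟨hc, hr⟩ := charpoly_red_generic D hpos heq y hy hk 0
  have n1 : Algebra.norm K₀⟮x⟯ y = (-1) ^ Module.finrank K₀⟮x⟯ E *
      (LinearMap.charpoly (Algebra.lmul K₀⟮x⟯ E y)).coeff 0 := by
    rw [Algebra.norm_apply, LinearMap.det_eq_sign_charpoly_coeff]
  have n2 : Algebra.norm k₀⟮xk⟯ (⟨rd ⟨(y : Ω), hy⟩, hk⟩ : κ') =
      (-1) ^ Module.finrank K₀⟮x⟯ E * (LinearMap.charpoly (Algebra.lmul k₀⟮xk⟯ κ'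
        (⟨rd ⟨(y : Ω), hy⟩, hk⟩ : κ'))).coeff 0 := by
    rw [Algebra.norm_apply, LinearMap.det_eq_sign_charpoly_coeff, heq]
  have e1 : ((algebraMap K₀⟮x⟯ E (Algebra.norm K₀⟮x⟯ y) : E) : Ω) =
      (((-1 : ℤ) ^ Module.finrank K₀⟮x⟯ E : ℤ) : Ω) *
        ((((LinearMap.charpoly (Algebra.lmul K₀⟮x⟯ E y)).coeff 0 : K₀⟮x⟯) : E) : Ω) := by
    rw [n1]
    push_cast
    rfl
  have hN : ((algebraMap K₀⟮x⟯ E (Algebra.norm K₀⟮x⟯ y) : E) : Ω) ∈ Oc := by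
    rw [e1]
    exact Oc.mul_mem (intCast_mem Oc _) hc
  refine ⟨hN, ?_⟩
  have e2 : (⟨_, hN⟩ : Oc) = (((-1 : ℤ) ^ Module.finrank K₀⟮x⟯ E : ℤ) : Oc) * ⟨_, hc⟩ := by
    apply Subtype.ext
    rw [Subring.coe_mul, Subring.coe_intCast]
    exact e1
  rw [e2, map_mul, map_intCast, hr, n2]
  push_cast
  rfl

end GenericJ

/-! ### The modular instance -/

section Modular

open ModularCurve AlgebraicCurve Fermat.Agent.S24 Fermat.Agent.S18.Content Fermat.Agent.S18.Plan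

set_option synthInstance.maxHeartbeats 400000
set_option maxHeartbeats 1000000

attribute [local instance 2000] Module.Free.of_divisionRing

variable (A : ValuationSubring Kbar)

/-- `F_{1,k} ⊆ k(j̄)`. -/
theorem fk_one_le : Fk A 1 ≤ (kk A)⟮jqModC (kk A)⟯ := by
  refine IntermediateField.adjoin_le_iff.mpr ?_
  rintro z ⟨d, _, hd, rfl⟩
  have hd1 : d = 1 := Nat.dvd_one.mp hd
  subst hd1
  rw [qExpand_one_apply]
  exact IntermediateField.mem_adjoin_simple_self _ _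

/-- `Q̄(j) ⊆ F_1`. -/
theorem adjoin_j_le (N : ℕ) [NeZero N] :
    Kbar⟮((jBar N : FN N) : Om)⟯ ≤ modularFunctionFieldBar 1 := by
  refine IntermediateField.adjoin_le_iff.mpr (Set.singleton_subset_iff.mpr ?_)
  exact (jBar 1).2

/-- The generic `DataJ` for `Q̄(j) ⊆ F_N`, from `RedStmt` at the levels `N` and `1`. -/
theorem dataJ {N : ℕ} [NeZero N] (hR : RedStmt A N) (hR1 : RedStmt A 1) :
    DataJ (Ocal A) (red A) (modularFunctionFieldBar N) (Fk A N) (jBar N) (Plan2.jkEl A N) where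
  hinv := fun y hy => inv_mem_Ocal A y hy
  hv := valProp_of_redStmt A hR
  hb := hR.2.1
  hc := hR.2.2.1
  hJ := fun y hy => fk_one_le A (hR1.2.1 y (adjoin_j_le N hy))

variable (N : ℕ) [NeZero N] (ℓ : ℕ) [Fact ℓ.Prime]

/-- `[F_N : Q̄(j)] = ψ(N) > 0`. -/
theorem finrank_pos_bar : 0 < Module.finrank Kbar⟮jBar N⟯ (FN N) := by
  rw [FibreCount.finrank_eq]
  exact FibreCount.dedekindPsi_pos N

/-- No defect: `[F_{N,k} : k(j̄)] = [F_N : Q̄(j)]` for `ℓ ∤ N`. -/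
theorem finrank_k_eq (hℓ : ¬ ℓ ∣ N) [CharP (kk A) ℓ] :
    Module.finrank (kk A)⟮Plan2.jkEl A N⟯ (Fk A N) = Module.finrank Kbar⟮jBar N⟯ (FN N) := by
  rw [FibreCount.finrank_eq]
  exact CuspEmb.finrank_fullC (kk A) N ℓ hℓ

/-- `F_N` is finite over `Q̄(j)`. -/
theorem finite_bar : Module.Finite ↥(Kbar⟮jBar N⟯) (FN N) :=
  Module.finite_of_finrank_pos (finrank_pos_bar N)

/-- `F_{N,k}` is finite over `k(j̄)` for `ℓ ∤ N`. -/
theorem finite_k (hℓ : ¬ ℓ ∣ N) [CharP (kk A) ℓ] :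
    Module.Finite ↥((kk A)⟮Plan2.jkEl A N⟯) (Fk A N) :=
  Module.finite_of_finrank_pos (by rw [finrank_k_eq A N ℓ hℓ]; exact finrank_pos_bar N)

/-- The data for `Q̄(j) ⊆ F_N` at a place over `ℓ ∤ N`. -/
theorem dataJ_modular (hℓ : ¬ ℓ ∣ N) (hA : A.LiesOverPrime ℓ) :
    DataJ (Ocal A) (red A) (modularFunctionFieldBar N) (Fk A N) (jBar N) (Plan2.jkEl A N) :=
  have hℓp : ℓ.Prime := Fact.out
  dataJ A (Red.redStmt N ℓ hℓ A hA)
    (Red.redStmt 1 ℓ (fun h => hℓp.one_lt.ne' (Nat.dvd_one.mp h)) A hA)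

/-- **`OrthoBasis.Setup` for `Q̄(j) ⊆ F_N`** (`O = Q̄(j) ∩ Ocal`, `O' = F_N ∩ Ocal`, reductions
onto `k(j̄) ⊆ F_{N,k}`, no defect). -/
theorem setupJ_modular (hℓ : ¬ ℓ ∣ N) (hA : A.LiesOverPrime ℓ) :
    OrthoBasis.Setup (OJ (dataJ_modular A N ℓ hℓ hA)) (OJ' (dataJ_modular A N ℓ hℓ hA))
      (redJ (dataJ_modular A N ℓ hℓ hA)) (redJ' (dataJ_modular A N ℓ hℓ hA)) := by
  have := charP_residueField_of_liesOverPrime A ℓ hA
  exact setupJ _ (finrank_pos_bar N) (finrank_k_eq A N ℓ hℓ)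

end Modular

section Exports

open ModularCurve AlgebraicCurve Fermat.Agent.S24 Fermat.Agent.S18.Content Fermat.Agent.S18.Plan

set_option synthInstance.maxHeartbeats 400000
set_option maxHeartbeats 1000000

attribute [local instance 2000] Module.Free.of_divisionRing

/-- **The characteristic polynomial of `y ∈ F_N ∩ Ocal` over `Q̄(j)` commutes with reduction**:
every coefficient lies in `Ocal` and reduces to the corresponding coefficient of the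
characteristic polynomial of `ȳ` over `k(j̄)`. -/
theorem charpoly_red (N : ℕ) [NeZero N] (ℓ : ℕ) [Fact ℓ.Prime] (hℓ : ¬ ℓ ∣ N)
    (A : ValuationSubring Kbar) (hA : A.LiesOverPrime ℓ)
    [Module.Finite ↥(Kbar⟮jBar N⟯) (FN N)]
    [Module.Finite ↥((kk A)⟮Plan2.jkEl A N⟯) (Fk A N)]
    (y : FN N) (hy : (y : Om) ∈ Ocal A) (hk : red A ⟨(y : Om), hy⟩ ∈ Fk A N) (i : ℕ) :
    ∃ hc : ((((LinearMap.charpoly (Algebra.lmul ↥(Kbar⟮jBar N⟯) (FN N) y)).coeff i :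
        ↥(Kbar⟮jBar N⟯)) : FN N) : Om) ∈ Ocal A,
      red A ⟨_, hc⟩ = ((((LinearMap.charpoly (Algebra.lmul ↥((kk A)⟮Plan2.jkEl A N⟯) (Fk A N)
        (⟨red A ⟨(y : Om), hy⟩, hk⟩ : Fk A N))).coeff i : ↥((kk A)⟮Plan2.jkEl A N⟯)) :
          Fk A N) : Omk A) := by
  have := charP_residueField_of_liesOverPrime A ℓ hA
  exact charpoly_red_generic (dataJ_modular A N ℓ hℓ hA) (finrank_pos_bar N)
    (finrank_k_eq A N ℓ hℓ) y hy hk i

/-- **[NORM] (II): the norm from `F_N` to `Q̄(j)` commutes with reduction.** -/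
theorem norm_red (N : ℕ) [NeZero N] (ℓ : ℕ) [Fact ℓ.Prime] (hℓ : ¬ ℓ ∣ N)
    (A : ValuationSubring Kbar) (hA : A.LiesOverPrime ℓ) (y : FN N)
    (hy : (y : Om) ∈ Ocal A) (hk : red A ⟨(y : Om), hy⟩ ∈ Fk A N) :
    ∃ hN : ((algebraMap ↥(Kbar⟮jBar N⟯) (FN N) (Algebra.norm ↥(Kbar⟮jBar N⟯) y) : FN N) : Om) ∈
        Ocal A,
      red A ⟨_, hN⟩ = ((algebraMap ↥((kk A)⟮Plan2.jkEl A N⟯) (Fk A N)
        (Algebra.norm ↥((kk A)⟮Plan2.jkEl A N⟯) (⟨red A ⟨(y : Om), hy⟩, hk⟩ : Fk A N)) :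
          Fk A N) : Omk A) := by
  have := charP_residueField_of_liesOverPrime A ℓ hA
  exact norm_red_generic (dataJ_modular A N ℓ hℓ hA) (finrank_pos_bar N)
    (finrank_k_eq A N ℓ hℓ) y hy hk

end Exports

end Fermat.Agent.S37.NormRed
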