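import Mathlib
import Fermat.Agent.S37.Plan2
import Fermat.Agent.S28.ModEqK

/-!
# S37 — [CHARTHECKE] chart compatibility of the two degeneracy maps (helper23)

`Plan2.ChartHecke A N ℓ` for every prime `ℓ`: a place `W` of `F_{Nℓ}` restricts to a place of
finite type (`j ∈ A`) along `α` iff it does along `β`.

With `x = α j = j(q)` and `y = β j = j(q^ℓ)` in `F_{Nℓ}` the claim reads
`(∃ a ∈ A, x - a ∈ 𝔪_W) ↔ (∃ b ∈ A, y - b ∈ 𝔪_W)`.  Both directions follow from the modular
equation `Φ_ℓ(x, y) = 0 = Φ_ℓ(y, x)` (`S28/ModEqC`, `S28/ModEqK`), whose polynomial is monic with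
coefficients in the image of `ℤ[ζ_ℓ]`, hence in every valuation subring `A` of `Q̄`:
if `x ≡ a mod 𝔪_W` then `y` is integral over `O_W`, and its residue is a root of the monic
polynomial `Φ_ℓ(Y, a) ∈ A[Y]`, all of whose roots lie in `A` (`Q̄` algebraically closed,
`A` integrally closed).

Exports (namespace `Fermat.Agent.S37.ChartHecke`):
* `exists_sub_mem_nonunits` : the abstract place lemma;
* `exists_modEq_isIntegral` : the modular equation over a field with integral coefficients;
* `modEq_alpha_beta`, `modEq_beta_alpha` : the two relations in `F_{Nℓ}`;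
* `finPl_restrictAlong_iff` : unfolding of `FinPl` along a degeneracy map;
* `chartHecke` : `Plan2.ChartHecke A N ℓ`.
-/

set_option autoImplicit false

noncomputable section

namespace Fermat.Agent.S37.ChartHecke

open ModularCurve AlgebraicCurve Polynomial
open Fermat.Agent.S24 Fermat.Agent.S18.Plan Fermat.Agent.S28

/-! ## Valuation-ring generalities -/

section Generic

variable {L : Type*} [Field L]

/-- A valuation subring is integrally closed in its field. -/
theorem mem_of_isIntegral (A : ValuationSubring L) {x : L} (hx : IsIntegral A x) : x ∈ A := by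
  have hv : Valuation.Integers A.valuation A := by
    have := Valuation.valuationSubring.integers (v := A.valuation)
    rwa [A.valuationSubring_valuation] at this
  exact (A.valuation_le_one_iff x).mp (hv.isIntegral_iff_v_le_one.mp hx)

/-- Algebraic integers lie in every valuation subring. -/
theorem mem_of_isIntegral_int (A : ValuationSubring L) {x : L} (hx : IsIntegral ℤ x) : x ∈ A :=
  mem_of_isIntegral A hx.tower_top

/-- A root of a monic polynomial with coefficients in a valuation subring lies in it. -/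
theorem root_mem (A : ValuationSubring L) {ψ : L[X]} (hmon : ψ.Monic)
    (hc : ∀ i, ψ.coeff i ∈ A) {b : L} (hb : ψ.eval b = 0) : b ∈ A := by
  have hl : ψ ∈ Polynomial.lifts (algebraMap A L) := by
    rw [Polynomial.lifts_iff_coeff_lifts]
    intro n
    exact ⟨⟨_, hc n⟩, rfl⟩
  obtain ⟨q, hq, -, hqm⟩ := Polynomial.lifts_and_natDegree_eq_and_monic hl hmon
  refine mem_of_isIntegral A ⟨q, hqm, ?_⟩
  rw [← Polynomial.eval_map, hq, hb]

/-- The maximal ideal of a pulled-back valuation subring. -/
theorem mem_nonunits_comap_iff {L' : Type*} [Field L'] (W : ValuationSubring L') (f : L →+* L')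
    (t : L) : t ∈ (W.comap f).nonunits ↔ f t ∈ W.nonunits := by
  rw [ValuationSubring.mem_nonunits_iff_or, ValuationSubring.mem_nonunits_iff_or,
    ValuationSubring.mem_comap, map_inv₀, map_eq_zero]

end Generic

/-! ## The abstract place lemma -/

section Abstract

variable {K F : Type*} [Field K] [IsAlgClosed K] [Field F] [Algebra K F]

/-- Let `A` be a valuation subring of the algebraically closed field `K`, `W` a valuation subring
of `F ⊇ K` containing `K`, and `Φ(Y; X)` a polynomial, monic in `Y`, with coefficients in `A`,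
such that `Φ(y; x) = 0`.  If `x ≡ a mod 𝔪_W` with `a ∈ A`, then `y ≡ b mod 𝔪_W` for some
`b ∈ A`. -/
theorem exists_sub_mem_nonunits (A : ValuationSubring K) (W : ValuationSubring F)
    (hW : ∀ c : K, algebraMap K F c ∈ W) (Φ : Polynomial (Polynomial K)) (hmon : Φ.Monic)
    (hΦ : ∀ i j, (Φ.coeff i).coeff j ∈ A) (x y : F)
    (hxy : (Φ.map (Polynomial.aeval x : Polynomial K →ₐ[K] F).toRingHom).eval y = 0)
    (a : K) (ha : a ∈ A) (hxa : x - algebraMap K F a ∈ W.nonunits) :
    ∃ b : K, b ∈ A ∧ y - algebraMap K F b ∈ W.nonunits := by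
  classical
  have hxW : x ∈ W := by
    have h1 : x - algebraMap K F a ∈ W := W.nonunits_subset hxa
    have h2 := W.add_mem _ _ h1 (hW a)
    rwa [sub_add_cancel] at h2
  let ι : K →+* W := (algebraMap K F).codRestrict W.toSubring hW
  let xW : W := ⟨x, hxW⟩
  let g : Polynomial K →+* W := Polynomial.eval₂RingHom ι xW
  have hg : (W.subtype : W →+* F).comp g =
      (Polynomial.aeval x : Polynomial K →ₐ[K] F).toRingHom := by
    apply Polynomial.ringHom_ext
    · intro c
      simp [g, ι, xW]
    · simp [g, xW]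
  have hyint : IsIntegral W y := by
    refine ⟨Φ.map g, hmon.map g, ?_⟩
    rw [Polynomial.eval₂_map]
    have : (algebraMap W F).comp g = (Polynomial.aeval x : Polynomial K →ₐ[K] F).toRingHom := hg
    rw [this, ← Polynomial.eval_map]
    exact hxy
  have hyW : y ∈ W := mem_of_isIntegral W hyint
  let yW : W := ⟨y, hyW⟩
  have hev : (Φ.map g).eval yW = 0 := by
    apply Subtype.val_injective
    have h := Polynomial.eval_map_apply (p := Φ.map g) (W.subtype : W →+* F) yW
    rw [Polynomial.map_map, hg] at h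
    show (W.subtype : W →+* F) ((Φ.map g).eval yW) = 0
    rw [← h]
    exact hxy
  let π : W →+* IsLocalRing.ResidueField W := IsLocalRing.residue W
  let ψ : Polynomial K := Φ.map (Polynomial.evalRingHom a)
  have hψmon : ψ.Monic := hmon.map _
  have hπx : π xW = π (ι a) := by
    rw [← sub_eq_zero, ← map_sub]
    show IsLocalRing.residue W (xW - ι a) = 0
    rw [IsLocalRing.residue_eq_zero_iff, ← ValuationSubring.coe_mem_nonunits_iff]
    exact hxa
  have hcomp : π.comp g = (π.comp ι).comp (Polynomial.evalRingHom a) := by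
    apply Polynomial.ringHom_ext
    · intro c
      simp [g]
    · simp [g, hπx]
  have h0 : (ψ.map (π.comp ι)).eval (π yW) = 0 := by
    rw [Polynomial.map_map, ← hcomp, ← Polynomial.map_map, Polynomial.eval_map_apply, hev,
      map_zero]
  have hsplit := (IsAlgClosed.splits ψ).eq_prod_roots_of_monic hψmon
  rw [hsplit, Polynomial.map_multiset_prod, Polynomial.eval_multiset_prod,
    Multiset.prod_eq_zero_iff] at h0
  simp only [Multiset.map_map, Multiset.mem_map, Function.comp_apply] at h0
  obtain ⟨b, hb, hb0⟩ := h0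
  have hbroot : ψ.eval b = 0 := (Polynomial.mem_roots hψmon.ne_zero).mp hb
  refine ⟨b, ?_, ?_⟩
  · refine root_mem A hψmon (fun i => ?_) hbroot
    show (Φ.map (Polynomial.evalRingHom a)).coeff i ∈ A
    rw [Polynomial.coeff_map, Polynomial.coe_evalRingHom, Polynomial.eval_eq_sum_range]
    exact A.toSubring.sum_mem fun j _ => A.mul_mem _ _ (hΦ i j) (A.pow_mem ha j)
  · have h1 : π (yW - ι b) = 0 := by
      rw [map_sub, sub_eq_zero]
      simp only [Polynomial.map_sub, Polynomial.map_X, Polynomial.map_C, Polynomial.eval_sub,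
        Polynomial.eval_X, Polynomial.eval_C, RingHom.comp_apply] at hb0
      exact sub_eq_zero.mp hb0
    have h2 : (yW - ι b) ∈ IsLocalRing.maximalIdeal W :=
      (IsLocalRing.residue_eq_zero_iff _).mp h1
    exact ValuationSubring.coe_mem_nonunits_iff.mpr h2

end Abstract

/-! ## The modular equation with integral coefficients -/

section ModEqInt

open Fermat.Agent.S28.ModEqK

/-- Every element of `ℤ[ζ_p] ⊆ ℂ` is an algebraic integer, and so is its image under any ring
homomorphism. -/
theorem isIntegral_map_ringA {k : Type*} [CommRing k] (p : ℕ) (hp : p ≠ 0) (φ : ringA p →+* k)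
    (a : ringA p) : IsIntegral ℤ (φ a) := by
  have hz : IsIntegral ℤ (zetaC p) :=
    (isPrimitiveRoot_zetaC hp).isIntegral (Nat.pos_of_ne_zero hp)
  have ha : IsIntegral ℤ (a : ℂ) := by
    obtain ⟨q, hq⟩ := a.2
    rw [← hq]
    have h1 : evC p q = Polynomial.aeval (zetaC p) q := by
      rw [Polynomial.aeval_def, algebraMap_int_eq]
      rfl
    rw [h1]
    exact Algebra.adjoin_le (S := integralClosure ℤ ℂ) (Set.singleton_subset_iff.mpr hz)
      (Polynomial.aeval_mem_adjoin_singleton _ _)
  have ha' : IsIntegral ℤ a :=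
    (isIntegral_algHom_iff ((ringA p).subtype.toIntAlgHom) Subtype.val_injective).mp ha
  exact map_isIntegral_int φ ha'

/-- The modular equation of prime level `p` over a field `k` containing a primitive `p`-th root
of unity, with a modular polynomial all of whose coefficients are algebraic integers (they lie in
the image of `ℤ[ζ_p]`).  Same proof as `S28.exists_modEq`, keeping track of the coefficients. -/
theorem exists_modEq_isIntegral (k : Type*) [Field k] (p : ℕ) (hp : p.Prime) (ζ : kˣ)
    (hζ : IsPrimitiveRoot ζ p) :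
    ∃ M : ModEq k p ζ, ∀ i j, IsIntegral ℤ ((M.Φ.coeff i).coeff j) := by
  obtain ⟨Φ, hmon, hdeg, hmap⟩ :=
    ModEqC.exists_modPoly p hp (ringA p) (zetaA p hp.ne_zero) (coe_zetaA p hp.ne_zero)
  obtain ⟨φ, hφ⟩ := exists_hom p hp (ζ : k) (IsPrimitiveRoot.coe_units_iff.mpr hζ)
  have hunit : Units.map (φ : ringA p →* k) (zetaA p hp.ne_zero) = ζ := Units.ext hφ
  have hcomp : ((Polynomial.aeval (expand k p (jqModC k)) :
        Polynomial k →ₐ[k] LaurentSeries k).toRingHom).comp (Polynomial.mapRingHom φ) =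
      (coeffMap φ).comp (Polynomial.eval₂RingHom (HahnSeries.C : ringA p →+* LaurentSeries (ringA p))
        (expand (ringA p) p (jqModC (ringA p)))) := by
    apply Polynomial.ringHom_ext
    · intro a
      simp only [RingHom.comp_apply, Polynomial.coe_mapRingHom, Polynomial.map_C,
        AlgHom.toRingHom_eq_coe, RingHom.coe_coe, Polynomial.aeval_C,
        Polynomial.coe_eval₂RingHom, Polynomial.eval₂_C]
      rw [ModularCurve.algebraMap_laurentSeries_eq_single, HahnSeries.C_apply, coeffMap_single]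
    · simp only [RingHom.comp_apply, Polynomial.coe_mapRingHom, Polynomial.map_X,
        AlgHom.toRingHom_eq_coe, RingHom.coe_coe, Polynomial.aeval_X,
        Polynomial.coe_eval₂RingHom, Polynomial.eval₂_X]
      rw [coeffMap_expand, coeffMap_jqModC]
  refine ⟨{ Φ := Φ.map (Polynomial.mapRingHom φ)
            monic := hmon.map _
            natDegree_eq := by rw [hmon.natDegree_map, hdeg]
            factor := ?_ }, ?_⟩
  · rw [Polynomial.map_map, hcomp, ← Polynomial.map_map, hmap, Polynomial.map_mul,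
      Polynomial.map_sub, Polynomial.map_X, Polynomial.map_C, Polynomial.map_prod,
      coeffMap_expand, coeffMap_jqModC]
    refine congrArg (fun s : Polynomial (LaurentSeries k) =>
      (X - C (expand k (p ^ 2) (jqModC k))) * s) (Finset.prod_congr rfl fun b _ => ?_)
    rw [Polynomial.map_sub, Polynomial.map_X, Polynomial.map_C, coeffMap_scale, coeffMap_jqModC,
      map_pow, hunit]
  · intro i j
    show IsIntegral ℤ (((Φ.map (Polynomial.mapRingHom φ)).coeff i).coeff j)
    rw [Polynomial.coeff_map, Polynomial.coe_mapRingHom, Polynomial.coeff_map]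
    exact isIntegral_map_ringA p hp.ne_zero φ _

end ModEqInt

/-! ## The two relations in `F_{Nℓ}` -/

section Coe

variable {K Ω : Type*} [Field K] [Field Ω] [Algebra K Ω]

/-- Evaluation of a two-variable polynomial in an intermediate field, computed in the ambient
field. -/
theorem coe_eval_map_aeval (E : IntermediateField K Ω) (Φ : Polynomial (Polynomial K))
    (x y : E) :
    (((Φ.map (Polynomial.aeval x : Polynomial K →ₐ[K] E).toRingHom).eval y : E) : Ω) =
      (Φ.map (Polynomial.aeval (x : Ω) : Polynomial K →ₐ[K] Ω).toRingHom).eval (y : Ω) := by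
  have h := Polynomial.eval_map_apply
    (p := Φ.map (Polynomial.aeval x : Polynomial K →ₐ[K] E).toRingHom) (E.val : E →+* Ω) y
  rw [Polynomial.map_map] at h
  have hc : (E.val : E →+* Ω).comp (Polynomial.aeval x : Polynomial K →ₐ[K] E).toRingHom =
      (Polynomial.aeval (x : Ω) : Polynomial K →ₐ[K] Ω).toRingHom := by
    apply Polynomial.ringHom_ext
    · intro c
      simp
    · simp
  rw [hc] at h
  exact h.symm

end Coe

section Concrete

variable (N ℓ : ℕ) [NeZero N] [NeZero ℓ]

theorem coeffEmb_jq_eq : coeffEmb Kbar jq = jqModC Kbar :=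
  coeffMap_jqModC (R := ℚ) (algebraMap ℚ Kbar)

/-- `α j = j(q)`. -/
theorem coe_alpha_jBar :
    ((heckeAlphaBar Kbar N ℓ (jBar N) : FN (N * ℓ)) : Om) = jqModC Kbar := by
  rw [coe_heckeAlphaBar]
  exact coeffEmb_jq_eq

/-- `β j = j(q^ℓ)`. -/
theorem coe_beta_jBar :
    ((heckeBetaBar Kbar N ℓ (jBar N) : FN (N * ℓ)) : Om) = expand Kbar ℓ (jqModC Kbar) := by
  rw [coe_heckeBetaBar, expand_eq_qExpand]
  show qExpand Kbar ℓ (coeffEmb Kbar jq) = _
  rw [coeffEmb_jq_eq]

/-- `Φ_ℓ(α j, β j) = 0`: `α j = j(q)` is a root of `Φ_ℓ(X, j(q^ℓ))`. -/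
theorem modEq_alpha_beta (hℓ : ℓ.Prime) (ζ : Kbarˣ) (M : ModEq Kbar ℓ ζ) :
    (M.Φ.map (Polynomial.aeval (heckeBetaBar Kbar N ℓ (jBar N)) :
        Polynomial Kbar →ₐ[Kbar] FN (N * ℓ)).toRingHom).eval
      (heckeAlphaBar Kbar N ℓ (jBar N)) = 0 := by
  refine Subtype.val_injective ?_
  show (((M.Φ.map (Polynomial.aeval (heckeBetaBar Kbar N ℓ (jBar N)) :
        Polynomial Kbar →ₐ[Kbar] FN (N * ℓ)).toRingHom).eval
      (heckeAlphaBar Kbar N ℓ (jBar N)) : FN (N * ℓ)) : Om) = 0
  rw [coe_eval_map_aeval, coe_alpha_jBar, coe_beta_jBar]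
  have h := M.aeval_eq_zero hℓ 1 one_ne_zero
  rw [one_pow, mul_one, yS_one_left, yS_one_left, Fermat.Agent.S28.expand_one] at h
  exact h

/-- `Φ_ℓ(β j, α j) = 0`: `β j = j(q^ℓ)` is a root of `Φ_ℓ(X, j(q))`. -/
theorem modEq_beta_alpha (hℓ : ℓ.Prime) (ζ : Kbarˣ) (M : ModEq Kbar ℓ ζ) :
    (M.Φ.map (Polynomial.aeval (heckeAlphaBar Kbar N ℓ (jBar N)) :
        Polynomial Kbar →ₐ[Kbar] FN (N * ℓ)).toRingHom).eval
      (heckeBetaBar Kbar N ℓ (jBar N)) = 0 := by
  refine Subtype.val_injective ?_
  show (((M.Φ.map (Polynomial.aeval (heckeAlphaBar Kbar N ℓ (jBar N)) :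
        Polynomial Kbar →ₐ[Kbar] FN (N * ℓ)).toRingHom).eval
      (heckeBetaBar Kbar N ℓ (jBar N)) : FN (N * ℓ)) : Om) = 0
  rw [coe_eval_map_aeval, coe_alpha_jBar, coe_beta_jBar]
  have h := M.aeval_eq_zero' hℓ 1 one_ne_zero
  rw [one_pow, mul_one, yS_one_left, yS_one_left, Fermat.Agent.S28.expand_one] at h
  exact h

omit [NeZero ℓ] in
/-- Unfolding of `FinPl` for the restriction of a place along a map `F_N → F_{Nℓ}`. -/
theorem finPl_restrictAlong_iff (A : ValuationSubring Kbar) (φ : FN N →ₐ[Kbar] FN (N * ℓ))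
    (hφ : φ.toRingHom.IsIntegral) (W : Place Kbar (FN (N * ℓ))) :
    Plan2.FinPl A N (W.restrictAlong φ hφ) ↔
      ∃ a : Kbar, a ∈ A ∧
        φ (jBar N) - algebraMap Kbar (FN (N * ℓ)) a ∈ W.toValuationSubring.nonunits := by
  have key : ∀ t : FN N, t ∈ (W.restrictAlong φ hφ).toValuationSubring.nonunits ↔
      φ t ∈ W.toValuationSubring.nonunits := fun t =>
    mem_nonunits_comap_iff W.toValuationSubring φ.toRingHom t
  constructor
  · rintro ⟨a, ha⟩
    refine ⟨a, a.2, ?_⟩
    have h := (key _).mp ha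
    rwa [map_sub, AlgHom.commutes] at h
  · rintro ⟨a, haA, ha⟩
    refine ⟨⟨a, haA⟩, (key _).mpr ?_⟩
    rwa [map_sub, AlgHom.commutes]

/-- **[CHARTHECKE]** for every prime `ℓ` (no hypothesis on `N`): a place of `F_{Nℓ}` restricts to
a place of finite type along `α` iff it does along `β`. -/
theorem chartHecke (A : ValuationSubring Kbar) (hℓ : ℓ.Prime) : Plan2.ChartHecke A N ℓ := by
  intro hα hβ W
  obtain ⟨ζ₀, hζ₀⟩ := HasEnoughRootsOfUnity.exists_primitiveRoot Kbar ℓ
  obtain ⟨ζ, rfl⟩ : ∃ ζ : Kbarˣ, (ζ : Kbar) = ζ₀ := (hζ₀.isUnit hℓ.ne_zero)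
  have hζ : IsPrimitiveRoot ζ ℓ := IsPrimitiveRoot.coe_units_iff.mp hζ₀
  obtain ⟨M, hM⟩ := exists_modEq_isIntegral Kbar ℓ hℓ ζ hζ
  have hcoef : ∀ i j, (M.Φ.coeff i).coeff j ∈ A := fun i j => mem_of_isIntegral_int A (hM i j)
  refine Iff.trans (finPl_restrictAlong_iff N ℓ A _ hα W)
    (Iff.trans ?_ (finPl_restrictAlong_iff N ℓ A _ hβ W).symm)
  constructor
  · rintro ⟨a, ha, hxa⟩
    exact exists_sub_mem_nonunits A W.toValuationSubring W.algebraMap_mem' M.Φ M.monic hcoef _ _
      (modEq_beta_alpha N ℓ hℓ ζ M) a ha hxa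
  · rintro ⟨b, hb, hyb⟩
    exact exists_sub_mem_nonunits A W.toValuationSubring W.algebraMap_mem' M.Φ M.monic hcoef _ _
      (modEq_alpha_beta N ℓ hℓ ζ M) b hb hyb

end Concrete

end Fermat.Agent.S37.ChartHecke
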