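import Mathlib
import Fermat.Agent.Lib.FFSep.NormFibres
import Fermat.Agent.S37.Plan2b
import Fermat.Agent.S37.NormRed
import Fermat.Agent.S18.Char0
import Fermat.Agent.S18.PlacesModLMain
import Fermat.Agent.S18.FibreCount

/-!
# S37 [NORM] (III): `Plan2.FibreSum` from its rational case (helper5)

`Plan2.FibreSum A N` compares, for `y ∈ F_N ∩ Ocal` with `ȳ ≠ 0` and every `c ∈ ℙ¹(k)`, the sum
of the orders of `y` over the places of `F_N` above the residue disc of `c` with the sum of the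
orders of `ȳ` over the places of `F_{N,k}` above `c`.  Here this is reduced to the same statement
for `y ∈ Q̄(j)` (`fibreSum_of_rat`): both sets of places are unions of fibres of the `j`-line
(`isSaturated_fibK`, `isSaturated_fibk`), on such sets the sum of the orders of the norm is the
degree times the sum of the orders (`Lib.FFSep.sum_ord_norm_of_saturated`), the norm commutes
with the reduction (`NormRed.norm_red`) and the two degrees agree (`NormRed.finrank_k_eq`).
-/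

set_option autoImplicit false
set_option synthInstance.maxHeartbeats 400000
set_option maxHeartbeats 1000000
set_option linter.unusedSectionVars false

namespace Fermat.Agent.S37.FibreSumNorm

open ModularCurve AlgebraicCurve IntermediateField
open Fermat.Agent.S24 Fermat.Agent.S18.Content Fermat.Agent.S18.Plan
open Fermat.Agent.S18 Fermat.Agent.Lib

section Saturated

variable (N : ℕ) [NeZero N] (A : ValuationSubring Kbar)

/-- `fibK A N (some c)` is the set of places over the residue disc of `c`. -/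
theorem fibK_some_eq (c : kk A) :
    Plan2.fibK A N (some c) = FFSep.zerosOver (jBar N)
      {a : Kbar | ∃ a' : A, IsLocalRing.residue A a' = c ∧ (a' : Kbar) = a} := by
  have hxt := FibreCount.transcendental_jBar N
  ext P
  rw [FFSep.mem_zerosOver_iff_nonunits hxt]
  constructor
  · rintro ⟨a, ha, h⟩
    exact ⟨(a : Kbar), ⟨a, ha, rfl⟩, h⟩
  · rintro ⟨_, ⟨a, ha, rfl⟩, h⟩
    exact ⟨a, ha, h⟩

/-- `fibK A N none` is the complement of the set of places over the points of `A`. -/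
theorem fibK_none_eq :
    Plan2.fibK A N none = (FFSep.zerosOver (jBar N) {a : Kbar | a ∈ A})ᶜ := by
  have hxt := FibreCount.transcendental_jBar N
  ext P
  rw [Set.mem_compl_iff, FFSep.mem_zerosOver_iff_nonunits hxt]
  refine not_congr ?_
  constructor
  · rintro ⟨a, h⟩
    exact ⟨(a : Kbar), a.2, h⟩
  · rintro ⟨a, ha, h⟩
    exact ⟨⟨a, ha⟩, h⟩

/-- `fibK A N c` is a union of fibres of the `j`-line. -/
theorem isSaturated_fibK (c : Option (kk A)) :
    FFSep.IsSaturated Kbar (jBar N) (Plan2.fibK A N c) := by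
  cases c with
  | some c =>
    rw [fibK_some_eq]
    exact FFSep.isSaturated_zerosOver _
  | none =>
    rw [fibK_none_eq]
    exact (FFSep.isSaturated_zerosOver _).compl

/-- `fibk A N c` is the fibre of the `j̄`-line over `c`. -/
theorem fibk_eq (c : Option (kk A)) :
    Plan2.fibk A N c = FFSep.fibre (kk A) (Plan2.jkEl A N) c := by
  have hxt : Transcendental (kk A) (Plan2.jkEl A N) := PlacesModL.transcendental_jb A N
  cases c with
  | some c =>
    ext Q
    exact FFSep.mem_nonunits_iff_ord_pos Q (FFPlaces.sub_algebraMap_ne_zero hxt c)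
  | none =>
    ext Q
    have h0 : Plan2.jkEl A N ≠ 0 := fun h => hxt (h ▸ isAlgebraic_zero)
    exact (FFPlaces.ord_neg_iff Q h0).symm

/-- `fibk A N c` is a union of fibres of the `j̄`-line. -/
theorem isSaturated_fibk (c : Option (kk A)) :
    FFSep.IsSaturated (kk A) (Plan2.jkEl A N) (Plan2.fibk A N c) := by
  rw [fibk_eq]
  exact FFSep.isSaturated_fibre c

end Saturated

section Norm

variable (N : ℕ) [NeZero N]

/-- **(K)** the norm formula over the residue disc of `c` (resp. outside `A`) on `F_N`. -/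
theorem sum_fibK_norm (A : ValuationSubring Kbar) (y : FN N) (hy0 : y ≠ 0)
    (c : Option (kk A)) :
    ∑ᶠ P ∈ Plan2.fibK A N c,
        P.ord (algebraMap ↥(Kbar⟮jBar N⟯) (FN N) (Algebra.norm ↥(Kbar⟮jBar N⟯) y)) =
      (Module.finrank ↥(Kbar⟮jBar N⟯) (FN N) : ℤ) * ∑ᶠ P ∈ Plan2.fibK A N c, P.ord y := by
  have := NormRed.finite_bar N
  have := Char0.isSeparable_jBar N
  exact FFSep.sum_ord_norm_of_saturated (FibreCount.transcendental_jBar N)
    (isSaturated_fibK N A c) hy0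

/-- **(k)** the norm formula over `c ∈ ℙ¹(k)` on `F_{N,k}`, `ℓ ∤ N`. -/
theorem sum_fibk_norm (ℓ : ℕ) [Fact ℓ.Prime] (hℓ : ¬ ℓ ∣ N) (A : ValuationSubring Kbar)
    (hA : A.LiesOverPrime ℓ) (z : Fk A N) (hz : z ≠ 0) (c : Option (kk A)) :
    ∑ᶠ Q ∈ Plan2.fibk A N c,
        Q.ord (algebraMap ↥((kk A)⟮Plan2.jkEl A N⟯) (Fk A N)
          (Algebra.norm ↥((kk A)⟮Plan2.jkEl A N⟯) z)) =
      (Module.finrank ↥((kk A)⟮Plan2.jkEl A N⟯) (Fk A N) : ℤ) *
        ∑ᶠ Q ∈ Plan2.fibk A N c, Q.ord z := by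
  have : FiniteDimensional ↥((kk A)⟮Plan2.jkEl A N⟯) (Fk A N) :=
    PlacesModL.finiteDimensional_jb N ℓ hℓ A hA
  have : Algebra.IsSeparable ↥((kk A)⟮Plan2.jkEl A N⟯) (Fk A N) :=
    PlacesModL.isSeparable_jb N ℓ hℓ A hA
  have := PlacesModL.isAlgClosed_kk A
  have hxt : Transcendental (kk A) (Plan2.jkEl A N) := PlacesModL.transcendental_jb A N
  exact FFSep.sum_ord_norm_of_saturated hxt (isSaturated_fibk N A c) hz

/-- **[NORM] (III)**: `Plan2.FibreSum A N` follows from its case `y ∈ Q̄(j)`. -/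
theorem fibreSum_of_rat (ℓ : ℕ) [Fact ℓ.Prime] (hℓ : ¬ ℓ ∣ N)
    (A : ValuationSubring Kbar) (hA : A.LiesOverPrime ℓ)
    (hrat : ∀ (y : FN N), y ∈ IntermediateField.adjoin Kbar {jBar N} →
      ∀ (hy : (y : Om) ∈ Ocal A) (hk : red A ⟨(y : Om), hy⟩ ∈ Fk A N),
        red A ⟨(y : Om), hy⟩ ≠ 0 → ∀ c : Option (kk A),
          ∑ᶠ P ∈ Plan2.fibK A N c, P.ord y =
            ∑ᶠ Q ∈ Plan2.fibk A N c, Q.ord (⟨_, hk⟩ : Fk A N)) :
    Plan2.FibreSum A N := by
  intro y hy hk hne c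
  have hCharP : CharP (kk A) ℓ := charP_residueField_of_liesOverPrime A ℓ hA
  have hfink : Module.Finite ↥((kk A)⟮Plan2.jkEl A N⟯) (Fk A N) := NormRed.finite_k A N ℓ hℓ
  have hy0 : y ≠ 0 := by
    rintro rfl
    apply hne
    have h0 : (⟨((0 : FN N) : Om), hy⟩ : Ocal A) = 0 := rfl
    rw [h0, map_zero]
  have hz0 : (⟨_, hk⟩ : Fk A N) ≠ 0 := fun h => hne (congrArg Subtype.val h)
  obtain ⟨hN, hred⟩ := NormRed.norm_red N ℓ hℓ A hA y hy hk
  have hνmem : algebraMap ↥(Kbar⟮jBar N⟯) (FN N) (Algebra.norm ↥(Kbar⟮jBar N⟯) y) ∈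
      IntermediateField.adjoin Kbar {jBar N} := (Algebra.norm ↥(Kbar⟮jBar N⟯) y).2
  have hnek : Algebra.norm ↥((kk A)⟮Plan2.jkEl A N⟯) (⟨_, hk⟩ : Fk A N) ≠ 0 := by
    rw [Ne, Algebra.norm_eq_zero_iff]
    exact hz0
  have hkν : red A ⟨_, hN⟩ ∈ Fk A N := by
    rw [hred]
    exact SetLike.coe_mem _
  have e : (⟨red A ⟨_, hN⟩, hkν⟩ : Fk A N) =
      algebraMap ↥((kk A)⟮Plan2.jkEl A N⟯) (Fk A N)
        (Algebra.norm ↥((kk A)⟮Plan2.jkEl A N⟯) (⟨_, hk⟩ : Fk A N)) := Subtype.ext hred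
  have hneν : red A ⟨_, hN⟩ ≠ 0 := by
    intro h
    apply hnek
    have h2 : (⟨red A ⟨_, hN⟩, hkν⟩ : Fk A N) = 0 := Subtype.ext h
    rw [e] at h2
    exact (map_eq_zero _).mp h2
  have h1 := hrat _ hνmem hN hkν hneν c
  rw [e, sum_fibK_norm N A y hy0 c, sum_fibk_norm N ℓ hℓ A hA _ hz0 c,
    NormRed.finrank_k_eq A N ℓ hℓ] at h1
  have hpos : (Module.finrank ↥(Kbar⟮jBar N⟯) (FN N) : ℤ) ≠ 0 := by
    exact_mod_cast (NormRed.finrank_pos_bar N).ne'
  exact mul_left_cancel₀ hpos h1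

end Norm

end Fermat.Agent.S37.FibreSumNorm
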