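import Mathlib
import Fermat.Agent.S37.Plan2b
import Fermat.Agent.S37.EvalBasic
import Fermat.Agent.Lib.ValSplit
import Fermat.Agent.Lib.FFSep.Norm
import Fermat.Agent.S18.PlacesModLMain
import Fermat.Agent.S18.FibreCount
import Fermat.Agent.S18.Char0

/-!
# S37 [NORM] (I): the fibre sums of a rational function of `j` (owner: helper45)

`fibreSum_rat` is `Plan2.FibreSum A N` restricted to `y ∈ Q̄(j) ⊂ F_N`:

  `Σ_{P ∈ fibK c} ord_P y = Σ_{Q ∈ fibk c} ord_Q ȳ`     for every `c ∈ ℙ¹(k)`.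

Proof.  By `Lib/ValSplit` (helper98), `y = c₀ · S(j) / S'(j)` with `S, S'` products of factors
`j - a` (`a ∈ A`) and `1 - b j` (`b ∈ 𝔪_A`); as `y` is a `v`-unit, `c₀ ∈ Aˣ`.  The class `Good` of
nonzero `y ∈ F_N ∩ Ocal` with `ȳ ∈ F_{N,k} ∖ 0` satisfying the identity for all `c` is closed under
products and inverses, and contains

* the constants of `Aˣ`                         (both sides are `0`);
* `j - a`, `a ∈ A`: both sides are `ψ(N)·[ā = c]` for `c ∈ k` and `-ψ(N)` for `c = ∞`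
  (`FFSep.sum_ord_zeros`, `FFSep.sum_ord_poles`, `[F_N : Q̄(j)] = ψ(N) = [F_{N,k} : k(j̄)]`);
* `1 - b j`, `b ∈ 𝔪_A`: both sides are `0` (the zeros of `j - b⁻¹` and the poles of `j` all lie in
  the fibre of `∞`, and cancel; the reduction is `1`).
-/

set_option autoImplicit false

noncomputable section

namespace Fermat.Agent.S37.FibreSumRat

open ModularCurve AlgebraicCurve IntermediateField
open Fermat.Agent.S24 Fermat.Agent.S18.Content Fermat.Agent.S18.Plan
open Fermat.Agent.S37.Plan2 Fermat.Agent.S18 Fermat.Agent.Lib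

set_option synthInstance.maxHeartbeats 400000
set_option maxHeartbeats 1600000

/-! ## Generic: partial sums of `ord` over a set of places -/

section Generic

/-- A finitely supported integer function summed over a set: positive part plus negative part. -/
theorem finsum_mem_eq_pos_add_neg {α : Type*} {h : α → ℤ} (hfin : (Function.support h).Finite)
    (U : Set α) :
    ∑ᶠ v ∈ U, h v = ∑ᶠ v ∈ U ∩ {v | 0 < h v}, h v + ∑ᶠ v ∈ U ∩ {v | h v < 0}, h v := by
  have h1 : (U ∩ {v | 0 < h v}) ∪ (U ∩ {v | h v < 0}) = U ∩ Function.support h := by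
    ext v
    simp only [Set.mem_union, Set.mem_inter_iff, Set.mem_ofPred_eq, Function.mem_support]
    constructor
    · rintro (⟨hU, hv⟩ | ⟨hU, hv⟩)
      · exact ⟨hU, by omega⟩
      · exact ⟨hU, by omega⟩
    · rintro ⟨hU, hv⟩
      rcases lt_or_gt_of_ne hv with hlt | hgt
      · exact Or.inr ⟨hU, hlt⟩
      · exact Or.inl ⟨hU, hgt⟩
  have hd : Disjoint (U ∩ {v | 0 < h v}) (U ∩ {v | h v < 0}) := by
    rw [Set.disjoint_left]
    rintro v ⟨-, hv⟩ ⟨-, hv'⟩
    simp only [Set.mem_ofPred_eq] at hv hv'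
    omega
  have hf1 : (U ∩ {v | 0 < h v}).Finite := hfin.subset (by
    rintro v ⟨-, hv⟩
    simp only [Set.mem_ofPred_eq] at hv
    simp only [Function.mem_support]
    omega)
  have hf2 : (U ∩ {v | h v < 0}).Finite := hfin.subset (by
    rintro v ⟨-, hv⟩
    simp only [Set.mem_ofPred_eq] at hv
    simp only [Function.mem_support]
    omega)
  rw [← finsum_mem_union hd hf1 hf2, h1, finsum_mem_inter_support]

variable {K F : Type*} [Field K] [Field F] [Algebra K F]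

/-- `f ∈ 𝔪_v` iff `ord_v f > 0`, for `f ≠ 0`. -/
theorem mem_nonunits_iff_ord_pos (v : Place K F) {f : F} (hf : f ≠ 0) :
    f ∈ v.toValuationSubring.nonunits ↔ 0 < v.ord f := by
  rw [FFPlaces.ord_pos_iff v hf]
  constructor
  · intro h
    refine ⟨ValuationSubring.nonunits_subset h, fun h' => ?_⟩
    have := EvalBasic.mul_mem_nonunits v.toValuationSubring h' h
    rw [inv_mul_cancel₀ hf] at this
    exact EvalBasic.one_notMem_nonunits _ this
  · rintro ⟨h1, h2⟩
    have := EvalBasic.inv_mem_nonunits_of_notMem v.toValuationSubring h2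
    rwa [inv_inv] at this

variable {x : F} [FiniteDimensional K⟮x⟯ F] [Algebra.IsSeparable K⟮x⟯ F]

/-- Partial sums of `ord` are additive on products. -/
theorem finsum_mem_ord_mul (hxt : Transcendental K x) (U : Set (Place K F)) {f g : F}
    (hf : f ≠ 0) (hg : g ≠ 0) :
    ∑ᶠ v ∈ U, v.ord (f * g) = ∑ᶠ v ∈ U, v.ord f + ∑ᶠ v ∈ U, v.ord g := by
  rw [← finsum_mem_add_distrib' ((FFSep.finite_support_ord hxt f).subset Set.inter_subset_right)
    ((FFSep.finite_support_ord hxt g).subset Set.inter_subset_right)]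
  exact finsum_mem_congr rfl fun v _ => v.ord_mul hf hg

omit [FiniteDimensional K⟮x⟯ F] [Algebra.IsSeparable K⟮x⟯ F] in
/-- Partial sums of `ord` change sign under inversion. -/
theorem finsum_mem_ord_inv (U : Set (Place K F)) (f : F) :
    ∑ᶠ v ∈ U, v.ord f⁻¹ = -∑ᶠ v ∈ U, v.ord f := by
  have h1 : ∑ᶠ v ∈ U, v.ord f⁻¹ = ∑ᶠ v : Place K F, -(∑ᶠ (_ : v ∈ U), v.ord f) := by
    refine finsum_congr fun v => ?_
    by_cases hv : v ∈ U
    · simp [hv, Place.ord_inv]
    · simp [hv]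
  rw [h1, finsum_neg_distrib]

omit [FiniteDimensional K⟮x⟯ F] [Algebra.IsSeparable K⟮x⟯ F] in
/-- Partial sums of `ord` of a constant vanish. -/
theorem finsum_mem_ord_algebraMap (U : Set (Place K F)) (a : K) :
    ∑ᶠ v ∈ U, v.ord (algebraMap K F a) = 0 :=
  finsum_mem_eq_zero_of_forall_eq_zero fun v _ => FFPlaces.ord_algebraMap v a

/-- **The partial sum of `ord (x - a)` over a set of places** which contains all or none of the
zeros of `x - a` (`z = 1` or `0`) and all or none of the poles of `x` (`p = 1` or `0`):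
it is `(z - p) · [F : K(x)]`. -/
theorem sum_ord_sub_mem [IsAlgClosed K] (hxt : Transcendental K x) (a : K)
    (U : Set (Place K F)) (z p : ℤ)
    (hz : (z = 1 ∧ ∀ v : Place K F, 0 < v.ord (x - algebraMap K F a) → v ∈ U) ∨
      (z = 0 ∧ ∀ v : Place K F, 0 < v.ord (x - algebraMap K F a) → v ∉ U))
    (hp : (p = 1 ∧ ∀ v : Place K F, v.ord x < 0 → v ∈ U) ∨
      (p = 0 ∧ ∀ v : Place K F, v.ord x < 0 → v ∉ U)) :
    ∑ᶠ v ∈ U, v.ord (x - algebraMap K F a) = (z - p) * (Module.finrank K⟮x⟯ F : ℤ) := by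
  rw [finsum_mem_eq_pos_add_neg (FFSep.finite_support_ord hxt _) U]
  have hZ : ∑ᶠ v ∈ U ∩ {v : Place K F | 0 < v.ord (x - algebraMap K F a)},
      v.ord (x - algebraMap K F a) = z * (Module.finrank K⟮x⟯ F : ℤ) := by
    rcases hz with ⟨rfl, hz⟩ | ⟨rfl, hz⟩
    · have hU : U ∩ {v : Place K F | 0 < v.ord (x - algebraMap K F a)} =
          {v : Place K F | 0 < v.ord (x - algebraMap K F a)} :=
        Set.inter_eq_right.mpr (fun v hv => hz v hv)
      rw [hU, FFSep.sum_ord_zeros hxt a, one_mul]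
    · have : U ∩ {v : Place K F | 0 < v.ord (x - algebraMap K F a)} = ∅ := by
        ext v
        simp only [Set.mem_inter_iff, Set.mem_ofPred_eq, Set.mem_empty_iff_false, iff_false,
          not_and]
        exact fun hU hv => hz v hv hU
      rw [this, finsum_mem_empty, zero_mul]
  have hP : ∑ᶠ v ∈ U ∩ {v : Place K F | v.ord (x - algebraMap K F a) < 0},
      v.ord (x - algebraMap K F a) = -(p * (Module.finrank K⟮x⟯ F : ℤ)) := by
    rw [FFSep.poles_sub_algebraMap_eq a]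
    rcases hp with ⟨rfl, hp⟩ | ⟨rfl, hp⟩
    · have hU : U ∩ {v : Place K F | v.ord x < 0} = {v : Place K F | v.ord x < 0} :=
        Set.inter_eq_right.mpr (fun v hv => hp v hv)
      rw [hU, one_mul, ← FFSep.sum_ord_poles hxt]
      exact finsum_mem_congr rfl fun v hv => FFSep.ord_sub_algebraMap_of_neg v hv a
    · have : U ∩ {v : Place K F | v.ord x < 0} = ∅ := by
        ext v
        simp only [Set.mem_inter_iff, Set.mem_ofPred_eq, Set.mem_empty_iff_false, iff_false,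
          not_and]
        exact fun hU hv => hp v hv hU
      rw [this, finsum_mem_empty, zero_mul, neg_zero]
  rw [hZ, hP]
  ring

end Generic

/-! ## The class `Good` -/

section Modular

variable (A : ValuationSubring Kbar) (N : ℕ) [NeZero N]

/-- Shortcut instance: the search for `Algebra k F_{N,k}` through `k((q))` takes seconds. -/
local instance algFk : Algebra (kk A) (Fk A N) := SubalgebraClass.toAlgebra (Fk A N)

omit [NeZero N] in
/-- Shortcut instance for `Algebra Q̄ F_N`. -/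
local instance algFN : Algebra Kbar (FN N) := SubalgebraClass.toAlgebra (modularFunctionFieldBar N)

/-- The nonzero `y ∈ F_N ∩ Ocal` whose reduction is a nonzero `z ∈ F_{N,k}` and for which the
fibre sum identity holds for every `c ∈ ℙ¹(k)`. -/
def Good (y : FN N) : Prop :=
  y ≠ 0 ∧ ∃ (z : Fk A N) (hy : (y : Om) ∈ Ocal A), z ≠ 0 ∧ red A ⟨(y : Om), hy⟩ = (z : Omk A) ∧
    ∀ c : Option (kk A), ∑ᶠ P ∈ fibK A N c, P.ord y = ∑ᶠ Q ∈ fibk A N c, Q.ord z

omit [NeZero N] in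
theorem transcendental_jkEl : Transcendental (kk A) (jkEl A N) :=
  PlacesModL.transcendental_jb A N

/-! ### Elementary facts on the two families of fibres -/

theorem sub_algebraMap_ne_zero_K (a : Kbar) : jBar N - algebraMap Kbar (FN N) a ≠ 0 :=
  FFPlaces.sub_algebraMap_ne_zero (FibreCount.transcendental_jBar N) a

omit [NeZero N] in
theorem sub_algebraMap_ne_zero_k (a : kk A) : jkEl A N - algebraMap (kk A) (Fk A N) a ≠ 0 :=
  FFPlaces.sub_algebraMap_ne_zero (transcendental_jkEl A N) a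

/-- A pole of `j` is not of finite type. -/
theorem not_finPl_of_ord_neg (P : Place Kbar (FN N)) (h : P.ord (jBar N) < 0) :
    ¬ FinPl A N P := by
  rintro ⟨a, ha⟩
  have hmem := EvalBasic.mem_of_sub_mem_nonunits P ha
  have := (FFPlaces.mem_iff_ord_nonneg P (EvalBasic.jBar_ne_zero N)).mp hmem
  omega

/-- At a zero of `j - a`, the value of `j` is `a`. -/
theorem eq_of_ord_pos (P : Place Kbar (FN N)) (a : Kbar)
    (h : 0 < P.ord (jBar N - algebraMap Kbar (FN N) a)) (a' : A)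
    (h' : jBar N - algebraMap Kbar (FN N) (a' : Kbar) ∈ P.toValuationSubring.nonunits) :
    a = (a' : Kbar) :=
  EvalBasic.value_unique P
    ((mem_nonunits_iff_ord_pos P (sub_algebraMap_ne_zero_K N a)).mpr h) h'

omit [NeZero N] in
/-- A pole of `j̄` is not in a finite fibre. -/
theorem not_mem_nonunits_of_ord_neg (Q : Place (kk A) (Fk A N)) (h : Q.ord (jkEl A N) < 0)
    (c : kk A) : jkEl A N - algebraMap (kk A) (Fk A N) c ∉ Q.toValuationSubring.nonunits := by
  intro hc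
  have hmem := EvalBasic.mem_of_sub_mem_nonunits Q hc
  have hne : jkEl A N ≠ 0 := by
    rintro h0
    rw [h0, Place.ord_zero] at h
    exact lt_irrefl _ h
  have := (FFPlaces.mem_iff_ord_nonneg Q hne).mp hmem
  omega

/-! ### Closure properties of `Good` -/

section Closure

variable [FiniteDimensional Kbar⟮jBar N⟯ (FN N)] [Algebra.IsSeparable Kbar⟮jBar N⟯ (FN N)]
  [FiniteDimensional (kk A)⟮jkEl A N⟯ (Fk A N)] [Algebra.IsSeparable (kk A)⟮jkEl A N⟯ (Fk A N)]

variable {A N}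

theorem Good.mul {y y' : FN N} (h : Good A N y) (h' : Good A N y') : Good A N (y * y') := by
  obtain ⟨hy0, z, hy, hz0, hred, hsum⟩ := h
  obtain ⟨hy0', z', hy', hz0', hred', hsum'⟩ := h'
  refine ⟨mul_ne_zero hy0 hy0', z * z', (Ocal A).mul_mem hy hy', mul_ne_zero hz0 hz0', ?_,
    fun c => ?_⟩
  · have e : (⟨((y * y' : FN N) : Om), (Ocal A).mul_mem hy hy'⟩ : Ocal A) =
        ⟨(y : Om), hy⟩ * ⟨(y' : Om), hy'⟩ := rfl
    rw [e, map_mul, hred, hred']
    rfl
  · rw [finsum_mem_ord_mul (FibreCount.transcendental_jBar N) _ hy0 hy0',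
      finsum_mem_ord_mul (transcendental_jkEl A N) _ hz0 hz0', hsum c, hsum' c]

omit [FiniteDimensional Kbar⟮jBar N⟯ (FN N)] [Algebra.IsSeparable Kbar⟮jBar N⟯ (FN N)]
  [FiniteDimensional (kk A)⟮jkEl A N⟯ (Fk A N)] [Algebra.IsSeparable (kk A)⟮jkEl A N⟯ (Fk A N)] in
theorem Good.inv {y : FN N} (h : Good A N y) : Good A N y⁻¹ := by
  obtain ⟨hy0, z, hy, hz0, hred, hsum⟩ := h
  have hne : red A ⟨(y : Om), hy⟩ ≠ 0 := by
    rw [hred]
    exact fun h0 => hz0 (Subtype.ext h0)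
  refine ⟨inv_ne_zero hy0, z⁻¹, inv_mem_Ocal A ⟨_, hy⟩ hne, inv_ne_zero hz0, ?_, fun c => ?_⟩
  · have e := red_inv A ⟨(y : Om), hy⟩ hne
    rw [hred] at e
    exact e
  · rw [finsum_mem_ord_inv, finsum_mem_ord_inv, hsum c]

omit [FiniteDimensional Kbar⟮jBar N⟯ (FN N)] [Algebra.IsSeparable Kbar⟮jBar N⟯ (FN N)]
  [FiniteDimensional (kk A)⟮jkEl A N⟯ (Fk A N)] [Algebra.IsSeparable (kk A)⟮jkEl A N⟯ (Fk A N)] in
/-- Unit constants are `Good`. -/
theorem good_const (u : A) (hu : IsLocalRing.residue A u ≠ 0) :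
    Good A N (algebraMap Kbar (FN N) (u : Kbar)) := by
  have hu0 : (u : Kbar) ≠ 0 := by
    intro h0
    apply hu
    have : u = 0 := Subtype.ext h0
    rw [this, map_zero]
  have hmem : ((algebraMap Kbar (FN N) (u : Kbar) : FN N) : Om) ∈ Ocal A := by
    rw [EvalBasic.coe_algebraMap_FN]
    exact C_mem_Ocal A u.2
  refine ⟨by simpa using hu0, algebraMap (kk A) (Fk A N) (IsLocalRing.residue A u), hmem,
    by simpa using hu, ?_, fun c => ?_⟩
  · rw [red_congr A (EvalBasic.coe_algebraMap_FN N (u : Kbar)) hmem (C_mem_Ocal A u.2),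
      red_C A u.2, EvalBasic.coe_algebraMap_Fk]
  · rw [finsum_mem_ord_algebraMap, finsum_mem_ord_algebraMap]

omit [FiniteDimensional Kbar⟮jBar N⟯ (FN N)] [Algebra.IsSeparable Kbar⟮jBar N⟯ (FN N)]
  [FiniteDimensional (kk A)⟮jkEl A N⟯ (Fk A N)] [Algebra.IsSeparable (kk A)⟮jkEl A N⟯ (Fk A N)] in
theorem good_one : Good A N 1 := by
  have h := good_const (A := A) (N := N) 1 (by rw [map_one]; exact one_ne_zero)
  simpa using h

theorem good_multiset_prod (m : Multiset (FN N)) (h : ∀ y ∈ m, Good A N y) :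
    Good A N m.prod := by
  induction m using Multiset.induction with
  | empty => simpa using good_one (A := A) (N := N)
  | cons y m ih =>
    rw [Multiset.prod_cons]
    exact (h y (Multiset.mem_cons_self y m)).mul
      (ih fun y' hy' => h y' (Multiset.mem_cons_of_mem hy'))

end Closure

/-! ### The elementary sums -/

section Sums

variable [FiniteDimensional Kbar⟮jBar N⟯ (FN N)] [Algebra.IsSeparable Kbar⟮jBar N⟯ (FN N)]
  [FiniteDimensional (kk A)⟮jkEl A N⟯ (Fk A N)] [Algebra.IsSeparable (kk A)⟮jkEl A N⟯ (Fk A N)]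

open Classical in
omit [FiniteDimensional (kk A)⟮jkEl A N⟯ (Fk A N)]
  [Algebra.IsSeparable (kk A)⟮jkEl A N⟯ (Fk A N)] in
/-- `j - a`, `a ∈ A`, over the residue disc of `c`: `[F_N : Q̄(j)]` if `ā = c`, else `0`. -/
theorem sumK_some_of_mem (a : A) (c : kk A) :
    ∑ᶠ P ∈ fibK A N (some c), P.ord (jBar N - algebraMap Kbar (FN N) (a : Kbar)) =
      (if IsLocalRing.residue A a = c then 1 else 0) *
        (Module.finrank Kbar⟮jBar N⟯ (FN N) : ℤ) := by
  have hz : ((if IsLocalRing.residue A a = c then (1 : ℤ) else 0) = 1 ∧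
        ∀ v : Place Kbar (FN N), 0 < v.ord (jBar N - algebraMap Kbar (FN N) (a : Kbar)) →
          v ∈ fibK A N (some c)) ∨
      ((if IsLocalRing.residue A a = c then (1 : ℤ) else 0) = 0 ∧
        ∀ v : Place Kbar (FN N), 0 < v.ord (jBar N - algebraMap Kbar (FN N) (a : Kbar)) →
          v ∉ fibK A N (some c)) := by
    by_cases hc : IsLocalRing.residue A a = c
    · exact Or.inl ⟨if_pos hc, fun v hv =>
        ⟨a, hc, (mem_nonunits_iff_ord_pos v (sub_algebraMap_ne_zero_K N _)).mpr hv⟩⟩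
    · refine Or.inr ⟨if_neg hc, ?_⟩
      rintro v hv ⟨a', ha', hmem⟩
      have h1 := eq_of_ord_pos A N v _ hv a' hmem
      have h2 : a = a' := Subtype.ext h1
      exact hc (by rw [h2, ha'])
  have hp : ((0 : ℤ) = 1 ∧ ∀ v : Place Kbar (FN N), v.ord (jBar N) < 0 → v ∈ fibK A N (some c)) ∨
      ((0 : ℤ) = 0 ∧ ∀ v : Place Kbar (FN N), v.ord (jBar N) < 0 → v ∉ fibK A N (some c)) := by
    refine Or.inr ⟨rfl, ?_⟩
    rintro v hv ⟨a', -, hmem⟩
    exact not_finPl_of_ord_neg A N v hv ⟨a', hmem⟩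
  rw [sum_ord_sub_mem (FibreCount.transcendental_jBar N) (a : Kbar) _ _ 0 hz hp, sub_zero]

omit [FiniteDimensional (kk A)⟮jkEl A N⟯ (Fk A N)]
  [Algebra.IsSeparable (kk A)⟮jkEl A N⟯ (Fk A N)] in
/-- `j - a`, `a ∈ A`, over the places not of finite type: `-[F_N : Q̄(j)]`. -/
theorem sumK_none_of_mem (a : A) :
    ∑ᶠ P ∈ fibK A N none, P.ord (jBar N - algebraMap Kbar (FN N) (a : Kbar)) =
      -(Module.finrank Kbar⟮jBar N⟯ (FN N) : ℤ) := by
  have hz : ((0 : ℤ) = 1 ∧
        ∀ v : Place Kbar (FN N), 0 < v.ord (jBar N - algebraMap Kbar (FN N) (a : Kbar)) →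
          v ∈ fibK A N none) ∨
      ((0 : ℤ) = 0 ∧
        ∀ v : Place Kbar (FN N), 0 < v.ord (jBar N - algebraMap Kbar (FN N) (a : Kbar)) →
          v ∉ fibK A N none) := by
    refine Or.inr ⟨rfl, fun v hv hv' => hv' ?_⟩
    exact ⟨a, (mem_nonunits_iff_ord_pos v (sub_algebraMap_ne_zero_K N _)).mpr hv⟩
  have hp : ((1 : ℤ) = 1 ∧ ∀ v : Place Kbar (FN N), v.ord (jBar N) < 0 → v ∈ fibK A N none) ∨
      ((1 : ℤ) = 0 ∧ ∀ v : Place Kbar (FN N), v.ord (jBar N) < 0 → v ∉ fibK A N none) :=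
    Or.inl ⟨rfl, fun v hv => not_finPl_of_ord_neg A N v hv⟩
  rw [sum_ord_sub_mem (FibreCount.transcendental_jBar N) (a : Kbar) _ 0 1 hz hp]
  ring

omit [FiniteDimensional (kk A)⟮jkEl A N⟯ (Fk A N)]
  [Algebra.IsSeparable (kk A)⟮jkEl A N⟯ (Fk A N)] in
/-- `j - a`, `a ∉ A`: every partial sum vanishes (zeros and poles all lie in the fibre of `∞`). -/
theorem sumK_of_notMem (a : Kbar) (ha : a ∉ A) (c : Option (kk A)) :
    ∑ᶠ P ∈ fibK A N c, P.ord (jBar N - algebraMap Kbar (FN N) a) = 0 := by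
  cases c with
  | none =>
    have hz : ((1 : ℤ) = 1 ∧
          ∀ v : Place Kbar (FN N), 0 < v.ord (jBar N - algebraMap Kbar (FN N) a) →
            v ∈ fibK A N none) ∨
        ((1 : ℤ) = 0 ∧
          ∀ v : Place Kbar (FN N), 0 < v.ord (jBar N - algebraMap Kbar (FN N) a) →
            v ∉ fibK A N none) := by
      refine Or.inl ⟨rfl, ?_⟩
      rintro v hv ⟨a', hmem⟩
      have h1 := eq_of_ord_pos A N v _ hv a' hmem
      exact ha (h1 ▸ a'.2)
    have hp : ((1 : ℤ) = 1 ∧ ∀ v : Place Kbar (FN N), v.ord (jBar N) < 0 → v ∈ fibK A N none) ∨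
        ((1 : ℤ) = 0 ∧ ∀ v : Place Kbar (FN N), v.ord (jBar N) < 0 → v ∉ fibK A N none) :=
      Or.inl ⟨rfl, fun v hv => not_finPl_of_ord_neg A N v hv⟩
    rw [sum_ord_sub_mem (FibreCount.transcendental_jBar N) a _ 1 1 hz hp]
    ring
  | some c =>
    have hz : ((0 : ℤ) = 1 ∧
          ∀ v : Place Kbar (FN N), 0 < v.ord (jBar N - algebraMap Kbar (FN N) a) →
            v ∈ fibK A N (some c)) ∨
        ((0 : ℤ) = 0 ∧
          ∀ v : Place Kbar (FN N), 0 < v.ord (jBar N - algebraMap Kbar (FN N) a) →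
            v ∉ fibK A N (some c)) := by
      refine Or.inr ⟨rfl, ?_⟩
      rintro v hv ⟨a', -, hmem⟩
      have h1 := eq_of_ord_pos A N v _ hv a' hmem
      exact ha (h1 ▸ a'.2)
    have hp : ((0 : ℤ) = 1 ∧
          ∀ v : Place Kbar (FN N), v.ord (jBar N) < 0 → v ∈ fibK A N (some c)) ∨
        ((0 : ℤ) = 0 ∧
          ∀ v : Place Kbar (FN N), v.ord (jBar N) < 0 → v ∉ fibK A N (some c)) := by
      refine Or.inr ⟨rfl, ?_⟩
      rintro v hv ⟨a', -, hmem⟩
      exact not_finPl_of_ord_neg A N v hv ⟨a', hmem⟩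
    rw [sum_ord_sub_mem (FibreCount.transcendental_jBar N) a _ 0 0 hz hp]
    ring

open Classical in
omit [NeZero N] [FiniteDimensional Kbar⟮jBar N⟯ (FN N)]
  [Algebra.IsSeparable Kbar⟮jBar N⟯ (FN N)] in
/-- `j̄ - a` over the zeros of `j̄ - c`: `[F_{N,k} : k(j̄)]` if `a = c`, else `0`. -/
theorem sumk_some (a c : kk A) :
    ∑ᶠ Q ∈ fibk A N (some c), Q.ord (jkEl A N - algebraMap (kk A) (Fk A N) a) =
      (if a = c then 1 else 0) * (Module.finrank (kk A)⟮jkEl A N⟯ (Fk A N) : ℤ) := by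
  have := PlacesModL.isAlgClosed_kk A
  have hz : ((if a = c then (1 : ℤ) else 0) = 1 ∧
        ∀ v : Place (kk A) (Fk A N), 0 < v.ord (jkEl A N - algebraMap (kk A) (Fk A N) a) →
          v ∈ fibk A N (some c)) ∨
      ((if a = c then (1 : ℤ) else 0) = 0 ∧
        ∀ v : Place (kk A) (Fk A N), 0 < v.ord (jkEl A N - algebraMap (kk A) (Fk A N) a) →
          v ∉ fibk A N (some c)) := by
    by_cases hc : a = c
    · refine Or.inl ⟨if_pos hc, fun v hv => ?_⟩
      subst hc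
      exact (mem_nonunits_iff_ord_pos v (sub_algebraMap_ne_zero_k A N _)).mpr hv
    · refine Or.inr ⟨if_neg hc, fun v hv hv' => hc ?_⟩
      exact EvalBasic.value_unique v
        ((mem_nonunits_iff_ord_pos v (sub_algebraMap_ne_zero_k A N _)).mpr hv) hv'
  have hp : ((0 : ℤ) = 1 ∧
        ∀ v : Place (kk A) (Fk A N), v.ord (jkEl A N) < 0 → v ∈ fibk A N (some c)) ∨
      ((0 : ℤ) = 0 ∧
        ∀ v : Place (kk A) (Fk A N), v.ord (jkEl A N) < 0 → v ∉ fibk A N (some c)) :=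
    Or.inr ⟨rfl, fun v hv => not_mem_nonunits_of_ord_neg A N v hv c⟩
  rw [sum_ord_sub_mem (transcendental_jkEl A N) a _ _ 0 hz hp, sub_zero]

omit [NeZero N] [FiniteDimensional Kbar⟮jBar N⟯ (FN N)]
  [Algebra.IsSeparable Kbar⟮jBar N⟯ (FN N)] in
/-- `j̄ - a` over the poles of `j̄`: `-[F_{N,k} : k(j̄)]`. -/
theorem sumk_none (a : kk A) :
    ∑ᶠ Q ∈ fibk A N none, Q.ord (jkEl A N - algebraMap (kk A) (Fk A N) a) =
      -(Module.finrank (kk A)⟮jkEl A N⟯ (Fk A N) : ℤ) := by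
  have := PlacesModL.isAlgClosed_kk A
  have hz : ((0 : ℤ) = 1 ∧
        ∀ v : Place (kk A) (Fk A N), 0 < v.ord (jkEl A N - algebraMap (kk A) (Fk A N) a) →
          v ∈ fibk A N none) ∨
      ((0 : ℤ) = 0 ∧
        ∀ v : Place (kk A) (Fk A N), 0 < v.ord (jkEl A N - algebraMap (kk A) (Fk A N) a) →
          v ∉ fibk A N none) := by
    refine Or.inr ⟨rfl, fun v hv hv' => hv' ?_⟩
    exact EvalBasic.mem_of_sub_mem_nonunits v
      ((mem_nonunits_iff_ord_pos v (sub_algebraMap_ne_zero_k A N _)).mpr hv)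
  have hp : ((1 : ℤ) = 1 ∧
        ∀ v : Place (kk A) (Fk A N), v.ord (jkEl A N) < 0 → v ∈ fibk A N none) ∨
      ((1 : ℤ) = 0 ∧
        ∀ v : Place (kk A) (Fk A N), v.ord (jkEl A N) < 0 → v ∉ fibk A N none) := by
    refine Or.inl ⟨rfl, fun v hv => ?_⟩
    have hne : jkEl A N ≠ 0 := by
      rintro h0
      rw [h0, Place.ord_zero] at hv
      exact lt_irrefl _ hv
    exact (FFPlaces.ord_neg_iff v hne).mp hv
  rw [sum_ord_sub_mem (transcendental_jkEl A N) a _ 0 1 hz hp]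
  ring

end Sums

/-! ### The generators are `Good` -/

section Base

variable [FiniteDimensional Kbar⟮jBar N⟯ (FN N)] [Algebra.IsSeparable Kbar⟮jBar N⟯ (FN N)]
  [FiniteDimensional (kk A)⟮jkEl A N⟯ (Fk A N)] [Algebra.IsSeparable (kk A)⟮jkEl A N⟯ (Fk A N)]

variable {A N}

omit [FiniteDimensional Kbar⟮jBar N⟯ (FN N)] [Algebra.IsSeparable Kbar⟮jBar N⟯ (FN N)]
  [FiniteDimensional (kk A)⟮jkEl A N⟯ (Fk A N)] [Algebra.IsSeparable (kk A)⟮jkEl A N⟯ (Fk A N)] in
theorem coe_sub_algebraMap (a : Kbar) :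
    ((jBar N - algebraMap Kbar (FN N) a : FN N) : Om) =
      ((jBar N : FN N) : Om) - HahnSeries.C a := by
  rw [← EvalBasic.coe_algebraMap_FN N]
  rfl

omit [FiniteDimensional Kbar⟮jBar N⟯ (FN N)] [Algebra.IsSeparable Kbar⟮jBar N⟯ (FN N)]
  [FiniteDimensional (kk A)⟮jkEl A N⟯ (Fk A N)] [Algebra.IsSeparable (kk A)⟮jkEl A N⟯ (Fk A N)] in
theorem coe_one_sub_mul (b : Kbar) :
    ((1 - algebraMap Kbar (FN N) b * jBar N : FN N) : Om) =
      1 - HahnSeries.C b * ((jBar N : FN N) : Om) := by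
  rw [← EvalBasic.coe_algebraMap_FN N]
  rfl

/-- `j - a`, `a ∈ A`, is `Good`. -/
theorem good_sub
    (hdeg : Module.finrank Kbar⟮jBar N⟯ (FN N) = Module.finrank (kk A)⟮jkEl A N⟯ (Fk A N))
    (a : A) : Good A N (jBar N - algebraMap Kbar (FN N) (a : Kbar)) := by
  have hmem : ((jBar N - algebraMap Kbar (FN N) (a : Kbar) : FN N) : Om) ∈ Ocal A := by
    rw [coe_sub_algebraMap]
    exact (Ocal A).sub_mem (EvalBasic.jBar_mem_Ocal A N) (C_mem_Ocal A a.2)
  refine ⟨sub_algebraMap_ne_zero_K N _,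
    jkEl A N - algebraMap (kk A) (Fk A N) (IsLocalRing.residue A a), hmem,
    sub_algebraMap_ne_zero_k A N _, ?_, fun c => ?_⟩
  · have e : (⟨_, hmem⟩ : Ocal A) =
        ⟨((jBar N : FN N) : Om), EvalBasic.jBar_mem_Ocal A N⟩ -
          ⟨HahnSeries.C (a : Kbar), C_mem_Ocal A a.2⟩ :=
      Subtype.ext (coe_sub_algebraMap (a : Kbar))
    rw [e, map_sub, EvalBasic.red_jBar, red_C A a.2]
    show _ = ((jkEl A N : Fk A N) : Omk A) -
      ((algebraMap (kk A) (Fk A N) (IsLocalRing.residue A a) : Fk A N) : Omk A)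
    rw [EvalBasic.coe_algebraMap_Fk]
    rfl
  · cases c with
    | none => rw [sumK_none_of_mem, sumk_none, hdeg]
    | some c => rw [sumK_some_of_mem, sumk_some, hdeg]

omit [FiniteDimensional (kk A)⟮jkEl A N⟯ (Fk A N)]
  [Algebra.IsSeparable (kk A)⟮jkEl A N⟯ (Fk A N)] in
/-- `1 - b j`, `b ∈ 𝔪_A`, is `Good` (with reduction `1`). -/
theorem good_one_sub (b : A) (hb : b ∈ IsLocalRing.maximalIdeal A) :
    Good A N (1 - algebraMap Kbar (FN N) (b : Kbar) * jBar N) := by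
  have hmem : ((1 - algebraMap Kbar (FN N) (b : Kbar) * jBar N : FN N) : Om) ∈ Ocal A := by
    rw [coe_one_sub_mul]
    exact (Ocal A).sub_mem (Ocal A).one_mem
      ((Ocal A).mul_mem (C_mem_Ocal A b.2) (EvalBasic.jBar_mem_Ocal A N))
  have hred : red A ⟨_, hmem⟩ = 1 := by
    have e : (⟨_, hmem⟩ : Ocal A) =
        1 - ⟨HahnSeries.C (b : Kbar), C_mem_Ocal A b.2⟩ *
          ⟨((jBar N : FN N) : Om), EvalBasic.jBar_mem_Ocal A N⟩ :=
      Subtype.ext (coe_one_sub_mul (b : Kbar))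
    have hb0 : IsLocalRing.residue A ⟨(b : Kbar), b.2⟩ = 0 :=
      (IsLocalRing.residue_eq_zero_iff _).mpr hb
    rw [e, map_sub, map_one, map_mul, red_C A b.2, hb0, map_zero, zero_mul, sub_zero]
  have hne : (1 - algebraMap Kbar (FN N) (b : Kbar) * jBar N : FN N) ≠ 0 := by
    intro h0
    have h1 := ne_zero_of_red_ne_zero A ⟨_, hmem⟩ (by rw [hred]; exact one_ne_zero)
    exact h1 (congrArg (fun z : FN N => (z : Om)) h0)
  refine ⟨hne, 1, hmem, one_ne_zero, hred, fun c => ?_⟩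
  have hR : ∑ᶠ Q ∈ fibk A N c, Q.ord (1 : Fk A N) = 0 :=
    finsum_mem_eq_zero_of_forall_eq_zero fun Q _ => Q.ord_one
  rw [hR]
  by_cases hb0 : (b : Kbar) = 0
  · rw [hb0, map_zero, zero_mul, sub_zero]
    exact finsum_mem_eq_zero_of_forall_eq_zero fun P _ => P.ord_one
  · have hbA : (b : Kbar)⁻¹ ∉ A := by
      intro hinv
      have hu : IsUnit b :=
        isUnit_iff_exists_inv.mpr ⟨⟨_, hinv⟩, Subtype.ext (mul_inv_cancel₀ hb0)⟩
      exact (IsLocalRing.mem_maximalIdeal b).mp hb hu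
    have hb1 : algebraMap Kbar (FN N) (b : Kbar) ≠ 0 := by simpa using hb0
    have e : (1 - algebraMap Kbar (FN N) (b : Kbar) * jBar N : FN N) =
        algebraMap Kbar (FN N) (-(b : Kbar)) *
          (jBar N - algebraMap Kbar (FN N) (b : Kbar)⁻¹) := by
      rw [map_neg, map_inv₀]
      field_simp
      ring
    rw [e, finsum_mem_ord_mul (FibreCount.transcendental_jBar N) _ (by simpa using hb0)
      (sub_algebraMap_ne_zero_K N _), finsum_mem_ord_algebraMap, sumK_of_notMem A N _ hbA c,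
      add_zero]

/-- The evaluation at `j` of a split polynomial is `Good`. -/
theorem good_split
    (hdeg : Module.finrank Kbar⟮jBar N⟯ (FN N) = Module.finrank (kk A)⟮jkEl A N⟯ (Fk A N))
    (a b : Multiset A) (hb : ∀ x ∈ b, x ∈ IsLocalRing.maximalIdeal A) :
    Good A N (Polynomial.aeval (jBar N) ((ValSplit.splitPoly A a b).map A.subtype)) := by
  have e : Polynomial.aeval (jBar N) ((ValSplit.splitPoly A a b).map A.subtype) =
      (a.map fun x : A => jBar N - algebraMap Kbar (FN N) (x : Kbar)).prod *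
        (b.map fun x : A => 1 - algebraMap Kbar (FN N) (x : Kbar) * jBar N).prod := by
    rw [Polynomial.aeval_def, Polynomial.eval₂_map, ValSplit.eval₂_splitPoly]
    rfl
  rw [e]
  refine (good_multiset_prod _ ?_).mul (good_multiset_prod _ ?_)
  · intro y hy
    obtain ⟨x, -, rfl⟩ := Multiset.mem_map.mp hy
    exact good_sub hdeg x
  · intro y hy
    obtain ⟨x, hx, rfl⟩ := Multiset.mem_map.mp hy
    exact good_one_sub x (hb x hx)

/-- Every `v`-unit of `Q̄(j)` is `Good`. -/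
theorem good_of_mem_adjoin
    (hdeg : Module.finrank Kbar⟮jBar N⟯ (FN N) = Module.finrank (kk A)⟮jkEl A N⟯ (Fk A N))
    (y : FN N) (hyJ : y ∈ IntermediateField.adjoin Kbar {jBar N}) (hy : (y : Om) ∈ Ocal A)
    (hne : red A ⟨(y : Om), hy⟩ ≠ 0) : Good A N y := by
  have hxt := FibreCount.transcendental_jBar N
  have hy0 : y ≠ 0 := by
    intro h0
    exact ne_zero_of_red_ne_zero A ⟨_, hy⟩ hne (congrArg (fun z : FN N => (z : Om)) h0)
  obtain ⟨P, Q, hPQ⟩ := (IntermediateField.mem_adjoin_simple_iff Kbar y).mp hyJ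
  have hP : P ≠ 0 := by
    rintro rfl
    rw [map_zero, zero_div] at hPQ
    exact hy0 hPQ
  have hQ : Q ≠ 0 := by
    rintro rfl
    rw [map_zero, div_zero] at hPQ
    exact hy0 hPQ
  obtain ⟨c₀, a, b, a', b', hc₀, hb, hb', hsplit⟩ := ValSplit.exists_split_pair A P Q hP hQ
  have hgS := good_split hdeg a b hb
  have hgS' := good_split hdeg a' b' hb'
  set S := Polynomial.aeval (jBar N) ((ValSplit.splitPoly A a b).map A.subtype) with hS
  set S' := Polynomial.aeval (jBar N) ((ValSplit.splitPoly A a' b').map A.subtype) with hS'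
  have hQ0 : Polynomial.aeval (jBar N) Q ≠ 0 := fun h0 => hQ (transcendental_iff.mp hxt Q h0)
  have hS'0 : S' ≠ 0 := hgS'.1
  have hyeq : y = algebraMap Kbar (FN N) c₀ * (S * S'⁻¹) := by
    have h1 := congrArg (Polynomial.aeval (jBar N)) hsplit
    simp only [map_mul, Polynomial.aeval_C] at h1
    rw [hPQ, div_eq_iff hQ0]
    field_simp
    linear_combination h1
  have hge : Good A N (S * S'⁻¹) := hgS.mul hgS'.inv
  obtain ⟨-, ze, hemem, hze0, hered, -⟩ := hge
  have hered0 : red A ⟨_, hemem⟩ ≠ 0 := by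
    rw [hered]
    exact fun h0 => hze0 (Subtype.ext h0)
  have hcoe : (y : Om) = HahnSeries.C c₀ * ((S * S'⁻¹ : FN N) : Om) := by
    rw [hyeq, ← EvalBasic.coe_algebraMap_FN N]
    rfl
  have hcA : c₀ ∈ A := (C_mul_mem_Ocal_iff A c₀ ⟨_, hemem⟩ hered0).mp (hcoe ▸ hy)
  have hres : IsLocalRing.residue A ⟨c₀, hcA⟩ ≠ 0 := by
    intro h0
    apply hne
    rw [red_congr A hcoe hy ((C_mul_mem_Ocal_iff A c₀ ⟨_, hemem⟩ hered0).mpr hcA),
      red_C_mul A hcA ⟨_, hemem⟩ _, h0, map_zero, zero_mul]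
  rw [hyeq]
  exact (good_const ⟨c₀, hcA⟩ hres).mul (hgS.mul hgS'.inv)

end Base

end Modular

/-! ## The theorem -/

/-- **[NORM] (I), the rational case of `Plan2.FibreSum`.**  For `y ∈ Q̄(j) ⊂ F_N`, a `v`-unit with
reduction `ȳ ∈ F_{N,k}`, and every `c ∈ ℙ¹(k)`:
`Σ_{P ∈ fibK c} ord_P y = Σ_{Q ∈ fibk c} ord_Q ȳ`. -/
theorem fibreSum_rat (N : ℕ) [NeZero N] (ℓ : ℕ) [Fact ℓ.Prime] (hℓ : ¬ ℓ ∣ N)
    (A : ValuationSubring Kbar) (hA : A.LiesOverPrime ℓ)
    (y : FN N) (hyJ : y ∈ IntermediateField.adjoin Kbar {jBar N}) (hy : (y : Om) ∈ Ocal A)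
    (hk : red A ⟨(y : Om), hy⟩ ∈ Fk A N) (hne : red A ⟨(y : Om), hy⟩ ≠ 0)
    (c : Option (kk A)) :
    ∑ᶠ P ∈ Plan2.fibK A N c, P.ord y = ∑ᶠ Q ∈ Plan2.fibk A N c, Q.ord (⟨_, hk⟩ : Fk A N) := by
  have := FibreCount.finiteDimensional N
  have := Char0.isSeparable_jBar N
  have : FiniteDimensional (kk A)⟮jkEl A N⟯ (Fk A N) :=
    PlacesModL.finiteDimensional_jb N ℓ hℓ A hA
  have : Algebra.IsSeparable (kk A)⟮jkEl A N⟯ (Fk A N) :=
    PlacesModL.isSeparable_jb N ℓ hℓ A hA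
  have hdeg : Module.finrank Kbar⟮jBar N⟯ (FN N) =
      Module.finrank (kk A)⟮jkEl A N⟯ (Fk A N) := by
    rw [FibreCount.finrank_eq N]
    exact (PlacesModL.finrank_jb N ℓ hℓ A hA).symm
  obtain ⟨-, z, hy', -, hred, hsum⟩ := good_of_mem_adjoin hdeg y hyJ hy hne
  have e : (⟨_, hk⟩ : Fk A N) = z := Subtype.ext hred
  rw [e]
  exact hsum c

end Fermat.Agent.S37.FibreSumRat

end
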