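/-
S37 / [CHART] (helper37): the structure of the two chart rings,
`Plan2.ChartStrFin A N` and `Plan2.ChartStrInf A N`.

A chart element `y` (an element of `F_N ∩ Ocal` regular at all places of the type of its chart)
becomes integral over `A[j]` (resp. `A[j⁻¹]`) after multiplication by a suitable `s ∈ A[j]` with
reduction `1` (resp. `s ∈ A[j⁻¹]` with `s̄(0) = 1`).

* `exists_clear`, `exists_clear_poles` : clearing the poles of `y` at the places of the chart which
  are not of the type of the chart, by a product of elements `1 - b⁻¹ j` (resp. `1 - a j⁻¹`);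
* `isIntegral_polyRing_of_forall_mem` (Lib/FFPoles): `s y` is integral over `Q̄[x]`, `x = j, j⁻¹`;
* the characteristic polynomial of `s y` over `F_1 = Q̄(j)` has coefficients in `Ocal`
  (no defect, `S18/CharStmt`), integral over `Q̄[x]` (`S37/Rad`), hence in `Q̄[x] ∩ Ocal = A[x]`
  (`mem_closure_of_mem_adjoin_of_mem_Ocal`).
-/
import Mathlib
import Fermat.Agent.S37.Plan2b
import Fermat.Agent.S37.EvalBasic
import Fermat.Agent.S37.Rad
import Fermat.Agent.S18.CharStmt
import Fermat.Agent.S18.Red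
import Fermat.Agent.S18.Char0
import Fermat.Agent.S18.FibreCount
import Fermat.Agent.S18.WJCalc
import Fermat.Agent.S18.PullLocal
import Fermat.Agent.S18.RR0.Pull
import Fermat.Agent.S18.OrthoDesc
import Fermat.Agent.S28.AbstractIrred
import Fermat.Agent.Lib.FFPoles
import Fermat.Agent.Lib.FFSep.Places

set_option autoImplicit false

noncomputable section

namespace Fermat.Agent.S37.Chart

open ModularCurve AlgebraicCurve Fermat.Agent.S24 Fermat.Agent.S18.Content Fermat.Agent.S18.Plan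
  Fermat.Agent.S37.Plan2 Polynomial IntermediateField

set_option synthInstance.maxHeartbeats 400000
set_option maxHeartbeats 1600000

/-! ### Clearing poles -/

section Clear

variable {K F : Type*} [Field K] [Field F] [Algebra K F]

/-- A nonzero non-unit of the valuation ring of a place has positive order. -/
theorem ord_pos_of_mem_nonunits (v : Place K F) {t : F} (ht0 : t ≠ 0)
    (ht : t ∈ v.toValuationSubring.nonunits) : 0 < v.ord t := by
  rw [Lib.FFPlaces.ord_pos_iff v ht0]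
  refine ⟨ValuationSubring.nonunits_subset ht, ?_⟩
  refine EvalBasic.notMem_of_inv_mem_nonunits _ (inv_ne_zero ht0) ?_
  rwa [inv_inv]

/-- Products of powers of "good" functions with prescribed orders of vanishing on a finite set
of places. -/
theorem exists_clear (G : F → Prop) (R : Place K F → Prop) (h1 : G 1)
    (hmul : ∀ a b, G a → G b → G (a * b)) (hne : ∀ s, G s → s ≠ 0)
    (hreg : ∀ s, G s → ∀ v, R v → s ∈ v.toValuationSubring)
    (e : Place K F → ℕ) (T : Finset (Place K F))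
    (hT : ∀ v ∈ T, R v ∧ ∃ t, G t ∧ t ∈ v.toValuationSubring.nonunits) :
    ∃ s, G s ∧ ∀ v ∈ T, (e v : ℤ) ≤ v.ord s := by
  classical
  have hpow : ∀ (t : F) (n : ℕ), G t → G (t ^ n) := by
    intro t n ht
    induction n with
    | zero => rw [pow_zero]; exact h1
    | succ n ih => rw [pow_succ]; exact hmul _ _ ih ht
  induction T using Finset.induction_on with
  | empty => exact ⟨1, h1, fun v hv => absurd hv (Finset.notMem_empty v)⟩
  | insert v T hv ih =>
    obtain ⟨s', hs', hs'T⟩ := ih (fun w hw => hT w (Finset.mem_insert_of_mem hw))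
    obtain ⟨hRv, t, ht, htv⟩ := hT v (Finset.mem_insert_self v T)
    have ht0 := hne t ht
    have hs0 := hne s' hs'
    have hp0 : t ^ e v ≠ 0 := pow_ne_zero _ ht0
    refine ⟨s' * t ^ e v, hmul _ _ hs' (hpow t (e v) ht), fun w hw => ?_⟩
    rw [Place.ord_mul w hs0 hp0, S18.PullLocal.ord_pow]
    rcases Finset.mem_insert.mp hw with rfl | hwT
    · have h2 := (Lib.FFPlaces.mem_iff_ord_nonneg w hs0).mp (hreg s' hs' w hRv)
      have h3 := ord_pos_of_mem_nonunits w ht0 htv
      nlinarith [Int.natCast_nonneg (e w)]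
    · have h2 := hs'T w hwT
      have h3 := (Lib.FFPlaces.mem_iff_ord_nonneg w ht0).mp (hreg t ht w (hT w hw).1)
      nlinarith [Int.natCast_nonneg (e v)]

/-- Clearing the poles of `y` on the locus `R` by a "good" function. -/
theorem exists_clear_poles (G : F → Prop) (R : Place K F → Prop) (h1 : G 1)
    (hmul : ∀ a b, G a → G b → G (a * b)) (hne : ∀ s, G s → s ≠ 0)
    (hreg : ∀ s, G s → ∀ v, R v → s ∈ v.toValuationSubring)
    (y : F) (hy : y ≠ 0) (D : Divisor K F) (hD : ∀ P, D P = P.ord y)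
    (hT : ∀ v, R v → y ∉ v.toValuationSubring → ∃ t, G t ∧ t ∈ v.toValuationSubring.nonunits) :
    ∃ s, G s ∧ ∀ v, R v → s * y ∈ v.toValuationSubring := by
  classical
  obtain ⟨s, hs, hsT⟩ := exists_clear G R h1 hmul hne hreg (fun v => (v.ord y).natAbs)
    (D.support.filter (fun v => R v ∧ y ∉ v.toValuationSubring))
    (fun v hv => by
      obtain ⟨-, hRv, hyv⟩ := Finset.mem_filter.mp hv
      exact ⟨hRv, hT v hRv hyv⟩)
  refine ⟨s, hs, fun v hRv => ?_⟩
  by_cases hyv : y ∈ v.toValuationSubring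
  · exact mul_mem (hreg s hs v hRv) hyv
  · have hs0 := hne s hs
    have hneg : v.ord y < 0 := (Lib.FFPlaces.ord_neg_iff v hy).mpr hyv
    have hmem : v ∈ D.support.filter (fun v => R v ∧ y ∉ v.toValuationSubring) := by
      refine Finset.mem_filter.mpr ⟨?_, hRv, hyv⟩
      rw [Finsupp.mem_support_iff, hD]
      omega
    have h2 := hsT v hmem
    rw [Lib.FFPlaces.mem_iff_ord_nonneg v (mul_ne_zero hs0 hy), Place.ord_mul v hs0 hy]
    omega

end Clear

/-! ### The constant coefficient of a polynomial in `j̄⁻¹` -/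

theorem coeff_zero_aeval_inv_j (κ : Type) [Field κ] (f : κ[X]) :
    (aeval (jqModC κ)⁻¹ f).coeff 0 = f.coeff 0 := by
  induction f using Polynomial.induction_on' with
  | add p q hp hq => rw [map_add, HahnSeries.coeff_add, hp, hq, coeff_add]
  | monomial n a =>
    rw [aeval_monomial, algebraMap_LS_eq_C, Fermat.Agent.S18.Content.coeff_C_mul, coeff_monomial]
    rcases Nat.eq_zero_or_pos n with rfl | hn
    · rw [pow_zero, HahnSeries.coeff_one, if_pos rfl, if_pos rfl, mul_one]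
    · have h : (0 : ℤ) < (((jqModC κ)⁻¹) ^ n).order := by
        rw [HahnSeries.order_pow, S18.WJCalc.order_inv_j, nsmul_eq_mul, mul_one]
        exact_mod_cast hn
      rw [HahnSeries.coeff_eq_zero_of_lt_order h, mul_zero, if_neg (by omega)]

/-! ### `Q̄[x] ∩ Ocal = A[x]` -/

section Closure

variable (A : ValuationSubring Kbar)

/-- The ring `A[x] ⊆ Q̄((q))`. -/
def AX (x : Om) : Subring Om :=
  Subring.closure (Set.range (fun a : A => (HahnSeries.C (a : Kbar) : Om)) ∪ {x})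

theorem AJ_eq_AX : AJ A = AX A jK := rfl

theorem AJinv_eq_AX : AJinv A = AX A jK⁻¹ := rfl

theorem aeval_map_subtype_mem_AX (x : Om) (Q : A[X]) : aeval x (Q.map A.subtype) ∈ AX A x := by
  induction Q using Polynomial.induction_on' with
  | add p q hp hq => rw [Polynomial.map_add, map_add]; exact add_mem hp hq
  | monomial n a =>
    rw [map_monomial, aeval_monomial, algebraMap_LS_eq_C]
    have h1 : (HahnSeries.C ((a : A) : Kbar) : Om) ∈ AX A x :=
      Subring.subset_closure (Or.inl ⟨a, rfl⟩)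
    have h2 : x ∈ AX A x := Subring.subset_closure (Or.inr rfl)
    exact mul_mem h1 (pow_mem h2 n)

/-- A polynomial in `x` over `Q̄` lying in `Ocal` has coefficients in `A`, if the reduction of `x`
is transcendental. -/
theorem aeval_mem_AX (x : Ocal A) (hxt : Transcendental (kk A) (red A x)) (f : Kbar[X])
    (hf : aeval (x : Om) f ∈ Ocal A) : aeval (x : Om) f ∈ AX A (x : Om) := by
  by_cases hf0 : f = 0
  · rw [hf0, map_zero]; exact zero_mem _
  obtain ⟨c, Q, hc, hQ, hfQ⟩ := exists_primitive A f hf0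
  have e : aeval (x : Om) f = HahnSeries.C c * ((evalO A x Q : Ocal A) : Om) := by
    rw [coe_evalO, hfQ, map_mul, aeval_C, algebraMap_LS_eq_C]
  have hred : red A (evalO A x Q) ≠ 0 := by
    rw [red_evalO]
    intro h0
    exact hQ ((transcendental_iff.mp hxt) _ h0)
  rw [e] at hf ⊢
  have hcA : c ∈ A := (C_mul_mem_Ocal_iff A c (evalO A x Q) hred).mp hf
  have h1 : (HahnSeries.C c : Om) ∈ AX A (x : Om) :=
    Subring.subset_closure (Or.inl ⟨⟨c, hcA⟩, rfl⟩)
  refine mul_mem h1 ?_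
  rw [coe_evalO]
  exact aeval_map_subtype_mem_AX A (x : Om) Q

/-- **`Q̄(x) ∩ Ocal`, integral over `Q̄[x]`, is `A[x]`.** -/
theorem mem_AX_of_isIntegral (x : Om) (hxO : x ∈ Ocal A)
    (hxt : Transcendental (kk A) (red A ⟨x, hxO⟩)) (hxK : Transcendental Kbar x)
    (c : Om) (hc : c ∈ Kbar⟮x⟯) (hcO : c ∈ Ocal A)
    (hint : IsIntegral (Algebra.adjoin Kbar {x}).toSubring c) : c ∈ AX A x := by
  have hint' : IsIntegral (Algebra.adjoin Kbar {x}) c := hint
  have h1 : c ∈ Algebra.adjoin Kbar {x} :=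
    S28.AbstractIrred.mem_adjoin_of_isIntegral x hxK hc hint'
  rw [Algebra.adjoin_singleton_eq_range_aeval] at h1
  obtain ⟨f, rfl⟩ := h1
  exact aeval_mem_AX A ⟨x, hxO⟩ hxt f hcO

end Closure

/-! ### The modular setting -/

section Modular

open Fermat.Agent.S18 Fermat.Agent.S18.CharStmt

variable (A : ValuationSubring Kbar) (N : ℕ) [NeZero N]

theorem coe_jBar_eq_jK : ((jBar N : FN N) : Om) = jK :=
  coeffMap_jqModC (R := ℚ) (algebraMap ℚ Kbar)

theorem coe_inv_jBar_eq : (((jBar N)⁻¹ : FN N) : Om) = jK⁻¹ := by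
  rw [← coe_jBar_eq_jK N]; rfl

/-- Level one: `F_1 = Q̄(j)`. -/
theorem bar_one_le : modularFunctionFieldBar 1 ≤ Kbar⟮jK⟯ := by
  have h1 : Module.finrank Kbar⟮jBar 1⟯ (FN 1) = 1 := by
    rw [FibreCount.finrank_eq, dedekindPsi_one]
  have h2 : Kbar⟮jBar 1⟯ = ⊤ := IntermediateField.finrank_eq_one_iff_eq_top.mp h1
  intro c hc
  have h3 : (⟨c, hc⟩ : FN 1) ∈ Kbar⟮jBar 1⟯ := by rw [h2]; exact IntermediateField.mem_top
  have h4 : c ∈ (Kbar⟮jBar 1⟯).map (modularFunctionFieldBar 1).val := ⟨⟨c, hc⟩, h3, rfl⟩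
  rw [IntermediateField.adjoin_map, Set.image_singleton] at h4
  have e : (modularFunctionFieldBar 1).val (jBar 1) = jK := coe_jBar_eq_jK 1
  rw [e] at h4
  exact h4

omit [NeZero N] in
/-- The image of `Q̄[x] ⊆ F_N` in `Q̄((q))`. -/
theorem coe_polyRing_mem (x : FN N) (r : Lib.FFPlaces.polyRing Kbar x) :
    algebraMap (FN N) Om (algebraMap (Lib.FFPlaces.polyRing Kbar x) (FN N) r) ∈
      (Algebra.adjoin Kbar {(x : Om)}).toSubring := by
  obtain ⟨r, hr⟩ := r
  show algebraMap (FN N) Om r ∈ Algebra.adjoin Kbar {(x : Om)}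
  induction hr using Algebra.adjoin_induction with
  | mem z hz =>
    rw [Set.mem_singleton_iff] at hz
    subst hz
    exact Algebra.subset_adjoin (Set.mem_singleton _)
  | algebraMap a =>
    have e : algebraMap (FN N) Om (algebraMap Kbar (FN N) a) = algebraMap Kbar Om a := rfl
    rw [e]
    exact Subalgebra.algebraMap_mem _ a
  | add a b _ _ ha hb => rw [map_add]; exact add_mem ha hb
  | mul a b _ _ ha hb => rw [map_mul]; exact mul_mem ha hb

set_option synthInstance.maxHeartbeats 400000 in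
/-- **Integrality over `A[x]`.** `x ∈ F_1 ∩ Ocal` a generator of `F_1` with transcendental
reduction; an element `z ∈ F_N ∩ Ocal` regular at all places where `x` is regular is integral
over `A[x]`. -/
theorem isIntegral_AX_of_regular (ℓ : ℕ) [Fact ℓ.Prime] (hℓ : ¬ ℓ ∣ N) (hA : A.LiesOverPrime ℓ)
    (x : FN N) [FiniteDimensional Kbar⟮x⟯ (FN N)]
    (hxO : (x : Om) ∈ Ocal A) (hxt : Transcendental (kk A) (red A ⟨(x : Om), hxO⟩))
    (hxK : Transcendental Kbar (x : Om)) (hx1 : (x : Om) ∈ modularFunctionFieldBar 1)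
    (hgen : modularFunctionFieldBar 1 ≤ Kbar⟮(x : Om)⟯)
    (z : FN N) (hzO : (z : Om) ∈ Ocal A)
    (hz : ∀ v : Place Kbar (FN N), x ∈ v.toValuationSubring → z ∈ v.toValuationSubring) :
    IsIntegral (AX A (x : Om)) (z : Om) := by
  have hint1 : IsIntegral (Lib.FFPlaces.polyRing Kbar x) z :=
    _root_.Fermat.Agent.S18.RR0.isIntegral_polyRing_of_forall_mem z hz
  have hint2 : IsIntegral (Algebra.adjoin Kbar {(x : Om)}).toSubring (z : Om) :=
    _root_.Fermat.Agent.S18.RR0.isIntegral_subring_of_algebra (algebraMap (FN N) Om) _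
      (coe_polyRing_mem N x) hint1
  have hRE : ∀ r ∈ (Algebra.adjoin Kbar {(x : Om)}).toSubring, r ∈ modularFunctionFieldBar 1 := by
    have h : Algebra.adjoin Kbar {(x : Om)} ≤ (modularFunctionFieldBar 1).toSubalgebra :=
      Algebra.adjoin_le (Set.singleton_subset_iff.mpr hx1)
    exact fun r hr => h hr
  have := charP_residueField_of_liesOverPrime A ℓ hA
  have hℓ1 : ¬ ℓ ∣ 1 := (Fact.out : ℓ.Prime).not_dvd_one
  have hR1 := Red.redStmt 1 ℓ hℓ1 A hA
  have hRN := Red.redStmt N ℓ hℓ A hA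
  have hdiv : 1 ∣ N := one_dvd N
  have hle := bar_le hdiv
  have hkle := fk_le A hdiv
  have h0 := psi_mul_finrank hle
  have hk := psi_mul_finrank_k A hdiv ℓ hℓ hkle
  have hψ : 0 < dedekindPsi 1 := FibreCount.dedekindPsi_pos 1
  have hψ' : 0 < dedekindPsi N := FibreCount.dedekindPsi_pos N
  have hpos : 0 < Module.finrank (FN 1) (IntermediateField.extendScalars hle) := by
    rcases Nat.eq_zero_or_pos (Module.finrank (FN 1) (IntermediateField.extendScalars hle))
      with h | h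
    · rw [h, mul_zero] at h0; omega
    · exact h
  have : Module.Finite (FN 1) (IntermediateField.extendScalars hle) :=
    Module.finite_of_finrank_pos hpos
  have heq : Module.finrank (Fk A 1) (IntermediateField.extendScalars hkle) =
      Module.finrank (FN 1) (IntermediateField.extendScalars hle) :=
    Nat.eq_of_mul_eq_mul_left hψ (hk.trans h0.symm)
  obtain ⟨χ, hχ, hmonic, -, haeval, hO, -⟩ :=
    exists_char (data A hR1 hRN) hle hkle heq ⟨(z : Om), hzO⟩ z.2
  have hcoeff : ∀ i, ((χ.coeff i : FN 1) : Om) ∈ AX A (x : Om) := by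
    intro i
    have h1 : IsIntegral (Algebra.adjoin Kbar {(x : Om)}).toSubring ((χ.coeff i : FN 1) : Om) := by
      rw [hχ]
      exact Rad.isIntegral_coeff_charpoly_pair hle _ hRE _ hint2 i
    exact mem_AX_of_isIntegral A (x : Om) hxO hxt hxK _ (hgen (χ.coeff i).2) (hO i) h1
  refine OrthoDesc.isIntegral_of_monic_root (χ.map (algebraMap (FN 1) Om)) (hmonic.map _)
    (fun k => ?_) (z : Om) ?_
  · rw [coeff_map]
    exact isIntegral_algebraMap (R := AX A (x : Om)) (x := ⟨_, hcoeff k⟩)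
  · rw [eval_map]
    exact haeval

end Modular

/-! ### The multipliers -/

section Good

open Fermat.Agent.S18 Fermat.Agent.S18.CharStmt

variable (A : ValuationSubring Kbar) (N : ℕ) [NeZero N]

/-- The admissible multipliers of the chart with coordinate `x`: elements of `A[x]`, regular
wherever `x` is, whose reduction satisfies `Pr`. -/
def Good (x : FN N) (Pr : Omk A → Prop) (s : FN N) : Prop :=
  (s : Om) ∈ AX A (x : Om) ∧ (∃ hs : (s : Om) ∈ Ocal A, Pr (red A ⟨(s : Om), hs⟩)) ∧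
    ∀ v : Place Kbar (FN N), x ∈ v.toValuationSubring → s ∈ v.toValuationSubring

omit [NeZero N] in
theorem good_one (x : FN N) (Pr : Omk A → Prop) (h1 : Pr 1) : Good A N x Pr 1 := by
  refine ⟨one_mem _, ⟨(Ocal A).one_mem, ?_⟩, fun v _ => one_mem _⟩
  have e : (⟨((1 : FN N) : Om), (Ocal A).one_mem⟩ : Ocal A) = 1 := rfl
  rw [e, map_one]
  exact h1

omit [NeZero N] in
theorem good_mul (x : FN N) (Pr : Omk A → Prop) (hmul : ∀ a b, Pr a → Pr b → Pr (a * b))
    {s t : FN N} (hs : Good A N x Pr s) (ht : Good A N x Pr t) : Good A N x Pr (s * t) := by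
  obtain ⟨hs1, ⟨hsO, hs2⟩, hs3⟩ := hs
  obtain ⟨ht1, ⟨htO, ht2⟩, ht3⟩ := ht
  refine ⟨mul_mem hs1 ht1, ⟨(Ocal A).mul_mem hsO htO, ?_⟩,
    fun v hv => mul_mem (hs3 v hv) (ht3 v hv)⟩
  have e : (⟨((s * t : FN N) : Om), (Ocal A).mul_mem hsO htO⟩ : Ocal A) =
      ⟨(s : Om), hsO⟩ * ⟨(t : Om), htO⟩ := rfl
  rw [e, map_mul]
  exact hmul _ _ hs2 ht2

omit [NeZero N] in
theorem good_ne_zero (x : FN N) (Pr : Omk A → Prop) (h0 : ¬ Pr 0) {s : FN N}
    (hs : Good A N x Pr s) : s ≠ 0 := by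
  rintro rfl
  obtain ⟨-, ⟨hsO, hs2⟩, -⟩ := hs
  apply h0
  have e : (⟨((0 : FN N) : Om), hsO⟩ : Ocal A) = 0 := rfl
  rw [e, map_zero] at hs2
  exact hs2

/-- **Chart structure, uniformly in the chart.** If at every pole `v` of `y` in the chart of `x`
there is an admissible multiplier vanishing at `v`, then some admissible multiplier `s` makes
`s y` integral over `A[x]`. -/
theorem exists_good_isIntegral (ℓ : ℕ) [Fact ℓ.Prime] (hℓ : ¬ ℓ ∣ N) (hA : A.LiesOverPrime ℓ)
    (x : FN N) [FiniteDimensional Kbar⟮x⟯ (FN N)]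
    (hxO : (x : Om) ∈ Ocal A) (hxt : Transcendental (kk A) (red A ⟨(x : Om), hxO⟩))
    (hxK : Transcendental Kbar (x : Om)) (hx1 : (x : Om) ∈ modularFunctionFieldBar 1)
    (hgen : modularFunctionFieldBar 1 ≤ Kbar⟮(x : Om)⟯)
    (Pr : Omk A → Prop) (h1 : Pr 1) (hmul : ∀ a b, Pr a → Pr b → Pr (a * b)) (h0 : ¬ Pr 0)
    (y : FN N) (hyO : (y : Om) ∈ Ocal A)
    (hT : ∀ v : Place Kbar (FN N), x ∈ v.toValuationSubring → y ∉ v.toValuationSubring →
      ∃ t, Good A N x Pr t ∧ t ∈ v.toValuationSubring.nonunits) :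
    ∃ s : FN N, Good A N x Pr s ∧ IsIntegral (AX A (x : Om)) ((s : Om) * (y : Om)) := by
  obtain ⟨s, hs, hsy⟩ : ∃ s : FN N, Good A N x Pr s ∧
      ∀ v : Place Kbar (FN N), x ∈ v.toValuationSubring → s * y ∈ v.toValuationSubring := by
    by_cases hy0 : y = 0
    · exact ⟨1, good_one A N x Pr h1, fun v _ => by rw [hy0, mul_zero]; exact zero_mem _⟩
    · obtain ⟨D, hD, -⟩ := (Char0.char0Stmt N).2.1 y hy0
      exact exists_clear_poles (Good A N x Pr) (fun v => x ∈ v.toValuationSubring)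
        (good_one A N x Pr h1) (fun a b => good_mul A N x Pr hmul)
        (fun s => good_ne_zero A N x Pr h0) (fun s hs => hs.2.2) y hy0 D hD hT
  refine ⟨s, hs, ?_⟩
  obtain ⟨-, ⟨hsO, -⟩, -⟩ := hs
  exact isIntegral_AX_of_regular A N ℓ hℓ hA x hxO hxt hxK hx1 hgen (s * y)
    ((Ocal A).mul_mem hsO hyO) hsy

end Good

/-! ### The two charts -/

section Charts

open Fermat.Agent.S18

/-- **[CHART], finite chart.** -/
theorem chartStrFin (N : ℕ) [NeZero N] (ℓ : ℕ) [Fact ℓ.Prime] (hℓ : ¬ ℓ ∣ N)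
    (A : ValuationSubring Kbar) (hA : A.LiesOverPrime ℓ) : Plan2.ChartStrFin A N := by
  intro y hy
  have : FiniteDimensional Kbar⟮jBar N⟯ (FN N) := FibreCount.finiteDimensional N
  have hxO := EvalBasic.jBar_mem_Ocal A N
  have hxt : Transcendental (kk A) (red A ⟨((jBar N : FN N) : Om), hxO⟩) := by
    rw [EvalBasic.red_jBar]
    exact S28.CruxDescent.transcendental_jqModC (kk A)
  have hxK : Transcendental Kbar ((jBar N : FN N) : Om) := by
    rw [coe_jBar_eq_jK]
    exact S28.CruxDescent.transcendental_jqModC Kbar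
  have hx1 : ((jBar N : FN N) : Om) ∈ modularFunctionFieldBar 1 := by
    rw [coe_jBar_eq_jK]
    exact Rad.jK_mem 1
  have hgen : modularFunctionFieldBar 1 ≤ Kbar⟮((jBar N : FN N) : Om)⟯ := by
    rw [coe_jBar_eq_jK]
    exact bar_one_le
  have hT : ∀ v : Place Kbar (FN N), jBar N ∈ v.toValuationSubring → y ∉ v.toValuationSubring →
      ∃ t, Good A N (jBar N) (fun a => a = 1) t ∧ t ∈ v.toValuationSubring.nonunits := by
    -- the local multiplier at a pole `v` of `y` with `j` regular at `v`: `1 - b⁻¹ j`, `b = j(v)`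
    intro v hjv hyv
    obtain ⟨b, hb⟩ := EvalBasic.exists_value N v hjv
    have hbA : b ∉ A := fun h => hyv (hy.2 v ⟨⟨b, h⟩, hb⟩)
    have hb0 : b ≠ 0 := fun h => hbA (h ▸ A.zero_mem)
    have hc : b⁻¹ ∈ A.nonunits := EvalBasic.inv_mem_nonunits_of_notMem A hbA
    have hcA : b⁻¹ ∈ A := ValuationSubring.nonunits_subset hc
    have hres : IsLocalRing.residue A ⟨b⁻¹, hcA⟩ = 0 := by
      rw [IsLocalRing.residue_eq_zero_iff]
      exact ValuationSubring.coe_mem_nonunits_iff.mp hc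
    have ht : ((1 - algebraMap Kbar (FN N) b⁻¹ * jBar N : FN N) : Om) =
        1 - HahnSeries.C b⁻¹ * ((jBar N : FN N) : Om) := by
      rw [← EvalBasic.coe_algebraMap_FN N]; rfl
    have htO : ((1 - algebraMap Kbar (FN N) b⁻¹ * jBar N : FN N) : Om) ∈ Ocal A := by
      rw [ht]
      exact (Ocal A).sub_mem (Ocal A).one_mem ((Ocal A).mul_mem (C_mem_Ocal A hcA) hxO)
    refine ⟨1 - algebraMap Kbar (FN N) b⁻¹ * jBar N, ⟨?_, ⟨htO, ?_⟩, ?_⟩, ?_⟩
    · rw [ht]
      have h1 : (HahnSeries.C b⁻¹ : Om) ∈ AX A ((jBar N : FN N) : Om) :=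
        Subring.subset_closure (Or.inl ⟨⟨b⁻¹, hcA⟩, rfl⟩)
      have h2 : ((jBar N : FN N) : Om) ∈ AX A ((jBar N : FN N) : Om) :=
        Subring.subset_closure (Or.inr rfl)
      exact sub_mem (one_mem _) (mul_mem h1 h2)
    · have e : (⟨_, htO⟩ : Ocal A) =
          1 - constO A ⟨b⁻¹, hcA⟩ * ⟨((jBar N : FN N) : Om), hxO⟩ := by
        apply Subtype.ext
        show ((1 - algebraMap Kbar (FN N) b⁻¹ * jBar N : FN N) : Om) =
          1 - ((constO A ⟨b⁻¹, hcA⟩ : Ocal A) : Om) * ((jBar N : FN N) : Om)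
        rw [coe_constO, ht]
      rw [e, map_sub, map_one, map_mul, red_constO, hres, map_zero, zero_mul, sub_zero]
    · intro w hw
      exact sub_mem (one_mem _) (mul_mem (w.algebraMap_mem' _) hw)
    · have e : (1 - algebraMap Kbar (FN N) b⁻¹ * jBar N : FN N) =
          algebraMap Kbar (FN N) b⁻¹ * (-(jBar N - algebraMap Kbar (FN N) b)) := by
        rw [mul_neg, mul_sub, ← map_mul, inv_mul_cancel₀ hb0, map_one]
        ring
      rw [e]
      exact EvalBasic.mul_mem_nonunits _ (v.algebraMap_mem' _)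
        (v.toValuationSubring.nonunits.neg_mem hb)
  obtain ⟨s, hs, hint⟩ := exists_good_isIntegral A N ℓ hℓ hA (jBar N) hxO hxt hxK hx1 hgen
    (fun a => a = 1) rfl (fun a b ha hb => by rw [ha, hb, mul_one]) (fun h => zero_ne_one h)
    y hy.1 hT
  obtain ⟨hs1, ⟨hsO, hsred⟩, -⟩ := hs
  refine ⟨(s : Om), ?_, ⟨hsO, 1, one_ne_zero, ?_⟩, ?_⟩
  · rw [coe_jBar_eq_jK] at hs1
    exact hs1
  · rw [hsred, map_one]
  · rw [coe_jBar_eq_jK] at hint
    exact hint

/-- **[CHART], chart at infinity.** -/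
theorem chartStrInf (N : ℕ) [NeZero N] (ℓ : ℕ) [Fact ℓ.Prime] (hℓ : ¬ ℓ ∣ N)
    (A : ValuationSubring Kbar) (hA : A.LiesOverPrime ℓ) : Plan2.ChartStrInf A N := by
  intro y hy
  have : FiniteDimensional Kbar⟮jBar N⟯ (FN N) := FibreCount.finiteDimensional N
  have : FiniteDimensional Kbar⟮(jBar N)⁻¹⟯ (FN N) :=
    Lib.FFPlaces.finiteDimensional_of_eq (Lib.FFPlaces.adjoin_inv (K := Kbar) (jBar N)).symm
  have hxO := EvalBasic.inv_jBar_mem_Ocal A N
  have hxt : Transcendental (kk A) (red A ⟨(((jBar N)⁻¹ : FN N) : Om), hxO⟩) := by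
    rw [EvalBasic.red_inv_jBar]
    exact Lib.FFPlaces.transcendental_inv (S28.CruxDescent.transcendental_jqModC (kk A))
  have hxK : Transcendental Kbar (((jBar N)⁻¹ : FN N) : Om) := by
    rw [coe_inv_jBar_eq]
    exact Lib.FFPlaces.transcendental_inv (S28.CruxDescent.transcendental_jqModC Kbar)
  have hx1 : (((jBar N)⁻¹ : FN N) : Om) ∈ modularFunctionFieldBar 1 := by
    rw [coe_inv_jBar_eq]
    exact (modularFunctionFieldBar 1).inv_mem (Rad.jK_mem 1)
  have hgen : modularFunctionFieldBar 1 ≤ Kbar⟮(((jBar N)⁻¹ : FN N) : Om)⟯ := by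
    rw [coe_inv_jBar_eq, Lib.FFPlaces.adjoin_inv]
    exact bar_one_le
  have hT : ∀ v : Place Kbar (FN N), (jBar N)⁻¹ ∈ v.toValuationSubring →
      y ∉ v.toValuationSubring →
      ∃ t, Good A N (jBar N)⁻¹
        (fun a => ∃ f : (kk A)[X], a = aeval (jqModC (kk A))⁻¹ f ∧ f.coeff 0 = 1) t ∧
        t ∈ v.toValuationSubring.nonunits := by
    -- the local multiplier at a pole `v` of `y` with `j⁻¹` regular at `v`: `1 - a j⁻¹`, `a = j(v)`
    intro v hjv hyv
    have hfin : FinPl A N v := by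
      by_contra h
      exact hyv (hy.2 v h)
    obtain ⟨a, ha⟩ := hfin
    have ht : ((1 - algebraMap Kbar (FN N) (a : Kbar) * (jBar N)⁻¹ : FN N) : Om) =
        1 - HahnSeries.C (a : Kbar) * (((jBar N)⁻¹ : FN N) : Om) := by
      rw [← EvalBasic.coe_algebraMap_FN N]; rfl
    have htO : ((1 - algebraMap Kbar (FN N) (a : Kbar) * (jBar N)⁻¹ : FN N) : Om) ∈ Ocal A := by
      rw [ht]
      exact (Ocal A).sub_mem (Ocal A).one_mem ((Ocal A).mul_mem (C_mem_Ocal A a.2) hxO)
    refine ⟨1 - algebraMap Kbar (FN N) (a : Kbar) * (jBar N)⁻¹, ⟨?_, ⟨htO, ?_⟩, ?_⟩, ?_⟩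
    · rw [ht]
      have h1 : (HahnSeries.C (a : Kbar) : Om) ∈ AX A (((jBar N)⁻¹ : FN N) : Om) :=
        Subring.subset_closure (Or.inl ⟨a, rfl⟩)
      have h2 : (((jBar N)⁻¹ : FN N) : Om) ∈ AX A (((jBar N)⁻¹ : FN N) : Om) :=
        Subring.subset_closure (Or.inr rfl)
      exact sub_mem (one_mem _) (mul_mem h1 h2)
    · have e : (⟨_, htO⟩ : Ocal A) =
          1 - constO A a * ⟨(((jBar N)⁻¹ : FN N) : Om), hxO⟩ := by
        apply Subtype.ext
        show ((1 - algebraMap Kbar (FN N) (a : Kbar) * (jBar N)⁻¹ : FN N) : Om) =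
          1 - ((constO A a : Ocal A) : Om) * (((jBar N)⁻¹ : FN N) : Om)
        rw [coe_constO, ht]
      refine ⟨1 - C (IsLocalRing.residue A a) * X, ?_, ?_⟩
      · rw [e, map_sub, map_one, map_mul, red_constO, EvalBasic.red_inv_jBar, map_sub, map_one,
          map_mul, aeval_C, aeval_X, algebraMap_LS_eq_C]
      · rw [coeff_sub, coeff_one_zero, Polynomial.coeff_C_mul, coeff_X_zero, mul_zero, sub_zero]
    · intro w hw
      exact sub_mem (one_mem _) (mul_mem (w.algebraMap_mem' _) hw)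
    · have e : (1 - algebraMap Kbar (FN N) (a : Kbar) * (jBar N)⁻¹ : FN N) =
          (jBar N)⁻¹ * (jBar N - algebraMap Kbar (FN N) (a : Kbar)) := by
        rw [mul_sub, inv_mul_cancel₀ (EvalBasic.jBar_ne_zero N)]
        ring
      rw [e]
      exact EvalBasic.mul_mem_nonunits _ hjv ha
  obtain ⟨s, hs, hint⟩ := exists_good_isIntegral A N ℓ hℓ hA (jBar N)⁻¹ hxO hxt hxK hx1 hgen
    (fun a => ∃ f : (kk A)[X], a = aeval (jqModC (kk A))⁻¹ f ∧ f.coeff 0 = 1)
    ⟨1, by rw [map_one], coeff_one_zero⟩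
    (fun a b ⟨f, hf, hf0⟩ ⟨g, hg, hg0⟩ =>
      ⟨f * g, by rw [hf, hg, map_mul], by rw [mul_coeff_zero, hf0, hg0, mul_one]⟩)
    (fun ⟨f, hf, hf0⟩ => by
      have h := coeff_zero_aeval_inv_j (kk A) f
      rw [← hf, HahnSeries.coeff_zero, hf0] at h
      exact zero_ne_one h)
    y hy.1 hT
  obtain ⟨hs1, ⟨hsO, f, hsred, hf0⟩, -⟩ := hs
  refine ⟨(s : Om), ?_, ⟨hsO, ?_⟩, ?_⟩
  · rw [coe_inv_jBar_eq] at hs1
    exact hs1
  · rw [hsred, coeff_zero_aeval_inv_j, hf0]
    exact one_ne_zero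
  · rw [coe_inv_jBar_eq] at hint
    exact hint

end Charts

end Fermat.Agent.S37.Chart
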