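/-
S37 / [CHART] (helper37): `Plan2.ChartRed A N`, unconditional.

`ChartRed` = helper23's `ChartRedOf.chartRed_of_str` applied to `Chart.chartStrFin` and
`Chart.chartStrInf`.
-/
import Mathlib
import Fermat.Agent.S37.Chart
import Fermat.Agent.S37.ChartRedOf

set_option autoImplicit false

namespace Fermat.Agent.S37.Chart

open Fermat.Agent.S24 Fermat.Agent.S37

/-- **[CHART] (C2)** `Plan2.ChartRed A N`: the reduction of a chart element lies in `F_{N,k}` and is
regular at all places of `F_{N,k}` of the type of its chart. -/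
theorem chartRed (N : ℕ) [NeZero N] (ℓ : ℕ) [Fact ℓ.Prime] (hℓ : ¬ ℓ ∣ N)
    (A : ValuationSubring Kbar) (hA : A.LiesOverPrime ℓ) : Plan2.ChartRed A N :=
  ChartRedOf.chartRed_of_str A N ℓ hℓ hA (chartStrFin N ℓ hℓ A hA) (chartStrInf N ℓ hℓ A hA)

end Fermat.Agent.S37.Chart
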