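import Mathlib
import Fermat.Agent.Lib.FibreCharPoly
import Fermat.Agent.Lib.FFRel

/-!
# S37 [FIBRE]: the characteristic polynomial at a place is the product over the fibre

`K` algebraically closed of characteristic zero, `F / K` a function field in one variable,
`F' / F` a finite extension, `v` a place of `F`.  For `x : F'` regular at all places `w` of `F'`
over `v`, with values `a w : K` there, the characteristic polynomial `Chi_x` of multiplication by
`x` on `F'` over `F` has coefficients in the valuation ring of `v`, and its value at `v` is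
`∏_{w | v} (X - a w) ^ e(w | v)`.

* `fibre_charpoly` : the statement for an `Algebra F F'` instance;
* `fibre_charpoly_along` : the statement along a `K`-algebra homomorphism `φ : F →ₐ[K] F'`
  (the convention of `Plan2.Conj` / `Plan2.Kron`).
-/

set_option autoImplicit false
set_option linter.unusedSectionVars false
set_option linter.style.haveILetI false

noncomputable section

namespace Fermat.Agent.S37.Fibre

open AlgebraicCurve Polynomial IsLocalRing IsDedekindDomain
open Fermat.Agent.S24 (IsFF1)
open Fermat.Agent.Lib
open Fermat.Agent.Lib.FFRel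
open scoped nonZeroDivisors

section Generic

variable {K F F' : Type*} [Field K] [IsAlgClosed K] [CharZero K] [Field F] [Field F']
  [Algebra K F] [Algebra K F'] [IsFF1 K F] [Algebra F F'] [IsScalarTower K F F']
  [FiniteDimensional F F']

variable (v : Place K F)

omit [IsAlgClosed K] [IsFF1 K F] in
/-- Membership in a height-one prime of the integral closure of `O_v` is vanishing at the
corresponding place. -/
theorem mem_asIdeal_iff (Q : HeightOneSpectrum (relRing F' v)) (y : relRing F' v) :
    y ∈ Q.asIdeal ↔ (y : F') ∈ (placeOfPrime F' v Q).toValuationSubring.nonunits := by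
  rw [placeOfPrime_toValuationSubring, ← Q.valuation_lt_one_iff_mem (K := F'),
    ValuationSubring.mem_nonunits_iff]
  have h := (Valuation.isEquiv_valuation_valuationSubring (Q.valuation F'))
  exact (Valuation.isEquiv_iff_val_lt_one.mp h)

omit [IsAlgClosed K] [IsFF1 K F] in
/-- An element of `F'` regular at all places over `v` is integral over `O_v`. -/
theorem exists_relRing_eq (x : F')
    (hx : ∀ w : Place K F', w.restrict F = v → x ∈ w.toValuationSubring) :
    ∃ b : relRing F' v, (b : F') = x := by
  have h := HeightOneSpectrum.mem_integers_of_valuation_le_one (R := relRing F' v) F' x ?_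
  · obtain ⟨b, hb⟩ := h
    exact ⟨b, hb⟩
  · intro Q
    have h1 := hx (placeOfPrime F' v Q) (restrict_placeOfPrime F' v Q)
    rwa [placeOfPrime_toValuationSubring, Valuation.mem_valuationSubring_iff] at h1

omit [IsAlgClosed K] [IsFF1 K F] in
/-- The characteristic polynomial over `F` of an element of the integral closure of `O_v` is the
image of its characteristic polynomial over `O_v`. -/
theorem charpoly_coe_relRing (b : relRing F' v) :
    (LinearMap.mulLeft F (b : F')).charpoly =
      (LinearMap.mulLeft v.toValuationSubring b).charpoly.map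
        (algebraMap v.toValuationSubring F) := by
  have : IsLocalization (Algebra.algebraMapSubmonoid (relRing F' v) (v.toValuationSubring)⁰) F' :=
    IsIntegralClosure.isLocalization v.toValuationSubring F F' (relRing F' v)
  exact FibreCharPoly.charpoly_mulLeft_localization v.toValuationSubring
    (v.toValuationSubring)⁰ (Rₘ := F) (Sₘ := F') b

/-- **[FIBRE], integral form.**  For `b` in the integral closure of `O_v` in `F'` with values
`a w : K` at the places `w` over `v`, the characteristic polynomial of `b` over `O_v` reduces
modulo the maximal ideal to `∏_{w | v} (X - a w) ^ e(w | v)`. -/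
theorem charpoly_relRing_map_quotient [HasPrincipalDivisors K F'] (b : relRing F' v)
    (a : Place K F' → K)
    (ha : ∀ w ∈ v.fiber F', (b : F') - algebraMap K F' (a w) ∈ w.toValuationSubring.nonunits) :
    (LinearMap.mulLeft v.toValuationSubring b).charpoly.map
        (Ideal.Quotient.mk (maximalIdeal v.toValuationSubring)) =
      (∏ w ∈ v.fiber F', (X - C (a w)) ^ w.ramificationIndex F).map
        ((Ideal.Quotient.mk (maximalIdeal v.toValuationSubring)).comp
          (algebraMap K v.toValuationSubring)) := by
  classical
  obtain ⟨π, hπ⟩ := IsDiscreteValuationRing.exists_irreducible v.toValuationSubring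
  have hp : (maximalIdeal v.toValuationSubring).map
      (algebraMap v.toValuationSubring (relRing F' v)) ≠ ⊥ := by
    rw [map_maximalIdeal F' v hπ, Ne, Ideal.span_singleton_eq_bot]
    exact algebraMap_irreducible_ne_zero F' v hπ
  have hm0 : maximalIdeal v.toValuationSubring ≠ ⊥ := by
    rintro h
    rw [h, Ideal.map_bot] at hp
    exact hp rfl
  -- primes in the fibre
  have hmem : ∀ P : Ideal (relRing F' v),
      P ∈ IsDedekindDomain.primesOverFinset (maximalIdeal v.toValuationSubring) (relRing F' v) ↔
        P.IsPrime ∧ P ≠ ⊥ := by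
    intro P
    rw [IsDedekindDomain.mem_primesOverFinset_iff hm0]
    constructor
    · rintro ⟨h1, h2⟩
      exact ⟨h1, ne_bot_of_liesOver F' v P⟩
    · rintro ⟨h1, h2⟩
      exact ⟨h1, liesOver_of_ne_bot F' v P h2⟩
  let c : Ideal (relRing F' v) → v.toValuationSubring := fun P =>
    if h : P.IsPrime ∧ P ≠ ⊥ then
      algebraMap K v.toValuationSubring (a (placeOfPrime F' v ⟨P, h.1, h.2⟩))
    else 0
  have hKS : ∀ t : K, algebraMap v.toValuationSubring (relRing F' v)
      (algebraMap K v.toValuationSubring t) = algebraMap K (relRing F' v) t := fun t =>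
    Subtype.ext (IsScalarTower.algebraMap_apply K F F' t).symm
  have hdeg : ∀ P ∈ IsDedekindDomain.primesOverFinset (maximalIdeal v.toValuationSubring)
      (relRing F' v), ∀ y : relRing F' v, ∃ r : v.toValuationSubring,
        y - algebraMap v.toValuationSubring (relRing F' v) r ∈ P := by
    intro P hP y
    obtain ⟨h1, h2⟩ := (hmem P).mp hP
    obtain ⟨t, ht⟩ := exists_sub_mem_prime F' v ⟨P, h1, h2⟩ y
    exact ⟨algebraMap K v.toValuationSubring t, by rw [hKS]; exact ht⟩
  have hc : ∀ P ∈ IsDedekindDomain.primesOverFinset (maximalIdeal v.toValuationSubring)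
      (relRing F' v), b - algebraMap v.toValuationSubring (relRing F' v) (c P) ∈ P := by
    intro P hP
    have h := (hmem P).mp hP
    have hcP : c P = algebraMap K v.toValuationSubring (a (placeOfPrime F' v ⟨P, h.1, h.2⟩)) :=
      dif_pos h
    rw [hcP, hKS]
    have h3 := ha (placeOfPrime F' v ⟨P, h.1, h.2⟩)
      (Place.mem_fiber.mpr (restrict_placeOfPrime F' v _))
    exact (mem_asIdeal_iff v ⟨P, h.1, h.2⟩ _).mpr h3
  rw [FibreCharPoly.charpoly_mulLeft_map_quotient_eq_prod hp b c hdeg hc, Polynomial.map_prod]
  refine Finset.prod_bij (fun P hP => placeOfPrime F' v ⟨P, ((hmem P).mp hP).1, ((hmem P).mp hP).2⟩)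
    ?_ ?_ ?_ ?_
  · intro P hP
    exact Place.mem_fiber.mpr (restrict_placeOfPrime F' v _)
  · intro P hP P' hP' h
    have h1 := placeOfPrime_injective F' v h
    exact congrArg HeightOneSpectrum.asIdeal h1
  · intro w hw
    obtain ⟨Q, rfl⟩ := exists_prime_of_restrict F' v w (Place.mem_fiber.mp hw)
    exact ⟨Q.asIdeal, (hmem _).mpr ⟨Q.isPrime, Q.ne_bot⟩, rfl⟩
  · intro P hP
    have h := (hmem P).mp hP
    have hcP : c P = algebraMap K v.toValuationSubring (a (placeOfPrime F' v ⟨P, h.1, h.2⟩)) :=
      dif_pos h
    have he : Ideal.ramificationIdx' (maximalIdeal v.toValuationSubring) P =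
        (placeOfPrime F' v ⟨P, h.1, h.2⟩).ramificationIndex F := by
      have := h.1
      have hlo : P.LiesOver (maximalIdeal v.toValuationSubring) := liesOver_of_ne_bot F' v P h.2
      rw [ramificationIndex_placeOfPrime,
        Ideal.IsDedekindDomain.ramificationIdx_eq_multiplicity
          (maximalIdeal v.toValuationSubring) P hp,
        Ideal.IsDedekindDomain.ramificationIdx'_eq_multiplicity hp h.1]
    rw [hcP, he]
    simp only [Polynomial.map_pow, Polynomial.map_sub, Polynomial.map_X, Polynomial.map_C,
      RingHom.comp_apply]

/-- **[FIBRE].**  For `x : F'` with values `a w : K` at the places `w` of `F'` over `v`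
(i.e. `x - a w ∈ 𝔪_w`), the coefficients of the characteristic polynomial of multiplication by
`x` on `F'` over `F` are congruent modulo `𝔪_v` to those of `∏_{w | v} (X - a w) ^ e(w | v)`. -/
theorem fibre_charpoly [HasPrincipalDivisors K F'] (x : F') (a : Place K F' → K)
    (ha : ∀ w ∈ v.fiber F', x - algebraMap K F' (a w) ∈ w.toValuationSubring.nonunits) (i : ℕ) :
    (LinearMap.mulLeft F x).charpoly.coeff i -
        algebraMap K F ((∏ w ∈ v.fiber F', (X - C (a w)) ^ w.ramificationIndex F).coeff i) ∈
      v.toValuationSubring.nonunits := by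
  have hx : ∀ w : Place K F', w.restrict F = v → x ∈ w.toValuationSubring := by
    intro w hw
    have h1 := ha w (Place.mem_fiber.mpr hw)
    have h2 : x - algebraMap K F' (a w) ∈ w.toValuationSubring :=
      ValuationSubring.nonunits_subset h1
    have h3 := w.toValuationSubring.add_mem _ _ h2 (w.algebraMap_mem' (a w))
    simpa using h3
  obtain ⟨b, rfl⟩ := exists_relRing_eq v x hx
  rw [charpoly_coe_relRing, Polynomial.coeff_map]
  have h := congrArg (fun q => q.coeff i) (charpoly_relRing_map_quotient v b a ha)
  simp only [Polynomial.coeff_map, RingHom.comp_apply] at h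
  rw [Ideal.Quotient.eq] at h
  exact ValuationSubring.coe_mem_nonunits_iff.mpr h

/-- **[FIBRE], integrality.**  In the situation of `fibre_charpoly` the coefficients of the
characteristic polynomial are regular at `v`. -/
theorem fibre_charpoly_mem [HasPrincipalDivisors K F'] (x : F') (a : Place K F' → K)
    (ha : ∀ w ∈ v.fiber F', x - algebraMap K F' (a w) ∈ w.toValuationSubring.nonunits) (i : ℕ) :
    (LinearMap.mulLeft F x).charpoly.coeff i ∈ v.toValuationSubring := by
  have h1 : (LinearMap.mulLeft F x).charpoly.coeff i -
        algebraMap K F ((∏ w ∈ v.fiber F', (X - C (a w)) ^ w.ramificationIndex F).coeff i) ∈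
      v.toValuationSubring := ValuationSubring.nonunits_subset (fibre_charpoly v x a ha i)
  have h2 := v.toValuationSubring.add_mem _ _ h1 (v.algebraMap_mem'
    ((∏ w ∈ v.fiber F', (X - C (a w)) ^ w.ramificationIndex F).coeff i))
  simpa using h2

end Generic

section Along

variable {K F F' : Type*} [Field K] [Field F] [Field F'] [Algebra K F] [Algebra K F']

/-- Vanishing at a restricted place. -/
theorem mem_nonunits_restrict_iff [Algebra F F'] [IsScalarTower K F F'] [Algebra.IsIntegral F F']
    (w : Place K F') (f : F) :
    f ∈ (w.restrict F).toValuationSubring.nonunits ↔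
      algebraMap F F' f ∈ w.toValuationSubring.nonunits := by
  rw [ValuationSubring.mem_nonunits_iff_or, ValuationSubring.mem_nonunits_iff_or,
    Place.mem_restrict_iff, map_inv₀, map_eq_zero]

/-- Vanishing at a place restricted along a homomorphism. -/
theorem mem_nonunits_restrictAlong_iff (φ : F →ₐ[K] F') (hφ : φ.toRingHom.IsIntegral)
    (w : Place K F') (f : F) :
    f ∈ (w.restrictAlong φ hφ).toValuationSubring.nonunits ↔
      φ f ∈ w.toValuationSubring.nonunits := by
  letI := algebraAlong φ
  haveI := isScalarTower_along φ
  haveI := isIntegral_along φ hφ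
  exact mem_nonunits_restrict_iff w f

variable [IsAlgClosed K] [CharZero K] [IsFF1 K F] [HasPrincipalDivisors K F']

/-- **[FIBRE] along a homomorphism** `φ : F →ₐ[K] F'` (the convention of `Plan2.Conj` and
`Plan2.Kron`): for `x : F'` with values `a w : K` at the places `w` of `F'` over `v` along `φ`,
the coefficients of the characteristic polynomial of `x` over `φ F` are congruent modulo `𝔪_v`
to those of `∏_{w | v} (X - a w) ^ e_φ(w | v)`. -/
theorem fibre_charpoly_along (φ : F →ₐ[K] F') (hφ : φ.toRingHom.IsIntegral)
    (hfin : FiniteAlong K φ) (v : Place K F) (x : F') (a : Place K F' → K)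
    (ha : ∀ w ∈ Place.fiberAlong φ hφ v,
      x - algebraMap K F' (a w) ∈ w.toValuationSubring.nonunits) (i : ℕ) :
    letI := algebraAlong φ
    haveI : Module.Finite F F' := hfin
    (LinearMap.charpoly (LinearMap.mulLeft F x)).coeff i -
        algebraMap K F ((∏ w ∈ Place.fiberAlong φ hφ v,
          (X - C (a w)) ^ w.ramificationIndexAlong φ).coeff i) ∈
      v.toValuationSubring.nonunits := by
  letI := algebraAlong φ
  haveI := isScalarTower_along φ
  haveI : Module.Finite F F' := hfin
  exact fibre_charpoly v x a ha i

/-- Integrality of the coefficients, along a homomorphism. -/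
theorem fibre_charpoly_along_mem (φ : F →ₐ[K] F') (hφ : φ.toRingHom.IsIntegral)
    (hfin : FiniteAlong K φ) (v : Place K F) (x : F') (a : Place K F' → K)
    (ha : ∀ w ∈ Place.fiberAlong φ hφ v,
      x - algebraMap K F' (a w) ∈ w.toValuationSubring.nonunits) (i : ℕ) :
    letI := algebraAlong φ
    haveI : Module.Finite F F' := hfin
    (LinearMap.charpoly (LinearMap.mulLeft F x)).coeff i ∈ v.toValuationSubring := by
  letI := algebraAlong φ
  haveI := isScalarTower_along φ
  haveI : Module.Finite F F' := hfin
  exact fibre_charpoly_mem v x a ha i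

/-- **[FIBRE] for a correspondence** `(β, α)`: for `u : F` with values `val P' : K` at the
places `P' = α_* W` (`W` over `P` along `β`), the characteristic polynomial of `α u` over `β F`
has value `∏_{W | P} (X - u(α_* W)) ^ e_β(W | P)` at `P`. -/
theorem fibre_charpoly_correspondence (α β : F →ₐ[K] F') (hα : α.toRingHom.IsIntegral)
    (hβ : β.toRingHom.IsIntegral) (hfin : FiniteAlong K β) (P : Place K F) (u : F)
    (val : Place K F → K)
    (hval : ∀ W ∈ Place.fiberAlong β hβ P,
      u - algebraMap K F (val (W.restrictAlong α hα)) ∈
        (W.restrictAlong α hα).toValuationSubring.nonunits) (i : ℕ) :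
    letI := algebraAlong β
    haveI : Module.Finite F F' := hfin
    (LinearMap.charpoly (LinearMap.mulLeft F (α u))).coeff i -
        algebraMap K F ((∏ W ∈ Place.fiberAlong β hβ P,
          (X - C (val (W.restrictAlong α hα))) ^ W.ramificationIndexAlong β).coeff i) ∈
      P.toValuationSubring.nonunits := by
  refine fibre_charpoly_along β hβ hfin P (α u) (fun W => val (W.restrictAlong α hα)) ?_ i
  intro W hW
  have h := (mem_nonunits_restrictAlong_iff α hα W _).mp (hval W hW)
  rwa [map_sub, AlgHom.commutes] at h

/-- The divisor of a correspondence `(β, α)` at a place: `α_* β^* P = ∑_{W | P} e_β(W | P) · α_* W`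
(all residue degrees are one). -/
theorem correspondence_single [IsFF1 K F'] (α β : F →ₐ[K] F') (hα : α.toRingHom.IsIntegral)
    (hβ : β.toRingHom.IsIntegral) (P : Place K F) :
    Divisor.correspondence β α hβ hα (Finsupp.single P 1) =
      ∑ W ∈ Place.fiberAlong β hβ P,
        Finsupp.single (W.restrictAlong α hα) (W.ramificationIndexAlong β : ℤ) := by
  rw [Divisor.correspondence_apply, Divisor.pullbackAlong_single, map_sum]
  refine Finset.sum_congr rfl fun W _ => ?_
  rw [Divisor.pushforwardAlong_single, FFRel.inertiaDegAlong_eq_one α hα W]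
  simp

end Along

end Fermat.Agent.S37.Fibre
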