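import Mathlib
import Fermat.Agent.S37.ES.PolyVal
import Fermat.Agent.S37.KronMain
import Fermat.Agent.S37.ConjMain
import Fermat.Agent.S37.ChartHecke
import Fermat.Agent.S18.CuspEmb
import Fermat.Agent.Lib.ResidueAlgClosed
import Fermat.Agent.Lib.FFSep.Places

/-!
# S37 — `[ES]`: Eichler–Shimura on places (helper94)

`es_of : Plan2.Kron A N ℓ → Plan2.ChartHecke A N ℓ → Plan2.Sep A N → Plan2.ES A N ℓ`
(`ℓ` prime, `char k = ℓ`, residue fields of the places of `F_{N,k}` equal to `k`).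

Let `P` be a place of `F_N`, `W` the places of `F_{Nℓ}` over `P` along `β`, with ramification
indices `e_W`, and `P_W` the restriction of `W` along `α`; so `T_ℓ P = ∑ e_W P_W`.  For `u` in the
chart ring of `P`, the characteristic polynomial `χ` of `α u` over `β F_N` has coefficients in the
chart ring of `P`, with value `∏ (X - u(P_W)) ^ e_W` at `P` (`[FIBRE]`), and reduction
`(X - ū(q^ℓ)) (X^ℓ - τ ū)` (`[KRON]`).  The evaluation property at `P` (for the coefficients) and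
at the `P_W` (for `u`) gives

  `∏ (X - ū(r P_W)) ^ e_W = (X - ū(τ Q)) (X - ū(τ⁻¹ Q)) ^ ℓ`,   `Q = r P`,

and a `u` separating the finitely many places involved (`[SEP]`) gives the identity of divisors.
-/

set_option autoImplicit false

noncomputable section

namespace Fermat.Agent.S37.ES

open ModularCurve AlgebraicCurve Polynomial Fermat.Agent.S24 Fermat.Agent.S18.Content
  Fermat.Agent.S18.Plan Fermat.Agent.S37.Plan2 Fermat.Agent.S37.EvalBasic

set_option synthInstance.maxHeartbeats 400000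
set_option maxHeartbeats 3200000

/-! ### From the polynomial identity to the identity of divisors -/

/-- If `gv` is injective on a finite set `S` containing all the points involved, the identity
`∏ (X - gv (rW W)) ^ e W = (X - gv Q₁) (X - gv Q₂) ^ ℓ` gives `∑ e W · rW W = Q₁ + ℓ · Q₂`. -/
theorem finsupp_eq_of_poly {ι Pl k : Type*} [Field k] [DecidableEq Pl] [DecidableEq ι]
    (fib : Finset ι) (rW : ι → Pl) (e : ι → ℕ) (Q₁ Q₂ : Pl) (ℓ : ℕ) (gv : Pl → k)
    (S : Finset Pl) (hSW : ∀ W ∈ fib, rW W ∈ S) (hQ₁ : Q₁ ∈ S) (hQ₂ : Q₂ ∈ S)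
    (hinj : ∀ a ∈ S, ∀ b ∈ S, gv a = gv b → a = b)
    (hpoly : ∏ W ∈ fib, (X - C (gv (rW W))) ^ e W = (X - C (gv Q₁)) * (X - C (gv Q₂)) ^ ℓ) :
    ∑ W ∈ fib, Finsupp.single (rW W) (e W : ℤ) =
      Finsupp.single Q₁ 1 + Finsupp.single Q₂ (ℓ : ℤ) := by
  classical
  ext Q'
  rw [Finsupp.finsetSum_apply, Finsupp.add_apply]
  simp only [Finsupp.single_apply]
  by_cases hQ' : Q' ∈ S
  · have hrm := congrArg (rootMultiplicity (gv Q')) hpoly
    have hne : (X - C (gv Q₁)) * (X - C (gv Q₂)) ^ ℓ ≠ 0 :=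
      mul_ne_zero (X_sub_C_ne_zero _) (pow_ne_zero _ (X_sub_C_ne_zero _))
    rw [rootMultiplicity_prod_X_sub_C_pow, rootMultiplicity_mul hne,
      rootMultiplicity_X_sub_C_pow_eq, ← pow_one (X - C (gv Q₁)),
      rootMultiplicity_X_sub_C_pow_eq] at hrm
    have c1 : ∀ W ∈ fib, (gv (rW W) = gv Q') ↔ (rW W = Q') := fun W hW =>
      ⟨hinj _ (hSW W hW) _ hQ', fun h => by rw [h]⟩
    have c2 : (gv Q₁ = gv Q') ↔ (Q₁ = Q') := ⟨hinj _ hQ₁ _ hQ', fun h => by rw [h]⟩
    have c3 : (gv Q₂ = gv Q') ↔ (Q₂ = Q') := ⟨hinj _ hQ₂ _ hQ', fun h => by rw [h]⟩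
    have hsum : ∑ W ∈ fib, (if gv (rW W) = gv Q' then e W else 0) =
        ∑ W ∈ fib, (if rW W = Q' then e W else 0) :=
      Finset.sum_congr rfl fun W hW => if_congr (c1 W hW) rfl rfl
    rw [hsum, if_congr c2 rfl rfl, if_congr c3 rfl rfl] at hrm
    have hrm' := congrArg (Nat.cast : ℕ → ℤ) hrm
    push_cast at hrm'
    exact hrm'
  · have h1 : ∀ W ∈ fib, rW W ≠ Q' := fun W hW h => hQ' (h ▸ hSW W hW)
    have h2 : Q₁ ≠ Q' := fun h => hQ' (h ▸ hQ₁)
    have h3 : Q₂ ≠ Q' := fun h => hQ' (h ▸ hQ₂)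
    rw [if_neg h2, if_neg h3, add_zero]
    exact Finset.sum_eq_zero fun W hW => if_neg (h1 W hW)

variable (A : ValuationSubring Kbar) (N : ℕ) [NeZero N] (ℓ : ℕ) [NeZero ℓ] [Fact ℓ.Prime]
  [CharP (kk A) ℓ]

/-- **[ES]** Eichler–Shimura on places, from `[KRON]`, `[CHARTHECKE]`, `[SEP]` (and `[FIBRE]`,
which is a theorem). -/
theorem es_of (hkron : Kron A N ℓ) (hch : ChartHecke A N ℓ) (hsep : Sep A N)
    (hresk : ∀ (Q : Place (kk A) (Fk A N)) (f : Fk A N), f ∈ Q.toValuationSubring →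
      ∃ a : kk A, f - algebraMap (kk A) (Fk A N) a ∈ Q.toValuationSubring.nonunits) :
    ES A N ℓ := by
  classical
  intro r hr hα hβ _ τ hτ P
  have hFF : IsFF1 Kbar (FN N) := HeckeInputs.isFF1_FN N
  have hFF' : IsFF1 Kbar (FN (N * ℓ)) := HeckeInputs.isFF1_FN (N * ℓ)
  -- the fibre of `P` along `β` and its image
  have hL : Finsupp.mapDomain r (heckeDivBar hα hβ (Finsupp.single P 1)) =
      ∑ W ∈ Place.fiberAlong (heckeBetaBar Kbar N ℓ) hβ P,
        Finsupp.single (r (W.restrictAlong (heckeAlphaBar Kbar N ℓ) hα))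
          (W.ramificationIndexAlong (heckeBetaBar Kbar N ℓ) : ℤ) := by
    have h1 : heckeDivBar hα hβ (Finsupp.single P 1) =
        ∑ W ∈ Place.fiberAlong (heckeBetaBar Kbar N ℓ) hβ P,
          Finsupp.single (W.restrictAlong (heckeAlphaBar Kbar N ℓ) hα)
            (W.ramificationIndexAlong (heckeBetaBar Kbar N ℓ) : ℤ) :=
      Fibre.correspondence_single (heckeAlphaBar Kbar N ℓ) (heckeBetaBar Kbar N ℓ) hα hβ P
    rw [h1, Finsupp.mapDomain_finsetSum]
    exact Finset.sum_congr rfl fun W _ => Finsupp.mapDomain_single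
  rw [hL]
  -- all the places involved have the type of `P`
  have htypeW : ∀ W ∈ Place.fiberAlong (heckeBetaBar Kbar N ℓ) hβ P,
      (FinPl A N (W.restrictAlong (heckeAlphaBar Kbar N ℓ) hα) ↔ FinPl A N P) := by
    intro W hW
    rw [Place.mem_fiberAlong] at hW
    rw [hch hα hβ W, hW]
  obtain ⟨S, hSdef⟩ : ∃ S : Finset (Place (kk A) (Fk A N)),
      S = (Place.fiberAlong (heckeBetaBar Kbar N ℓ) hβ P).image
          (fun W => r (W.restrictAlong (heckeAlphaBar Kbar N ℓ) hα)) ∪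
        {Defs.coeffAut (kk A) N τ • r P, (Defs.coeffAut (kk A) N τ)⁻¹ • r P} := ⟨_, rfl⟩
  have hSW : ∀ W ∈ Place.fiberAlong (heckeBetaBar Kbar N ℓ) hβ P,
      r (W.restrictAlong (heckeAlphaBar Kbar N ℓ) hα) ∈ S := fun W hW => by
    rw [hSdef]
    exact Finset.mem_union_left _ (Finset.mem_image_of_mem _ hW)
  have hS1 : Defs.coeffAut (kk A) N τ • r P ∈ S := by
    rw [hSdef]
    exact Finset.mem_union_right _ (Finset.mem_insert_self _ _)
  have hS2 : (Defs.coeffAut (kk A) N τ)⁻¹ • r P ∈ S := by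
    rw [hSdef]
    exact Finset.mem_union_right _ (Finset.mem_insert_of_mem (Finset.mem_singleton_self _))
  have hS : ∀ Q' ∈ S, FinPlk A N Q' ↔ FinPl A N P := by
    intro Q' hQ'
    rw [hSdef, Finset.mem_union, Finset.mem_image, Finset.mem_insert, Finset.mem_singleton] at hQ'
    rcases hQ' with ⟨W, hW, rfl⟩ | rfl | rfl
    · exact (typePres A N r hr _).trans (htypeW W hW)
    · exact (finPlk_smul_iff A N τ (r P)).trans (typePres A N r hr P)
    · rw [← map_inv]
      exact (finPlk_smul_iff A N τ⁻¹ (r P)).trans (typePres A N r hr P)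
  -- a separating chart element
  obtain ⟨u, hu, hk, hchart, hreg, hsepS⟩ := sep_same_type A N hsep P S hS
  -- its values on `S`
  have hgv : ∀ Q' : Place (kk A) (Fk A N), ∃ c : kk A, Q' ∈ S →
      (⟨red A ⟨(u : Om), hu⟩, hk⟩ : Fk A N) - algebraMap (kk A) (Fk A N) c ∈
        Q'.toValuationSubring.nonunits := by
    intro Q'
    by_cases hQ' : Q' ∈ S
    · obtain ⟨c, hc⟩ := hresk Q' _ (hreg Q' hQ')
      exact ⟨c, fun _ => hc⟩
    · exact ⟨0, fun h => absurd h hQ'⟩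
  choose gv hgv using hgv
  have hinj : ∀ Q₁ ∈ S, ∀ Q₂ ∈ S, gv Q₁ = gv Q₂ → Q₁ = Q₂ := by
    intro Q₁ h₁ Q₂ h₂ h12
    by_contra hne
    exact hsepS Q₁ h₁ Q₂ h₂ hne (gv Q₁) ⟨hgv Q₁ h₁, h12 ▸ hgv Q₂ h₂⟩
  -- the values of `u` at the places of the type of `P`
  have hvalK : ∀ P' : Place Kbar (FN N), ∃ b : Kbar, (FinPl A N P' ↔ FinPl A N P) →
      u - algebraMap Kbar (FN N) b ∈ P'.toValuationSubring.nonunits := by
    intro P'
    by_cases hP' : (FinPl A N P' ↔ FinPl A N P)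
    · obtain ⟨b, hb⟩ := exists_value N P' (isChart_mem_of_type hchart hP')
      exact ⟨b, fun _ => hb⟩
    · exact ⟨0, fun h => absurd h hP'⟩
  choose valK hvalK using hvalK
  have hvalW : ∀ W ∈ Place.fiberAlong (heckeBetaBar Kbar N ℓ) hβ P,
      ∃ hbA : valK (W.restrictAlong (heckeAlphaBar Kbar N ℓ) hα) ∈ A,
        IsLocalRing.residue A ⟨_, hbA⟩ =
          gv (r (W.restrictAlong (heckeAlphaBar Kbar N ℓ) hα)) := by
    intro W hW
    obtain ⟨hbA, hk', hv⟩ := eval_value hr (W.restrictAlong (heckeAlphaBar Kbar N ℓ) hα) u hu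
      (isChart_of_type hchart (htypeW W hW)) _ (hvalK _ (htypeW W hW))
    exact ⟨hbA, value_unique _ hv (hgv _ (hSW W hW))⟩
  -- the polynomial identity
  have hpoly : ∏ W ∈ Place.fiberAlong (heckeBetaBar Kbar N ℓ) hβ P,
      (X - C (gv (r (W.restrictAlong (heckeAlphaBar Kbar N ℓ) hα)))) ^
        W.ramificationIndexAlong (heckeBetaBar Kbar N ℓ) =
      (X - C (gv (Defs.coeffAut (kk A) N τ • r P))) *
        (X - C (gv ((Defs.coeffAut (kk A) N τ)⁻¹ • r P))) ^ ℓ := by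
    -- integral models of the values of `u`
    have hex : ∀ W : Place Kbar (FN (N * ℓ)), ∃ a : A,
        W ∈ Place.fiberAlong (heckeBetaBar Kbar N ℓ) hβ P →
          ((a : Kbar) = valK (W.restrictAlong (heckeAlphaBar Kbar N ℓ) hα) ∧
            IsLocalRing.residue A a = gv (r (W.restrictAlong (heckeAlphaBar Kbar N ℓ) hα))) := by
      intro W
      by_cases hW : W ∈ Place.fiberAlong (heckeBetaBar Kbar N ℓ) hβ P
      · obtain ⟨hbA, hres⟩ := hvalW W hW
        exact ⟨⟨_, hbA⟩, fun _ => ⟨rfl, hres⟩⟩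
      · exact ⟨0, fun h => absurd h hW⟩
    choose aA haA using hex
    have hpK : fibPoly N ℓ hα hβ P valK =
        (∏ W ∈ Place.fiberAlong (heckeBetaBar Kbar N ℓ) hβ P,
          (X - C (aA W)) ^ W.ramificationIndexAlong (heckeBetaBar Kbar N ℓ)).map A.subtype := by
      rw [fibPoly, Polynomial.map_prod]
      refine Finset.prod_congr rfl fun W hW => ?_
      rw [Polynomial.map_pow, Polynomial.map_sub, map_X, map_C]
      have h1 : A.subtype (aA W) = valK (W.restrictAlong (heckeAlphaBar Kbar N ℓ) hα) :=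
        (haA W hW).1
      rw [h1]
    have hLk : ∏ W ∈ Place.fiberAlong (heckeBetaBar Kbar N ℓ) hβ P,
        (X - C (gv (r (W.restrictAlong (heckeAlphaBar Kbar N ℓ) hα)))) ^
          W.ramificationIndexAlong (heckeBetaBar Kbar N ℓ) =
        (∏ W ∈ Place.fiberAlong (heckeBetaBar Kbar N ℓ) hβ P,
          (X - C (aA W)) ^ W.ramificationIndexAlong (heckeBetaBar Kbar N ℓ)).map
            (IsLocalRing.residue A) := by
      rw [Polynomial.map_prod]
      refine Finset.prod_congr rfl fun W hW => ?_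
      rw [Polynomial.map_pow, Polynomial.map_sub, map_X, map_C, (haA W hW).2]
    obtain ⟨RF, hRF, hRFval⟩ := polyVal_kron τ hτ (r P) ⟨red A ⟨(u : Om), hu⟩, hk⟩
      (gv (Defs.coeffAut (kk A) N τ • r P)) (gv ((Defs.coeffAut (kk A) N τ)⁻¹ • r P))
      (hgv _ hS1) (hgv _ hS2)
    have hval2 : PolyVal (r P) RF
        (∏ W ∈ Place.fiberAlong (heckeBetaBar Kbar N ℓ) hβ P,
          (X - C (gv (r (W.restrictAlong (heckeAlphaBar Kbar N ℓ) hα)))) ^
            W.ramificationIndexAlong (heckeBetaBar Kbar N ℓ)) := by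
      intro i
      obtain ⟨hbA, hk', hv⟩ := eval_chi_coeff hch hkron hr hα hβ τ hτ P u hu valK hvalK i
      have e1 : (⟨_, hk'⟩ : Fk A N) = RF.coeff i := Subtype.ext (hRF i).symm
      have e2 : IsLocalRing.residue A ⟨_, hbA⟩ =
          (∏ W ∈ Place.fiberAlong (heckeBetaBar Kbar N ℓ) hβ P,
            (X - C (gv (r (W.restrictAlong (heckeAlphaBar Kbar N ℓ) hα)))) ^
              W.ramificationIndexAlong (heckeBetaBar Kbar N ℓ)).coeff i := by
        rw [hLk, coeff_map]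
        congr 1
        apply Subtype.ext
        show (fibPoly N ℓ hα hβ P valK).coeff i = _
        rw [hpK, coeff_map]
        rfl
      rw [e1, e2] at hv
      exact hv
    exact hval2.unique hRFval
  exact finsupp_eq_of_poly (Place.fiberAlong (heckeBetaBar Kbar N ℓ) hβ P)
    (fun W => r (W.restrictAlong (heckeAlphaBar Kbar N ℓ) hα))
    (fun W => W.ramificationIndexAlong (heckeBetaBar Kbar N ℓ))
    (Defs.coeffAut (kk A) N τ • r P) ((Defs.coeffAut (kk A) N τ)⁻¹ • r P) ℓ gv S hSW hS1 hS2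
    hinj hpoly

/-! ### The unconditional form (modulo `[SEP]`) -/

/-- The residue field of every place of `F_{N,k}` is `k` (`ℓ ∤ N`, `char k = ℓ`). -/
theorem exists_value_k (N ℓ : ℕ) [NeZero N] [Fact ℓ.Prime] (hℓN : ¬ ℓ ∣ N)
    (A : ValuationSubring Kbar) [CharP (kk A) ℓ] (Q : Place (kk A) (Fk A N)) (f : Fk A N)
    (hf : f ∈ Q.toValuationSubring) :
    ∃ a : kk A, f - algebraMap (kk A) (Fk A N) a ∈ Q.toValuationSubring.nonunits := by
  have hac : IsAlgClosed (kk A) := Lib.ResidueAlgClosed.isAlgClosed_residueField A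
  have hfd := S18.CuspEmb.finiteDimensional_fullC N ℓ hℓN (kk A)
  obtain ⟨_, _, _, _, _, _, _, hsepb⟩ := S18.CuspEmb.exists_cusp_embeddings N ℓ hℓN (kk A)
  obtain ⟨a, ha⟩ := Lib.FFSep.exists_residue (S18.CuspEmb.jk (kk A) N) Q hf
  refine ⟨a, ?_⟩
  rcases ha with ha | ha
  · rw [ha, sub_self]
    exact Q.toValuationSubring.nonunits.zero_mem
  · have h0 : f - algebraMap (kk A) (Fk A N) a ≠ 0 := by
      intro h
      rw [h, Place.ord_zero] at ha
      exact lt_irrefl _ ha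
    rw [Lib.FFPlaces.ord_pos_iff Q h0] at ha
    exact (ValuationSubring.mem_nonunits_iff_or _).mpr (Or.inr ha.2)

/-- **[ES] = `Plan2.ES A N ℓ`** for a prime `ℓ ∤ N` and `A` over `ℓ`, from `[SEP]` alone
(`[KRON]`, `[CONJ]`, `[CHARTHECKE]`, `[FIBRE]` are theorems). -/
theorem es (N ℓ : ℕ) [NeZero N] (hℓ : ℓ.Prime) (hℓN : ¬ ℓ ∣ N) (A : ValuationSubring Kbar)
    (hA : A.LiesOverPrime ℓ) (hsep : Sep A N) : @ES A N _ ℓ ⟨hℓ.ne_zero⟩ := by
  have : NeZero ℓ := ⟨hℓ.ne_zero⟩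
  have : Fact ℓ.Prime := ⟨hℓ⟩
  have : CharP (kk A) ℓ := KronMain.charP_kk A hℓ hA
  exact es_of A N ℓ
    (KronMain.kron_of_conj_of_liesOver A N ℓ hℓ hA (Conj.conj N ℓ hℓ hℓN))
    (ChartHecke.chartHecke N ℓ A hℓ) hsep (exists_value_k N ℓ hℓN A)

end Fermat.Agent.S37.ES
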