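import Mathlib
import Fermat.Agent.S37.Plan2b
import Fermat.Agent.S37.EvalBasic
import Fermat.Agent.S18.Char0
import Fermat.Agent.S18.PlacesModLMain

/-!
# S37 — [LOC], the bookkeeping half (helper39)

`Plan2.Loc A N` asks for the Prelude's `IsPlaceReductionModL A N r` for every place map `r` with
the evaluation property.  Its content is the *per-point* equality
`Σ_{P ↦ Q} ord_P y = ord_Q ȳ` for the series `y = ι u`, `u ∈ A((q))`.

This file reduces it to the per-point equality for **chart elements of the type of `Q`** only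
(`ChartPt`, the natural output of the norm trick):

* `ChartPt A N`  : per-point equality for `v`-units `y` lying in the chart ring of the type of `Q`;
* `UnitPt A N`   : per-point equality for all `v`-units of `F_N` with reduction in `F_{N,k}`;
* `unitPt_of_chartPt : ChartPt A N → UnitPt A N`  (clear the poles of the type of `Q` by a
  product of `(x - x(P))^n`, `x = j` resp. `x = 1/j`);
* `loc_of_unitPt`, `loc_of_chartPt`, `loc_of_chartPt_main` : `… → Plan2.Loc A N`.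
-/

set_option autoImplicit false

noncomputable section

namespace Fermat.Agent.S37.LocAsm

open ModularCurve AlgebraicCurve Fermat.Agent.S24 Fermat.Agent.S18.Content Fermat.Agent.S18.Plan
  Fermat.Agent.S37.Plan2 Fermat.Agent.S37.EvalBasic

set_option synthInstance.maxHeartbeats 400000
set_option maxHeartbeats 1600000

variable (A : ValuationSubring Kbar) (N : ℕ) [NeZero N]

/-! ## The contracts -/

/-- **Per-point equality for chart elements**: for a `v`-unit `y` of `F_N` with reduction in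
`F_{N,k}` lying in the chart ring of the type of the place `Q` of `F_{N,k}`,
`Σ_{P ↦ Q} ord_P y = ord_Q ȳ`. -/
def ChartPt : Prop :=
  ∀ r : Place Kbar (FN N) → Place (kk A) (Fk A N), Eval A N r →
    ∀ (y : FN N) (hy : (y : Om) ∈ Ocal A) (hk : red A ⟨(y : Om), hy⟩ ∈ Fk A N),
      red A ⟨(y : Om), hy⟩ ≠ 0 →
      ∀ Q : Place (kk A) (Fk A N),
        ((FinPlk A N Q ∧ IsChartFin A N y) ∨ (¬ FinPlk A N Q ∧ IsChartInf A N y)) →
        ∑ᶠ P ∈ {P | r P = Q}, P.ord y = Q.ord (⟨_, hk⟩ : Fk A N)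

/-- **Per-point equality for all `v`-units** of `F_N` with reduction in `F_{N,k}`. -/
def UnitPt : Prop :=
  ∀ r : Place Kbar (FN N) → Place (kk A) (Fk A N), Eval A N r →
    ∀ (y : FN N) (hy : (y : Om) ∈ Ocal A) (hk : red A ⟨(y : Om), hy⟩ ∈ Fk A N),
      red A ⟨(y : Om), hy⟩ ≠ 0 →
      ∀ Q : Place (kk A) (Fk A N),
        ∑ᶠ P ∈ {P | r P = Q}, P.ord y = Q.ord (⟨_, hk⟩ : Fk A N)

/-! ## Generic bookkeeping -/

section Generic

variable {K F : Type*} [Field K] [Field F] [Algebra K F]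

/-- An element of the maximal ideal of a place has positive order. -/
theorem ord_pos_of_mem_nonunits (v : Place K F) {u : F} (hu0 : u ≠ 0)
    (hu : u ∈ v.toValuationSubring.nonunits) : 0 < v.ord u := by
  rw [Lib.FFPlaces.ord_pos_iff v hu0]
  refine ⟨ValuationSubring.nonunits_subset hu, ?_⟩
  exact notMem_of_inv_mem_nonunits _ (inv_ne_zero hu0) (by rwa [inv_inv])

/-- `f * u ^ n` is regular at `v` as soon as `u` vanishes at `v` and `n ≥ -ord_v f`. -/
theorem mul_pow_mem (v : Place K F) {f u : F} (hf : f ≠ 0) (hu0 : u ≠ 0)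
    (hu : u ∈ v.toValuationSubring.nonunits) (n : ℕ) (hn : -v.ord f ≤ n) :
    f * u ^ n ∈ v.toValuationSubring := by
  rw [Lib.FFPlaces.mem_iff_ord_nonneg v (mul_ne_zero hf (pow_ne_zero n hu0)),
    v.ord_mul hf (pow_ne_zero n hu0), ← zpow_natCast, v.ord_zpow]
  have h1 := ord_pos_of_mem_nonunits v hu0 hu
  nlinarith

/-- The push-forward of a divisor, evaluated at a point, as a `finsum` over the fibre. -/
theorem mapDomain_apply_eq_finsum {α β : Type*} (r : α → β) (D : α →₀ ℤ) (b : β) :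
    Finsupp.mapDomain r D b = ∑ᶠ a ∈ {a | r a = b}, D a := by
  classical
  rw [Finsupp.mapDomain, Finsupp.sum_apply, Finsupp.sum]
  have h1 : ∀ a ∈ D.support, (Finsupp.single (r a) (D a)) b = if r a = b then D a else 0 := by
    intro a _
    rw [Finsupp.single_apply]
  rw [Finset.sum_congr rfl h1, ← Finset.sum_filter]
  symm
  apply finsum_mem_eq_sum_of_inter_support_eq
  ext a
  simp only [Set.mem_inter_iff, Set.mem_ofPred_eq, Function.mem_support, ne_eq, Finset.coe_filter,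
    Finsupp.mem_support_iff]
  tauto

end Generic

/-! ## Clearing the poles of a given type -/

section Clear

variable (T : Place Kbar (FN N) → Prop)

/-- The multiplicative monoid of the `v`-units of `F_N` with reduction in `F_{N,k}` which are
regular at all places of type `T`. -/
def goodSub : Submonoid (FN N) where
  carrier := {z | (∃ hz : (z : Om) ∈ Ocal A,
      red A ⟨(z : Om), hz⟩ ∈ Fk A N ∧ red A ⟨(z : Om), hz⟩ ≠ 0) ∧
    ∀ P : Place Kbar (FN N), T P → z ∈ P.toValuationSubring}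
  mul_mem' := by
    rintro z w ⟨⟨hz, hzk, hz0⟩, hzT⟩ ⟨⟨hw, hwk, hw0⟩, hwT⟩
    have e : red A ⟨((z * w : FN N) : Om), (Ocal A).mul_mem hz hw⟩ =
        red A ⟨(z : Om), hz⟩ * red A ⟨(w : Om), hw⟩ :=
      (red A).map_mul ⟨(z : Om), hz⟩ ⟨(w : Om), hw⟩
    refine ⟨⟨(Ocal A).mul_mem hz hw, ?_, ?_⟩, fun P hP => mul_mem (hzT P hP) (hwT P hP)⟩
    · rw [e]; exact mul_mem hzk hwk
    · rw [e]; exact mul_ne_zero hz0 hw0
  one_mem' := by
    have e : red A ⟨((1 : FN N) : Om), (Ocal A).one_mem⟩ = 1 := (red A).map_one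
    refine ⟨⟨(Ocal A).one_mem, ?_, ?_⟩, fun P _ => one_mem _⟩
    · rw [e]; exact one_mem _
    · rw [e]; exact one_ne_zero

variable {A N T}

omit [NeZero N] in
theorem mem_goodSub {z : FN N} : z ∈ goodSub A N T ↔
    (∃ hz : (z : Om) ∈ Ocal A, red A ⟨(z : Om), hz⟩ ∈ Fk A N ∧ red A ⟨(z : Om), hz⟩ ≠ 0) ∧
      ∀ P : Place Kbar (FN N), T P → z ∈ P.toValuationSubring := Iff.rfl

omit [NeZero N] in
/-- A coordinate minus a constant of `A` is a good unit. -/
theorem sub_const_mem_goodSub {x : FN N} (hxO : (x : Om) ∈ Ocal A)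
    (hxT : ∀ P : Place Kbar (FN N), T P → x ∈ P.toValuationSubring)
    (hxk : red A ⟨(x : Om), hxO⟩ ∈ Fk A N)
    (hnc : ∀ c : kk A, red A ⟨(x : Om), hxO⟩ ≠ HahnSeries.C c) (b : A) :
    x - algebraMap Kbar (FN N) (b : Kbar) ∈ goodSub A N T := by
  have hO : ((x - algebraMap Kbar (FN N) (b : Kbar) : FN N) : Om) ∈ Ocal A := by
    have : ((x - algebraMap Kbar (FN N) (b : Kbar) : FN N) : Om) =
        (x : Om) - HahnSeries.C (b : Kbar) := by
      rw [← coe_algebraMap_FN N]; rfl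
    rw [this]
    exact (Ocal A).sub_mem hxO (C_mem_Ocal A b.2)
  have hred : red A ⟨_, hO⟩ =
      red A ⟨(x : Om), hxO⟩ - HahnSeries.C (IsLocalRing.residue A b) := by
    have e : (⟨((x - algebraMap Kbar (FN N) (b : Kbar) : FN N) : Om), hO⟩ : Ocal A) =
        ⟨(x : Om), hxO⟩ - constO A b := by
      apply Subtype.ext
      show ((x - algebraMap Kbar (FN N) (b : Kbar) : FN N) : Om) =
        (x : Om) - ((constO A b : Ocal A) : Om)
      rw [coe_constO, ← coe_algebraMap_FN N]; rfl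
    rw [e, map_sub, red_constO]
  refine ⟨⟨hO, ?_, ?_⟩, fun P hP => sub_mem (hxT P hP) (P.algebraMap_mem' _)⟩
  · rw [hred]
    refine sub_mem hxk ?_
    rw [← coe_algebraMap_Fk A N]
    exact SetLike.coe_mem _
  · rw [hred]
    exact sub_ne_zero.mpr (hnc _)

omit [NeZero N] in
theorem ne_zero_of_red_ne {z : FN N} (hz : (z : Om) ∈ Ocal A)
    (h : red A ⟨(z : Om), hz⟩ ≠ 0) : z ≠ 0 := fun h0 =>
  ne_zero_of_red_ne_zero A ⟨(z : Om), hz⟩ h (congrArg Subtype.val h0)

omit [NeZero N] in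
theorem ne_zero_of_mem_goodSub {z : FN N} (hz : z ∈ goodSub A N T) : z ≠ 0 := by
  obtain ⟨⟨hzO, -, hz0⟩, -⟩ := hz
  exact ne_zero_of_red_ne hzO hz0

omit [NeZero N] in
/-- **Clearing poles.**  Let `x` be a coordinate of the places of type `T` (regular with value in
`A` at each of them, with non-constant reduction in `F_{N,k}`).  For every `f ≠ 0` in `F_N` there
is a good unit `y` (a product of powers of `x - x(P)`) such that `f * y` is regular at all places
of type `T`. -/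
theorem exists_clear {x : FN N} (hxO : (x : Om) ∈ Ocal A)
    (hval : ∀ P : Place Kbar (FN N), T P →
      ∃ b : A, x - algebraMap Kbar (FN N) (b : Kbar) ∈ P.toValuationSubring.nonunits)
    (hxk : red A ⟨(x : Om), hxO⟩ ∈ Fk A N)
    (hnc : ∀ c : kk A, red A ⟨(x : Om), hxO⟩ ≠ HahnSeries.C c)
    (f : FN N) (hf : f ≠ 0) (D : Divisor Kbar (FN N)) (hD : ∀ P, D P = P.ord f) :
    ∃ y : FN N, y ∈ goodSub A N T ∧
      ∀ P : Place Kbar (FN N), T P → f * y ∈ P.toValuationSubring := by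
  classical
  have hxT : ∀ P : Place Kbar (FN N), T P → x ∈ P.toValuationSubring := by
    intro P hP
    obtain ⟨b, hb⟩ := hval P hP
    exact mem_of_sub_mem_nonunits P hb
  choose! b hb using hval
  have hgood : ∀ P : Place Kbar (FN N),
      x - algebraMap Kbar (FN N) (b P : Kbar) ∈ goodSub A N T :=
    fun P => sub_const_mem_goodSub hxO hxT hxk hnc (b P)
  set S : Finset (Place Kbar (FN N)) := D.support.filter (fun P => T P ∧ P.ord f < 0) with hS
  set u : Place Kbar (FN N) → FN N :=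
    fun P => (x - algebraMap Kbar (FN N) (b P : Kbar)) ^ (-P.ord f).toNat with hu
  have hugood : ∀ P, u P ∈ goodSub A N T := fun P => pow_mem (hgood P) _
  refine ⟨∏ P ∈ S, u P, Submonoid.prod_mem _ (fun P _ => hugood P), fun P hP => ?_⟩
  by_cases hPS : P ∈ S
  · rw [← Finset.mul_prod_erase S u hPS, ← mul_assoc]
    refine mul_mem ?_ ?_
    · refine mul_pow_mem P hf (ne_zero_of_mem_goodSub (hgood P)) (hb P hP) _ ?_
      rw [Int.toNat_of_nonneg]
      have := (Finset.mem_filter.mp hPS).2.2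
      omega
    · exact ((Submonoid.prod_mem _ (fun P' _ => hugood P') :
        ∏ P' ∈ S.erase P, u P' ∈ goodSub A N T)).2 P hP
  · have hord : 0 ≤ P.ord f := by
      by_contra hneg
      refine hPS (Finset.mem_filter.mpr ⟨?_, hP, not_le.mp hneg⟩)
      rw [Finsupp.mem_support_iff, hD]
      omega
    refine mul_mem ((Lib.FFPlaces.mem_iff_ord_nonneg P hf).mpr hord) ?_
    exact ((Submonoid.prod_mem _ (fun P' _ => hugood P') :
      ∏ P' ∈ S, u P' ∈ goodSub A N T)).2 P hP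

end Clear

/-! ## The two coordinates -/

omit [NeZero N] in
theorem jqModC_ne_C (c : kk A) : jqModC (kk A) ≠ HahnSeries.C c := by
  intro h
  refine Fermat.Agent.S18.PlacesModL.transcendental_jqModC (kk A) ?_
  rw [h, ← algebraMap_LS_eq_C]
  exact isAlgebraic_algebraMap c

omit [NeZero N] in
theorem inv_jqModC_ne_C (c : kk A) : (jqModC (kk A))⁻¹ ≠ HahnSeries.C c := by
  intro h
  have h0 : jqModC (kk A) ≠ 0 := jqModC_ne_zero_of_nontrivial (kk A)
  have hc : c ≠ 0 := by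
    rintro rfl
    rw [map_zero, inv_eq_zero] at h
    exact h0 h
  refine jqModC_ne_C A c⁻¹ ?_
  rw [map_inv₀, ← h, inv_inv]

/-- At a place not of finite type, `1/j` has a value in `A` (in fact in `𝔪_A`). -/
theorem exists_value_inv_jBar (P : Place Kbar (FN N)) (hP : ¬ FinPl A N P) :
    ∃ b : A, (jBar N)⁻¹ - algebraMap Kbar (FN N) (b : Kbar) ∈ P.toValuationSubring.nonunits := by
  by_cases hj : jBar N ∈ P.toValuationSubring
  · obtain ⟨a, ha⟩ := exists_value N P hj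
    have haA : a ∉ A := fun h => hP ⟨⟨a, h⟩, ha⟩
    have ha0 : a ≠ 0 := fun h => haA (h ▸ A.zero_mem)
    refine ⟨⟨a⁻¹, ValuationSubring.nonunits_subset (inv_mem_nonunits_of_notMem A haA)⟩, ?_⟩
    have hjinv : (jBar N)⁻¹ ∈ P.toValuationSubring := by
      by_contra h
      have h1 := inv_mem_nonunits_of_notMem _ h
      rw [inv_inv] at h1
      have h2 := P.toValuationSubring.nonunits.sub_mem h1 ha
      rw [sub_sub_cancel, algebraMap_mem_nonunits_iff] at h2
      exact ha0 h2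
    have e : (jBar N)⁻¹ - algebraMap Kbar (FN N) a⁻¹ =
        (algebraMap Kbar (FN N) a⁻¹ * (jBar N)⁻¹) *
          (-(jBar N - algebraMap Kbar (FN N) a)) := by
      have hj0 := jBar_ne_zero N
      have ha0' : algebraMap Kbar (FN N) a ≠ 0 := by
        rwa [Ne, map_eq_zero]
      rw [map_inv₀]
      field_simp
      ring
    show (jBar N)⁻¹ - algebraMap Kbar (FN N) a⁻¹ ∈ P.toValuationSubring.nonunits
    rw [e]
    exact mul_mem_nonunits _ (mul_mem (P.algebraMap_mem' _) hjinv)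
      (P.toValuationSubring.nonunits.neg_mem ha)
  · refine ⟨0, ?_⟩
    rw [ZeroMemClass.coe_zero, map_zero, sub_zero]
    exact inv_mem_nonunits_of_notMem _ hj

/-! ## From chart elements to all `v`-units -/

variable {A N}

/-- Additivity: the per-point equality for `f * y` and for `y` gives it for `f`. -/
theorem pt_of_mul (h0 : Char0Stmt N) (r : Place Kbar (FN N) → Place (kk A) (Fk A N))
    (Q : Place (kk A) (Fk A N))
    (f y : FN N) (hf : (f : Om) ∈ Ocal A) (hy : (y : Om) ∈ Ocal A)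
    (hfk : red A ⟨(f : Om), hf⟩ ∈ Fk A N) (hyk : red A ⟨(y : Om), hy⟩ ∈ Fk A N)
    (hf0 : red A ⟨(f : Om), hf⟩ ≠ 0) (hy0 : red A ⟨(y : Om), hy⟩ ≠ 0)
    (hfyk : red A ⟨((f * y : FN N) : Om), (Ocal A).mul_mem hf hy⟩ ∈ Fk A N)
    (h1 : ∑ᶠ P ∈ {P | r P = Q}, P.ord (f * y) = Q.ord (⟨_, hfyk⟩ : Fk A N))
    (h2 : ∑ᶠ P ∈ {P | r P = Q}, P.ord y = Q.ord (⟨_, hyk⟩ : Fk A N)) :
    ∑ᶠ P ∈ {P | r P = Q}, P.ord f = Q.ord (⟨_, hfk⟩ : Fk A N) := by
  have hfne : f ≠ 0 := ne_zero_of_red_ne hf hf0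
  have hyne : y ≠ 0 := ne_zero_of_red_ne hy hy0
  obtain ⟨Df, hDf, -⟩ := h0.2.1 f hfne
  obtain ⟨Dy, hDy, -⟩ := h0.2.1 y hyne
  have hfinf : ({P | r P = Q} ∩ Function.support fun P : Place Kbar (FN N) => P.ord f).Finite := by
    refine (Df.support.finite_toSet).subset ?_
    rintro P ⟨-, hP⟩
    rw [Finset.mem_coe, Finsupp.mem_support_iff, hDf]
    exact hP
  have hfiny : ({P | r P = Q} ∩ Function.support fun P : Place Kbar (FN N) => P.ord y).Finite := by
    refine (Dy.support.finite_toSet).subset ?_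
    rintro P ⟨-, hP⟩
    rw [Finset.mem_coe, Finsupp.mem_support_iff, hDy]
    exact hP
  have hsum : ∑ᶠ P ∈ {P | r P = Q}, P.ord (f * y) =
      ∑ᶠ P ∈ {P | r P = Q}, P.ord f + ∑ᶠ P ∈ {P | r P = Q}, P.ord y := by
    rw [← finsum_mem_add_distrib' hfinf hfiny]
    exact finsum_mem_congr rfl (fun P _ => P.ord_mul hfne hyne)
  have hk : (⟨red A ⟨((f * y : FN N) : Om), (Ocal A).mul_mem hf hy⟩, hfyk⟩ : Fk A N) =
      ⟨_, hfk⟩ * ⟨_, hyk⟩ :=
    Subtype.ext ((red A).map_mul ⟨(f : Om), hf⟩ ⟨(y : Om), hy⟩)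
  have hfk0 : (⟨_, hfk⟩ : Fk A N) ≠ 0 := fun h => hf0 (congrArg Subtype.val h)
  have hyk0 : (⟨_, hyk⟩ : Fk A N) ≠ 0 := fun h => hy0 (congrArg Subtype.val h)
  rw [hk, Q.ord_mul hfk0 hyk0, hsum] at h1
  linarith

/-- **From chart elements to all `v`-units.** -/
theorem unitPt_of_chartPt (h0 : Char0Stmt N) (hpt : ChartPt A N) : UnitPt A N := by
  intro r hr f hf hfk hf0 Q
  have hfne : f ≠ 0 := ne_zero_of_red_ne hf hf0
  obtain ⟨D, hD, -⟩ := h0.2.1 f hfne
  by_cases hQ : FinPlk A N Q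
  · have hxk : red A ⟨((jBar N : FN N) : Om), jBar_mem_Ocal A N⟩ ∈ Fk A N := by
      rw [red_jBar]; exact jqModC_mem_full (kk A) N
    have hnc : ∀ c : kk A, red A ⟨((jBar N : FN N) : Om), jBar_mem_Ocal A N⟩ ≠ HahnSeries.C c := by
      intro c; rw [red_jBar]; exact jqModC_ne_C A c
    obtain ⟨y, ⟨⟨hy, hyk, hy0⟩, hyT⟩, hfy⟩ := exists_clear (T := FinPl A N)
      (jBar_mem_Ocal A N) (fun P hP => hP) hxk hnc f hfne D hD
    have hfyk : red A ⟨((f * y : FN N) : Om), (Ocal A).mul_mem hf hy⟩ ∈ Fk A N := by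
      have e : red A ⟨((f * y : FN N) : Om), (Ocal A).mul_mem hf hy⟩ =
          red A ⟨(f : Om), hf⟩ * red A ⟨(y : Om), hy⟩ :=
        (red A).map_mul ⟨(f : Om), hf⟩ ⟨(y : Om), hy⟩
      rw [e]; exact mul_mem hfk hyk
    have hfy0 : red A ⟨((f * y : FN N) : Om), (Ocal A).mul_mem hf hy⟩ ≠ 0 := by
      have e : red A ⟨((f * y : FN N) : Om), (Ocal A).mul_mem hf hy⟩ =
          red A ⟨(f : Om), hf⟩ * red A ⟨(y : Om), hy⟩ :=
        (red A).map_mul ⟨(f : Om), hf⟩ ⟨(y : Om), hy⟩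
      rw [e]; exact mul_ne_zero hf0 hy0
    exact pt_of_mul h0 r Q f y hf hy hfk hyk hf0 hy0 hfyk
      (hpt r hr (f * y) ((Ocal A).mul_mem hf hy) hfyk hfy0 Q
        (Or.inl ⟨hQ, (Ocal A).mul_mem hf hy, hfy⟩))
      (hpt r hr y hy hyk hy0 Q (Or.inl ⟨hQ, hy, hyT⟩))
  · have hxk : red A ⟨(((jBar N)⁻¹ : FN N) : Om), inv_jBar_mem_Ocal A N⟩ ∈ Fk A N := by
      rw [red_inv_jBar]; exact inv_mem (jqModC_mem_full (kk A) N)
    have hnc : ∀ c : kk A,
        red A ⟨(((jBar N)⁻¹ : FN N) : Om), inv_jBar_mem_Ocal A N⟩ ≠ HahnSeries.C c := by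
      intro c; rw [red_inv_jBar]; exact inv_jqModC_ne_C A c
    obtain ⟨y, ⟨⟨hy, hyk, hy0⟩, hyT⟩, hfy⟩ := exists_clear (T := fun P => ¬ FinPl A N P)
      (inv_jBar_mem_Ocal A N) (exists_value_inv_jBar A N) hxk hnc f hfne D hD
    have hfyk : red A ⟨((f * y : FN N) : Om), (Ocal A).mul_mem hf hy⟩ ∈ Fk A N := by
      have e : red A ⟨((f * y : FN N) : Om), (Ocal A).mul_mem hf hy⟩ =
          red A ⟨(f : Om), hf⟩ * red A ⟨(y : Om), hy⟩ :=
        (red A).map_mul ⟨(f : Om), hf⟩ ⟨(y : Om), hy⟩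
      rw [e]; exact mul_mem hfk hyk
    have hfy0 : red A ⟨((f * y : FN N) : Om), (Ocal A).mul_mem hf hy⟩ ≠ 0 := by
      have e : red A ⟨((f * y : FN N) : Om), (Ocal A).mul_mem hf hy⟩ =
          red A ⟨(f : Om), hf⟩ * red A ⟨(y : Om), hy⟩ :=
        (red A).map_mul ⟨(f : Om), hf⟩ ⟨(y : Om), hy⟩
      rw [e]; exact mul_ne_zero hf0 hy0
    exact pt_of_mul h0 r Q f y hf hy hfk hyk hf0 hy0 hfyk
      (hpt r hr (f * y) ((Ocal A).mul_mem hf hy) hfyk hfy0 Q
        (Or.inr ⟨hQ, (Ocal A).mul_mem hf hy, hfy⟩))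
      (hpt r hr y hy hyk hy0 Q (Or.inr ⟨hQ, hy, hyT⟩))

/-! ## Assembly of `Plan2.Loc` -/

/-- **[LOC] from the per-point equality for `v`-units.** -/
theorem loc_of_unitPt (h0 : Char0Stmt N) (hdeg : ∀ Q : Place (kk A) (Fk A N), Q.deg = 1)
    (hpt : UnitPt A N) : Loc A N := by
  intro r hr
  refine ⟨fun P => by rw [hdeg (r P), h0.1 P], ?_⟩
  intro y hy hyk hne D hD Q
  have hO : (((⟨coeffMap A.subtype y, hy⟩ : FN N)) : Om) ∈ Ocal A := iota_mem_Ocal A y
  have hred : red A ⟨(((⟨coeffMap A.subtype y, hy⟩ : FN N)) : Om), hO⟩ =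
      coeffMap (IsLocalRing.residue A) y := red_iota A y
  have hk : red A ⟨(((⟨coeffMap A.subtype y, hy⟩ : FN N)) : Om), hO⟩ ∈ Fk A N := by
    rw [hred]; exact hyk
  have h1 := hpt r hr ⟨coeffMap A.subtype y, hy⟩ hO hk (by rw [hred]; exact hne) Q
  rw [mapDomain_apply_eq_finsum, finsum_mem_congr rfl (fun P _ => hD P), h1]
  congr 1
  exact Subtype.ext hred

/-- **[LOC] from the per-point equality for chart elements.** -/
theorem loc_of_chartPt (h0 : Char0Stmt N) (hdeg : ∀ Q : Place (kk A) (Fk A N), Q.deg = 1)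
    (hpt : ChartPt A N) : Loc A N :=
  loc_of_unitPt h0 hdeg (unitPt_of_chartPt h0 hpt)

variable (A N)

/-- Every place of `F_{N,k}` has degree one (`ℓ ∤ N`, `A` over `ℓ`). -/
theorem deg_eq_one_k (ℓ : ℕ) [Fact ℓ.Prime] (hℓ : ¬ ℓ ∣ N) (hA : A.LiesOverPrime ℓ)
    (Q : Place (kk A) (Fk A N)) : Q.deg = 1 := by
  have := Fermat.Agent.S18.PlacesModL.finiteDimensional_jb N ℓ hℓ A hA
  have := Fermat.Agent.S18.PlacesModL.isSeparable_jb N ℓ hℓ A hA
  have := Fermat.Agent.S18.PlacesModL.isAlgClosed_kk A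
  exact Lib.FFSep.deg_eq_one (Fermat.Agent.S18.PlacesModL.jb A N) Q

/-- **[LOC] from the per-point equality for chart elements**, closed form (`ℓ ∤ N`, `A` over
`ℓ`). -/
theorem loc_of_chartPt_main (ℓ : ℕ) [Fact ℓ.Prime] (hℓ : ¬ ℓ ∣ N) (hA : A.LiesOverPrime ℓ)
    (hpt : ChartPt A N) : Loc A N :=
  loc_of_chartPt (Fermat.Agent.S18.Char0.char0Stmt N) (deg_eq_one_k A N ℓ hℓ hA) hpt

end Fermat.Agent.S37.LocAsm

end
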