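import Mathlib
import Fermat.Agent.S37.LocAsm
import Fermat.Agent.Lib.FFSep.Divisor

/-!
# S37 — [LOC], the per-point equality for chart elements (helper39; declared second method)

`chartPt_of : FibreSum → Sep → ChartRed → LocAsm.ChartPt A N`, hence
`loc_of : FibreSum → Sep → ChartRed → Plan2.Loc A N` through `S37/LocAsm.lean`.

Method (no idempotent, no norm).  Let `Q₀` be a place of `F_{N,k}` over `c ∈ ℙ¹(k)` and `y` a
chart `v`-unit of the type of `Q₀`; put `m = ord_{Q₀} ȳ`.  Take `u` in the chart ring with `ū`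
separating the fibre of `c` and `ū(Q₀) = 0`; let `P_i` be the zeros of `y` over `Q₀`,
`n_i = ord_{P_i} y`, `b_i = u(P_i) ∈ 𝔪_A`, and
`z = y + λ · u^(m+1) · ∏ (u - b_i)^(n_i)` with `λ ∈ A` generic.  Then `z` is a chart element,
`ord_{P_i} z ≥ n_i`, `ord_{Q₀} z̄ = m` and `z̄(Q') ≠ 0` at the other places `Q'` over `c`, so the
fibre-sum formula for `z` gives `Σ_{P ↦ Q₀} ord_P y ≤ Σ_{P | c} ord_P z = m`.  Summing over the
fibre and using the fibre-sum formula for `y` turns all these inequalities into equalities.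

The core (`pt_of_fibreSum`) is stated for two abstract function fields.
-/

set_option autoImplicit false

noncomputable section

namespace Fermat.Agent.S37.LocPt

open AlgebraicCurve

/-! ## Values at places -/

section Val

variable {K F : Type*} [Field K] [Field F] [Algebra K F]

/-- `f` has value `a` at the place `v`: `f - a ∈ 𝔪_v`. -/
def HasVal (v : Place K F) (f : F) (a : K) : Prop :=
  f - algebraMap K F a ∈ v.toValuationSubring.nonunits

variable {v : Place K F} {f g : F} {a b : K}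

theorem HasVal.mem (h : HasVal v f a) : f ∈ v.toValuationSubring := by
  have := v.toValuationSubring.add_mem _ _ (ValuationSubring.nonunits_subset h)
    (v.algebraMap_mem' a)
  simpa using this

theorem mul_mem_nonunits' (B : ValuationSubring F) {x m : F} (hx : x ∈ B)
    (hm : m ∈ B.nonunits) : x * m ∈ B.nonunits := by
  rw [ValuationSubring.mem_nonunits_iff] at hm ⊢
  rw [map_mul]
  exact mul_lt_one_of_nonneg_of_lt_one_right ((B.valuation_le_one_iff x).mpr hx) zero_le hm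

theorem one_notMem_nonunits' (B : ValuationSubring F) : (1 : F) ∉ B.nonunits := by
  rw [ValuationSubring.mem_nonunits_iff, map_one]
  exact lt_irrefl _

theorem algebraMap_mem_nonunits_iff' (v : Place K F) (a : K) :
    algebraMap K F a ∈ v.toValuationSubring.nonunits ↔ a = 0 := by
  constructor
  · intro h
    by_contra ha
    have h1 := mul_mem_nonunits' v.toValuationSubring (v.algebraMap_mem' a⁻¹) h
    rw [← map_mul, inv_mul_cancel₀ ha, map_one] at h1
    exact one_notMem_nonunits' _ h1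
  · rintro rfl
    rw [map_zero]
    exact v.toValuationSubring.nonunits.zero_mem

theorem HasVal.unique (ha : HasVal v f a) (hb : HasVal v f b) : a = b := by
  have h := v.toValuationSubring.nonunits.sub_mem hb ha
  have e : f - algebraMap K F b - (f - algebraMap K F a) = algebraMap K F (a - b) := by
    rw [map_sub]; ring
  rw [e, algebraMap_mem_nonunits_iff'] at h
  exact sub_eq_zero.mp h

theorem hasVal_algebraMap (v : Place K F) (a : K) : HasVal v (algebraMap K F a) a := by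
  unfold HasVal
  rw [sub_self]
  exact v.toValuationSubring.nonunits.zero_mem

theorem hasVal_zero_iff : HasVal v f 0 ↔ f ∈ v.toValuationSubring.nonunits := by
  unfold HasVal
  rw [map_zero, sub_zero]

theorem HasVal.add (hf : HasVal v f a) (hg : HasVal v g b) : HasVal v (f + g) (a + b) := by
  unfold HasVal at *
  have e : f + g - algebraMap K F (a + b) = (f - algebraMap K F a) + (g - algebraMap K F b) := by
    rw [map_add]; ring
  rw [e]
  exact v.toValuationSubring.nonunits.add_mem hf hg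

theorem HasVal.sub (hf : HasVal v f a) (hg : HasVal v g b) : HasVal v (f - g) (a - b) := by
  unfold HasVal at *
  have e : f - g - algebraMap K F (a - b) = (f - algebraMap K F a) - (g - algebraMap K F b) := by
    rw [map_sub]; ring
  rw [e]
  exact v.toValuationSubring.nonunits.sub_mem hf hg

theorem HasVal.mul (hf : HasVal v f a) (hg : HasVal v g b) : HasVal v (f * g) (a * b) := by
  have hgm := hg.mem
  unfold HasVal at *
  have e : f * g - algebraMap K F (a * b) =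
      g * (f - algebraMap K F a) + algebraMap K F a * (g - algebraMap K F b) := by
    rw [map_mul]; ring
  rw [e]
  exact v.toValuationSubring.nonunits.add_mem (mul_mem_nonunits' _ hgm hf)
    (mul_mem_nonunits' _ (v.algebraMap_mem' a) hg)

theorem HasVal.pow (hf : HasVal v f a) (n : ℕ) : HasVal v (f ^ n) (a ^ n) := by
  induction n with
  | zero =>
    have := hasVal_algebraMap v (1 : K)
    rw [map_one] at this
    rwa [pow_zero, pow_zero]
  | succ n ih =>
    rw [pow_succ, pow_succ]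
    exact ih.mul hf

theorem ord_pos_iff_mem_nonunits (v : Place K F) (hf : f ≠ 0) :
    0 < v.ord f ↔ f ∈ v.toValuationSubring.nonunits := by
  rw [Lib.FFPlaces.ord_pos_iff v hf]
  constructor
  · rintro ⟨-, h2⟩
    have := v.toValuationSubring.inv_mem_nonunits_iff.mpr (Or.inr h2)
    rwa [inv_inv] at this
  · intro h
    refine ⟨ValuationSubring.nonunits_subset h, fun h2 => ?_⟩
    have h3 := mul_mem_nonunits' _ h2 h
    rw [inv_mul_cancel₀ hf] at h3
    exact one_notMem_nonunits' _ h3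

/-- A function with a nonzero value at `v` has order zero at `v`. -/
theorem HasVal.ord_eq_zero (h : HasVal v f a) (ha : a ≠ 0) : v.ord f = 0 := by
  have hf0 : f ≠ 0 := by
    rintro rfl
    exact ha (h.unique (hasVal_zero_iff.mpr v.toValuationSubring.nonunits.zero_mem))
  have h1 := (Lib.FFPlaces.mem_iff_ord_nonneg v hf0).mp h.mem
  have h2 : ¬ 0 < v.ord f := by
    rw [ord_pos_iff_mem_nonunits v hf0]
    intro h3
    exact ha (h.unique (hasVal_zero_iff.mpr h3))
  omega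

/-- Adding a term of strictly larger order does not change the order. -/
theorem ord_add_eq_of_lt (v : Place K F) {f t : F} (hf : f ≠ 0)
    (ht : t = 0 ∨ v.ord f < v.ord t) : f + t ≠ 0 ∧ v.ord (f + t) = v.ord f := by
  rcases ht with rfl | ht
  · rw [add_zero]; exact ⟨hf, rfl⟩
  have hne : f + t ≠ 0 := by
    intro h
    have : t = -f := eq_neg_of_add_eq_zero_right h
    rw [this, Lib.FFSep.ord_neg_eq] at ht
    exact lt_irrefl _ ht
  refine ⟨hne, ?_⟩
  have h1 := Lib.FFSep.min_ord_le_ord_add v (f := f) (g := t) hne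
  have h2 := Lib.FFSep.min_ord_le_ord_add v (f := f + t) (g := -t) (by simpa using hf)
  rw [add_neg_cancel_right, Lib.FFSep.ord_neg_eq] at h2
  rw [min_eq_left ht.le] at h1
  rcases min_le_iff.mp h2 with h | h
  · omega
  · omega

/-- `n ≤ ord_v (f + h * w ^ n)` if `n ≤ ord_v f`, `h` is regular at `v` and `w ∈ 𝔪_v`. -/
theorem le_ord_add_mul_pow (v : Place K F) {f h w : F} (n : ℕ)
    (hfn : (n : ℤ) ≤ v.ord f) (hh : h ∈ v.toValuationSubring)
    (hw : w ∈ v.toValuationSubring.nonunits) (hz : f + h * w ^ n ≠ 0) :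
    (n : ℤ) ≤ v.ord (f + h * w ^ n) := by
  by_cases h0 : h * w ^ n = 0
  · rw [h0, add_zero]; exact hfn
  have hh0 : h ≠ 0 := left_ne_zero_of_mul h0
  have hwn0 : w ^ n ≠ 0 := right_ne_zero_of_mul h0
  have hw0 : w ≠ 0 ∨ n = 0 := by
    by_cases hn : n = 0
    · exact Or.inr hn
    · left
      rintro rfl
      exact hwn0 (zero_pow hn)
  have h1 : (n : ℤ) ≤ v.ord (w ^ n) := by
    rw [← zpow_natCast, v.ord_zpow]
    rcases hw0 with hw0 | rfl
    · have := (ord_pos_iff_mem_nonunits v hw0).mpr hw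
      nlinarith
    · simp
  have h2 := (Lib.FFPlaces.mem_iff_ord_nonneg v hh0).mp hh
  have h3 : (n : ℤ) ≤ v.ord (h * w ^ n) := by
    rw [v.ord_mul hh0 hwn0]; omega
  exact (le_min hfn h3).trans (Lib.FFSep.min_ord_le_ord_add v hz)

end Val

/-! ## The generic core: fibre sums + separation + evaluation ⇒ per-point equality -/

section Core

variable {K F k Fk : Type*} [Field K] [Field F] [Algebra K F] [Field k] [Field Fk] [Algebra k Fk]

/-- A sum over a finite subset of `s` is at most the `finsum` over `s` of a function which is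
nonnegative on `s`. -/
theorem sum_le_finsum_mem {α : Type*} (s : Set α) (I : Finset α) (f : α → ℤ)
    (hI : ∀ i ∈ I, i ∈ s) (hnn : ∀ i ∈ s, 0 ≤ f i) (hfin : (Function.support f).Finite) :
    ∑ i ∈ I, f i ≤ ∑ᶠ i ∈ s, f i := by
  classical
  have h1 : ∑ᶠ i ∈ s, f i = ∑ i ∈ (hfin.toFinset ∪ I).filter (· ∈ s), f i := by
    apply finsum_mem_eq_sum_of_inter_support_eq
    ext i
    simp only [Set.mem_inter_iff, Function.mem_support, Finset.coe_filter, Finset.mem_union,
      Set.Finite.mem_toFinset, Set.mem_ofPred_eq]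
    tauto
  rw [h1]
  apply Finset.sum_le_sum_of_subset_of_nonneg
  · intro i hi
    exact Finset.mem_filter.mpr ⟨Finset.mem_union_right _ hi, hI i hi⟩
  · intro i hi _
    exact hnn i (Finset.mem_filter.mp hi).2

/-- **Key inequality.**  In the situation of `pt_of_fibreSum`:
`Σ_{P ↦ Q₀} ord_P y ≤ ord_{Q₀} ρ(y)`. -/
theorem pt_le_of_fibreSum
    (A : ValuationSubring K) (π : A →+* k) (hπ : Function.Surjective π) [Infinite k]
    (R : Subring F) (ρ : R →+* Fk) (r : Place K F → Place k Fk)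
    (SK : Set (Place K F)) (Sk : Finset (Place k Fk))
    (hr : ∀ P, P ∈ SK ↔ r P ∈ Sk)
    (hconst : ∀ a : A, ∃ h : algebraMap K F (a : K) ∈ R, ρ ⟨_, h⟩ = algebraMap k Fk (π a))
    (hvalK : ∀ z : R, ∀ P ∈ SK, ∃ b : K, HasVal P (z : F) b)
    (hvalk : ∀ z : R, ∀ Q ∈ Sk, ∃ a : k, HasVal Q (ρ z) a)
    (heval : ∀ z : R, ∀ P ∈ SK, ∀ b : K, HasVal P (z : F) b →
      ∃ hb : b ∈ A, HasVal (r P) (ρ z) (π ⟨b, hb⟩))
    (hfinK : ∀ f : F, f ≠ 0 → (Function.support fun P : Place K F => P.ord f).Finite)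
    (hsum : ∀ z : R, ρ z ≠ 0 → ∑ᶠ P ∈ SK, P.ord (z : F) = ∑ Q ∈ Sk, Q.ord (ρ z))
    (hsep : ∃ u : R, ∀ Q ∈ Sk, ∀ Q' ∈ Sk, Q ≠ Q' → ∀ a : k,
      ¬ (HasVal Q (ρ u) a ∧ HasVal Q' (ρ u) a))
    (y : R) (hy : ρ y ≠ 0) (Q₀ : Place k Fk) (hQ₀ : Q₀ ∈ Sk) :
    ∑ᶠ P ∈ {P | r P = Q₀}, P.ord (y : F) ≤ Q₀.ord (ρ y) := by
  classical
  -- basic facts
  have hne : ∀ z : R, ρ z ≠ 0 → (z : F) ≠ 0 := by
    intro z hz h
    apply hz
    have : z = 0 := Subtype.ext h
    rw [this, map_zero]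
  have hregK : ∀ z : R, ∀ P ∈ SK, (z : F) ∈ P.toValuationSubring := fun z P hP =>
    (hvalK z P hP).choose_spec.mem
  have hregk : ∀ z : R, ∀ Q ∈ Sk, ρ z ∈ Q.toValuationSubring := fun z Q hQ =>
    (hvalk z Q hQ).choose_spec.mem
  have hy0 := hne y hy
  have hnnK : ∀ z : R, ρ z ≠ 0 → ∀ P ∈ SK, 0 ≤ P.ord (z : F) := fun z hz P hP =>
    (Lib.FFPlaces.mem_iff_ord_nonneg P (hne z hz)).mp (hregK z P hP)
  -- constants
  choose cR hcR using hconst
  set cst : A → R := fun a => ⟨algebraMap K F (a : K), cR a⟩ with hcst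
  have hρcst : ∀ a : A, ρ (cst a) = algebraMap k Fk (π a) := hcR
  -- the order of `ρ y` at `Q₀`
  set m : ℤ := Q₀.ord (ρ y) with hm
  have hm0 : 0 ≤ m := (Lib.FFPlaces.mem_iff_ord_nonneg Q₀ hy).mp (hregk y Q₀ hQ₀)
  -- the zeros of `y` over `Q₀`
  set I : Finset (Place K F) := (hfinK _ hy0).toFinset.filter (fun P => r P = Q₀) with hI
  have hIsum : ∑ᶠ P ∈ {P | r P = Q₀}, P.ord (y : F) = ∑ P ∈ I, P.ord (y : F) := by
    apply finsum_mem_eq_sum_of_inter_support_eq
    ext P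
    simp only [Set.mem_inter_iff, Set.mem_ofPred_eq, Function.mem_support, hI, Finset.coe_filter,
      Set.Finite.mem_toFinset]
    tauto
  have hIr : ∀ P ∈ I, r P = Q₀ := fun P hP => (Finset.mem_filter.mp hP).2
  have hISK : ∀ P ∈ I, P ∈ SK := by
    intro P hP
    rw [hr, hIr P hP]
    exact hQ₀
  -- the separator, normalised to vanish at `Q₀`
  obtain ⟨u₀, hu₀⟩ := hsep
  obtain ⟨a₀, ha₀⟩ := hvalk u₀ Q₀ hQ₀
  obtain ⟨α, rfl⟩ := hπ a₀
  set u : R := u₀ - cst α with hu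
  have hρu : ρ u = ρ u₀ - algebraMap k Fk (π α) := by
    rw [hu, map_sub, hρcst]
  have hu0 : HasVal Q₀ (ρ u) 0 := by
    rw [hasVal_zero_iff, hρu]; exact ha₀
  have hu' : ∀ Q' ∈ Sk, Q' ≠ Q₀ → ∀ a' : k, HasVal Q' (ρ u) a' → a' ≠ 0 := by
    rintro Q' hQ' hne' a' ha' rfl
    rw [hasVal_zero_iff, hρu] at ha'
    exact hu₀ Q₀ hQ₀ Q' hQ' (Ne.symm hne') (π α) ⟨ha₀, ha'⟩
  -- the values of `u` at the points of `I`
  have hβ : ∀ P : Place K F, ∃ β : A, P ∈ I → HasVal P (u : F) (β : K) ∧ π β = 0 := by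
    intro P
    by_cases hP : P ∈ I
    · obtain ⟨b, hb⟩ := hvalK u P (hISK P hP)
      obtain ⟨hbA, hb'⟩ := heval u P (hISK P hP) b hb
      rw [hIr P hP] at hb'
      exact ⟨⟨b, hbA⟩, fun _ => ⟨hb, hb'.unique hu0⟩⟩
    · exact ⟨0, fun h => absurd h hP⟩
  choose β hβ using hβ
  set w : Place K F → R := fun P => u - cst (β P) with hw
  have hwval : ∀ P ∈ I, ((w P : R) : F) ∈ P.toValuationSubring.nonunits :=
    fun P hP => (hβ P hP).1
  have hρw : ∀ P ∈ I, ρ (w P) = ρ u := by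
    intro P hP
    show ρ (u - cst (β P)) = ρ u
    rw [map_sub, hρcst, (hβ P hP).2, map_zero, sub_zero]
  -- the exponents
  set n : Place K F → ℕ := fun P => (P.ord (y : F)).toNat with hn
  have hnI : ∀ P ∈ I, (n P : ℤ) = P.ord (y : F) := fun P hP =>
    Int.toNat_of_nonneg (hnnK y hy P (hISK P hP))
  set M' : ℕ := (m.toNat + 1) + ∑ P ∈ I, n P with hM'
  set g : R := u ^ (m.toNat + 1) * ∏ P ∈ I, w P ^ n P with hg
  have hρg : ρ g = ρ u ^ M' := by
    have h1 : ∏ P ∈ I, ρ (w P ^ n P) = ρ u ^ ∑ P ∈ I, n P := by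
      rw [← Finset.prod_pow_eq_pow_sum]
      exact Finset.prod_congr rfl (fun P hP => by rw [map_pow, hρw P hP])
    rw [hg, map_mul, map_pow, map_prod, h1, ← pow_add]
  -- values of `ρ y` and `ρ u` on `Sk`
  have hy' : ∀ Q : Place k Fk, ∃ c : k, Q ∈ Sk → HasVal Q (ρ y) c := by
    intro Q
    by_cases hQ : Q ∈ Sk
    · obtain ⟨c, hc⟩ := hvalk y Q hQ
      exact ⟨c, fun _ => hc⟩
    · exact ⟨0, fun h => absurd h hQ⟩
  choose y' hy' using hy'
  have ha' : ∀ Q : Place k Fk, ∃ c : k, Q ∈ Sk → HasVal Q (ρ u) c := by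
    intro Q
    by_cases hQ : Q ∈ Sk
    · obtain ⟨c, hc⟩ := hvalk u Q hQ
      exact ⟨c, fun _ => hc⟩
    · exact ⟨0, fun h => absurd h hQ⟩
  choose a' ha' using ha'
  -- the scalar
  obtain ⟨lam, hlam⟩ := Infinite.exists_notMem_finset (Sk.image fun Q => -(y' Q) / a' Q ^ M')
  obtain ⟨Λ, rfl⟩ := hπ lam
  set z : R := y + cst Λ * g with hz
  have hρz : ρ z = ρ y + algebraMap k Fk (π Λ) * ρ u ^ M' := by
    rw [hz, map_add, map_mul, hρg, hρcst]
  -- the orders of `ρ z` on `Sk`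
  have hzQ₀ : ρ z ≠ 0 ∧ Q₀.ord (ρ z) = m := by
    rw [hρz]
    apply ord_add_eq_of_lt Q₀ hy
    by_cases ht : algebraMap k Fk (π Λ) * ρ u ^ M' = 0
    · exact Or.inl ht
    right
    have h1 : algebraMap k Fk (π Λ) ≠ 0 := left_ne_zero_of_mul ht
    have h2 : ρ u ^ M' ≠ 0 := right_ne_zero_of_mul ht
    have h3 : ρ u ≠ 0 := by
      intro h
      apply h2
      rw [h, zero_pow]
      rw [hM']; omega
    have h4 : 0 < Q₀.ord (ρ u) :=
      (ord_pos_iff_mem_nonunits Q₀ h3).mpr (hasVal_zero_iff.mp hu0)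
    rw [Q₀.ord_mul h1 h2, Lib.FFPlaces.ord_algebraMap, zero_add, ← zpow_natCast, Q₀.ord_zpow]
    have h5 : (m.toNat : ℤ) = m := Int.toNat_of_nonneg hm0
    have h6 : m + 1 ≤ (M' : ℤ) := by
      rw [hM']; push_cast; rw [h5]
      have : (0 : ℤ) ≤ ∑ P ∈ I, (n P : ℤ) := Finset.sum_nonneg (fun P _ => Int.natCast_nonneg _)
      omega
    nlinarith
  have hzQ' : ∀ Q' ∈ Sk, Q' ≠ Q₀ → Q'.ord (ρ z) = 0 := by
    intro Q' hQ' hne'
    have hv : HasVal Q' (ρ z) (y' Q' + π Λ * a' Q' ^ M') := by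
      rw [hρz]
      exact (hy' Q' hQ').add ((hasVal_algebraMap Q' _).mul ((ha' Q' hQ').pow M'))
    refine hv.ord_eq_zero ?_
    intro h0
    have ha0 : a' Q' ≠ 0 := hu' Q' hQ' hne' _ (ha' Q' hQ')
    apply hlam
    rw [Finset.mem_image]
    refine ⟨Q', hQ', ?_⟩
    rw [div_eq_iff (pow_ne_zero _ ha0)]
    linear_combination -h0
  have hsumz : ∑ Q ∈ Sk, Q.ord (ρ z) = m := by
    rw [Finset.sum_eq_single Q₀ (fun Q' hQ' hne' => hzQ' Q' hQ' hne') (fun h => absurd hQ₀ h)]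
    exact hzQ₀.2
  have hfs := hsum z hzQ₀.1
  -- the lower bound
  have hz0 : (z : F) ≠ 0 := hne z hzQ₀.1
  have hlow1 : ∑ P ∈ I, P.ord (z : F) ≤ ∑ᶠ P ∈ SK, P.ord (z : F) :=
    sum_le_finsum_mem SK I _ hISK (hnnK z hzQ₀.1) (hfinK _ hz0)
  have hlow2 : ∀ P ∈ I, P.ord (y : F) ≤ P.ord (z : F) := by
    intro P hP
    have e : (z : F) = (y : F) +
        ((cst Λ * u ^ (m.toNat + 1) * ∏ P' ∈ I.erase P, w P' ^ n P' : R) : F) *
          ((w P : R) : F) ^ n P := by
      rw [hz, hg, ← Finset.mul_prod_erase I _ hP]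
      push_cast
      ring
    have hz0' := hz0
    rw [e] at hz0' ⊢
    rw [← hnI P hP]
    exact le_ord_add_mul_pow P (n P) (le_of_eq (hnI P hP)) (hregK _ P (hISK P hP))
      (hwval P hP) hz0'
  calc ∑ᶠ P ∈ {P | r P = Q₀}, P.ord (y : F) = ∑ P ∈ I, P.ord (y : F) := hIsum
    _ ≤ ∑ P ∈ I, P.ord (z : F) := Finset.sum_le_sum hlow2
    _ ≤ ∑ᶠ P ∈ SK, P.ord (z : F) := hlow1
    _ = ∑ Q ∈ Sk, Q.ord (ρ z) := hfs
    _ = m := hsumz

/-- **Per-point equality from fibre sums.**  `R ⊆ F` a ring of functions with a reduction map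
`ρ : R → F_k`; `r` a map of places; `SK` a set of places of `F`, the full preimage under `r` of
a finite set `Sk` of places of `F_k`.  Assume: `R` contains the constants of `A`, reducing through
`π : A ↠ k`; elements of `R` have values at the places of `SK`, their reductions have values at
the places of `Sk`; the evaluation property (`z(P) ∈ A` and `ρ(z)(r P) = π(z(P))`); the fibre-sum
formula `Σ_{P ∈ SK} ord_P z = Σ_{Q ∈ Sk} ord_Q ρ(z)` for `ρ(z) ≠ 0`; and an element of `R` whose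
reduction separates `Sk`.  Then `Σ_{P ↦ Q₀} ord_P y = ord_{Q₀} ρ(y)` for every `Q₀ ∈ Sk`. -/
theorem pt_of_fibreSum
    (A : ValuationSubring K) (π : A →+* k) (hπ : Function.Surjective π) [Infinite k]
    (R : Subring F) (ρ : R →+* Fk) (r : Place K F → Place k Fk)
    (SK : Set (Place K F)) (Sk : Finset (Place k Fk))
    (hr : ∀ P, P ∈ SK ↔ r P ∈ Sk)
    (hconst : ∀ a : A, ∃ h : algebraMap K F (a : K) ∈ R, ρ ⟨_, h⟩ = algebraMap k Fk (π a))
    (hvalK : ∀ z : R, ∀ P ∈ SK, ∃ b : K, HasVal P (z : F) b)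
    (hvalk : ∀ z : R, ∀ Q ∈ Sk, ∃ a : k, HasVal Q (ρ z) a)
    (heval : ∀ z : R, ∀ P ∈ SK, ∀ b : K, HasVal P (z : F) b →
      ∃ hb : b ∈ A, HasVal (r P) (ρ z) (π ⟨b, hb⟩))
    (hfinK : ∀ f : F, f ≠ 0 → (Function.support fun P : Place K F => P.ord f).Finite)
    (hsum : ∀ z : R, ρ z ≠ 0 → ∑ᶠ P ∈ SK, P.ord (z : F) = ∑ Q ∈ Sk, Q.ord (ρ z))
    (hsep : ∃ u : R, ∀ Q ∈ Sk, ∀ Q' ∈ Sk, Q ≠ Q' → ∀ a : k,
      ¬ (HasVal Q (ρ u) a ∧ HasVal Q' (ρ u) a))
    (y : R) (hy : ρ y ≠ 0) (Q₀ : Place k Fk) (hQ₀ : Q₀ ∈ Sk) :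
    ∑ᶠ P ∈ {P | r P = Q₀}, P.ord (y : F) = Q₀.ord (ρ y) := by
  classical
  have hle : ∀ Q ∈ Sk, ∑ᶠ P ∈ {P | r P = Q}, P.ord (y : F) ≤ Q.ord (ρ y) := fun Q hQ =>
    pt_le_of_fibreSum A π hπ R ρ r SK Sk hr hconst hvalK hvalk heval hfinK hsum hsep y hy Q hQ
  have hy0 : (y : F) ≠ 0 := by
    intro h
    apply hy
    have : y = 0 := Subtype.ext h
    rw [this, map_zero]
  have htot : ∑ Q ∈ Sk, ∑ᶠ P ∈ {P | r P = Q}, P.ord (y : F) = ∑ Q ∈ Sk, Q.ord (ρ y) := by
    rw [← hsum y hy]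
    set T : Finset (Place K F) := (hfinK _ hy0).toFinset.filter (· ∈ SK) with hT
    have h1 : ∑ᶠ P ∈ SK, P.ord (y : F) = ∑ P ∈ T, P.ord (y : F) := by
      apply finsum_mem_eq_sum_of_inter_support_eq
      ext P
      simp only [Set.mem_inter_iff, Function.mem_support, hT, Finset.coe_filter,
        Set.Finite.mem_toFinset, Set.mem_ofPred_eq]
      tauto
    have h2 : ∀ Q ∈ Sk, ∑ᶠ P ∈ {P | r P = Q}, P.ord (y : F) =
        ∑ P ∈ T with r P = Q, P.ord (y : F) := by
      intro Q hQ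
      apply finsum_mem_eq_sum_of_inter_support_eq
      ext P
      simp only [Set.mem_inter_iff, Set.mem_ofPred_eq, Function.mem_support, hT,
        Finset.mem_coe, Finset.mem_filter, Set.Finite.mem_toFinset]
      constructor
      · rintro ⟨h3, h4⟩
        exact ⟨⟨⟨h4, (hr P).mpr (h3 ▸ hQ)⟩, h3⟩, h4⟩
      · rintro ⟨⟨-, h3⟩, h4⟩
        exact ⟨h3, h4⟩
    rw [h1, Finset.sum_congr rfl h2]
    exact Finset.sum_fiberwise_of_maps_to
      (fun P hP => (hr P).mp (Finset.mem_filter.mp hP).2) _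
  exact (Finset.sum_eq_sum_iff_of_le hle).mp htot Q₀ hQ₀

end Core

/-! ## The chart rings of `F_N` -/

section S37

open ModularCurve Fermat.Agent.S24 Fermat.Agent.S18.Content Fermat.Agent.S18.Plan
  Fermat.Agent.S37.Plan2 Fermat.Agent.S37.EvalBasic

set_option synthInstance.maxHeartbeats 400000
set_option maxHeartbeats 1600000

variable (A : ValuationSubring Kbar) (N : ℕ) [NeZero N]

/-- The chart ring of type `t` (`t` true: finite type; `t` false: the other places): the elements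
of `F_N ∩ Ocal` regular at every place `P` with `FinPl P ↔ t`. -/
def chartRing (t : Prop) : Subring (FN N) where
  carrier := {z | (z : Om) ∈ Ocal A ∧
    ∀ P : Place Kbar (FN N), (FinPl A N P ↔ t) → z ∈ P.toValuationSubring}
  mul_mem' := by
    rintro z w ⟨h1, h2⟩ ⟨h1', h2'⟩
    exact ⟨(Ocal A).mul_mem h1 h1', fun P hP => mul_mem (h2 P hP) (h2' P hP)⟩
  one_mem' := ⟨(Ocal A).one_mem, fun P _ => one_mem _⟩
  add_mem' := by
    rintro z w ⟨h1, h2⟩ ⟨h1', h2'⟩
    exact ⟨(Ocal A).add_mem h1 h1', fun P hP => add_mem (h2 P hP) (h2' P hP)⟩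
  zero_mem' := ⟨(Ocal A).zero_mem, fun P _ => zero_mem _⟩
  neg_mem' := by
    rintro z ⟨h1, h2⟩
    exact ⟨(Ocal A).neg_mem h1, fun P hP => neg_mem (h2 P hP)⟩

/-- The inclusion of the chart ring into `Ocal`. -/
def toOcal (t : Prop) : chartRing A N t →+* Ocal A where
  toFun z := ⟨((z : FN N) : Om), z.2.1⟩
  map_one' := rfl
  map_mul' _ _ := rfl
  map_zero' := rfl
  map_add' _ _ := rfl

variable {A N}

theorem red_mem_of_chartRing (hcr : ChartRed A N) (t : Prop) (z : chartRing A N t) :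
    red A (toOcal A N t z) ∈ Fk A N := by
  by_cases ht : t
  · obtain ⟨hk, -⟩ := hcr.1 z z.2.1 ⟨z.2.1, fun P hP => z.2.2 P (iff_of_true hP ht)⟩
    exact hk
  · obtain ⟨hk, -⟩ := hcr.2 z z.2.1 ⟨z.2.1, fun P hP => z.2.2 P (iff_of_false hP ht)⟩
    exact hk

/-- The reduction map of the chart ring of type `t`, with values in `F_{N,k}` (by `ChartRed`). -/
def redT (hcr : ChartRed A N) (t : Prop) : chartRing A N t →+* Fk A N :=
  RingHom.codRestrict ((red A).comp (toOcal A N t)) (Fk A N) (red_mem_of_chartRing hcr t)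

theorem coe_redT (hcr : ChartRed A N) (t : Prop) (z : chartRing A N t) :
    ((redT hcr t z : Fk A N) : Omk A) = red A ⟨((z : FN N) : Om), z.2.1⟩ := rfl

theorem redT_regular (hcr : ChartRed A N) (t : Prop) (z : chartRing A N t)
    (Q : Place (kk A) (Fk A N)) (hQ : FinPlk A N Q ↔ t) :
    redT hcr t z ∈ Q.toValuationSubring := by
  by_cases ht : t
  · obtain ⟨hk, h⟩ := hcr.1 z z.2.1 ⟨z.2.1, fun P hP => z.2.2 P (iff_of_true hP ht)⟩
    exact h Q (hQ.mpr ht)
  · obtain ⟨hk, h⟩ := hcr.2 z z.2.1 ⟨z.2.1, fun P hP => z.2.2 P (iff_of_false hP ht)⟩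
    exact h Q (fun h' => ht (hQ.mp h'))

/-! ## The fibres of the `j`-line -/

/-- A place map with the evaluation property maps the fibre of `c` on `F_N` to the fibre of `c`
on `F_{N,k}`, and nothing else. -/
theorem mem_fibK_iff {r : Place Kbar (FN N) → Place (kk A) (Fk A N)} (hr : Eval A N r)
    (c : Option (kk A)) (P : Place Kbar (FN N)) : P ∈ fibK A N c ↔ r P ∈ fibk A N c := by
  cases c with
  | none =>
    show ¬ FinPl A N P ↔ ¬ FinPlk A N (r P)
    rw [typePres A N r hr P]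
  | some c₀ =>
    constructor
    · rintro ⟨a, rfl, ha⟩
      obtain ⟨_, hk, hval⟩ := eval_value hr P (jBar N) (jBar_mem_Ocal A N)
        (isChart_jBar A N P ⟨a, ha⟩) a ha
      have e : (⟨red A ⟨_, jBar_mem_Ocal A N⟩, hk⟩ : Fk A N) = jkEl A N :=
        Subtype.ext (red_jBar A N)
      rw [e] at hval
      exact hval
    · intro h
      have hfin : FinPlk A N (r P) := mem_of_sub_mem_nonunits _ h
      obtain ⟨a, ha⟩ := (typePres A N r hr P).mp hfin
      obtain ⟨_, hk, hval⟩ := eval_value hr P (jBar N) (jBar_mem_Ocal A N)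
        (isChart_jBar A N P ⟨a, ha⟩) a ha
      have e : (⟨red A ⟨_, jBar_mem_Ocal A N⟩, hk⟩ : Fk A N) = jkEl A N :=
        Subtype.ext (red_jBar A N)
      rw [e] at hval
      exact ⟨a, value_unique _ hval h, ha⟩

omit [NeZero N] in
/-- All places of a fibre of `F_{N,k}` have the same type. -/
theorem fibk_type {c : Option (kk A)} {Q Q' : Place (kk A) (Fk A N)} (hQ : Q ∈ fibk A N c)
    (hQ' : Q' ∈ fibk A N c) : FinPlk A N Q' ↔ FinPlk A N Q := by
  cases c with
  | none => exact iff_of_false hQ' hQ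
  | some c₀ => exact iff_of_true (mem_of_sub_mem_nonunits _ hQ') (mem_of_sub_mem_nonunits _ hQ)

variable (A N)

/-- The residue field of every place of `F_{N,k}` is `k` (`ℓ ∤ N`, `A` over `ℓ`). -/
theorem exists_value_k (ℓ : ℕ) [Fact ℓ.Prime] (hℓ : ¬ ℓ ∣ N) (hA : A.LiesOverPrime ℓ)
    (Q : Place (kk A) (Fk A N)) (f : Fk A N) (hf : f ∈ Q.toValuationSubring) :
    ∃ a : kk A, f - algebraMap (kk A) (Fk A N) a ∈ Q.toValuationSubring.nonunits := by
  have := Fermat.Agent.S18.PlacesModL.finiteDimensional_jb N ℓ hℓ A hA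
  have := Fermat.Agent.S18.PlacesModL.isSeparable_jb N ℓ hℓ A hA
  have := Fermat.Agent.S18.PlacesModL.isAlgClosed_kk A
  obtain ⟨a, ha⟩ := Lib.FFSep.exists_residue (Fermat.Agent.S18.PlacesModL.jb A N) Q hf
  refine ⟨a, ?_⟩
  rcases ha with ha | ha
  · rw [ha, sub_self]
    exact Q.toValuationSubring.nonunits.zero_mem
  · have h0 : f - algebraMap (kk A) (Fk A N) a ≠ 0 := by
      intro h
      rw [h, Place.ord_zero] at ha
      exact lt_irrefl _ ha
    exact (ord_pos_iff_mem_nonunits Q h0).mp ha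

/-- The fibres of the `j`-line on `F_{N,k}` are finite (`ℓ ∤ N`, `A` over `ℓ`). -/
theorem fibk_finite (ℓ : ℕ) [Fact ℓ.Prime] (hℓ : ¬ ℓ ∣ N) (hA : A.LiesOverPrime ℓ)
    (c : Option (kk A)) : (fibk A N c).Finite := by
  have := Fermat.Agent.S18.PlacesModL.finiteDimensional_jb N ℓ hℓ A hA
  have := Fermat.Agent.S18.PlacesModL.isSeparable_jb N ℓ hℓ A hA
  have hxt := Fermat.Agent.S18.PlacesModL.transcendental_jb A N
  refine (Lib.FFSep.fibre_finite hxt c).subset ?_
  cases c with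
  | none =>
    intro Q hQ
    show Q.ord (Fermat.Agent.S18.PlacesModL.jb A N) < 0
    exact (Lib.FFPlaces.ord_neg_iff Q (jkEl_ne_zero A N)).mpr hQ
  | some a =>
    intro Q hQ
    show 0 < Q.ord (Fermat.Agent.S18.PlacesModL.jb A N - algebraMap (kk A) (Fk A N) a)
    exact (ord_pos_iff_mem_nonunits Q (Lib.FFPlaces.sub_algebraMap_ne_zero hxt a)).mpr hQ

variable {A N}

/-! ## The per-point equality for chart elements -/

/-- **`ChartPt` from fibre sums, separation and chart reduction** (hypothesis form for the facts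
on `F_{N,k}`). -/
theorem chartPt_of_aux [Infinite (kk A)] (h0 : Char0Stmt N)
    (hvalk : ∀ (Q : Place (kk A) (Fk A N)) (f : Fk A N), f ∈ Q.toValuationSubring →
      ∃ a : kk A, f - algebraMap (kk A) (Fk A N) a ∈ Q.toValuationSubring.nonunits)
    (hfink : ∀ c : Option (kk A), (fibk A N c).Finite)
    (hfs : FibreSum A N) (hsep : Sep A N) (hcr : ChartRed A N) : LocAsm.ChartPt A N := by
  intro r hr y hy hk hne Q hch
  -- the fibre of `Q`
  obtain ⟨c, hQc⟩ : ∃ c, Q ∈ fibk A N c := by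
    by_cases hQ : FinPlk A N Q
    · obtain ⟨a, ha⟩ := hvalk Q (jkEl A N) hQ
      exact ⟨some a, ha⟩
    · exact ⟨none, hQ⟩
  set t : Prop := FinPlk A N Q with ht
  have htype : ∀ Q' ∈ fibk A N c, (FinPlk A N Q' ↔ t) := fun Q' hQ' => fibk_type hQc hQ'
  have htypeK : ∀ P ∈ fibK A N c, (FinPl A N P ↔ t) := fun P hP =>
    (typePres A N r hr P).symm.trans (htype _ ((mem_fibK_iff hr c P).mp hP))
  have hyR : y ∈ chartRing A N t := by
    refine ⟨hy, fun P hP => ?_⟩
    rcases hch with ⟨hQ, hfin⟩ | ⟨hQ, hinf⟩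
    · exact hfin.2 P (hP.mpr hQ)
    · exact hinf.2 P (fun h => hQ (hP.mp h))
  have key := pt_of_fibreSum A (IsLocalRing.residue A) IsLocalRing.residue_surjective
    (chartRing A N t) (redT hcr t) r (fibK A N c) (hfink c).toFinset
    ?hr ?hconst ?hvalK ?hvalk ?heval ?hfinK ?hsum ?hsep ⟨y, hyR⟩ ?hy Q
    ((hfink c).mem_toFinset.mpr hQc)
  · have e : redT hcr t ⟨y, hyR⟩ = (⟨red A ⟨(y : Om), hy⟩, hk⟩ : Fk A N) := Subtype.ext rfl
    rw [e] at key
    exact key
  case hr =>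
    intro P
    rw [Set.Finite.mem_toFinset]
    exact mem_fibK_iff hr c P
  case hconst =>
    intro a
    have h1 : algebraMap Kbar (FN N) (a : Kbar) ∈ chartRing A N t :=
      ⟨by rw [coe_algebraMap_FN]; exact C_mem_Ocal A a.2, fun P _ => P.algebraMap_mem' _⟩
    refine ⟨h1, Subtype.ext ?_⟩
    show red A ⟨((algebraMap Kbar (FN N) (a : Kbar) : FN N) : Om), h1.1⟩ =
      ((algebraMap (kk A) (Fk A N) (IsLocalRing.residue A a) : Fk A N) : Omk A)
    rw [coe_algebraMap_Fk, red_congr A (coe_algebraMap_FN N (a : Kbar)) _ (C_mem_Ocal A a.2),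
      red_C]
  case hvalK =>
    intro z P hP
    exact exists_value N P (z.2.2 P (htypeK P hP))
  case hvalk =>
    intro z Q' hQ'
    exact hvalk Q' _ (redT_regular hcr t z Q' (htype Q' ((hfink c).mem_toFinset.mp hQ')))
  case heval =>
    intro z P hP b hb
    have hch' : IsChart A N P (z : FN N) := by
      rw [isChart_iff]
      exact ⟨z.2.1, fun P' h' => z.2.2 P' (h'.trans (htypeK P hP))⟩
    obtain ⟨hbA, hk', hval⟩ := eval_value hr P (z : FN N) z.2.1 hch' b hb
    exact ⟨hbA, hval⟩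
  case hfinK =>
    intro f hf
    obtain ⟨D, hD, -⟩ := h0.2.1 f hf
    refine (D.support.finite_toSet).subset ?_
    intro P hP
    rw [Finset.mem_coe, Finsupp.mem_support_iff, hD]
    exact hP
  case hsum =>
    intro z hz
    have h1 := hfs (z : FN N) z.2.1 (red_mem_of_chartRing hcr t z)
      (fun h => hz (Subtype.ext h)) c
    rw [h1, finsum_mem_eq_finite_toFinset_sum _ (hfink c)]
    rfl
  case hsep =>
    by_cases hQ : t
    · obtain ⟨u, hu, huk, hchu, -, hsp⟩ := (hsep (hfink c).toFinset).1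
        (fun Q' hQ' => (htype Q' ((hfink c).mem_toFinset.mp hQ')).mpr hQ)
      refine ⟨⟨u, hu, fun P hP => hchu.2 P (hP.mpr hQ)⟩, ?_⟩
      intro Q₁ h₁ Q₂ h₂ hne' a
      exact hsp Q₁ h₁ Q₂ h₂ hne' a
    · obtain ⟨u, hu, huk, hchu, -, hsp⟩ := (hsep (hfink c).toFinset).2
        (fun Q' hQ' h' => hQ ((htype Q' ((hfink c).mem_toFinset.mp hQ')).mp h'))
      refine ⟨⟨u, hu, fun P hP => hchu.2 P (fun h' => hQ (hP.mp h'))⟩, ?_⟩
      intro Q₁ h₁ Q₂ h₂ hne' a
      exact hsp Q₁ h₁ Q₂ h₂ hne' a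
  case hy =>
    intro h
    exact hne (congrArg Subtype.val h)

variable (A N)

/-- **[LOC], per-point equality for chart elements**: `ChartPt A N` from `FibreSum`, `Sep` and
`ChartRed` (`ℓ ∤ N`, `A` over `ℓ`). -/
theorem chartPt_of (ℓ : ℕ) [Fact ℓ.Prime] (hℓ : ¬ ℓ ∣ N) (hA : A.LiesOverPrime ℓ)
    (hfs : FibreSum A N) (hsep : Sep A N) (hcr : ChartRed A N) : LocAsm.ChartPt A N := by
  have := Fermat.Agent.S18.PlacesModL.isAlgClosed_kk A
  have : Infinite (kk A) := inferInstance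
  exact chartPt_of_aux (Fermat.Agent.S18.Char0.char0Stmt N) (exists_value_k A N ℓ hℓ hA)
    (fibk_finite A N ℓ hℓ hA) hfs hsep hcr

/-- **[LOC]** `Plan2.Loc A N` from `FibreSum`, `Sep` and `ChartRed` (`ℓ ∤ N`, `A` over `ℓ`). -/
theorem loc_of (ℓ : ℕ) [Fact ℓ.Prime] (hℓ : ¬ ℓ ∣ N) (hA : A.LiesOverPrime ℓ)
    (hfs : FibreSum A N) (hsep : Sep A N) (hcr : ChartRed A N) : Loc A N :=
  LocAsm.loc_of_chartPt_main A N ℓ hℓ hA (chartPt_of A N ℓ hℓ hA hfs hsep hcr)

end S37

end Fermat.Agent.S37.LocPt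

end
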