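import Mathlib
import Fermat.Agent.S37.Plan2b
import Fermat.Agent.S37.EvalBasic
import Fermat.Agent.S18.PlacesModLMain
import Fermat.Agent.S18.Red
import Fermat.Agent.S18.Char0
import Fermat.Agent.Lib.FFPoles

/-!
# S37 [RMAP] in hypothesis form: the place map from the maximum principle (helper34)

* `RedNeOne A N` : **(MAX')** a chart element vanishing at `P` does not reduce to `1`;
* `rmap_of_redNeOne` : `RedNeOne A N → Plan2.RMap A N`.  For every place `P` the reductions of the
  chart elements vanishing at `P` form a proper ideal of the ring of reductions of the chart ring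
  of `P`; Chevalley's extension theorem gives a valuation subring of `F_{N,k}` containing that
  ring in which the ideal consists of nonunits; it contains `k`, it is not the whole field
  (it contains the nonzero nonunit `j̄ - ā`, resp. `1/j̄`), hence it is the valuation ring of a
  place `r P`, and `Eval A N r` holds by construction;
* `redNeOne_of_fibreSum` : `Plan2.FibreSum A N → RedNeOne A N` (a chart element with `ȳ = 1` has
  fibre sums `0`, all its orders on the chart are `≥ 0`, so it has no zero there).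
-/

set_option autoImplicit false

noncomputable section

namespace Fermat.Agent.S37.RMapOf

open ModularCurve AlgebraicCurve Fermat.Agent.S24 Fermat.Agent.S18.Content Fermat.Agent.S18.Plan
open Fermat.Agent.S37.Plan2 Fermat.Agent.S37.EvalBasic

set_option synthInstance.maxHeartbeats 400000
set_option maxHeartbeats 1600000

variable (A : ValuationSubring Kbar) (N : ℕ) [NeZero N]

/-- **(MAX')** a chart element at `P` vanishing at `P` does not reduce to `1`. -/
def RedNeOne : Prop :=
  ∀ (P : Place Kbar (FN N)) (y : FN N) (hy : (y : Om) ∈ Ocal A), IsChart A N P y →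
    y ∈ P.toValuationSubring.nonunits → red A ⟨(y : Om), hy⟩ ≠ 1

/-! ### The chart ring of a place and its reduction -/

theorem isChart_zero (P : Place Kbar (FN N)) : IsChart A N P (0 : FN N) := by
  have h := isChart_algebraMap (A := A) (N := N) P (b := 0) A.zero_mem
  rwa [map_zero] at h

/-- The chart ring of the type of `P`, as a subring of `F_N`. -/
def chartRing (P : Place Kbar (FN N)) : Subring (FN N) where
  carrier := {y | IsChart A N P y}
  mul_mem' := fun hy hz => isChart_mul hy hz
  one_mem' := isChart_one P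
  add_mem' := by
    intro y z hy hz
    have h := isChart_sub hy (isChart_sub (isChart_zero A N P) hz)
    rwa [zero_sub, sub_neg_eq_add] at h
  zero_mem' := isChart_zero A N P
  neg_mem' := by
    intro y hy
    have h := isChart_sub (isChart_zero A N P) hy
    rwa [zero_sub] at h

theorem mem_chartRing {P : Place Kbar (FN N)} {y : FN N} :
    y ∈ chartRing A N P ↔ IsChart A N P y := Iff.rfl

/-- The chart elements vanishing at `P`. -/
def chartIdeal (P : Place Kbar (FN N)) : Ideal (chartRing A N P) where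
  carrier := {y | (y : FN N) ∈ P.toValuationSubring.nonunits}
  add_mem' := fun ha hb => P.toValuationSubring.nonunits.add_mem ha hb
  zero_mem' := P.toValuationSubring.nonunits.zero_mem
  smul_mem' := fun c _ hx => mul_mem_nonunits _ (isChart_mem c.2) hx

theorem mem_chartIdeal {P : Place Kbar (FN N)} {y : chartRing A N P} :
    y ∈ chartIdeal A N P ↔ (y : FN N) ∈ P.toValuationSubring.nonunits := Iff.rfl

/-- The chart ring of `P` inside `Ocal`. -/
def chartToOcal (P : Place Kbar (FN N)) : chartRing A N P →+* Ocal A :=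
  ((algebraMap (FN N) Om).comp (chartRing A N P).subtype).codRestrict (Ocal A)
    (fun y => isChart_mem_Ocal y.2)

/-- Reduction of the chart ring of `P`, with values in `F_{N,k}`. -/
def chartRed (hb : ∀ y : Ocal A, (y : Om) ∈ modularFunctionFieldBar N → red A y ∈ Fk A N)
    (P : Place Kbar (FN N)) : chartRing A N P →+* Fk A N :=
  ((red A).comp (chartToOcal A N P)).codRestrict (Fk A N) (fun y => hb _ y.1.2)

theorem coe_chartRed (hb : ∀ y : Ocal A, (y : Om) ∈ modularFunctionFieldBar N → red A y ∈ Fk A N)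
    (P : Place Kbar (FN N)) (y : chartRing A N P) :
    ((chartRed A N hb P y : Fk A N) : Omk A) =
      red A ⟨((y : FN N) : Om), isChart_mem_Ocal y.2⟩ := rfl

theorem chartRed_algebraMap
    (hb : ∀ y : Ocal A, (y : Om) ∈ modularFunctionFieldBar N → red A y ∈ Fk A N)
    (P : Place Kbar (FN N)) (a : A) :
    chartRed A N hb P ⟨algebraMap Kbar (FN N) (a : Kbar), isChart_algebraMap P a.2⟩ =
      algebraMap (kk A) (Fk A N) (IsLocalRing.residue A a) := by
  apply Subtype.ext
  rw [coe_chartRed, coe_algebraMap_Fk,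
    red_congr A (coe_algebraMap_FN N (a : Kbar)) _ (C_mem_Ocal A a.2), red_C]

theorem chartRed_jBar
    (hb : ∀ y : Ocal A, (y : Om) ∈ modularFunctionFieldBar N → red A y ∈ Fk A N)
    (P : Place Kbar (FN N)) (hP : FinPl A N P) :
    chartRed A N hb P ⟨jBar N, isChart_jBar A N P hP⟩ = jkEl A N := by
  apply Subtype.ext
  rw [coe_chartRed]
  exact red_jBar A N

theorem chartRed_inv_jBar
    (hb : ∀ y : Ocal A, (y : Om) ∈ modularFunctionFieldBar N → red A y ∈ Fk A N)
    (P : Place Kbar (FN N)) (hP : ¬ FinPl A N P) :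
    chartRed A N hb P ⟨(jBar N)⁻¹, isChart_inv_jBar A N P hP⟩ = (jkEl A N)⁻¹ := by
  apply Subtype.ext
  rw [coe_chartRed]
  exact red_inv_jBar A N

/-! ### A chart element vanishing at `P` with nonzero reduction -/

/-- At a place not of finite type, `1/j` has a value in `𝔪_A`. -/
theorem exists_inv_value (P : Place Kbar (FN N)) (hP : ¬ FinPl A N P) :
    ∃ b : Kbar, b ∈ A.nonunits ∧
      (jBar N)⁻¹ - algebraMap Kbar (FN N) b ∈ P.toValuationSubring.nonunits := by
  by_cases hj : jBar N ∈ P.toValuationSubring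
  · obtain ⟨a, ha⟩ := exists_value N P hj
    have haA : a ∉ A := fun h => hP ⟨⟨a, h⟩, ha⟩
    have ha0 : a ≠ 0 := fun h => haA (h ▸ A.zero_mem)
    refine ⟨a⁻¹, inv_mem_nonunits_of_notMem A haA, ?_⟩
    have hjinv : (jBar N)⁻¹ ∈ P.toValuationSubring := by
      by_contra h
      have h1 := inv_mem_nonunits_of_notMem _ h
      rw [inv_inv] at h1
      have h2 := P.toValuationSubring.nonunits.sub_mem h1 ha
      rw [sub_sub_cancel, algebraMap_mem_nonunits_iff] at h2
      exact ha0 h2
    have e : (jBar N)⁻¹ - algebraMap Kbar (FN N) a⁻¹ =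
        (algebraMap Kbar (FN N) a⁻¹ * (jBar N)⁻¹) *
          (-(jBar N - algebraMap Kbar (FN N) a)) := by
      have hj0 := jBar_ne_zero N
      have ha0' : algebraMap Kbar (FN N) a ≠ 0 := by
        rwa [Ne, map_eq_zero]
      rw [map_inv₀]
      field_simp
      ring
    rw [e]
    exact mul_mem_nonunits _ (mul_mem (P.algebraMap_mem' _) hjinv)
      (P.toValuationSubring.nonunits.neg_mem ha)
  · refine ⟨0, A.nonunits.zero_mem, ?_⟩
    rw [map_zero, sub_zero]
    exact inv_mem_nonunits_of_notMem _ hj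

/-- A chart element vanishing at `P` whose reduction is nonzero. -/
theorem exists_chartIdeal_ne_zero
    (hb : ∀ y : Ocal A, (y : Om) ∈ modularFunctionFieldBar N → red A y ∈ Fk A N)
    (P : Place Kbar (FN N)) :
    ∃ y : chartRing A N P, y ∈ chartIdeal A N P ∧ chartRed A N hb P y ≠ 0 := by
  have htr : Transcendental (kk A) (jkEl A N) := S18.PlacesModL.transcendental_jb A N
  by_cases hP : FinPl A N P
  · obtain ⟨a, ha⟩ := hP
    have hP' : FinPl A N P := ⟨a, ha⟩
    refine ⟨⟨jBar N, isChart_jBar A N P hP'⟩ -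
      ⟨algebraMap Kbar (FN N) (a : Kbar), isChart_algebraMap P a.2⟩, ha, ?_⟩
    rw [map_sub, chartRed_jBar A N hb P hP', chartRed_algebraMap]
    exact Lib.FFPlaces.sub_algebraMap_ne_zero htr _
  · obtain ⟨b, hbm, hbP⟩ := exists_inv_value A N P hP
    have hbA : b ∈ A := ValuationSubring.nonunits_subset hbm
    refine ⟨⟨(jBar N)⁻¹, isChart_inv_jBar A N P hP⟩ -
      ⟨algebraMap Kbar (FN N) ((⟨b, hbA⟩ : A) : Kbar), isChart_algebraMap P hbA⟩, hbP, ?_⟩
    rw [map_sub, chartRed_inv_jBar A N hb P hP, chartRed_algebraMap]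
    exact Lib.FFPlaces.sub_algebraMap_ne_zero (Lib.FFPlaces.transcendental_inv htr) _

/-! ### The place attached to `P` -/

/-- **Chevalley step.** Under (MAX') every place `P` of `F_N` has a place `Q` of `F_{N,k}` at
which the reduction of every chart element vanishing at `P` vanishes. -/
theorem exists_place (ℓ : ℕ) [Fact ℓ.Prime] (hℓ : ¬ ℓ ∣ N) (hA : A.LiesOverPrime ℓ)
    (hmax : RedNeOne A N) (P : Place Kbar (FN N)) :
    ∃ Q : Place (kk A) (Fk A N),
      ∀ (y : FN N) (hy : (y : Om) ∈ Ocal A), IsChart A N P y →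
        y ∈ P.toValuationSubring.nonunits →
        ∃ hk : red A ⟨(y : Om), hy⟩ ∈ Fk A N,
          (⟨red A ⟨(y : Om), hy⟩, hk⟩ : Fk A N) ∈ Q.toValuationSubring.nonunits := by
  have hb : ∀ y : Ocal A, (y : Om) ∈ modularFunctionFieldBar N → red A y ∈ Fk A N :=
    (S18.Red.redStmt N ℓ hℓ A hA).2.1
  have hsurj : Function.Surjective (chartRed A N hb P).rangeRestrict :=
    (chartRed A N hb P).rangeRestrict_surjective
  have hI : Ideal.map (chartRed A N hb P).rangeRestrict (chartIdeal A N P) ≠ ⊤ := by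
    intro h
    have h1 : (1 : (chartRed A N hb P).range) ∈
        Ideal.map (chartRed A N hb P).rangeRestrict (chartIdeal A N P) := by
      rw [h]; exact Submodule.mem_top
    obtain ⟨y, hy, hy1⟩ := (Ideal.mem_map_iff_of_surjective _ hsurj).mp h1
    refine hmax P y.1 (isChart_mem_Ocal y.2) y.2 hy ?_
    have h2 : ((chartRed A N hb P y : Fk A N) : Omk A) = 1 :=
      congrArg (fun z : (chartRed A N hb P).range => ((z : Fk A N) : Omk A)) hy1
    rw [coe_chartRed] at h2
    exact h2
  obtain ⟨V, hRV, hIV⟩ := Ideal.image_subset_nonunits_valuationSubring _ hI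
  -- reductions of chart elements lie in `V`, those of vanishing ones are nonunits
  have hmem : ∀ y : chartRing A N P, chartRed A N hb P y ∈ V :=
    fun y => hRV ⟨y, rfl⟩
  have hnon : ∀ y : chartRing A N P, y ∈ chartIdeal A N P →
      chartRed A N hb P y ∈ V.nonunits := by
    intro y hy
    exact hIV ⟨(chartRed A N hb P).rangeRestrict y, Ideal.mem_map_of_mem _ hy, rfl⟩
  have hK : ∀ a : kk A, algebraMap (kk A) (Fk A N) a ∈ V := by
    intro a
    obtain ⟨a', rfl⟩ := IsLocalRing.residue_surjective (R := A) a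
    rw [← chartRed_algebraMap A N hb P a']
    exact hmem _
  have hV : V ≠ ⊤ := by
    intro h
    obtain ⟨y, hy, hy0⟩ := exists_chartIdeal_ne_zero A N hb P
    rcases (V.mem_nonunits_iff_or).mp (hnon y hy) with h0 | h1
    · exact hy0 h0
    · exact h1 (h ▸ ValuationSubring.mem_top _)
  have hfd := S18.PlacesModL.finiteDimensional_jb N ℓ hℓ A hA
  have hsep := S18.PlacesModL.isSeparable_jb N ℓ hℓ A hA
  obtain ⟨Q, hQ⟩ := Lib.FFPoles.exists_place_of_valuationSubring
    (S18.PlacesModL.jb A N) V hV hK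
  refine ⟨Q, fun y hy hch hyP => ⟨hb ⟨_, hy⟩ y.2, ?_⟩⟩
  rw [hQ]
  exact hnon ⟨y, hch⟩ hyP

/-- **[RMAP] from (MAX').** -/
theorem rmap_of_redNeOne (N : ℕ) [NeZero N] (ℓ : ℕ) [Fact ℓ.Prime] (hℓ : ¬ ℓ ∣ N)
    (A : ValuationSubring Kbar) (hA : A.LiesOverPrime ℓ) (hmax : RedNeOne A N) :
    Plan2.RMap A N := by
  choose r hr using exists_place A N ℓ hℓ hA hmax
  exact ⟨r, fun P y hy hch hyP => hr P y hy hch hyP⟩

/-! ### (MAX') from the fibre sums -/

/-- **(MAX') from [NORM].** -/
theorem redNeOne_of_fibreSum (hfs : Plan2.FibreSum A N) : RedNeOne A N := by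
  intro P y hy hch hyP hred
  have hy0 : y ≠ 0 := by
    rintro rfl
    have h0 : red A ⟨((0 : FN N) : Om), hy⟩ = 0 := map_zero (red A)
    rw [h0] at hred
    exact zero_ne_one hred
  have hk : red A ⟨(y : Om), hy⟩ ∈ Fk A N := by
    rw [hred]; exact one_mem _
  have hne : red A ⟨(y : Om), hy⟩ ≠ 0 := by
    rw [hred]; exact one_ne_zero
  -- the fibre of `P`
  obtain ⟨c, hPc, hty⟩ : ∃ c : Option (kk A), P ∈ fibK A N c ∧
      ∀ P' ∈ fibK A N c, (FinPl A N P' ↔ FinPl A N P) := by
    by_cases hP : FinPl A N P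
    · obtain ⟨a, ha⟩ := hP
      refine ⟨some (IsLocalRing.residue A a), ⟨a, rfl, ha⟩, fun P' hP' => ?_⟩
      obtain ⟨a', -, ha'⟩ := hP'
      exact iff_of_true ⟨a', ha'⟩ ⟨a, ha⟩
    · exact ⟨none, hP, fun P' hP' => iff_of_false hP' hP⟩
  have hsum := hfs y hy hk hne c
  -- right-hand side: all orders of `1` vanish
  have hrhs : ∑ᶠ Q ∈ fibk A N c, Q.ord (⟨red A ⟨(y : Om), hy⟩, hk⟩ : Fk A N) = 0 := by
    apply finsum_mem_eq_zero_of_forall_eq_zero
    intro Q _
    have e : (⟨red A ⟨(y : Om), hy⟩, hk⟩ : Fk A N) = 1 := Subtype.ext hred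
    rw [e, Place.ord_one]
  rw [hrhs] at hsum
  -- left-hand side: nonnegative terms, one of them positive
  obtain ⟨D, hD, -⟩ := (S18.Char0.char0Stmt N).2.1 y hy0
  have hfin : (fibK A N c ∩ Function.support fun P' : Place Kbar (FN N) => P'.ord y).Finite := by
    refine D.support.finite_toSet.subset ?_
    rintro P' ⟨-, hP'⟩
    rw [Finset.mem_coe, Finsupp.mem_support_iff, hD]
    exact hP'
  rw [finsum_mem_eq_sum _ hfin] at hsum
  have hpos : 0 < P.ord y := by
    rw [Lib.FFPlaces.ord_pos_iff P hy0]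
    refine ⟨isChart_mem hch, fun hinv => ?_⟩
    rcases (P.toValuationSubring.mem_nonunits_iff_or).mp hyP with h0 | h1
    · exact hy0 h0
    · exact h1 hinv
  have hPmem : P ∈ hfin.toFinset := by
    rw [Set.Finite.mem_toFinset]
    exact ⟨hPc, hpos.ne'⟩
  have hle : P.ord y ≤ ∑ P' ∈ hfin.toFinset, P'.ord y := by
    refine Finset.single_le_sum (f := fun P' : Place Kbar (FN N) => P'.ord y) ?_ hPmem
    intro P' hP'
    rw [Set.Finite.mem_toFinset] at hP'
    exact (Lib.FFPlaces.mem_iff_ord_nonneg P' hy0).mp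
      (isChart_mem_of_type hch (hty P' hP'.1))
  omega

end Fermat.Agent.S37.RMapOf

end
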