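import Mathlib
import Fermat.Agent.S37.RMapOf
import Fermat.Agent.S37.RMap.Max

/-!
# S37 [RMAP] — `Plan2.RMap A N`, unconditional (helper16)

* `redNeOne : RMapOf.RedNeOne A N`   — **(MAX')** (`RMap/Max.lean`);
* `rmap : Plan2.RMap A N`            — a place map with the evaluation property exists
  (Chevalley step: helper34's `RMapOf.rmap_of_redNeOne`);
* `chartVal_main : Plan2.ChartVal A N` — **(C1)**, with `hA : A.LiesOverPrime ℓ` as hypothesis.

No good-reduction input: only `S18/Red` (content valuation), the degrees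
`[F_N : Q̄(j)] = ψ(N) = [F_{N,k} : k(j̄)]` and separability of `F_{N,k} / k(j̄)`.
-/

set_option autoImplicit false

namespace Fermat.Agent.S37.RMap

open ModularCurve AlgebraicCurve
open Fermat.Agent.S24 Fermat.Agent.S18 Fermat.Agent.S18.Content Fermat.Agent.S18.Plan
open Fermat.Agent.S37

set_option synthInstance.maxHeartbeats 400000

/-- **(MAX')** for `A` over `ℓ ∤ N`. -/
theorem redNeOne (N : ℕ) [NeZero N] (ℓ : ℕ) [Fact ℓ.Prime] (hℓ : ¬ ℓ ∣ N)
    (A : ValuationSubring Kbar) (hA : A.LiesOverPrime ℓ) : RMapOf.RedNeOne A N := by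
  haveI : CharP (kk A) ℓ := charP_residueField_of_liesOverPrime A ℓ hA
  intro P y hy hch hP
  exact red_ne_one A N ℓ hℓ P y hy hch hP

/-- **[RMAP]** a place map with the evaluation property exists. -/
theorem rmap (N : ℕ) [NeZero N] (ℓ : ℕ) [Fact ℓ.Prime] (hℓ : ¬ ℓ ∣ N)
    (A : ValuationSubring Kbar) (hA : A.LiesOverPrime ℓ) : Plan2.RMap A N :=
  RMapOf.rmap_of_redNeOne N ℓ hℓ A hA (redNeOne N ℓ hℓ A hA)

/-- **[CHART] (C1)** the value of a chart element at a place of its chart lies in `A`. -/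
theorem chartVal_main (N : ℕ) [NeZero N] (ℓ : ℕ) [Fact ℓ.Prime] (hℓ : ¬ ℓ ∣ N)
    (A : ValuationSubring Kbar) (hA : A.LiesOverPrime ℓ) : Plan2.ChartVal A N := by
  haveI : CharP (kk A) ℓ := charP_residueField_of_liesOverPrime A ℓ hA
  exact chartVal A N ℓ hℓ

end Fermat.Agent.S37.RMap
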