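import Mathlib
import Fermat.Agent.S37.Plan2b
import Fermat.Agent.S37.EvalBasic
import Fermat.Agent.S18.PlacesModLMain
import Fermat.Agent.Lib.RadicialSep

/-!
# S37 [SEP] from [RAD]  (helper64)

`Plan2.Rad A N ℓ → Plan2.Sep A N`: CRT in the integral closure of `k[j̄]` (resp. `k[j̄⁻¹]`) in
`F_{N,k}` gives `z` with pairwise distinct values at the finitely many given places
(`Lib/RadicialSep`); by `[RAD]` some Frobenius power `z ^ (ℓ ^ b)` is the reduction of
`y ∈ F_N ∩ Ocal` integral over `A[j]` (resp. `A[j⁻¹]`); such a `y` is a chart element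
(`isChartFin_of_isIntegral`, `isChartInf_of_isIntegral`) and `z ^ (ℓ ^ b)` still separates.
-/

set_option autoImplicit false

noncomputable section

namespace Fermat.Agent.S37.SepOfRad

open ModularCurve AlgebraicCurve IntermediateField
open Fermat.Agent.S24 Fermat.Agent.S18.Content Fermat.Agent.S18.Plan Fermat.Agent.S37.Plan2
open Fermat.Agent.S18 Fermat.Agent.Lib

set_option synthInstance.maxHeartbeats 400000
set_option maxHeartbeats 1600000

/-! ## Generic algebra -/

/-- Integrality over `κ[x]` is transported by a `κ`-algebra homomorphism to integrality over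
`κ[ι x]`. -/
theorem isIntegral_adjoin_map {κ F L : Type*} [Field κ] [Field F] [Algebra κ F] [CommRing L]
    [Algebra κ L] (ι : F →ₐ[κ] L) (x z : F) (hz : IsIntegral (Algebra.adjoin κ {x}) z) :
    IsIntegral (Algebra.adjoin κ {ι x}) (ι z) := by
  have hmem : ∀ a : Algebra.adjoin κ {x}, ι (a : F) ∈ Algebra.adjoin κ {ι x} := by
    intro a
    have h1 : ι (a : F) ∈ (Algebra.adjoin κ {x}).map ι := ⟨a, a.2, rfl⟩
    rwa [AlgHom.map_adjoin, Set.image_singleton] at h1
  let φ : Algebra.adjoin κ {x} →+* Algebra.adjoin κ {ι x} :=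
    ((ι : F →+* L).comp (Algebra.adjoin κ {x}).val.toRingHom).codRestrict
      (Algebra.adjoin κ {ι x}) hmem
  exact IsIntegral.map_of_comp_eq φ (ι : F →+* L) (RingHom.ext fun a => rfl) hz

/-- An element whose image is integral over a subring of the image of a valuation ring lies in
the valuation ring. -/
theorem mem_of_isIntegral_map {F Ω : Type*} [Field F] [CommRing Ω] (ι : F →+* Ω)
    (hι : Function.Injective ι) (V : ValuationSubring F) (R : Subring Ω)
    (hR : R ≤ V.toSubring.map ι) (y : F) (hy : IsIntegral R (ι y)) : y ∈ V := by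
  obtain ⟨p, hp, hp0⟩ := hy
  let φ : V →+* V.toSubring.map ι :=
    (ι.comp V.subtype).codRestrict (V.toSubring.map ι) (fun r => ⟨(r : F), r.2, rfl⟩)
  have hφ : Function.Surjective φ := by
    rintro ⟨s, r, hr, rfl⟩
    exact ⟨⟨r, hr⟩, rfl⟩
  have hp' : (p.map (Subring.inclusion hR)).Monic := hp.map _
  obtain ⟨q, hq, -, hqm⟩ := Polynomial.lifts_and_natDegree_eq_and_monic
    ((Polynomial.mem_lifts _).mpr (Polynomial.map_surjective φ hφ _)) hp'
  have hint : IsIntegral V y := by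
    refine ⟨q, hqm, hι ?_⟩
    have hcomp : ι.comp (algebraMap V F) = (algebraMap (V.toSubring.map ι) Ω).comp φ :=
      RingHom.ext fun r => rfl
    rw [Polynomial.hom_eval₂, map_zero, hcomp, ← Polynomial.eval₂_map, hq, Polynomial.eval₂_map]
    exact hp0
  obtain ⟨w, hw⟩ := IsIntegrallyClosed.isIntegral_iff.mp hint
  rw [← hw]
  exact w.2

/-! ## Integral over `A[j]` (resp. `A[j⁻¹]`) implies chart element -/

variable (N : ℕ) [NeZero N] (A : ValuationSubring Kbar)

/-- `j` of the Prelude function field, in `Q̄((q))`. -/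
theorem coe_jBar_eq : ((jBar N : FN N) : Om) = jK := by
  show coeffEmb Kbar jq = jqModC Kbar
  rw [coeffEmb, ← jqModC_rat, coeffMap_jqModC]

/-- `A[j]` lies in the valuation ring of every finite-type place. -/
theorem AJ_le_placeRing (P : Place Kbar (FN N)) (hP : FinPl A N P) : AJ A ≤ placeRing P := by
  rw [AJ, Subring.closure_le]
  rintro s (⟨a, rfl⟩ | rfl)
  · exact ⟨algebraMap Kbar (FN N) (a : Kbar), P.algebraMap_mem' _, EvalBasic.coe_algebraMap_FN N _⟩
  · obtain ⟨a, ha⟩ := hP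
    exact ⟨jBar N, EvalBasic.mem_of_sub_mem_nonunits P ha, coe_jBar_eq N⟩

/-- `A[j⁻¹]` lies in the valuation ring of every place not of finite type. -/
theorem AJinv_le_placeRing (P : Place Kbar (FN N)) (hP : ¬ FinPl A N P) :
    AJinv A ≤ placeRing P := by
  rw [AJinv, Subring.closure_le]
  rintro s (⟨a, rfl⟩ | rfl)
  · exact ⟨algebraMap Kbar (FN N) (a : Kbar), P.algebraMap_mem' _, EvalBasic.coe_algebraMap_FN N _⟩
  · have h : (jBar N)⁻¹ ∈ P.toValuationSubring := by
      by_contra h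
      refine hP ⟨0, ?_⟩
      have h1 : jBar N ∈ P.toValuationSubring.nonunits :=
        (ValuationSubring.mem_nonunits_iff_or _).2 (Or.inr h)
      simpa using h1
    refine ⟨(jBar N)⁻¹, h, ?_⟩
    rw [map_inv₀]
    exact congrArg (·⁻¹) (coe_jBar_eq N)

/-- An element of `F_N ∩ Ocal` integral over `A[j]` is a chart element of the finite chart. -/
theorem isChartFin_of_isIntegral (y : FN N) (hy : (y : Om) ∈ Ocal A)
    (hint : IsIntegral (AJ A) (y : Om)) : IsChartFin A N y :=
  ⟨hy, fun P hP => mem_of_isIntegral_map (algebraMap (FN N) Om) (algebraMap (FN N) Om).injective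
    P.toValuationSubring (AJ A) (AJ_le_placeRing N A P hP) y hint⟩

/-- An element of `F_N ∩ Ocal` integral over `A[j⁻¹]` is a chart element of the chart at
infinity. -/
theorem isChartInf_of_isIntegral (y : FN N) (hy : (y : Om) ∈ Ocal A)
    (hint : IsIntegral (AJinv A) (y : Om)) : IsChartInf A N y :=
  ⟨hy, fun P hP => mem_of_isIntegral_map (algebraMap (FN N) Om) (algebraMap (FN N) Om).injective
    P.toValuationSubring (AJinv A) (AJinv_le_placeRing N A P hP) y hint⟩

/-! ## Integral over `k[j̄]` in `F_{N,k}` versus in `k((q))` -/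

omit [NeZero N] in
/-- `z ∈ F_{N,k}` integral over `k[j̄] ⊆ F_{N,k}` is integral over `polyJ k ⊆ k((q))`. -/
theorem isIntegral_polyJ_of_polyRing (z : Fk A N)
    (hz : IsIntegral (FFPlaces.polyRing (kk A) (PlacesModL.jb A N)) z) :
    IsIntegral (polyJ (kk A)) (z : Omk A) :=
  isIntegral_adjoin_map (Fk A N).val (PlacesModL.jb A N) z hz

omit [NeZero N] in
/-- `z ∈ F_{N,k}` integral over `k[j̄⁻¹] ⊆ F_{N,k}` is integral over `polyJinv k ⊆ k((q))`. -/
theorem isIntegral_polyJinv_of_polyRing (z : Fk A N)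
    (hz : IsIntegral (FFPlaces.polyRing (kk A) (PlacesModL.jb A N)⁻¹) z) :
    IsIntegral (polyJinv (kk A)) (z : Omk A) := by
  have h := isIntegral_adjoin_map (Fk A N).val (PlacesModL.jb A N)⁻¹ z hz
  rw [map_inv₀] at h
  exact h

/-! ## The main implication -/

/-- **[SEP] from [RAD].** -/
theorem sep_of_rad (ℓ : ℕ) [Fact ℓ.Prime] (hℓ : ¬ ℓ ∣ N) (hA : A.LiesOverPrime ℓ)
    (hrad : Plan2.Rad A N ℓ) : Plan2.Sep A N := by
  have hfd := PlacesModL.finiteDimensional_jb N ℓ hℓ A hA
  have hsep := PlacesModL.isSeparable_jb N ℓ hℓ A hA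
  have hac : IsAlgClosed (kk A) := PlacesModL.isAlgClosed_kk A
  have hcp : CharP (kk A) ℓ := charP_residueField_of_liesOverPrime A ℓ hA
  have hcpF : CharP (Fk A N) ℓ :=
    charP_of_injective_algebraMap (algebraMap (kk A) (Fk A N)).injective ℓ
  intro S
  refine ⟨fun hS => ?_, fun hS => ?_⟩
  · obtain ⟨z, hzint, hz⟩ := RadicialSep.exists_separating_places_forall (K := kk A)
      (x := PlacesModL.jb A N) ℓ S hS
    obtain ⟨b, y, hyF, hyint, hred⟩ :=
      hrad.1 _ z.2 (isIntegral_polyJ_of_polyRing N A z hzint)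
    obtain ⟨hreg, hsepz⟩ := hz b
    have hk : red A ⟨((⟨(y : Om), hyF⟩ : FN N) : Om), y.2⟩ ∈ Fk A N := by
      have h1 : red A ⟨((⟨(y : Om), hyF⟩ : FN N) : Om), y.2⟩ =
          ((z ^ (ℓ ^ b) : Fk A N) : Omk A) := hred
      rw [h1]
      exact (z ^ (ℓ ^ b)).2
    have e : (⟨_, hk⟩ : Fk A N) = z ^ (ℓ ^ b) := Subtype.ext hred
    refine ⟨⟨(y : Om), hyF⟩, y.2, hk, isChartFin_of_isIntegral N A _ y.2 hyint, ?_, ?_⟩
    · rw [e]; exact hreg
    · rw [e]; exact hsepz
  · have hS' : ∀ Q ∈ S, (PlacesModL.jb A N)⁻¹ ∈ Q.toValuationSubring := fun Q hQ =>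
      (Q.toValuationSubring.mem_or_inv_mem (PlacesModL.jb A N)).resolve_left (hS Q hQ)
    obtain ⟨z, hzint, hz⟩ := RadicialSep.exists_separating_places_forall_inv (K := kk A)
      (x := PlacesModL.jb A N) ℓ S hS'
    obtain ⟨b, y, hyF, hyint, hred⟩ :=
      hrad.2 _ z.2 (isIntegral_polyJinv_of_polyRing N A z hzint)
    obtain ⟨hreg, hsepz⟩ := hz b
    have hk : red A ⟨((⟨(y : Om), hyF⟩ : FN N) : Om), y.2⟩ ∈ Fk A N := by
      have h1 : red A ⟨((⟨(y : Om), hyF⟩ : FN N) : Om), y.2⟩ =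
          ((z ^ (ℓ ^ b) : Fk A N) : Omk A) := hred
      rw [h1]
      exact (z ^ (ℓ ^ b)).2
    have e : (⟨_, hk⟩ : Fk A N) = z ^ (ℓ ^ b) := Subtype.ext hred
    refine ⟨⟨(y : Om), hyF⟩, y.2, hk, isChartInf_of_isIntegral N A _ y.2 hyint, ?_, ?_⟩
    · rw [e]; exact hreg
    · rw [e]; exact hsepz

end Fermat.Agent.S37.SepOfRad
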