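import Mathlib
import Fermat.Agent.S37.SepOfRad
import Fermat.Agent.S37.Rad

/-!
# S37 [SEP] from [GR]  (helper64)

The composition `Plan2.GoodRed A N' → Plan2.Rad A N ℓ → Plan2.Sep A N` at the auxiliary level
`N' = M * N`, `M = 9` for `ℓ = 2` and `M = 4` otherwise (helper5's `Rad.rad_of_goodRed` followed
by `SepOfRad.sep_of_rad`).
-/

set_option autoImplicit false

noncomputable section

namespace Fermat.Agent.S37.SepOfGoodRed

open Fermat.Agent.S24 Fermat.Agent.S37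

/-- The auxiliary level multiplier: `9` for `ℓ = 2`, `4` otherwise. -/
theorem not_dvd_aux {N ℓ : ℕ} (hℓ : ℓ.Prime) (hℓN : ¬ ℓ ∣ N) :
    ¬ ℓ ∣ (if ℓ = 2 then 9 else 4) * N := by
  intro h
  rcases hℓ.dvd_mul.1 h with h | h
  · split_ifs at h with h2
    · subst h2
      omega
    · have h4 : ℓ ∣ 2 ^ 2 := by simpa using h
      exact h2 ((Nat.prime_dvd_prime_iff_eq hℓ Nat.prime_two).1 (hℓ.dvd_of_dvd_pow h4))
  · exact hℓN h

theorem aux_ne_zero {N ℓ : ℕ} [NeZero N] : (if ℓ = 2 then 9 else 4) * N ≠ 0 := by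
  have := NeZero.ne N
  split_ifs <;> positivity

/-- **[SEP] from [GR]** at the auxiliary level `N' = (if ℓ = 2 then 9 else 4) * N`. -/
theorem sep_of_goodRed (N : ℕ) [NeZero N] (ℓ : ℕ) [Fact ℓ.Prime] (hℓ : ¬ ℓ ∣ N)
    (A : ValuationSubring Kbar) (hA : A.LiesOverPrime ℓ)
    (hGR : Plan2.GoodRed A ((if ℓ = 2 then 9 else 4) * N)) : Plan2.Sep A N := by
  have : NeZero ((if ℓ = 2 then 9 else 4) * N) := ⟨aux_ne_zero⟩
  exact SepOfRad.sep_of_rad N A ℓ hℓ hA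
    (Rad.rad_of_goodRed N ((if ℓ = 2 then 9 else 4) * N) (Dvd.intro_left _ rfl) ℓ
      (not_dvd_aux Fact.out hℓ) A hA hGR)

/-- **[SEP] from [GR]** at any level `N'` with `N ∣ N'`, `ℓ ∤ N'`. -/
theorem sep_of_goodRed' (N N' : ℕ) [NeZero N] [NeZero N'] (hdiv : N ∣ N') (ℓ : ℕ)
    [Fact ℓ.Prime] (hℓ : ¬ ℓ ∣ N') (A : ValuationSubring Kbar) (hA : A.LiesOverPrime ℓ)
    (hGR : Plan2.GoodRed A N') : Plan2.Sep A N :=
  SepOfRad.sep_of_rad N A ℓ (fun h => hℓ (h.trans hdiv)) hA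
    (Rad.rad_of_goodRed N N' hdiv ℓ hℓ A hA hGR)

end Fermat.Agent.S37.SepOfGoodRed
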