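import Mathlib
import Fermat.Prelude.Def_HeckeGalois_EichlerShimura
import Fermat.Prelude.Def_ModularCurve_HeckeModule
import Fermat.Prelude.Def_ModularCurve_ReductionModL
import Fermat.Agent.Lib.FrobExists
import Fermat.Agent.S18.TopBridge
import Fermat.Agent.S37.Reduce

set_option autoImplicit false

/-
# S37, top bridge (existential place map)

The frozen statement S37 (`SpecializationExists` for `JZero N`) and its `hcomm`-free local core
(`Core`: inertia acts trivially on `p`-power torsion, and every Frobenius element satisfies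
`φ² - T_ℓ φ + ℓ = 0` on `p`-power torsion, with `T_ℓ = heckeOperatorBar N ℓ`) are reduced to the
*place-level local core* `PlaceCore N p ℓ A r` for SOME place map `r` (never `h.choose`):

* the Hecke correspondence `T_ℓ` is the honest one (`HeckeInputsAlong`);
* `r` satisfies the two reduction axioms of the Prelude and the divisor-level core of S18
  (`S18.TopBridge.DivCoreFor`) for all powers of `p`;
* `r` is invariant under inertia, `r ∘ Frob = Fr ∘ r` for a permutation `Fr` of the places of the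
  reduced function field, and the Kronecker congruence `r_* (T_ℓ P) = Fr (r P) + ℓ • Fr⁻¹ (r P)`
  holds for every place `P`.

The quotient construction is `S37.Reduce.specializationExists_of_red` (helper26).
-/

noncomputable section

namespace Fermat.Agent.S37.TopBridge

open ModularCurve AlgebraicCurve

section Generic

variable {α β : Type*}

theorem mapDomain_corr_of_single (r : α → β) (T : (α →₀ ℤ) →+ (α →₀ ℤ)) (Fr : Equiv.Perm β) (ℓ : ℕ)
    (hK : ∀ a, Finsupp.mapDomain r (T (Finsupp.single a 1)) =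
      Finsupp.single (Fr (r a)) 1 + ℓ • Finsupp.single (Fr.symm (r a)) 1)
    (D : α →₀ ℤ) :
    Finsupp.mapDomain r (T D) =
      Finsupp.mapDomain Fr (Finsupp.mapDomain r D) +
        ℓ • Finsupp.mapDomain Fr.symm (Finsupp.mapDomain r D) := by
  have key : (Finsupp.mapDomain.addMonoidHom r).comp T =
      (Finsupp.mapDomain.addMonoidHom (M := ℤ) Fr).comp (Finsupp.mapDomain.addMonoidHom r) +
        ℓ • (Finsupp.mapDomain.addMonoidHom (M := ℤ) Fr.symm).comp
          (Finsupp.mapDomain.addMonoidHom r) := by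
    refine Finsupp.addHom_ext fun a n => ?_
    have h1 : (Finsupp.single a n : α →₀ ℤ) = n • Finsupp.single a 1 := by
      rw [Finsupp.smul_single, smul_eq_mul, mul_one]
    rw [h1, map_zsmul, map_zsmul]
    congr 1
    simp only [AddMonoidHom.comp_apply, Finsupp.mapDomain.addMonoidHom_apply,
      AddMonoidHom.add_apply, AddMonoidHom.smul_apply, Finsupp.mapDomain_single]
    exact hK a
  exact DFunLike.congr_fun key D

theorem mapDomain_frob_poly_eq_zero (r : α → β) (g : α → α) (T : (α →₀ ℤ) →+ (α →₀ ℤ))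
    (Fr : Equiv.Perm β) (ℓ : ℕ) (hg : ∀ a, r (g a) = Fr (r a))
    (hK : ∀ a, Finsupp.mapDomain r (T (Finsupp.single a 1)) =
      Finsupp.single (Fr (r a)) 1 + ℓ • Finsupp.single (Fr.symm (r a)) 1)
    (D : α →₀ ℤ) :
    Finsupp.mapDomain r
      (Finsupp.mapDomain g (Finsupp.mapDomain g D) - T (Finsupp.mapDomain g D) + ℓ • D) = 0 := by
  have hrg : ∀ X : α →₀ ℤ, Finsupp.mapDomain r (Finsupp.mapDomain g X) =
      Finsupp.mapDomain Fr (Finsupp.mapDomain r X) := by
    intro X
    rw [← Finsupp.mapDomain_comp, ← Finsupp.mapDomain_comp]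
    congr 1
    funext a
    exact hg a
  have hinv : ∀ Y : β →₀ ℤ, Finsupp.mapDomain Fr.symm (Finsupp.mapDomain Fr Y) = Y := by
    intro Y
    rw [← Finsupp.mapDomain_comp]
    have : (Fr.symm ∘ Fr : β → β) = id := by funext b; simp
    rw [this, Finsupp.mapDomain_id]
  have hsm : Finsupp.mapDomain r (ℓ • D) = ℓ • Finsupp.mapDomain r D :=
    map_nsmul (Finsupp.mapDomain.addMonoidHom r) ℓ D
  rw [Finsupp.mapDomain_add, Finsupp.mapDomain_sub, mapDomain_corr_of_single r T Fr ℓ hK,
    hrg, hrg, hinv, hsm]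
  abel

theorem nsmul_sub_eq_zero {J : Type*} [AddCommGroup J] (S : J →+ J) (m : ℕ) (x : J)
    (hx : m • x = 0) : m • (S x - x) = 0 := by
  rw [nsmul_sub, ← map_nsmul, hx, map_zero, sub_zero]

theorem nsmul_frob_poly_eq_zero {J : Type*} [AddCommGroup J] (S T : J →+ J) (ℓ m : ℕ) (x : J)
    (hx : m • x = 0) : m • (S (S x) - T (S x) + ℓ • x) = 0 := by
  rw [nsmul_add, nsmul_sub, ← map_nsmul, ← map_nsmul, ← map_nsmul, ← map_nsmul, hx,
    smul_comm m ℓ x, hx]
  simp

end Generic

section Layer2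

set_option synthInstance.maxHeartbeats 400000

variable (N p ℓ : ℕ) [NeZero N] [NeZero ℓ] (A : ValuationSubring (AlgebraicClosure ℚ))

/-- The place-level local core of S37 at `(ℓ, A)` for a place map `r`:
the Hecke correspondence `T_ℓ` is the honest one, `r` satisfies the two reduction axioms of the
Prelude and the divisor-level core of S18 for all `p`-powers, `r` is invariant under inertia,
`r ∘ Frob = Fr ∘ r` for a permutation `Fr` of the places of the reduced function field, and the
Kronecker congruence `r_* (T_ℓ P) = Fr (r P) + ℓ • Fr⁻¹ (r P)` holds for every place `P`. -/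
def PlaceCore (r : Place (AlgebraicClosure ℚ) (modularFunctionFieldBar N) →
    Place (IsLocalRing.ResidueField A)
      (modularFunctionFieldFullC (IsLocalRing.ResidueField A) N)) : Prop :=
  HeckeInputsAlong (AlgebraicClosure ℚ) N ℓ ∧
  IsPlaceReductionModL A N r ∧
  PrincipalGeneratedByIntegral A (IsLocalRing.residue A) N ∧
  (∀ n : ℕ, S18.TopBridge.DivCoreFor A N (p ^ n) r) ∧
  (∀ σ ∈ A.inertiaSubgroupIn ℚ, ∀ P,
    r (arithmeticGalois (modularFunctionFieldFull N) σ • P) = r P) ∧
  ∃ Fr : Equiv.Perm (Place (IsLocalRing.ResidueField A)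
      (modularFunctionFieldFullC (IsLocalRing.ResidueField A) N)),
    (∀ σ : AlgebraicClosure ℚ ≃ₐ[ℚ] AlgebraicClosure ℚ, A.IsFrobeniusAt σ ℓ → ∀ P,
      r (arithmeticGalois (modularFunctionFieldFull N) σ • P) = Fr (r P)) ∧
    ∀ (hα : HeckeAlphaBarIntegral (AlgebraicClosure ℚ) N ℓ)
      (hβ : HeckeBetaBarIntegral (AlgebraicClosure ℚ) N ℓ)
      (_ : HasPrincipalDivisors (AlgebraicClosure ℚ) (modularFunctionFieldBar (N * ℓ)))
      (P : Place (AlgebraicClosure ℚ) (modularFunctionFieldBar N)),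
      Finsupp.mapDomain r (heckeDivBar hα hβ (Finsupp.single P 1)) =
        Finsupp.single (Fr (r P)) 1 + ℓ • Finsupp.single (Fr.symm (r P)) 1

end Layer2

section Red

set_option synthInstance.maxHeartbeats 400000
set_option maxHeartbeats 1000000

variable {N p ℓ : ℕ} [NeZero N] [NeZero ℓ] {A : ValuationSubring (AlgebraicClosure ℚ)}

/-- The three properties of the reduction map `ρ = r_*` on divisor classes that follow from the
place-level local core: invariance under inertia, vanishing on `(φ² - T_ℓ φ + ℓ) J` for every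
Frobenius element `φ`, injectivity on `p`-power torsion. -/
theorem exists_red_of_placeCore (hℓ : ℓ.Prime)
    {r : Place (AlgebraicClosure ℚ) (modularFunctionFieldBar N) →
      Place (IsLocalRing.ResidueField A)
        (modularFunctionFieldFullC (IsLocalRing.ResidueField A) N)}
    (h : PlaceCore N p ℓ A r) :
    ∃ ρ : JZero N →+ JZeroC (IsLocalRing.ResidueField A) N,
      (∀ σ ∈ A.inertiaSubgroupIn ℚ, ∀ x : JZero N, ρ (σ • x) = ρ x) ∧
      (∀ φ : AlgebraicClosure ℚ ≃ₐ[ℚ] AlgebraicClosure ℚ, A.IsFrobeniusAt φ ℓ → ∀ x : JZero N,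
        ρ (φ • φ • x - heckeOperatorBar N ⟨ℓ, hℓ⟩ (φ • x) + ℓ • x) = 0) ∧
      (∀ x : JZero N, (∃ n : ℕ, p ^ n • x = 0) → ρ x = 0 → x = 0) := by
  obtain ⟨hH, hr, hgen, hdiv, hI, Fr, hFr, hK⟩ := h
  obtain ⟨hα, hβ, hP, hfin, hFI, hN⟩ := hH
  refine ⟨reductionPic0Along r hr hgen, ?_, ?_, ?_⟩
  · -- invariance under inertia
    intro σ hσ x
    obtain ⟨D, rfl⟩ := Pic0.mk_surjective x
    show reductionPic0Along r hr hgen
      (Pic0.mk (SemilinearAut.degZeroSMulHom (arithmeticGalois (modularFunctionFieldFull N) σ) D))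
        = reductionPic0Along r hr hgen (Pic0.mk D)
    rw [reductionPic0Along_mk, reductionPic0Along_mk]
    congr 1
    apply Subtype.ext
    rw [coe_reductionDegZeroAlong, coe_reductionDegZeroAlong, SemilinearAut.coe_degZeroSMulHom,
      SemilinearAut.divisor_smul_def, ← Finsupp.mapDomain_comp]
    congr 1
    funext P
    exact hI σ hσ P
  · -- the Frobenius polynomial is killed
    intro φ hφ x
    obtain ⟨D, rfl⟩ := Pic0.mk_surjective x
    set g := arithmeticGalois (modularFunctionFieldFull N) φ with hg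
    have e1 : ∀ D' : Divisor.degZero (K := AlgebraicClosure ℚ) (F := modularFunctionFieldBar N),
        φ • (Pic0.mk D' : JZero N) = Pic0.mk (SemilinearAut.degZeroSMulHom g D') := fun D' => rfl
    have e2 : ∀ D' : Divisor.degZero (K := AlgebraicClosure ℚ) (F := modularFunctionFieldBar N),
        heckeOperatorBar N ⟨ℓ, hℓ⟩ (Pic0.mk D' : JZero N) =
          Pic0.mk (Pic0.degZeroCorrespondence (heckeBetaBar (AlgebraicClosure ℚ) N ℓ)
            (heckeAlphaBar (AlgebraicClosure ℚ) N ℓ) hβ hα hFI D') := by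
      intro D'
      show heckeOperatorAlong (AlgebraicClosure ℚ) N ℓ (Pic0.mk D') = _
      rw [heckeOperatorAlong_eq hα hβ hFI hfin hN]
      rfl
    rw [e1, e1, e2]
    set E : Divisor.degZero (K := AlgebraicClosure ℚ) (F := modularFunctionFieldBar N) :=
      SemilinearAut.degZeroSMulHom g (SemilinearAut.degZeroSMulHom g D) -
        Pic0.degZeroCorrespondence (heckeBetaBar (AlgebraicClosure ℚ) N ℓ)
          (heckeAlphaBar (AlgebraicClosure ℚ) N ℓ) hβ hα hFI (SemilinearAut.degZeroSMulHom g D)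
        + ℓ • D with hE
    have e3 : Pic0.mk (SemilinearAut.degZeroSMulHom g (SemilinearAut.degZeroSMulHom g D)) -
        Pic0.mk (Pic0.degZeroCorrespondence (heckeBetaBar (AlgebraicClosure ℚ) N ℓ)
          (heckeAlphaBar (AlgebraicClosure ℚ) N ℓ) hβ hα hFI (SemilinearAut.degZeroSMulHom g D))
        + ℓ • (Pic0.mk D : JZero N) = Pic0.mk E := rfl
    rw [e3, reductionPic0Along_mk]
    have e4 : reductionDegZeroAlong r hr.1 E = 0 := by
      apply Subtype.ext
      rw [coe_reductionDegZeroAlong, hE]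
      simp only [AddSubgroupClass.coe_sub, AddSubgroup.coe_add, AddSubgroupClass.coe_nsmul,
        SemilinearAut.coe_degZeroSMulHom, ZeroMemClass.coe_zero,
        SemilinearAut.divisor_smul_def]
      exact mapDomain_frob_poly_eq_zero r (g • ·)
        (Divisor.correspondence (heckeBetaBar (AlgebraicClosure ℚ) N ℓ)
          (heckeAlphaBar (AlgebraicClosure ℚ) N ℓ) hβ hα) Fr ℓ
        (fun P => hFr φ hφ P) (fun P => hK hα hβ hP P) D
    rw [e4]
    rfl
  · -- injectivity on `p`-power torsion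
    rintro x ⟨n, hn⟩ hx
    obtain ⟨D, rfl⟩ := Pic0.mk_surjective x
    have hD0 : Divisor.degree
        (D : Divisor (AlgebraicClosure ℚ) (modularFunctionFieldBar N)) = 0 :=
      Divisor.mem_degZero.mp D.2
    have hmD : p ^ n • (D : Divisor (AlgebraicClosure ℚ) (modularFunctionFieldBar N)) ∈
        Divisor.principal (K := AlgebraicClosure ℚ) (F := modularFunctionFieldBar N) := by
      have h1 : Pic0.mk (p ^ n • D) = 0 := hn
      have h2 := (QuotientAddGroup.eq_zero_iff (p ^ n • D)).mp h1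
      rw [AddSubgroup.mem_addSubgroupOf] at h2
      simpa using h2
    have hrD : Finsupp.mapDomain r
        (D : Divisor (AlgebraicClosure ℚ) (modularFunctionFieldBar N)) ∈
        Divisor.principal (K := IsLocalRing.ResidueField A)
          (F := modularFunctionFieldFullC (IsLocalRing.ResidueField A) N) := by
      rw [reductionPic0Along_mk] at hx
      have h2 := (QuotientAddGroup.eq_zero_iff _).mp hx
      rw [AddSubgroup.mem_addSubgroupOf] at h2
      exact h2
    have hprin := hdiv n D hD0 hmD hrD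
    exact (QuotientAddGroup.eq_zero_iff D).mpr (AddSubgroup.mem_addSubgroupOf.mpr hprin)

end Red

section Top

set_option synthInstance.maxHeartbeats 400000
set_option maxHeartbeats 1000000

/-- **[G1]** the `hcomm`-free local core of S37 at `(ℓ, A)`, in terms of `heckeOperatorBar`:
inertia acts trivially on `p`-power torsion of `JZero N`, and every Frobenius element `σ` at `A`
satisfies `σ² - T_ℓ σ + ℓ = 0` on `p`-power torsion. -/
def Core (N p ℓ : ℕ) [NeZero N] (hℓ : ℓ.Prime) (A : ValuationSubring (AlgebraicClosure ℚ)) :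
    Prop :=
  (∀ σ ∈ A.inertiaSubgroupIn ℚ, ∀ x : JZero N, (∃ n : ℕ, p ^ n • x = 0) → σ • x = x) ∧
  (∀ σ : AlgebraicClosure ℚ ≃ₐ[ℚ] AlgebraicClosure ℚ, A.IsFrobeniusAt σ ℓ → ∀ x : JZero N,
    (∃ n : ℕ, p ^ n • x = 0) →
      σ • σ • x - heckeOperatorBar N ⟨ℓ, hℓ⟩ (σ • x) + ℓ • x = 0)

/-- **[G1]** from the place-level local core (no `hcomm`, no Hecke module structure). -/
theorem core_of_placeCore (N p ℓ : ℕ) [NeZero N] (hℓ : ℓ.Prime)
    (A : ValuationSubring (AlgebraicClosure ℚ))
    (h : ∃ r, @PlaceCore N p ℓ _ ⟨hℓ.ne_zero⟩ A r) : Core N p ℓ hℓ A := by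
  have : NeZero ℓ := ⟨hℓ.ne_zero⟩
  obtain ⟨r, hr⟩ := h
  obtain ⟨ρ, ha, hb, hc⟩ := exists_red_of_placeCore hℓ hr
  refine ⟨?_, ?_⟩
  · rintro σ hσ x ⟨n, hn⟩
    have h1 : σ • x - x = 0 := by
      refine hc _ ⟨n, ?_⟩ ?_
      · exact nsmul_sub_eq_zero (DistribSMul.toAddMonoidHom (JZero N) σ) (p ^ n) x hn
      · rw [map_sub, ha σ hσ x, sub_self]
    exact sub_eq_zero.mp h1
  · rintro σ hσ x ⟨n, hn⟩
    refine hc _ ⟨n, ?_⟩ (hb σ hσ x)
    exact nsmul_frob_poly_eq_zero (DistribSMul.toAddMonoidHom (JZero N) σ)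
      (heckeOperatorBar N ⟨ℓ, hℓ⟩).toAddMonoidHom ℓ (p ^ n) x hn

/-- The frozen statement S37 from the place-level local core at every `(ℓ, A)`. -/
theorem result_of_placeCore (N p : ℕ) [NeZero N] (hcomm : HeckeOperatorsCommuteBar N)
    (hcore : ∀ (ℓ : ℕ) (hℓ : ℓ.Prime), ¬ ℓ ∣ N * p →
      ∀ A : ValuationSubring (AlgebraicClosure ℚ), A.LiesOverPrime ℓ →
        ∃ r, @PlaceCore N p ℓ _ ⟨hℓ.ne_zero⟩ A r) :
    letI := heckeModuleBar N
    ∀ (_ : SMulCommClass (AlgebraicClosure ℚ ≃ₐ[ℚ] AlgebraicClosure ℚ) HeckeAlg (JZero N)),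
      SpecializationExists (K := ℚ) (L := AlgebraicClosure ℚ) N p (JZero N) := by
  intro hS
  refine (letI := heckeModuleBar N;
    Reduce.specializationExists_of_red N p (JZero N) ?_)
  intro ℓ hℓ hNp A hA
  have : NeZero ℓ := ⟨hℓ.ne_zero⟩
  obtain ⟨r, hr⟩ := hcore ℓ hℓ hNp A hA
  obtain ⟨φ, hφ⟩ := Lib.FrobExists.exists_isFrobeniusAt A ℓ hℓ hA
  obtain ⟨ρ, ha, hb, hc⟩ := exists_red_of_placeCore hℓ hr
  refine ⟨φ, hφ, JZeroC (IsLocalRing.ResidueField A) N, inferInstance, ρ, ha, ?_, hc⟩
  intro x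
  have h1 := hb φ hφ x
  rwa [← heckeModuleBar_heckeGen_smul hcomm ⟨ℓ, hℓ⟩ (φ • x)] at h1

end Top

end Fermat.Agent.S37.TopBridge

end
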