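import Mathlib
import Fermat.Agent.Lib.FrobExists
import Fermat.Agent.S18.Plan
import Fermat.Agent.S18.TopBridge
import Fermat.Agent.S37.Plan2
import Fermat.Agent.S37.TopBridge
import Fermat.Agent.S37.HeckeInputs

/-!
# S37: the place-level local core from the contracts of `S37/Plan2` (owner: helper6)

`placeCore_of_plan` : for a prime `ℓ ∤ p` and a valuation subring `A` of `Q̄` over `ℓ`, the
contracts `RMap`, `Loc`, `Gen`, `Gal`, `ES ℓ` of `S37/Plan2` together with the divisor-level core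
of S18 (`S18.Plan.DivCore A N ℓ`) give a place map `r` with `TopBridge.PlaceCore N p ℓ A r`.

The permutation `Fr` of the places of `F_{N,k}` is the coefficientwise action of the Frobenius
automorphism `τ` of the residue field `k` of `A`; `τ` is obtained from a Frobenius element at `A`
(`Lib.FrobExists.exists_isFrobeniusAt`), so no perfectness argument is needed.

`result_of_plan` : the frozen statement S37 from these contracts at all `ℓ ∤ N p`.
-/

set_option autoImplicit false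

noncomputable section

namespace Fermat.Agent.S37.CoreOfPlan

open ModularCurve AlgebraicCurve Fermat.Agent.S24 Fermat.Agent.S18.Content Fermat.Agent.S18.Plan

set_option synthInstance.maxHeartbeats 400000
set_option maxHeartbeats 1600000

/-- The divisor-level core of S18 in the `TopBridge` shape from the `Plan` shape. -/
theorem divCoreFor_of_plan (N p ℓ : ℕ) (hℓ : ℓ.Prime) (hℓp : ¬ ℓ ∣ p) (A : ValuationSubring Kbar)
    (hDiv : S18.Plan.DivCore A N ℓ)
    (r : Place Kbar (FN N) → Place (kk A) (Fk A N))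
    (hr : IsPlaceReductionModL A N r)
    (hgen : PrincipalGeneratedByIntegral A (IsLocalRing.residue A) N) (n : ℕ) :
    S18.TopBridge.DivCoreFor A N (p ^ n) r := by
  intro D hD0 hmD hrD
  exact hDiv r hr hgen (p ^ n) (fun h => hℓp (hℓ.dvd_of_dvd_pow h)) D hD0 hmD hrD

/-- An element of the inertia group acts trivially on the residue field. -/
theorem toRingAut_eq_one_of_mem_inertia (A : ValuationSubring Kbar)
    (σ : A.decompositionSubgroup ℚ) (hσ : σ ∈ A.inertiaSubgroup ℚ) :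
    MulSemiringAction.toRingAut (A.decompositionSubgroup ℚ) (kk A) σ = 1 :=
  MonoidHom.mem_ker.mp hσ

/-- **The place-level local core of S37 from the contracts of `S37/Plan2`.** -/
theorem placeCore_of_plan (N p ℓ : ℕ) [NeZero N] (hℓ : ℓ.Prime) (hℓp : ¬ ℓ ∣ p)
    (A : ValuationSubring Kbar) (hA : A.LiesOverPrime ℓ)
    (hRMap : Plan2.RMap A N) (hLoc : Plan2.Loc A N) (hGen : Plan2.Gen A N)
    (hGal : Plan2.Gal A N) (hES : @Plan2.ES A N _ ℓ ⟨hℓ.ne_zero⟩)
    (hDiv : S18.Plan.DivCore A N ℓ) :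
    ∃ r, @TopBridge.PlaceCore N p ℓ _ ⟨hℓ.ne_zero⟩ A r := by
  have : NeZero ℓ := ⟨hℓ.ne_zero⟩
  obtain ⟨r, hr⟩ := hRMap
  obtain ⟨φ, hφ⟩ := Lib.FrobExists.exists_isFrobeniusAt A ℓ hℓ hA
  -- the Frobenius automorphism of the residue field
  let τ : kk A ≃+* kk A :=
    MulSemiringAction.toRingAut (A.decompositionSubgroup ℚ) (kk A)
      ⟨φ, hφ.mem_decompositionSubgroup⟩
  have hτ : ∀ x : kk A, τ x = x ^ ℓ := fun x => hφ.smul_residue_eq x
  have hloc : IsPlaceReductionModL A N r := hLoc r hr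
  refine ⟨r, HeckeInputs.heckeInputsAlong N ℓ, hloc, hGen,
    divCoreFor_of_plan N p ℓ hℓ hℓp A hDiv r hloc hGen, ?_,
    MulAction.toPerm (Defs.coeffAut (kk A) N τ), ?_, ?_⟩
  · -- inertia
    intro σ hσ P
    obtain ⟨σ', hσ', rfl⟩ := Subgroup.mem_map.mp hσ
    have h := hGal r hr σ' P
    rw [toRingAut_eq_one_of_mem_inertia A σ' hσ', map_one, one_smul] at h
    exact h
  · -- Frobenius
    intro σ hσ P
    have h := hGal r hr ⟨σ, hσ.mem_decompositionSubgroup⟩ P
    have e : MulSemiringAction.toRingAut (A.decompositionSubgroup ℚ) (kk A)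
        ⟨σ, hσ.mem_decompositionSubgroup⟩ = τ :=
      RingEquiv.ext fun x => (hσ.smul_residue_eq x).trans (hτ x).symm
    rw [e] at h
    exact h
  · -- Kronecker
    intro hα hβ hpd P
    have h := @hES r hr hα hβ hpd τ hτ P
    rw [h]
    congr 1
    rw [Finsupp.smul_single, nsmul_eq_mul, mul_one]
    rfl

/-- The contracts of `S37/Plan2` and the divisor-level core of S18 needed at one `(ℓ, A)`. -/
def Inputs (N ℓ : ℕ) [NeZero N] [NeZero ℓ] (A : ValuationSubring Kbar) : Prop :=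
  Plan2.RMap A N ∧ Plan2.Loc A N ∧ Plan2.Gen A N ∧ Plan2.Gal A N ∧ Plan2.ES A N ℓ ∧
    S18.Plan.DivCore A N ℓ

theorem placeCore_of_inputs (N p ℓ : ℕ) [NeZero N] (hℓ : ℓ.Prime) (hℓp : ¬ ℓ ∣ p)
    (A : ValuationSubring Kbar) (hA : A.LiesOverPrime ℓ)
    (h : @Inputs N ℓ _ ⟨hℓ.ne_zero⟩ A) :
    ∃ r, @TopBridge.PlaceCore N p ℓ _ ⟨hℓ.ne_zero⟩ A r :=
  placeCore_of_plan N p ℓ hℓ hℓp A hA h.1 h.2.1 h.2.2.1 h.2.2.2.1 h.2.2.2.2.1 h.2.2.2.2.2

/-- **[G1]** (`TopBridge.Core`, the `hcomm`-free local core consumed by P5) from the contracts. -/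
theorem core_of_inputs (N p ℓ : ℕ) [NeZero N] (hℓ : ℓ.Prime) (hℓp : ¬ ℓ ∣ p)
    (A : ValuationSubring Kbar) (hA : A.LiesOverPrime ℓ)
    (h : @Inputs N ℓ _ ⟨hℓ.ne_zero⟩ A) : TopBridge.Core N p ℓ hℓ A :=
  TopBridge.core_of_placeCore N p ℓ hℓ A (placeCore_of_inputs N p ℓ hℓ hℓp A hA h)

/-- **The frozen statement S37 from the contracts at every good `(ℓ, A)`.** -/
theorem result_of_inputs (N p : ℕ) [NeZero N] (hcomm : HeckeOperatorsCommuteBar N)
    (H : ∀ (ℓ : ℕ) (hℓ : ℓ.Prime), ¬ ℓ ∣ N * p →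
      ∀ A : ValuationSubring Kbar, A.LiesOverPrime ℓ → @Inputs N ℓ _ ⟨hℓ.ne_zero⟩ A) :
    letI := heckeModuleBar N
    ∀ (_ : SMulCommClass (AlgebraicClosure ℚ ≃ₐ[ℚ] AlgebraicClosure ℚ) HeckeAlg (JZero N)),
      SpecializationExists (K := ℚ) (L := AlgebraicClosure ℚ) N p (JZero N) :=
  TopBridge.result_of_placeCore N p hcomm fun ℓ hℓ hNp A hA =>
    placeCore_of_inputs N p ℓ hℓ (fun h => hNp (Dvd.dvd.mul_left h N)) A hA (H ℓ hℓ hNp A hA)

end Fermat.Agent.S37.CoreOfPlan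

end
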