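import Mathlib
import Fermat.Agent.S37.Plan2
import Fermat.Agent.S18.Red
import Fermat.Agent.S18.Char0

/-!
# S37 — [GEN]: principal divisors are generated by integral principal divisors (helper39)

`gen N ℓ hℓ A hA : Plan2.Gen A N`, i.e. the Prelude's
`PrincipalGeneratedByIntegral A (IsLocalRing.residue A) N`.

Proof ((R2) of the S37 study): for `f ∈ F_N^×`, `[RED]` (a) gives a constant `c ≠ 0` with `c f` a
`v`-unit of the content valuation, `[RED]` (e) writes `c f = ι y₁ / ι y₂` with `y₁, y₂ ∈ A((q))`,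
`ι yᵢ ∈ F_N`, `ρ yᵢ ∈ F_{N,k} ∖ 0`; hence `div f = div (ι y₁) - div (ι y₂)` is a difference of two
integral principal divisors (the divisors exist by `[CHAR0]`).
-/

set_option autoImplicit false

namespace Fermat.Agent.S37.Gen

open ModularCurve AlgebraicCurve Fermat.Agent.S24 Fermat.Agent.S18.Content Fermat.Agent.S18
  Fermat.Agent.S18.Plan

set_option synthInstance.maxHeartbeats 400000 in
set_option maxHeartbeats 1600000 in
/-- **[GEN]** from the two `[RED]` clauses and the existence of divisors. -/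
theorem gen_of_red (N : ℕ) [NeZero N] (A : ValuationSubring Kbar)
    (hred : Plan.RedStmt A N) (h0 : Plan.Char0Stmt N) :
    PrincipalGeneratedByIntegral A (IsLocalRing.residue A) N := by
  obtain ⟨hA1, -, -, -, hA5⟩ := hred
  intro D hD
  obtain ⟨f, hf0, hDf⟩ := hD
  -- the constant
  have hfOm : ((f : FN N) : Om) ≠ 0 := fun h => hf0 (Subtype.ext h)
  obtain ⟨c, hc0, hcO, hcred⟩ := hA1 (f : Om) f.2 hfOm
  have hCmem : HahnSeries.C c ∈ modularFunctionFieldBar N := by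
    rw [← algebraMap_LS_eq_C]
    exact (modularFunctionFieldBar N).algebraMap_mem c
  have hcf : HahnSeries.C c * (f : Om) ∈ modularFunctionFieldBar N :=
    (modularFunctionFieldBar N).mul_mem hCmem f.2
  obtain ⟨y₁, y₂, h₁, h₂, hk₁, hk₂, hne₁, hne₂, hmul⟩ := hA5 ⟨_, hcO⟩ hcf hcred
  -- the two functions
  set f₁ : FN N := ⟨iota A y₁, h₁⟩ with hf₁
  set f₂ : FN N := ⟨iota A y₂, h₂⟩ with hf₂
  have hf₁0 : f₁ ≠ 0 := fun h => rho_ne_zero_imp A y₁ hne₁ (congrArg Subtype.val h)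
  have hf₂0 : f₂ ≠ 0 := fun h => rho_ne_zero_imp A y₂ hne₂ (congrArg Subtype.val h)
  have hrel : algebraMap Kbar (FN N) c * f * f₂ = f₁ := by
    apply Subtype.ext
    show algebraMap Kbar Om c * (f : Om) * iota A y₂ = iota A y₁
    rw [algebraMap_LS_eq_C]
    exact hmul
  have hc' : algebraMap Kbar (FN N) c ≠ 0 := by simpa using hc0
  -- orders
  have hord : ∀ P : Place Kbar (FN N), P.ord f = P.ord f₁ - P.ord f₂ := by
    intro P
    have h := congrArg P.ord hrel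
    rw [P.ord_mul (mul_ne_zero hc' hf0) hf₂0, P.ord_mul hc' hf0,
      Lib.FFPlaces.ord_algebraMap, zero_add] at h
    omega
  -- the divisors
  obtain ⟨D₁, hD₁, -⟩ := h0.2.1 f₁ hf₁0
  obtain ⟨D₂, hD₂, -⟩ := h0.2.1 f₂ hf₂0
  have hDeq : D = D₁ - D₂ := by
    ext P
    rw [Finsupp.sub_apply, hDf P, hD₁ P, hD₂ P]
    exact hord P
  rw [hDeq]
  refine sub_mem (AddSubgroup.subset_closure ?_) (AddSubgroup.subset_closure ?_)
  · exact ⟨y₁, h₁, hk₁, hne₁, hD₁⟩
  · exact ⟨y₂, h₂, hk₂, hne₂, hD₂⟩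

/-- **[GEN]** `Plan2.Gen A N` for `ℓ ∤ N` and `A` over `ℓ`. -/
theorem gen (N : ℕ) [NeZero N] (ℓ : ℕ) [Fact ℓ.Prime] (hℓ : ¬ ℓ ∣ N)
    (A : ValuationSubring Kbar) (hA : A.LiesOverPrime ℓ) : Plan2.Gen A N :=
  gen_of_red N A (Red.redStmt N ℓ hℓ A hA) (Char0.char0Stmt N)

end Fermat.Agent.S37.Gen
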