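import Mathlib
import Fermat.Agent.S37.CoreOfPlan
import Fermat.Agent.S37.Gen
import Fermat.Agent.S37.Gal

/-!
# S37 wiring (owner: helper26)

The inputs of helper6's `CoreOfPlan.Inputs N ℓ A` (= `RMap`, `Loc`, `Gen`, `Gal`, `ES ℓ`,
`S18.Plan.DivCore`) from the contracts which are still to be provided at one pair `(ℓ, A)`:

* `Plan2.RMap A N`  (**[RMAP]**),
* `Plan2.Sep A N`   (**[SEP]**; gives `Gal` by helper94's `Gal.gal_of_sep`),
* `Plan2.Loc A N`   (**[LOC]**),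
* `Plan2.ES A N ℓ`  (**[ES]**),
* `S18.Plan.DivCore A N ℓ` (the S18 program),

`Gen` being helper39's unconditional `Gen.gen`.  Then `core_of` is the `hcomm`-free core **[G1]**
(`TopBridge.Core`) and `result_of` is the frozen S37 conclusion.
-/

set_option autoImplicit false

noncomputable section

namespace Fermat.Agent.S37.Wire

open ModularCurve AlgebraicCurve Fermat.Agent.S24 Fermat.Agent.S18.Content Fermat.Agent.S18.Plan

set_option synthInstance.maxHeartbeats 400000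
set_option maxHeartbeats 1600000

/-- `CoreOfPlan.Inputs` from the five contracts which are not yet unconditional. -/
theorem inputs_of (N ℓ : ℕ) [NeZero N] (hℓ : ℓ.Prime) (hℓN : ¬ ℓ ∣ N)
    (A : ValuationSubring Kbar) (hA : A.LiesOverPrime ℓ)
    (hrmap : Plan2.RMap A N) (hsep : Plan2.Sep A N) (hloc : Plan2.Loc A N)
    (hes : @Plan2.ES A N _ ℓ ⟨hℓ.ne_zero⟩) (hdiv : S18.Plan.DivCore A N ℓ) :
    @CoreOfPlan.Inputs N ℓ _ ⟨hℓ.ne_zero⟩ A :=
  haveI : Fact ℓ.Prime := ⟨hℓ⟩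
  ⟨hrmap, hloc, Gen.gen N ℓ hℓN A hA, Gal.gal_of_sep A N hsep, hes, hdiv⟩

/-- **[G1]** from the five contracts. -/
theorem core_of (N p ℓ : ℕ) [NeZero N] (hℓ : ℓ.Prime) (hNp : ¬ ℓ ∣ N * p)
    (A : ValuationSubring Kbar) (hA : A.LiesOverPrime ℓ)
    (hrmap : Plan2.RMap A N) (hsep : Plan2.Sep A N) (hloc : Plan2.Loc A N)
    (hes : @Plan2.ES A N _ ℓ ⟨hℓ.ne_zero⟩) (hdiv : S18.Plan.DivCore A N ℓ) :
    TopBridge.Core N p ℓ hℓ A :=
  CoreOfPlan.core_of_inputs N p ℓ hℓ (fun h => hNp (h.mul_left N)) A hA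
    (inputs_of N ℓ hℓ (fun h => hNp (h.mul_right p)) A hA hrmap hsep hloc hes hdiv)

/-- **The frozen S37 conclusion** from the five contracts at every `ℓ ∤ N p` and `A` over `ℓ`. -/
theorem result_of (N p : ℕ) [NeZero N] (hcomm : HeckeOperatorsCommuteBar N)
    (H : ∀ (ℓ : ℕ) (hℓ : ℓ.Prime), ¬ ℓ ∣ N →
      ∀ A : ValuationSubring Kbar, A.LiesOverPrime ℓ →
        Plan2.RMap A N ∧ Plan2.Sep A N ∧ Plan2.Loc A N ∧ @Plan2.ES A N _ ℓ ⟨hℓ.ne_zero⟩ ∧
          S18.Plan.DivCore A N ℓ) :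
    letI := heckeModuleBar N
    ∀ (_ : SMulCommClass (AlgebraicClosure ℚ ≃ₐ[ℚ] AlgebraicClosure ℚ) HeckeAlg (JZero N)),
      SpecializationExists (K := ℚ) (L := AlgebraicClosure ℚ) N p (JZero N) :=
  CoreOfPlan.result_of_inputs N p hcomm fun ℓ hℓ hNp A hA =>
    have hℓN : ¬ ℓ ∣ N := fun h => hNp (h.mul_right p)
    have h := H ℓ hℓ hℓN A hA
    inputs_of N ℓ hℓ hℓN A hA h.1 h.2.1 h.2.2.1 h.2.2.2.1 h.2.2.2.2

end Fermat.Agent.S37.Wire

end
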