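import Mathlib
import Fermat.Agent.S37.Wire
import Fermat.Agent.S37.Core
import Fermat.Agent.S37.RMap
import Fermat.Agent.S37.GoodRed
import Fermat.Agent.S37.SepOfGoodRed
import Fermat.Agent.S37.ChartRed
import Fermat.Agent.S37.LocPt
import Fermat.Agent.S37.ES
import Fermat.Agent.S18.Final

/-!
# S37 final assembly modulo `Plan2.FibreSum` (owner: helper26)

Every contract of the S37 program except **[NORM]** (`Plan2.FibreSum A N`) is a theorem on main:

* `RMap.rmap` (helper16, with helper34's `RMapOf`),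
* `GoodRed.goodRed` (helper86, helper78) → `SepOfGoodRed.sep_of_goodRed` (helper5, helper64) = `Sep`,
* `Chart.chartRed` (helper37, helper23),
* `LocPt.loc_of` (helper39; `LocAsm`) : `FibreSum → Sep → ChartRed → Loc`,
* `ES.es` (helper94; Kron, Conj, Fibre, ChartHecke inside) : `Sep → ES`,
* `S18.Final.divCore` (helper49 and the S18 program),
* `Gen.gen` (helper39), `Gal.gal_of_sep` (helper94) inside `Wire`.

So the five inputs of `Wire`, hence the `hcomm`-free core `Core.CoreAll N p` (**[G1]**) and the frozen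
S37 conclusion, follow from `Plan2.FibreSum A N` at every `ℓ ∤ N` and `A` over `ℓ`.
-/

set_option autoImplicit false

noncomputable section

namespace Fermat.Agent.S37.FinalOf

open ModularCurve AlgebraicCurve Fermat.Agent.S24 Fermat.Agent.S18.Content Fermat.Agent.S18.Plan

set_option synthInstance.maxHeartbeats 400000
set_option maxHeartbeats 1600000

/-- **[SEP]**, unconditional. -/
theorem sep (N : ℕ) [NeZero N] (ℓ : ℕ) [Fact ℓ.Prime] (hℓN : ¬ ℓ ∣ N)
    (A : ValuationSubring Kbar) (hA : A.LiesOverPrime ℓ) : Plan2.Sep A N :=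
  SepOfGoodRed.sep_of_goodRed N ℓ hℓN A hA (GoodRed.goodRed N ℓ hℓN A hA)

/-- The five inputs of `Wire` from **[NORM]**. -/
theorem five_of_fibreSum (N ℓ : ℕ) [NeZero N] (hℓ : ℓ.Prime) (hℓN : ¬ ℓ ∣ N)
    (A : ValuationSubring Kbar) (hA : A.LiesOverPrime ℓ) (hfs : Plan2.FibreSum A N) :
    Plan2.RMap A N ∧ Plan2.Sep A N ∧ Plan2.Loc A N ∧ @Plan2.ES A N _ ℓ ⟨hℓ.ne_zero⟩ ∧
      S18.Plan.DivCore A N ℓ := by
  have : Fact ℓ.Prime := ⟨hℓ⟩
  have hsep : Plan2.Sep A N := sep N ℓ hℓN A hA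
  exact ⟨RMap.rmap N ℓ hℓN A hA, hsep,
    LocPt.loc_of A N ℓ hℓN hA hfs hsep (Chart.chartRed N ℓ hℓN A hA),
    ES.es N ℓ hℓ hℓN A hA hsep, S18.Final.divCore N ℓ hℓN A hA⟩

/-- **[G1]** `Core.CoreAll N p` from **[NORM]**. -/
theorem coreAll_of_fibreSum (N p : ℕ) [NeZero N]
    (hfs : ∀ ℓ : ℕ, ℓ.Prime → ¬ ℓ ∣ N → ∀ A : ValuationSubring Kbar, A.LiesOverPrime ℓ →
      Plan2.FibreSum A N) : Core.CoreAll N p :=
  fun ℓ hℓ hNp A hA =>
    have hℓN : ¬ ℓ ∣ N := fun h => hNp (h.mul_right p)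
    have h := five_of_fibreSum N ℓ hℓ hℓN A hA (hfs ℓ hℓ hℓN A hA)
    Wire.core_of N p ℓ hℓ hNp A hA h.1 h.2.1 h.2.2.1 h.2.2.2.1 h.2.2.2.2

/-- **The frozen S37 conclusion** from **[NORM]**. -/
theorem result_of_fibreSum (N p : ℕ) [NeZero N] (hcomm : HeckeOperatorsCommuteBar N)
    (hfs : ∀ ℓ : ℕ, ℓ.Prime → ¬ ℓ ∣ N → ∀ A : ValuationSubring Kbar, A.LiesOverPrime ℓ →
      Plan2.FibreSum A N) :
    letI := heckeModuleBar N
    ∀ (_ : SMulCommClass (AlgebraicClosure ℚ ≃ₐ[ℚ] AlgebraicClosure ℚ) HeckeAlg (JZero N)),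
      SpecializationExists (K := ℚ) (L := AlgebraicClosure ℚ) N p (JZero N) :=
  Wire.result_of N p hcomm fun ℓ hℓ hℓN A hA =>
    five_of_fibreSum N ℓ hℓ hℓN A hA (hfs ℓ hℓ hℓN A hA)

end Fermat.Agent.S37.FinalOf

end
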