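import Mathlib
import Fermat.Agent.S37.FinalOf
import Fermat.Agent.S37.FibreSumNorm
import Fermat.Agent.S37.FibreSumRat

/-!
# S37: **[NORM]** and the `hcomm`-free core **[G1]**, unconditional (owner: helper26)

* `fibreSum N ℓ hℓ A hA : Plan2.FibreSum A N` — helper45's rational case (`FibreSumRat`) through
  helper5's norm transfer (`FibreSumNorm`, `NormRed`; helper2's `Lib/FFSep/NormFibres`).
  (helper60's `FibreSum.fibreSum` is an independent proof of the same statement.)
* `coreAll N p : Core.CoreAll N p` — for every prime `ℓ ∤ N p` and every valuation subring `A` of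
  `Q̄` over `ℓ`: inertia at `A` acts trivially on the `p`-power torsion of `J₀(N)(Q̄)`, and every
  Frobenius element `φ` at `A` satisfies `φ² - T_ℓ φ + ℓ = 0` on it.  (Place-map route; helper58's
  `P5.CoreT.coreAll` is an independent proof of the same statement.)
-/

set_option autoImplicit false

namespace Fermat.Agent.S37.CoreFinal

open ModularCurve AlgebraicCurve Fermat.Agent.S24

/-- **[NORM]** `Plan2.FibreSum A N`, unconditional. -/
theorem fibreSum (N : ℕ) [NeZero N] (ℓ : ℕ) [Fact ℓ.Prime] (hℓ : ¬ ℓ ∣ N)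
    (A : ValuationSubring Kbar) (hA : A.LiesOverPrime ℓ) : Plan2.FibreSum A N :=
  FibreSumNorm.fibreSum_of_rat N ℓ hℓ A hA (FibreSumRat.fibreSum_rat N ℓ hℓ A hA)

/-- **[NORM]** at every good pair `(ℓ, A)`. -/
theorem fibreSum_all (N : ℕ) [NeZero N] :
    ∀ ℓ : ℕ, ℓ.Prime → ¬ ℓ ∣ N → ∀ A : ValuationSubring Kbar, A.LiesOverPrime ℓ →
      Plan2.FibreSum A N :=
  fun ℓ hℓ hℓN A hA =>
    have : Fact ℓ.Prime := ⟨hℓ⟩
    fibreSum N ℓ hℓN A hA

/-- **[G1]** the `hcomm`-free core of S37 at all good primes, unconditional. -/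
theorem coreAll (N p : ℕ) [NeZero N] : Core.CoreAll N p :=
  FinalOf.coreAll_of_fibreSum N p (fibreSum_all N)

end Fermat.Agent.S37.CoreFinal
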