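import Mathlib
import Fermat.Agent.S37.Defs

/-!
# S37 plan: the five interface statements (as `def … : Prop`, typechecked against the Prelude)

`S37/Assembly.lean` proves the frozen S37 statement from these five props (plus the landed
`Lib/FrobExists` and `S37/Reduce`).  Each prop is one independent sub-program:

* `RedInputs`   (I)   unconditional good reduction of `X₀(N)` at `ℓ ∤ N`: a place-reduction map exists;
* `TorsionInj`  (II)  = the frozen S18 statement;
* `GalPlaces`   (III) the place-reduction map commutes with the decomposition group;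
* `HeckeInputs` (IV)  the Prelude's `HeckeInputsAlong` for `X₀(Nℓ) ⇉ X₀(N)` over `ℚ̄`;
* `ESPlaces`    (V)   Eichler–Shimura on places: `r(T_ℓ P) = Frob(r P) + ℓ · Frob⁻¹(r P)`.
-/

set_option autoImplicit false

open ModularCurve AlgebraicCurve

namespace Fermat.Agent.S37.Plan

noncomputable section

/-- the residue field of a valuation subring of `ℚ̄`. -/
abbrev kA (A : ValuationSubring (AlgebraicClosure ℚ)) : Type :=
  IsLocalRing.ResidueField A

/-- (I) unconditional good reduction: the Prelude's reduction inputs exist at every `A` over `ℓ`. -/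
def RedInputs (N ℓ : ℕ) [NeZero N] : Prop :=
  ∀ A : ValuationSubring (AlgebraicClosure ℚ), A.LiesOverPrime ℓ → ReductionInputsModL A N

/-- (II) the frozen S18 statement (injectivity of reduction on prime-to-`ℓ` torsion). -/
def TorsionInj (N ℓ : ℕ) [NeZero N] : Prop :=
  ∀ A : ValuationSubring (AlgebraicClosure ℚ), A.LiesOverPrime ℓ → ReductionInputsModL A N →
    ∀ m : ℕ, ¬ ℓ ∣ m → ∀ z : JZero N, m • z = 0 → reductionModL A N z = 0 → z = 0

/-- (III) the place reduction commutes with the decomposition group: `r(σ P) = σ̄ (r P)`. -/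
def GalPlaces (N ℓ : ℕ) [NeZero N] : Prop :=
  ∀ A : ValuationSubring (AlgebraicClosure ℚ), A.LiesOverPrime ℓ →
    ∀ (h : ReductionInputsModL A N) (σ : A.decompositionSubgroup ℚ)
      (P : Place (AlgebraicClosure ℚ) (modularFunctionFieldBar N)),
      placeReductionModL h
          (arithmeticGalois (modularFunctionFieldFull N)
            (σ : AlgebraicClosure ℚ ≃ₐ[ℚ] AlgebraicClosure ℚ) • P) =
        Defs.coeffAut (kA A) N
            (MulSemiringAction.toRingAut (A.decompositionSubgroup ℚ) (kA A) σ) •
          placeReductionModL h P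

/-- (IV) the Prelude's Hecke inputs for the correspondence `X₀(Nℓ) ⇉ X₀(N)` over `ℚ̄`. -/
def HeckeInputs (N ℓ : ℕ) [NeZero N] [NeZero ℓ] : Prop :=
  HeckeInputsAlong (AlgebraicClosure ℚ) N ℓ

/-- (V) Eichler–Shimura congruence on places: for `τ = Frob_ℓ` on the residue field,
`r_*(T_ℓ P) = τ(r P) + ℓ · τ⁻¹(r P)` as divisors of `F_k`. -/
def ESPlaces (N ℓ : ℕ) [NeZero N] [NeZero ℓ] : Prop :=
  ∀ A : ValuationSubring (AlgebraicClosure ℚ), A.LiesOverPrime ℓ →
    ∀ (h : ReductionInputsModL A N)
      (hα : HeckeAlphaBarIntegral (AlgebraicClosure ℚ) N ℓ)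
      (hβ : HeckeBetaBarIntegral (AlgebraicClosure ℚ) N ℓ)
      [HasPrincipalDivisors (AlgebraicClosure ℚ)
        (laurentBaseChange (AlgebraicClosure ℚ) (modularFunctionFieldFull (N * ℓ)))]
      (τ : kA A ≃+* kA A), (∀ x, τ x = x ^ ℓ) →
      ∀ P : Place (AlgebraicClosure ℚ) (modularFunctionFieldBar N),
        Finsupp.mapDomain (placeReductionModL h) (heckeDivBar hα hβ (Finsupp.single P 1)) =
          Finsupp.single (Defs.coeffAut (kA A) N τ • placeReductionModL h P) 1 +
            Finsupp.single ((Defs.coeffAut (kA A) N τ)⁻¹ • placeReductionModL h P) (ℓ : ℤ)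

end

end Fermat.Agent.S37.Plan
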