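import Mathlib
import Fermat.Agent.S37.Plan
import Fermat.Agent.S37.Reduce
import Fermat.Agent.Lib.FrobExists

/-!
# S37 assembly: the frozen statement from the five Plan props

`result_of_plan` derives `SpecializationExists N p (JZero N)` from `Plan.RedInputs`,
`Plan.TorsionInj` (= S18), `Plan.GalPlaces`, `Plan.HeckeInputs`, `Plan.ESPlaces`.
-/

set_option autoImplicit false

open ModularCurve AlgebraicCurve

namespace Fermat.Agent.S37.Assembly

section Generic

variable {K F K' F' : Type*} [Field K] [Field F] [Algebra K F] [Field K'] [Field F'] [Algebra K' F']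

theorem mapDomain_smul_of_equivariant (r : Place K F → Place K' F') (g : SemilinearAut K F)
    (g' : SemilinearAut K' F') (hr : ∀ P, r (g • P) = g' • r P) (D : Divisor K F) :
    Finsupp.mapDomain r (g • D) = g' • Finsupp.mapDomain r D := by
  induction D using Finsupp.induction_linear with
  | zero => rw [smul_zero, Finsupp.mapDomain_zero, smul_zero]
  | add D E hD hE =>
    rw [smul_add, Finsupp.mapDomain_add, hD, hE, Finsupp.mapDomain_add, smul_add]
  | single P n =>
    rw [SemilinearAut.smul_single, Finsupp.mapDomain_single, Finsupp.mapDomain_single,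
      SemilinearAut.smul_single, hr]

theorem single_combo {α : Type*} (a b : α) (n : ℤ) (ℓ : ℕ) :
    n • ((Finsupp.single a (1 : ℤ)) + Finsupp.single b (ℓ : ℤ)) =
      Finsupp.single a n + ℓ • Finsupp.single b n := by
  rw [smul_add, Finsupp.smul_single, Finsupp.smul_single, Finsupp.smul_single]
  simp [mul_comm]

end Generic

section Red

set_option maxHeartbeats 3200000
set_option synthInstance.maxHeartbeats 800000

variable (N ℓ : ℕ) [NeZero N]

/-- reduction commutes with the decomposition group. -/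
theorem red_galois (hIII : Plan.GalPlaces N ℓ) (A : ValuationSubring (AlgebraicClosure ℚ))
    (hA : A.LiesOverPrime ℓ) (h : ReductionInputsModL A N) (σ : A.decompositionSubgroup ℚ)
    (x : JZero N) :
    reductionModL A N ((σ : AlgebraicClosure ℚ ≃ₐ[ℚ] AlgebraicClosure ℚ) • x) =
      Defs.coeffAut (Plan.kA A) N
        (MulSemiringAction.toRingAut (A.decompositionSubgroup ℚ) (Plan.kA A) σ) •
        reductionModL A N x := by
  obtain ⟨D, rfl⟩ := Pic0.mk_surjective x
  rw [galois_smul_pic0_def, SemilinearAut.pic0_smul_mk, reductionModL_mk h, reductionModL_mk h,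
    SemilinearAut.pic0_smul_mk]
  refine congrArg Pic0.mk (Subtype.ext ?_)
  rw [coe_reductionDegZeroAlong, SemilinearAut.coe_degZeroSMulHom,
    SemilinearAut.coe_degZeroSMulHom, coe_reductionDegZeroAlong]
  exact mapDomain_smul_of_equivariant _ _ _ (fun P => hIII A hA h σ P) _

variable [NeZero ℓ]

/-- Eichler--Shimura on divisors. -/
theorem mapDomain_heckeDivBar (hV : Plan.ESPlaces N ℓ) (A : ValuationSubring (AlgebraicClosure ℚ))
    (hA : A.LiesOverPrime ℓ) (h : ReductionInputsModL A N)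
    (hα : HeckeAlphaBarIntegral (AlgebraicClosure ℚ) N ℓ)
    (hβ : HeckeBetaBarIntegral (AlgebraicClosure ℚ) N ℓ)
    [HasPrincipalDivisors (AlgebraicClosure ℚ)
      (laurentBaseChange (AlgebraicClosure ℚ) (modularFunctionFieldFull (N * ℓ)))]
    (τ : Plan.kA A ≃+* Plan.kA A) (hτ : ∀ x, τ x = x ^ ℓ)
    (D : Divisor (AlgebraicClosure ℚ) (modularFunctionFieldBar N)) :
    Finsupp.mapDomain (placeReductionModL h) (heckeDivBar hα hβ D) =
      Defs.coeffAut (Plan.kA A) N τ • Finsupp.mapDomain (placeReductionModL h) D +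
        ℓ • ((Defs.coeffAut (Plan.kA A) N τ)⁻¹ • Finsupp.mapDomain (placeReductionModL h) D) := by
  induction D using Finsupp.induction_linear with
  | zero => simp
  | add D E hD hE =>
    rw [map_add, Finsupp.mapDomain_add, hD, hE, Finsupp.mapDomain_add, smul_add, smul_add,
      smul_add]
    abel
  | single P n =>
    have hL : heckeDivBar hα hβ (Finsupp.single P n) =
        n • heckeDivBar hα hβ (Finsupp.single P 1) := by
      rw [← map_zsmul, Finsupp.smul_single, smul_eq_mul, mul_one]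
    rw [hL, Finsupp.mapDomain_smul, hV A hA h hα hβ τ hτ P, Finsupp.mapDomain_single,
      SemilinearAut.smul_single, SemilinearAut.smul_single]
    exact single_combo _ _ n ℓ

end Red

section Main

set_option maxHeartbeats 3200000
set_option synthInstance.maxHeartbeats 800000

attribute [local instance] ModularCurve.heckeModuleBar

/-- Eichler--Shimura on `J`: `red ∘ T_ℓ = (Frob + ℓ Frob⁻¹) ∘ red`. -/
theorem red_hecke (N ℓ : ℕ) [NeZero N] [NeZero ℓ] (hIV : Plan.HeckeInputs N ℓ)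
    (hV : Plan.ESPlaces N ℓ) (A : ValuationSubring (AlgebraicClosure ℚ))
    (hA : A.LiesOverPrime ℓ) (h : ReductionInputsModL A N)
    (τ : Plan.kA A ≃+* Plan.kA A) (hτ : ∀ x, τ x = x ^ ℓ) (x : JZero N) :
    reductionModL A N (heckeOperatorAlong (AlgebraicClosure ℚ) N ℓ x) =
      Defs.coeffAut (Plan.kA A) N τ • reductionModL A N x +
        ℓ • ((Defs.coeffAut (Plan.kA A) N τ)⁻¹ • reductionModL A N x) := by
  obtain ⟨hα, hβ, hP, hfin, hFI, hN⟩ := hIV
  have := hP
  rw [heckeOperatorAlong_eq hα hβ hFI hfin hN]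
  obtain ⟨D, rfl⟩ := Pic0.mk_surjective x
  show reductionModL A N (Pic0.mk (Pic0.degZeroCorrespondence (heckeBetaBar _ N ℓ)
    (heckeAlphaBar _ N ℓ) hβ hα hFI D)) = _
  rw [reductionModL_mk h, reductionModL_mk h, SemilinearAut.pic0_smul_mk,
    SemilinearAut.pic0_smul_mk]
  have hmk : ∀ (n : ℕ) (E : Divisor.degZero (K := Plan.kA A)
      (F := modularFunctionFieldFullC (Plan.kA A) N)), n • Pic0.mk E = Pic0.mk (n • E) :=
    fun n E => (QuotientAddGroup.mk_nsmul _ E n).symm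
  rw [hmk, ← Pic0.mk_add]
  refine congrArg Pic0.mk (Subtype.ext ?_)
  exact mapDomain_heckeDivBar N ℓ hV A hA h hα hβ τ hτ
    (D : Divisor (AlgebraicClosure ℚ) (modularFunctionFieldBar N))

/-- **S37 from the plan.** -/
theorem result_of_plan (N p : ℕ) [NeZero N] (hcomm : HeckeOperatorsCommuteBar N)
    (hI : ∀ ℓ : ℕ, ℓ.Prime → ¬ ℓ ∣ N → Plan.RedInputs N ℓ)
    (hII : ∀ ℓ : ℕ, ℓ.Prime → ¬ ℓ ∣ N → Plan.TorsionInj N ℓ)
    (hIII : ∀ ℓ : ℕ, ℓ.Prime → ¬ ℓ ∣ N → Plan.GalPlaces N ℓ)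
    (hIV : ∀ ℓ : Nat.Primes, ¬ (ℓ : ℕ) ∣ N →
      haveI : NeZero (ℓ : ℕ) := ⟨ℓ.2.ne_zero⟩; Plan.HeckeInputs N ℓ)
    (hV : ∀ ℓ : Nat.Primes, ¬ (ℓ : ℕ) ∣ N →
      haveI : NeZero (ℓ : ℕ) := ⟨ℓ.2.ne_zero⟩; Plan.ESPlaces N ℓ) :
    ∀ (_ : SMulCommClass (AlgebraicClosure ℚ ≃ₐ[ℚ] AlgebraicClosure ℚ) HeckeAlg (JZero N)),
      SpecializationExists (K := ℚ) (L := AlgebraicClosure ℚ) N p (JZero N) := by
  intro hsmul
  refine Reduce.specializationExists_of_red N p (JZero N) ?_
  intro ℓ hℓ hℓNp A hA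
  have hℓN : ¬ ℓ ∣ N := fun hd => hℓNp (hd.mul_right p)
  obtain ⟨φ, hφ⟩ := Lib.FrobExists.exists_isFrobeniusAt A ℓ hℓ hA
  have h : ReductionInputsModL A N := hI ℓ hℓ hℓN A hA
  have : NeZero ℓ := ⟨hℓ.ne_zero⟩
  refine ⟨φ, hφ, JZeroC (Plan.kA A) N, inferInstance, reductionModL A N, ?_, ?_, ?_⟩
  · rintro σ ⟨s, hs, rfl⟩ x
    have hg := red_galois N ℓ (hIII ℓ hℓ hℓN) A hA h s x
    have h1 : MulSemiringAction.toRingAut (A.decompositionSubgroup ℚ) (Plan.kA A) s = 1 := hs
    rw [h1, map_one, one_smul] at hg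
    exact hg
  · intro x
    have hT : heckeGen ⟨ℓ, hℓ⟩ • (φ • x) =
        heckeOperatorAlong (AlgebraicClosure ℚ) N ℓ (φ • x) :=
      heckeModuleBar_heckeGen_smul hcomm ⟨ℓ, hℓ⟩ (φ • x)
    have hτ : ∀ y : Plan.kA A,
        MulSemiringAction.toRingAut (A.decompositionSubgroup ℚ) (Plan.kA A)
          ⟨φ, hφ.mem_decompositionSubgroup⟩ y = y ^ ℓ := fun y => hφ.smul_residue_eq y
    have hg : ∀ y : JZero N, reductionModL A N (φ • y) =
        Defs.coeffAut (Plan.kA A) N
          (MulSemiringAction.toRingAut (A.decompositionSubgroup ℚ) (Plan.kA A)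
            ⟨φ, hφ.mem_decompositionSubgroup⟩) • reductionModL A N y := fun y =>
      red_galois N ℓ (hIII ℓ hℓ hℓN) A hA h ⟨φ, hφ.mem_decompositionSubgroup⟩ y
    rw [hT, map_add, map_sub, hg, hg,
      red_hecke N ℓ (hIV ⟨ℓ, hℓ⟩ hℓN) (hV ⟨ℓ, hℓ⟩ hℓN) A hA h _ hτ, hg, map_nsmul,
      inv_smul_smul]
    abel
  · rintro x ⟨n, hn⟩ hx
    exact hII ℓ hℓ hℓN A hA h (p ^ n)
      (fun hd => hℓNp ((hℓ.dvd_of_dvd_pow hd).mul_left N)) x hn hx

end Main

end Fermat.Agent.S37.Assembly
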