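import Mathlib
import Fermat.Agent.S37.PoleClear
import Fermat.Agent.S37.IntDescent
import Fermat.Agent.S37.ChartRedOf

/-!
# S37 [CHART]: `ChartStrFin`, `ChartStrInf`, `ChartRed` (owner: helper23)

Second method for the chart structure statements of `S37/Plan2b.lean`:

* clear the poles of the chart element `y` at level `N` by `s = ∏ (1 - b_v j)^{m_v}`, `b_v ∈ 𝔪_A`
  (resp. `s = ∏ (1 - a_v j⁻¹)^{m_v}`, `a_v ∈ A`): `s y` is integral over `Q̄[j]`
  (resp. `Q̄[j⁻¹]`) — `S37/PoleClear.lean`;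
* no-defect integrality descent: `s y ∈ F_N ∩ Ocal` integral over `Q̄[j]` is integral over `A[j]`
  — `S37/IntDescent.lean`;
* `ChartRed` from `ChartStr` — `S37/ChartRedOf.lean`.
-/

set_option autoImplicit false

noncomputable section

namespace Fermat.Agent.S37.ChartStr2

open ModularCurve AlgebraicCurve Fermat.Agent.S24 Fermat.Agent.S18.Content Fermat.Agent.S18.Plan
open Fermat.Agent.S37.Plan2

set_option synthInstance.maxHeartbeats 400000
set_option maxHeartbeats 1600000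

variable (N : ℕ) [NeZero N] (ℓ : ℕ) [Fact ℓ.Prime] (hℓ : ¬ ℓ ∣ N)
  (A : ValuationSubring Kbar) (hA : A.LiesOverPrime ℓ)

include hℓ hA

/-- **[CHART], finite chart**: `Plan2.ChartStrFin A N`. -/
theorem chartStrFin : ChartStrFin A N := by
  intro y hy
  obtain ⟨s, hsAJ, ⟨hs, hred⟩, hint⟩ := PoleClear.exists_clear_fin A N y hy.2
  refine ⟨(s : Om), hsAJ, ⟨hs, 1, one_ne_zero, by rw [hred, map_one]⟩, ?_⟩
  exact IntDescent.isIntegral_AJ A N ℓ hℓ hA (s * y).2 ((Ocal A).mul_mem hs hy.1) hint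

/-- **[CHART], chart at infinity**: `Plan2.ChartStrInf A N`. -/
theorem chartStrInf : ChartStrInf A N := by
  intro y hy
  obtain ⟨s, hsAJ, ⟨hs, hred⟩, hint⟩ := PoleClear.exists_clear_inf A N y hy.2
  refine ⟨(s : Om), hsAJ, ⟨hs, by rw [hred]; exact one_ne_zero⟩, ?_⟩
  exact IntDescent.isIntegral_AJinv A N ℓ hℓ hA (s * y).2 ((Ocal A).mul_mem hs hy.1) hint

/-- **[CHART] (C2)**: `Plan2.ChartRed A N`. -/
theorem chartRed : ChartRed A N :=
  ChartRedOf.chartRed_of_str A N ℓ hℓ hA (chartStrFin N ℓ hℓ A hA) (chartStrInf N ℓ hℓ A hA)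

end Fermat.Agent.S37.ChartStr2

end
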