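import Mathlib
import Fermat.Agent.S37.FibreSum.Generic
import Fermat.Agent.S37.FibreSum.NormRed
import Fermat.Agent.S37.EvalBasic

/-!
# S37 [NORM]: `Plan2.FibreSum` (helper60)

For `y ∈ F_N ∩ Ocal` with `ȳ ≠ 0` and `c ∈ ℙ¹(k)`:
`Σ_{P ∈ fibK c} ord_P y = Σ_{Q ∈ fibk c} ord_Q ȳ`.

Proof: the norm to `Q̄(j)` reduces the statement to elements of `Q̄(j) ∩ Ocal` (fibrewise norm
formula on both sides, `FibreSum/Generic`; the norm commutes with reduction,
`FibreSum/NormRed`); an element of `Q̄(j)` is a constant times a product of factors `j - a`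
(`a ∈ A`) and `1 - a⁻¹ j` (`a ∉ A`) and their inverses, for which the statement is the count of
zeros and poles of `j - a` on both sides.
-/

set_option autoImplicit false

noncomputable section

namespace Fermat.Agent.S37.FibreSum

open ModularCurve AlgebraicCurve IntermediateField Polynomial
open Fermat.Agent.Lib Fermat.Agent.Lib.FFSep
open Fermat.Agent.S24 Fermat.Agent.S18 Fermat.Agent.S18.Content Fermat.Agent.S18.Plan
  Fermat.Agent.S37.Plan2

set_option synthInstance.maxHeartbeats 400000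
set_option maxHeartbeats 1600000

/-! ### Nonunits and orders -/

section PlaceGeneric

variable {K F : Type*} [Field K] [Field F] [Algebra K F]

theorem mem_nonunits_iff_ord_pos (v : Place K F) {f : F} (hf : f ≠ 0) :
    f ∈ v.toValuationSubring.nonunits ↔ 0 < v.ord f := by
  rw [FFPlaces.ord_pos_iff v hf]
  constructor
  · intro h
    refine ⟨ValuationSubring.nonunits_subset h, ?_⟩
    have := EvalBasic.notMem_of_inv_mem_nonunits v.toValuationSubring (inv_ne_zero hf)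
      (by rwa [inv_inv])
    exact this
  · rintro ⟨-, h2⟩
    have := EvalBasic.inv_mem_nonunits_of_notMem v.toValuationSubring h2
    rwa [inv_inv] at this

end PlaceGeneric

/-! ### Specialisation of the points of the `j`-line -/

variable (A : ValuationSubring Kbar) (N : ℕ) [NeZero N]

/-- Shortcut: the default search for this instance takes several seconds. -/
local instance (priority := 100000) instAlgKkFk : Algebra (kk A) ↥(Fk A N) :=
  SubalgebraClass.toAlgebra (Fk A N)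

open Classical in
/-- Specialisation `ℙ¹(Q̄) → ℙ¹(k)`. -/
def sp : Option Kbar → Option (kk A)
  | none => none
  | some a => if h : a ∈ A then some (IsLocalRing.residue A ⟨a, h⟩) else none

@[simp] theorem sp_none : sp A none = none := rfl

theorem sp_coe (a : A) : sp A (some (a : Kbar)) = some (IsLocalRing.residue A a) := by
  simp [sp]

theorem sp_of_mem {a : Kbar} (h : a ∈ A) :
    sp A (some a) = some (IsLocalRing.residue A ⟨a, h⟩) := by
  simp [sp, h]

theorem sp_of_notMem {a : Kbar} (h : a ∉ A) : sp A (some a) = none := by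
  simp [sp, h]

/-- The points of `ℙ¹(Q̄)` specialising to `c`. -/
def TK (c : Option (kk A)) : Set (Option Kbar) := {t | sp A t = c}

theorem mem_TK {c : Option (kk A)} {t : Option Kbar} : t ∈ TK A c ↔ sp A t = c := Iff.rfl

/-! ### The fibres of `Plan2` as unions of fibres of the `j`-line -/

theorem fibK_eq (c : Option (kk A)) : fibK A N c = fibU Kbar (jBar N) (TK A c) := by
  have hxt := FibreCount.transcendental_jBar N
  have := FibreCount.finiteDimensional N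
  ext P
  rw [mem_fibU]
  cases c with
  | some c =>
    show (∃ a : A, IsLocalRing.residue A a = c ∧
      jBar N - algebraMap Kbar (FN N) (a : Kbar) ∈ P.toValuationSubring.nonunits) ↔ _
    constructor
    · rintro ⟨a, hac, hP⟩
      refine ⟨some (a : Kbar), ?_, ?_⟩
      · rw [mem_TK, sp_coe, hac]
      · exact (mem_nonunits_iff_ord_pos P (FFPlaces.sub_algebraMap_ne_zero hxt _)).mp hP
    · rintro ⟨t, ht, hP⟩
      rw [mem_TK] at ht
      cases t with
      | none => simp at ht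
      | some a =>
        by_cases ha : a ∈ A
        · rw [sp_of_mem A ha] at ht
          refine ⟨⟨a, ha⟩, Option.some.inj ht, ?_⟩
          exact (mem_nonunits_iff_ord_pos P (FFPlaces.sub_algebraMap_ne_zero hxt _)).mpr hP
        · rw [sp_of_notMem A ha] at ht
          simp at ht
  | none =>
    show (¬ FinPl A N P) ↔ _
    constructor
    · intro hP
      obtain ⟨t, ht⟩ := fibre_cover hxt P
      refine ⟨t, ?_, ht⟩
      rw [mem_TK]
      cases t with
      | none => rfl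
      | some a =>
        by_cases ha : a ∈ A
        · exfalso
          exact hP ⟨⟨a, ha⟩,
            (mem_nonunits_iff_ord_pos P (FFPlaces.sub_algebraMap_ne_zero hxt _)).mpr ht⟩
        · exact sp_of_notMem A ha
    · rintro ⟨t, ht, hP⟩ ⟨a, ha⟩
      rw [mem_TK] at ht
      have hP' : P ∈ fibre Kbar (jBar N) (some (a : Kbar)) :=
        (mem_nonunits_iff_ord_pos P (FFPlaces.sub_algebraMap_ne_zero hxt _)).mp ha
      have hta : t = some (a : Kbar) := by
        by_contra hne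
        exact Set.disjoint_left.mp (fibre_disjoint (K := Kbar) (x := jBar N) hne) hP hP'
      rw [hta, sp_coe] at ht
      simp at ht

theorem fibk_eq (hxtk : Transcendental (kk A) (jkEl A N)) (c : Option (kk A)) :
    fibk A N c = fibU (kk A) (jkEl A N) {c} := by
  ext Q
  rw [fibU, Set.biUnion_singleton]
  cases c with
  | some c =>
    show (jkEl A N - algebraMap (kk A) (Fk A N) c ∈ Q.toValuationSubring.nonunits) ↔
      0 < Q.ord (jkEl A N - algebraMap (kk A) (Fk A N) c)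
    exact mem_nonunits_iff_ord_pos Q (FFPlaces.sub_algebraMap_ne_zero hxtk _)
  | none =>
    show (¬ jkEl A N ∈ Q.toValuationSubring) ↔ Q.ord (jkEl A N) < 0
    have h0 : jkEl A N ≠ 0 := by
      have := FFPlaces.sub_algebraMap_ne_zero hxtk 0
      rwa [map_zero, sub_zero] at this
    exact (FFPlaces.ord_neg_iff Q h0).symm

/-! ### Good elements -/

/-- `f ∈ F_N` is a `v`-unit whose fibre sums agree on both sides. -/
def Good (f : FN N) : Prop :=
  ∃ (hf : (f : Om) ∈ Ocal A) (hk : red A ⟨(f : Om), hf⟩ ∈ Fk A N),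
    red A ⟨(f : Om), hf⟩ ≠ 0 ∧
    ∀ c : Option (kk A),
      ∑ᶠ P ∈ fibU Kbar (jBar N) (TK A c), P.ord f =
        ∑ᶠ Q ∈ fibU (kk A) (jkEl A N) {c}, Q.ord (⟨_, hk⟩ : Fk A N)

section GoodLemmas

variable [FiniteDimensional Kbar⟮jBar N⟯ (FN N)] [IsAlgClosed (kk A)]
  [FiniteDimensional (kk A)⟮jkEl A N⟯ (Fk A N)] [Algebra.IsSeparable (kk A)⟮jkEl A N⟯ (Fk A N)]
  (hxt : Transcendental Kbar (jBar N)) (hxtk : Transcendental (kk A) (jkEl A N))
  (hdeg : Module.finrank Kbar⟮jBar N⟯ (FN N) = Module.finrank (kk A)⟮jkEl A N⟯ (Fk A N))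

omit [NeZero N] [FiniteDimensional Kbar⟮jBar N⟯ (FN N)] [IsAlgClosed (kk A)]
  [FiniteDimensional (kk A)⟮jkEl A N⟯ (Fk A N)]
  [Algebra.IsSeparable (kk A)⟮jkEl A N⟯ (Fk A N)] in
theorem ne_zero_of_red {f : FN N} (hf : (f : Om) ∈ Ocal A) (h : red A ⟨(f : Om), hf⟩ ≠ 0) :
    f ≠ 0 := by
  rintro rfl
  exact ne_zero_of_red_ne_zero A ⟨_, hf⟩ h rfl

include hxt hxtk in
omit [IsAlgClosed (kk A)] in
theorem good_mul {f g : FN N} (hf : Good A N f) (hg : Good A N g) : Good A N (f * g) := by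
  obtain ⟨hfO, hfk, hfne, hfs⟩ := hf
  obtain ⟨hgO, hgk, hgne, hgs⟩ := hg
  have hO : ((f * g : FN N) : Om) ∈ Ocal A := Subring.mul_mem _ hfO hgO
  have hred : red A ⟨((f * g : FN N) : Om), hO⟩ =
      red A ⟨(f : Om), hfO⟩ * red A ⟨(g : Om), hgO⟩ := by
    rw [← map_mul]; rfl
  have hk : red A ⟨((f * g : FN N) : Om), hO⟩ ∈ Fk A N := by
    rw [hred]; exact mul_mem hfk hgk
  refine ⟨hO, hk, ?_, fun c => ?_⟩
  · rw [hred]; exact mul_ne_zero hfne hgne
  · have hf0 := ne_zero_of_red A N hfO hfne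
    have hg0 := ne_zero_of_red A N hgO hgne
    have hfk0 : (⟨_, hfk⟩ : Fk A N) ≠ 0 := fun h0 => hfne (congrArg Subtype.val h0)
    have hgk0 : (⟨_, hgk⟩ : Fk A N) ≠ 0 := fun h0 => hgne (congrArg Subtype.val h0)
    have e : (⟨red A ⟨((f * g : FN N) : Om), hO⟩, hk⟩ : Fk A N) = ⟨_, hfk⟩ * ⟨_, hgk⟩ :=
      Subtype.ext hred
    rw [e, sum_ord_mul_fibU hxt _ hf0 hg0, sum_ord_mul_fibU hxtk _ hfk0 hgk0, hfs c, hgs c]

omit [FiniteDimensional Kbar⟮jBar N⟯ (FN N)] [IsAlgClosed (kk A)]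
  [FiniteDimensional (kk A)⟮jkEl A N⟯ (Fk A N)]
  [Algebra.IsSeparable (kk A)⟮jkEl A N⟯ (Fk A N)] in
theorem good_inv {f : FN N} (hf : Good A N f) : Good A N f⁻¹ := by
  obtain ⟨hfO, hfk, hfne, hfs⟩ := hf
  have hO : ((f⁻¹ : FN N) : Om) ∈ Ocal A := inv_mem_Ocal A ⟨_, hfO⟩ hfne
  have hred : red A ⟨((f⁻¹ : FN N) : Om), hO⟩ = (red A ⟨(f : Om), hfO⟩)⁻¹ :=
    (red_congr A rfl _ _).trans (red_inv A ⟨_, hfO⟩ hfne)
  have hk : red A ⟨((f⁻¹ : FN N) : Om), hO⟩ ∈ Fk A N := by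
    rw [hred]; exact inv_mem hfk
  refine ⟨hO, hk, ?_, fun c => ?_⟩
  · rw [hred]; exact inv_ne_zero hfne
  · have e : (⟨red A ⟨((f⁻¹ : FN N) : Om), hO⟩, hk⟩ : Fk A N) = (⟨_, hfk⟩ : Fk A N)⁻¹ :=
      Subtype.ext hred
    rw [e, sum_ord_inv_fibU, sum_ord_inv_fibU, hfs c]

omit [FiniteDimensional Kbar⟮jBar N⟯ (FN N)] [IsAlgClosed (kk A)]
  [FiniteDimensional (kk A)⟮jkEl A N⟯ (Fk A N)]
  [Algebra.IsSeparable (kk A)⟮jkEl A N⟯ (Fk A N)] in
/-- Units of `A` are good. -/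
theorem good_const {c : Kbar} (hc : c ∈ A) (hc' : c⁻¹ ∈ A) (hc0 : c ≠ 0) :
    Good A N (algebraMap Kbar (FN N) c) := by
  have hcoe : ((algebraMap Kbar (FN N) c : FN N) : Om) = HahnSeries.C c :=
    EvalBasic.coe_algebraMap_FN N c
  have hO : ((algebraMap Kbar (FN N) c : FN N) : Om) ∈ Ocal A := by
    rw [hcoe]; exact C_mem_Ocal A hc
  have hred : red A ⟨((algebraMap Kbar (FN N) c : FN N) : Om), hO⟩ =
      HahnSeries.C (IsLocalRing.residue A ⟨c, hc⟩) :=
    (red_congr A hcoe hO (C_mem_Ocal A hc)).trans (red_C A hc)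
  have hkcoe : ((algebraMap (kk A) (Fk A N) (IsLocalRing.residue A ⟨c, hc⟩) : Fk A N) : Omk A) =
      HahnSeries.C (IsLocalRing.residue A ⟨c, hc⟩) := EvalBasic.coe_algebraMap_Fk A N _
  have hk : red A ⟨((algebraMap Kbar (FN N) c : FN N) : Om), hO⟩ ∈ Fk A N := by
    rw [hred, ← hkcoe]; exact Subtype.mem _
  have hunit : IsUnit (⟨c, hc⟩ : A) :=
    IsUnit.of_mul_eq_one (b := ⟨c⁻¹, hc'⟩) (Subtype.ext (mul_inv_cancel₀ hc0))
  have hres : IsLocalRing.residue A ⟨c, hc⟩ ≠ 0 := by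
    intro h0
    exact (IsLocalRing.residue_eq_zero_iff _).mp h0 hunit
  refine ⟨hO, hk, ?_, fun c' => ?_⟩
  · rw [hred]
    intro h0
    apply hres
    have := congrArg (fun s : Omk A => s.coeff 0) h0
    simpa using this
  · have e : (⟨red A ⟨((algebraMap Kbar (FN N) c : FN N) : Om), hO⟩, hk⟩ : Fk A N) =
        algebraMap (kk A) (Fk A N) (IsLocalRing.residue A ⟨c, hc⟩) :=
      Subtype.ext (hred.trans hkcoe.symm)
    rw [e, sum_ord_algebraMap_fibU, sum_ord_algebraMap_fibU]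

include hxt hxtk hdeg in
/-- `j - a` is good for `a ∈ A`. -/
theorem good_sub (a : A) : Good A N (jBar N - algebraMap Kbar (FN N) (a : Kbar)) := by
  classical
  have hcoe : ((jBar N - algebraMap Kbar (FN N) (a : Kbar) : FN N) : Om) =
      ((jBar N : FN N) : Om) - HahnSeries.C (a : Kbar) := by
    rw [← EvalBasic.coe_algebraMap_FN N (a : Kbar)]; rfl
  have hO' : ((jBar N : FN N) : Om) - HahnSeries.C (a : Kbar) ∈ Ocal A :=
    Subring.sub_mem _ (EvalBasic.jBar_mem_Ocal A N) (C_mem_Ocal A a.2)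
  have hO : ((jBar N - algebraMap Kbar (FN N) (a : Kbar) : FN N) : Om) ∈ Ocal A := by
    rw [hcoe]; exact hO'
  have hred : red A ⟨_, hO⟩ = jqModC (kk A) - HahnSeries.C (IsLocalRing.residue A a) := by
    rw [red_congr A hcoe hO hO']
    have : (⟨((jBar N : FN N) : Om) - HahnSeries.C (a : Kbar), hO'⟩ : Ocal A) =
        ⟨((jBar N : FN N) : Om), EvalBasic.jBar_mem_Ocal A N⟩ -
          ⟨HahnSeries.C (a : Kbar), C_mem_Ocal A a.2⟩ := rfl
    rw [this, map_sub, EvalBasic.red_jBar, red_C]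
  have hkcoe : ((jkEl A N - algebraMap (kk A) (Fk A N) (IsLocalRing.residue A a) : Fk A N) :
      Omk A) = jqModC (kk A) - HahnSeries.C (IsLocalRing.residue A a) := by
    rw [← EvalBasic.coe_algebraMap_Fk A N (IsLocalRing.residue A a)]; rfl
  have hk : red A ⟨_, hO⟩ ∈ Fk A N := by
    rw [hred, ← hkcoe]; exact Subtype.mem _
  have hne : jkEl A N - algebraMap (kk A) (Fk A N) (IsLocalRing.residue A a) ≠ 0 :=
    FFPlaces.sub_algebraMap_ne_zero hxtk _
  refine ⟨hO, hk, ?_, fun c => ?_⟩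
  · rw [hred, ← hkcoe]
    exact fun h0 => hne (Subtype.ext h0)
  · have e : (⟨red A ⟨_, hO⟩, hk⟩ : Fk A N) =
        jkEl A N - algebraMap (kk A) (Fk A N) (IsLocalRing.residue A a) :=
      Subtype.ext (hred.trans hkcoe.symm)
    rw [e, sum_ord_sub_fibU hxt, sum_ord_sub_fibU hxtk, hdeg]
    have h1 : (some (a : Kbar) ∈ TK A c) ↔ (some (IsLocalRing.residue A a) ∈ ({c} : Set _)) := by
      rw [mem_TK, sp_coe, Set.mem_singleton_iff]
    have h2 : (none ∈ TK A c) ↔ (none ∈ ({c} : Set (Option (kk A)))) := by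
      rw [mem_TK, sp_none, Set.mem_singleton_iff]
    simp only [h1, h2]

include hxt in
omit [IsAlgClosed (kk A)] [FiniteDimensional (kk A)⟮jkEl A N⟯ (Fk A N)]
  [Algebra.IsSeparable (kk A)⟮jkEl A N⟯ (Fk A N)] in
/-- `1 - a⁻¹ j` is good for `a ∉ A`. -/
theorem good_out {a : Kbar} (ha : a ∉ A) :
    Good A N (algebraMap Kbar (FN N) (-a⁻¹) * (jBar N - algebraMap Kbar (FN N) a)) := by
  classical
  have ha0 : a ≠ 0 := by
    rintro rfl
    exact ha (zero_mem _)
  have hai : a⁻¹ ∈ A := (A.mem_or_inv_mem a).resolve_left ha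
  have hcoe : ((algebraMap Kbar (FN N) (-a⁻¹) * (jBar N - algebraMap Kbar (FN N) a) : FN N) :
      Om) = 1 - HahnSeries.C a⁻¹ * ((jBar N : FN N) : Om) := by
    have h1 : ((algebraMap Kbar (FN N) (-a⁻¹) * (jBar N - algebraMap Kbar (FN N) a) : FN N) :
        Om) = ((algebraMap Kbar (FN N) (-a⁻¹) : FN N) : Om) *
          (((jBar N : FN N) : Om) - ((algebraMap Kbar (FN N) a : FN N) : Om)) := rfl
    rw [h1, EvalBasic.coe_algebraMap_FN, EvalBasic.coe_algebraMap_FN, map_neg]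
    have h2 : (HahnSeries.C a⁻¹ : Om) * HahnSeries.C a = 1 := by
      rw [← map_mul, inv_mul_cancel₀ ha0, map_one]
    linear_combination h2
  have hO' : 1 - HahnSeries.C a⁻¹ * ((jBar N : FN N) : Om) ∈ Ocal A :=
    Subring.sub_mem _ (Subring.one_mem _)
      (Subring.mul_mem _ (C_mem_Ocal A hai) (EvalBasic.jBar_mem_Ocal A N))
  have hO : ((algebraMap Kbar (FN N) (-a⁻¹) * (jBar N - algebraMap Kbar (FN N) a) : FN N) :
      Om) ∈ Ocal A := by
    rw [hcoe]; exact hO'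
  have hres : IsLocalRing.residue A ⟨a⁻¹, hai⟩ = 0 := by
    rw [IsLocalRing.residue_eq_zero_iff]
    intro hu
    obtain ⟨w, hw⟩ := isUnit_iff_exists_inv.mp hu
    have hw' : a⁻¹ * (w : Kbar) = 1 := congrArg Subtype.val hw
    have : (w : Kbar) = a := by
      field_simp at hw'
      exact hw'.symm ▸ rfl
    exact ha (this ▸ w.2)
  have hred : red A ⟨_, hO⟩ = 1 := by
    rw [red_congr A hcoe hO hO']
    have : (⟨1 - HahnSeries.C a⁻¹ * ((jBar N : FN N) : Om), hO'⟩ : Ocal A) =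
        1 - ⟨HahnSeries.C a⁻¹, C_mem_Ocal A hai⟩ *
          ⟨((jBar N : FN N) : Om), EvalBasic.jBar_mem_Ocal A N⟩ := rfl
    rw [this, map_sub, map_one, map_mul, red_C A hai, hres, map_zero, zero_mul, sub_zero]
  have hk : red A ⟨_, hO⟩ ∈ Fk A N := by
    rw [hred]; exact one_mem _
  refine ⟨hO, hk, ?_, fun c => ?_⟩
  · rw [hred]; exact one_ne_zero
  · have e : (⟨red A ⟨_, hO⟩, hk⟩ : Fk A N) = 1 := Subtype.ext hred
    have hc0 : algebraMap Kbar (FN N) (-a⁻¹) ≠ 0 := by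
      rw [Ne, map_eq_zero, neg_eq_zero, inv_eq_zero]
      exact ha0
    rw [e, sum_ord_mul_fibU hxt _ hc0 (FFPlaces.sub_algebraMap_ne_zero hxt _),
      sum_ord_algebraMap_fibU, sum_ord_sub_fibU hxt, zero_add]
    have h1 : (some a ∈ TK A c) ↔ (none ∈ TK A c) := by
      rw [mem_TK, mem_TK, sp_of_notMem A ha, sp_none]
    have h3 : ∀ Q : Place (kk A) (Fk A N), Q.ord (1 : Fk A N) = 0 := fun Q => by
      have := FFPlaces.ord_algebraMap Q (1 : kk A)
      rwa [map_one] at this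
    rw [finsum_mem_congr rfl (fun Q _ => h3 Q)]
    simp only [h1]
    split_ifs <;> simp

/-! ### Factorisation of the elements of `Q̄(j)` -/

include hxt hxtk hdeg in
theorem exists_good_prod (m : Multiset Kbar) :
    ∃ c : Kbar, c ≠ 0 ∧ ∃ f : FN N, Good A N f ∧
      (m.map fun a => jBar N - algebraMap Kbar (FN N) a).prod = algebraMap Kbar (FN N) c * f := by
  induction m using Multiset.induction_on with
  | empty =>
    refine ⟨1, one_ne_zero, 1, ?_, by simp⟩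
    have := good_const A N (c := 1) (one_mem _) (by rw [inv_one]; exact one_mem _) one_ne_zero
    rwa [map_one] at this
  | cons a m ih =>
    obtain ⟨c, hc, f, hf, hm⟩ := ih
    rw [Multiset.map_cons, Multiset.prod_cons, hm]
    by_cases ha : a ∈ A
    · refine ⟨c, hc, (jBar N - algebraMap Kbar (FN N) a) * f,
        good_mul A N hxt hxtk (good_sub A N hxt hxtk hdeg ⟨a, ha⟩) hf, by ring⟩
    · have ha0 : a ≠ 0 := by
        rintro rfl
        exact ha (zero_mem _)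
      refine ⟨-a * c, mul_ne_zero (neg_ne_zero.mpr ha0) hc,
        (algebraMap Kbar (FN N) (-a⁻¹) * (jBar N - algebraMap Kbar (FN N) a)) * f,
        good_mul A N hxt hxtk (good_out A N hxt ha) hf, ?_⟩
      have h1 : algebraMap Kbar (FN N) (-a) * algebraMap Kbar (FN N) (-a⁻¹) = 1 := by
        rw [← map_mul, neg_mul_neg, mul_inv_cancel₀ ha0, map_one]
      rw [map_mul]
      linear_combination (-(jBar N - algebraMap Kbar (FN N) a) * algebraMap Kbar (FN N) c * f) * h1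

include hxt hxtk hdeg in
theorem exists_good_aeval (P : Kbar[X]) (hP : P ≠ 0) :
    ∃ c : Kbar, c ≠ 0 ∧ ∃ f : FN N, Good A N f ∧
      Polynomial.aeval (jBar N) P = algebraMap Kbar (FN N) c * f := by
  have hsplit := (IsAlgClosed.splits P).eq_prod_roots
  have hlc : P.leadingCoeff ≠ 0 := Polynomial.leadingCoeff_ne_zero.mpr hP
  have hev : Polynomial.aeval (jBar N) P = algebraMap Kbar (FN N) P.leadingCoeff *
      (P.roots.map fun a => jBar N - algebraMap Kbar (FN N) a).prod := by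
    conv_lhs => rw [hsplit]
    rw [map_mul, Polynomial.aeval_C, map_multiset_prod, Multiset.map_map]
    congr 2
    refine Multiset.map_congr rfl fun a _ => ?_
    simp
  obtain ⟨c, hc, f, hf, hm⟩ := exists_good_prod A N hxt hxtk hdeg P.roots
  refine ⟨P.leadingCoeff * c, mul_ne_zero hlc hc, f, hf, ?_⟩
  rw [hev, hm, map_mul, mul_assoc]

include hxt hxtk hdeg in
theorem exists_good_factor (g : FN N) (hg : g ∈ Kbar⟮jBar N⟯) (hg0 : g ≠ 0) :
    ∃ c : Kbar, c ≠ 0 ∧ ∃ f : FN N, Good A N f ∧ g = algebraMap Kbar (FN N) c * f := by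
  obtain ⟨r, s, rfl⟩ := (IntermediateField.mem_adjoin_simple_iff Kbar g).mp hg
  have hr : r ≠ 0 := by
    rintro rfl
    simp at hg0
  have hs : s ≠ 0 := by
    rintro rfl
    simp at hg0
  obtain ⟨c₁, hc₁, f₁, hf₁, h₁⟩ := exists_good_aeval A N hxt hxtk hdeg r hr
  obtain ⟨c₂, hc₂, f₂, hf₂, h₂⟩ := exists_good_aeval A N hxt hxtk hdeg s hs
  refine ⟨c₁ / c₂, div_ne_zero hc₁ hc₂, f₁ * f₂⁻¹,
    good_mul A N hxt hxtk hf₁ (good_inv A N hf₂), ?_⟩
  rw [h₁, h₂, map_div₀]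
  have hc₂' : algebraMap Kbar (FN N) c₂ ≠ 0 := by rwa [Ne, map_eq_zero]
  have hf₂0 : f₂ ≠ 0 := by
    obtain ⟨hO, -, hne, -⟩ := hf₂
    exact ne_zero_of_red A N hO hne
  field_simp

end GoodLemmas

/-! ### The theorem -/

section Main

variable [FiniteDimensional Kbar⟮jBar N⟯ (FN N)] [IsAlgClosed (kk A)]
  [FiniteDimensional (kk A)⟮jkEl A N⟯ (Fk A N)] [Algebra.IsSeparable (kk A)⟮jkEl A N⟯ (Fk A N)]

/-- `Plan2.FibreSum` from the content valuation at levels `N` and `1` and the degree facts. -/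
theorem fibreSum_of_red (hR : RedStmt A N) (hR1 : RedStmt A 1)
    (hxt : Transcendental Kbar (jBar N)) (hxtk : Transcendental (kk A) (jkEl A N))
    (hdeg : Module.finrank Kbar⟮jBar N⟯ (FN N) = Module.finrank (kk A)⟮jkEl A N⟯ (Fk A N)) :
    Plan2.FibreSum A N := by
  intro y hy hk hne c
  have hy0 : y ≠ 0 := ne_zero_of_red A N hy hne
  have hyk0 : (⟨red A ⟨(y : Om), hy⟩, hk⟩ : Fk A N) ≠ 0 := fun h0 =>
    hne (congrArg Subtype.val h0)
  obtain ⟨hgO, hgred⟩ := norm_red A N hR hR1 hdeg.symm y hy hk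
  set g : FN N := algebraMap Kbar⟮jBar N⟯ (FN N) (Algebra.norm Kbar⟮jBar N⟯ y) with hgdef
  set gk : Fk A N := algebraMap (kk A)⟮jkEl A N⟯ (Fk A N)
    (Algebra.norm (kk A)⟮jkEl A N⟯ (⟨red A ⟨(y : Om), hy⟩, hk⟩ : Fk A N)) with hgkdef
  have hg0 : g ≠ 0 := by
    rw [hgdef, Ne, map_eq_zero, Algebra.norm_eq_zero_iff]
    exact hy0
  have hgk0 : gk ≠ 0 := by
    rw [hgkdef, Ne, map_eq_zero, Algebra.norm_eq_zero_iff]
    exact hyk0
  have hgredne : red A ⟨(g : Om), hgO⟩ ≠ 0 := by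
    rw [hgred]
    exact fun h0 => hgk0 (Subtype.ext h0)
  obtain ⟨c₀, hc₀, f, hf, hgf⟩ := exists_good_factor A N hxt hxtk hdeg g
    (Algebra.norm Kbar⟮jBar N⟯ y).2 hg0
  -- `c₀` is a unit of `A`
  have hfO := hf.choose
  have hfne : red A ⟨(f : Om), hfO⟩ ≠ 0 := hf.choose_spec.choose_spec.1
  have hf0 : (f : Om) ≠ 0 := ne_zero_of_red_ne_zero A ⟨_, hfO⟩ hfne
  have hgcoe : (g : Om) = HahnSeries.C c₀ * (f : Om) := by
    have h1 : (g : Om) = ((algebraMap Kbar (FN N) c₀ : FN N) : Om) * (f : Om) := by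
      rw [hgf]; rfl
    rw [h1, EvalBasic.coe_algebraMap_FN]
  have hg0' : (g : Om) ≠ 0 := ne_zero_of_red_ne_zero A ⟨_, hgO⟩ hgredne
  have hc₀A : c₀ ∈ A := by
    rw [← C_mem_Ocal_iff A c₀]
    have : (HahnSeries.C c₀ : Om) = (g : Om) * (f : Om)⁻¹ := by
      rw [hgcoe, mul_assoc, mul_inv_cancel₀ hf0, mul_one]
    rw [this]
    exact Subring.mul_mem _ hgO (inv_mem_Ocal A ⟨_, hfO⟩ hfne)
  have hc₀A' : c₀⁻¹ ∈ A := by
    rw [← C_mem_Ocal_iff A c₀⁻¹]
    have hC : (HahnSeries.C c₀ : Om) ≠ 0 := by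
      intro h0
      rw [hgcoe, h0, zero_mul] at hg0'
      exact hg0' rfl
    have : (HahnSeries.C c₀⁻¹ : Om) = (f : Om) * (g : Om)⁻¹ := by
      rw [hgcoe, mul_inv, mul_comm (HahnSeries.C c₀ : Om)⁻¹, ← mul_assoc, mul_inv_cancel₀ hf0,
        one_mul, map_inv₀]
    rw [this]
    exact Subring.mul_mem _ hfO (inv_mem_Ocal A ⟨_, hgO⟩ hgredne)
  have hgood : Good A N g := by
    rw [hgf]
    exact good_mul A N hxt hxtk (good_const A N hc₀A hc₀A' hc₀) hf
  obtain ⟨hgO', hgk', -, hgs⟩ := hgood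
  have e : (⟨red A ⟨(g : Om), hgO'⟩, hgk'⟩ : Fk A N) = gk := Subtype.ext hgred
  have h1 := sum_ord_norm_fibU hxt (TK A c) hy0
  have h2 := sum_ord_norm_fibU hxtk ({c} : Set (Option (kk A))) hyk0
  have h3 := hgs c
  rw [e] at h3
  rw [fibK_eq, fibk_eq A N hxtk]
  have hn : (Module.finrank Kbar⟮jBar N⟯ (FN N) : ℤ) ≠ 0 := by
    exact_mod_cast (Module.finrank_pos (R := Kbar⟮jBar N⟯) (M := FN N)).ne'
  have key : (Module.finrank Kbar⟮jBar N⟯ (FN N) : ℤ) *
      ∑ᶠ P ∈ fibU Kbar (jBar N) (TK A c), P.ord y =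
      (Module.finrank Kbar⟮jBar N⟯ (FN N) : ℤ) *
        ∑ᶠ Q ∈ fibU (kk A) (jkEl A N) {c}, Q.ord (⟨red A ⟨(y : Om), hy⟩, hk⟩ : Fk A N) := by
    rw [← h1, h3, h2, hdeg]
  exact mul_left_cancel₀ hn key

end Main

/-- **[NORM]** `Plan2.FibreSum A N` for `ℓ ∤ N`, `A` over `ℓ`. -/
theorem fibreSum (N : ℕ) [NeZero N] (ℓ : ℕ) [Fact ℓ.Prime] (hℓ : ¬ ℓ ∣ N)
    (A : ValuationSubring Kbar) (hA : A.LiesOverPrime ℓ) : Plan2.FibreSum A N := by
  have := FibreCount.finiteDimensional N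
  have := PlacesModL.isAlgClosed_kk A
  have : FiniteDimensional (kk A)⟮jkEl A N⟯ (Fk A N) :=
    PlacesModL.finiteDimensional_jb N ℓ hℓ A hA
  have : Algebra.IsSeparable (kk A)⟮jkEl A N⟯ (Fk A N) :=
    PlacesModL.isSeparable_jb N ℓ hℓ A hA
  have hℓ1 : ¬ ℓ ∣ 1 := (Fact.out : ℓ.Prime).not_dvd_one
  exact fibreSum_of_red A N (Red.redStmt N ℓ hℓ A hA) (Red.redStmt 1 ℓ hℓ1 A hA)
    (FibreCount.transcendental_jBar N) (PlacesModL.transcendental_jb A N)
    ((FibreCount.finrank_eq N).trans (PlacesModL.finrank_jb N ℓ hℓ A hA).symm)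

end Fermat.Agent.S37.FibreSum

end
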