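import Mathlib
import Fermat.Agent.S37.Plan2b
import Fermat.Agent.S37.EvalBasic
import Fermat.Agent.S18.Char0
import Fermat.Agent.S18.PlacesModLMain
import Fermat.Agent.Lib.NormTrick

/-!
# S37 — [LOC], basic objects (helper70); see `S37/Loc.lean`

`loc_of : FibreSum A N → Sep A N → ChartRed A N → Loc A N` (for `ℓ ∤ N`, `A` over `ℓ`).

The whole argument is the abstract `Lib.NormTrick.local_mapDomain_eq`, instantiated twice:

* finite chart: `TP = {P | FinPl P}`, coordinate `x = j`, `c ∈ k` arbitrary;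
* chart at infinity: `TP = {P | ¬ FinPl P}`, coordinate `x = 1/j`, `c = 0`.

`O = OSub A N` is the ring of the `y ∈ F_N ∩ Ocal` with reduction in `F_{N,k}` and
`ρ = rhoO A N : O →+* F_{N,k}` is the reduction map.
-/

set_option autoImplicit false

noncomputable section

namespace Fermat.Agent.S37.Loc

open ModularCurve AlgebraicCurve IntermediateField Fermat.Agent.S24 Fermat.Agent.S18.Content
  Fermat.Agent.S18.Plan Fermat.Agent.S37.Plan2 Fermat.Agent.S37.EvalBasic Fermat.Agent.Lib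

set_option synthInstance.maxHeartbeats 400000
set_option maxHeartbeats 400000

/-! ### Generic lemmas on `red` (stated so that no unification under `red A` is needed) -/

section Generic

variable {K : Type*} [Field K] (A : ValuationSubring K)

theorem red_mul' {a b : LaurentSeries K} (ha : a ∈ Ocal A) (hb : b ∈ Ocal A)
    (hab : a * b ∈ Ocal A) : red A ⟨a * b, hab⟩ = red A ⟨a, ha⟩ * red A ⟨b, hb⟩ := by
  have e : (⟨a * b, hab⟩ : Ocal A) = ⟨a, ha⟩ * ⟨b, hb⟩ := Subtype.ext rfl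
  rw [e, map_mul]

theorem red_add' {a b : LaurentSeries K} (ha : a ∈ Ocal A) (hb : b ∈ Ocal A)
    (hab : a + b ∈ Ocal A) : red A ⟨a + b, hab⟩ = red A ⟨a, ha⟩ + red A ⟨b, hb⟩ := by
  have e : (⟨a + b, hab⟩ : Ocal A) = ⟨a, ha⟩ + ⟨b, hb⟩ := Subtype.ext rfl
  rw [e, map_add]

theorem red_neg' {a : LaurentSeries K} (ha : a ∈ Ocal A)
    (hab : -a ∈ Ocal A) : red A ⟨-a, hab⟩ = -red A ⟨a, ha⟩ := by
  have e : (⟨-a, hab⟩ : Ocal A) = -⟨a, ha⟩ := Subtype.ext rfl
  rw [e, map_neg]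

theorem red_one' (h : (1 : LaurentSeries K) ∈ Ocal A) : red A ⟨1, h⟩ = 1 :=
  map_one (red A)

theorem red_zero' (h : (0 : LaurentSeries K) ∈ Ocal A) : red A ⟨0, h⟩ = 0 :=
  map_zero (red A)

end Generic

variable (A : ValuationSubring Kbar) (N : ℕ) [NeZero N]

/-! ### The ring `O` and its reduction map -/

omit [NeZero N] in
theorem coe_mul_Om (a b : FN N) : ((a * b : FN N) : Om) = (a : Om) * (b : Om) := rfl

omit [NeZero N] in
theorem coe_add_Om (a b : FN N) : ((a + b : FN N) : Om) = (a : Om) + (b : Om) := rfl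

omit [NeZero N] in
theorem coe_neg_Om (a : FN N) : ((-a : FN N) : Om) = -(a : Om) := rfl

omit [NeZero N] in
theorem coe_one_Om : ((1 : FN N) : Om) = 1 := rfl

omit [NeZero N] in
theorem coe_zero_Om : ((0 : FN N) : Om) = 0 := rfl

/-- `O = {y ∈ F_N : y ∈ Ocal, red y ∈ F_{N,k}}`. -/
def OSub : Subring (FN N) where
  carrier := {y | ∃ hy : (y : Om) ∈ Ocal A, red A ⟨(y : Om), hy⟩ ∈ Fk A N}
  mul_mem' := by
    rintro a b ⟨ha, hak⟩ ⟨hb, hbk⟩
    have hab : ((a * b : FN N) : Om) ∈ Ocal A := (Ocal A).mul_mem ha hb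
    refine ⟨hab, ?_⟩
    rw [(red_congr A (coe_mul_Om N a b) hab ((Ocal A).mul_mem ha hb)).trans (red_mul' A ha hb _)]
    exact mul_mem hak hbk
  one_mem' := by
    have h1 : ((1 : FN N) : Om) ∈ Ocal A := (Ocal A).one_mem
    refine ⟨h1, ?_⟩
    rw [(red_congr A (coe_one_Om N) h1 (Ocal A).one_mem).trans (red_one' A _)]
    exact one_mem _
  add_mem' := by
    rintro a b ⟨ha, hak⟩ ⟨hb, hbk⟩
    have hab : ((a + b : FN N) : Om) ∈ Ocal A := (Ocal A).add_mem ha hb
    refine ⟨hab, ?_⟩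
    rw [(red_congr A (coe_add_Om N a b) hab ((Ocal A).add_mem ha hb)).trans (red_add' A ha hb _)]
    exact add_mem hak hbk
  zero_mem' := by
    have h1 : ((0 : FN N) : Om) ∈ Ocal A := (Ocal A).zero_mem
    refine ⟨h1, ?_⟩
    rw [(red_congr A (coe_zero_Om N) h1 (Ocal A).zero_mem).trans (red_zero' A _)]
    exact zero_mem _
  neg_mem' := by
    rintro a ⟨ha, hak⟩
    have hna : ((-a : FN N) : Om) ∈ Ocal A := (Ocal A).neg_mem ha
    refine ⟨hna, ?_⟩
    rw [(red_congr A (coe_neg_Om N a) hna ((Ocal A).neg_mem ha)).trans (red_neg' A ha _)]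
    exact neg_mem hak

theorem OSub_mem_Ocal (y : OSub A N) : ((y : FN N) : Om) ∈ Ocal A := by
  obtain ⟨hy, -⟩ := y.2
  exact hy

theorem OSub_red_mem (y : OSub A N) :
    red A ⟨((y : FN N) : Om), OSub_mem_Ocal A N y⟩ ∈ Fk A N := by
  obtain ⟨hy, hk⟩ := y.2
  exact hk

/-- The underlying function of the reduction map `O → F_{N,k}`. -/
def rhoFun (y : OSub A N) : Fk A N :=
  ⟨red A ⟨((y : FN N) : Om), OSub_mem_Ocal A N y⟩, OSub_red_mem A N y⟩

theorem coe_rhoFun (y : OSub A N) :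
    ((rhoFun A N y : Fk A N) : Omk A) = red A ⟨((y : FN N) : Om), OSub_mem_Ocal A N y⟩ := rfl

/-- The reduction map `O → F_{N,k}`. -/
def rhoO : OSub A N →+* Fk A N where
  toFun := rhoFun A N
  map_one' := by
    apply Subtype.ext
    rw [coe_rhoFun]
    exact (red_congr A (coe_one_Om N) _ (Ocal A).one_mem).trans (red_one' A _)
  map_mul' := fun a b => by
    apply Subtype.ext
    rw [coe_rhoFun]
    exact (red_congr A (coe_mul_Om N (a : FN N) (b : FN N)) _
      ((Ocal A).mul_mem (OSub_mem_Ocal A N a) (OSub_mem_Ocal A N b))).trans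
        (red_mul' A (OSub_mem_Ocal A N a) (OSub_mem_Ocal A N b) _)
  map_zero' := by
    apply Subtype.ext
    rw [coe_rhoFun]
    exact (red_congr A (coe_zero_Om N) _ (Ocal A).zero_mem).trans (red_zero' A _)
  map_add' := fun a b => by
    apply Subtype.ext
    rw [coe_rhoFun]
    exact (red_congr A (coe_add_Om N (a : FN N) (b : FN N)) _
      ((Ocal A).add_mem (OSub_mem_Ocal A N a) (OSub_mem_Ocal A N b))).trans
        (red_add' A (OSub_mem_Ocal A N a) (OSub_mem_Ocal A N b) _)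

theorem coe_rhoO (y : OSub A N) :
    ((rhoO A N y : Fk A N) : Omk A) = red A ⟨((y : FN N) : Om), OSub_mem_Ocal A N y⟩ := rfl

theorem rhoO_mk (y : FN N) (hy : (y : Om) ∈ Ocal A) (hk : red A ⟨(y : Om), hy⟩ ∈ Fk A N) :
    rhoO A N ⟨y, hy, hk⟩ = ⟨red A ⟨(y : Om), hy⟩, hk⟩ := rfl

theorem rhoO_eq_zero_iff (y : OSub A N) :
    rhoO A N y = 0 ↔ red A ⟨((y : FN N) : Om), OSub_mem_Ocal A N y⟩ = 0 := by
  constructor
  · intro h
    rw [← coe_rhoO, h]
    rfl
  · intro h
    apply Subtype.ext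
    rw [coe_rhoO, h]
    rfl

/-- `O` is stable under inverting elements with nonzero reduction. -/
theorem inv_mem_OSub (y : OSub A N) (hy : rhoO A N y ≠ 0) : ((y : FN N))⁻¹ ∈ OSub A N := by
  have hO := OSub_mem_Ocal A N y
  have hne : red A ⟨((y : FN N) : Om), hO⟩ ≠ 0 := fun h => hy ((rhoO_eq_zero_iff A N y).mpr h)
  have h1 : (((y : FN N)⁻¹ : FN N) : Om) ∈ Ocal A := inv_mem_Ocal A ⟨_, hO⟩ hne
  refine ⟨h1, ?_⟩
  have h2 : red A ⟨(((y : FN N)⁻¹ : FN N) : Om), h1⟩ = (red A ⟨((y : FN N) : Om), hO⟩)⁻¹ :=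
    red_inv A ⟨_, hO⟩ hne
  rw [h2]
  exact inv_mem (OSub_red_mem A N y)

omit [NeZero N] in
theorem coe_const_mem_Ocal (a : A) :
    ((algebraMap Kbar (FN N) (a : Kbar) : FN N) : Om) ∈ Ocal A := by
  rw [coe_algebraMap_FN N]
  exact C_mem_Ocal A a.2

omit [NeZero N] in
theorem red_const (a : A) :
    red A ⟨((algebraMap Kbar (FN N) (a : Kbar) : FN N) : Om), coe_const_mem_Ocal A N a⟩ =
      HahnSeries.C (IsLocalRing.residue A a) := by
  rw [red_congr A (coe_algebraMap_FN N (a : Kbar)) _ (C_mem_Ocal A a.2), red_C]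

/-- Constants of `A` lie in `O`. -/
theorem algebraMap_mem_OSub (a : A) : algebraMap Kbar (FN N) (A.subtype a) ∈ OSub A N := by
  change algebraMap Kbar (FN N) (a : Kbar) ∈ OSub A N
  refine ⟨coe_const_mem_Ocal A N a, ?_⟩
  rw [red_const, ← coe_algebraMap_Fk A N]
  exact SetLike.coe_mem _

theorem rhoO_algebraMap (a : A) :
    rhoO A N ⟨algebraMap Kbar (FN N) (A.subtype a), algebraMap_mem_OSub A N a⟩ =
      algebraMap (kk A) (Fk A N) (IsLocalRing.residue A a) := by
  apply Subtype.ext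
  rw [coe_rhoO, coe_algebraMap_Fk]
  exact red_const A N a

/-! ### Finiteness of zeros and poles -/

theorem finite_ord_FN (f : FN N) (_ : f ≠ 0) :
    {P : Place Kbar (FN N) | P.ord f ≠ 0}.Finite := by
  have := S18.FibreCount.finiteDimensional N
  have := S18.Char0.isSeparable_jBar N
  exact Lib.FFSep.finite_support_ord (S18.FibreCount.transcendental_jBar N) f

theorem finite_ord_Fk [FiniteDimensional (kk A)⟮S18.PlacesModL.jb A N⟯ (Fk A N)]
    [Algebra.IsSeparable (kk A)⟮S18.PlacesModL.jb A N⟯ (Fk A N)] (f : Fk A N) (_ : f ≠ 0) :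
    {Q : Place (kk A) (Fk A N) | Q.ord f ≠ 0}.Finite :=
  Lib.FFSep.finite_support_ord (S18.PlacesModL.transcendental_jb A N) f

/-! ### Charts -/

/-- The chart of type `τ`: `τ = True` the places of finite type, `τ = False` the others. -/
def TP (τ : Prop) : Set (Place Kbar (FN N)) := {P | FinPl A N P ↔ τ}

variable {A N}

theorem isChart_of_mem {τ : Prop} {b : FN N}
    (hb : b ∈ NormTrick.chartSubring (OSub A N) (TP A N τ)) {P : Place Kbar (FN N)}
    (hP : P ∈ TP A N τ) : IsChart A N P b := by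
  rw [isChart_iff]
  obtain ⟨⟨hO, -⟩, hreg⟩ := hb
  exact ⟨hO, fun P' hP' => hreg P' (hP'.trans hP)⟩

theorem heval_chart {r : Place Kbar (FN N) → Place (kk A) (Fk A N)} (hr : Eval A N r) (τ : Prop)
    (b : OSub A N) (hb : (b : FN N) ∈ NormTrick.chartSubring (OSub A N) (TP A N τ))
    (P : Place Kbar (FN N)) (hP : P ∈ TP A N τ)
    (hm : (b : FN N) ∈ P.toValuationSubring.nonunits) :
    rhoO A N b ∈ (r P).toValuationSubring.nonunits := by
  obtain ⟨hk, h⟩ := hr P b (OSub_mem_Ocal A N b) (isChart_of_mem hb hP) hm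
  exact h

theorem hval_chart {r : Place Kbar (FN N) → Place (kk A) (Fk A N)} (hr : Eval A N r) (τ : Prop)
    (b : OSub A N) (hb : (b : FN N) ∈ NormTrick.chartSubring (OSub A N) (TP A N τ))
    (P : Place Kbar (FN N)) (hP : P ∈ TP A N τ) :
    ∃ a : A, (b : FN N) - algebraMap Kbar (FN N) (A.subtype a) ∈
      P.toValuationSubring.nonunits := by
  have hch := isChart_of_mem hb hP
  obtain ⟨b', hb'⟩ := exists_value N P (isChart_mem hch)
  obtain ⟨hbA, -, -⟩ := eval_value hr P b (OSub_mem_Ocal A N b) hch b' hb'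
  exact ⟨⟨b', hbA⟩, hb'⟩

variable (A N)

/-! ### The finite chart: `x = j` -/

/-- `j` as an element of `O`. -/
def xFin : OSub A N :=
  ⟨jBar N, jBar_mem_Ocal A N, by rw [red_jBar]; exact jqModC_mem_full (kk A) N⟩

theorem rhoO_xFin : rhoO A N (xFin A N) = jkEl A N := Subtype.ext (red_jBar A N)

theorem xFin_mem :
    ((xFin A N : OSub A N) : FN N) ∈ NormTrick.chartSubring (OSub A N) (TP A N True) := by
  refine ⟨(xFin A N).2, fun P hP => ?_⟩
  obtain ⟨a, ha⟩ := hP.mpr trivial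
  exact mem_of_sub_mem_nonunits P ha

omit [NeZero N] in
theorem jkEl_ne_algebraMap (c : kk A) : jkEl A N ≠ algebraMap (kk A) (Fk A N) c := by
  intro h
  apply S18.PlacesModL.transcendental_jb A N
  show IsAlgebraic (kk A) (jkEl A N)
  rw [h]
  exact isAlgebraic_algebraMap c

/-! ### The chart at infinity: `x = 1/j` -/

/-- `1/j` as an element of `O`. -/
def xInf : OSub A N :=
  ⟨(jBar N)⁻¹, inv_jBar_mem_Ocal A N, by
    rw [red_inv_jBar]; exact inv_mem (jqModC_mem_full (kk A) N)⟩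

theorem rhoO_xInf : rhoO A N (xInf A N) = (jkEl A N)⁻¹ := Subtype.ext (red_inv_jBar A N)

theorem xInf_mem :
    ((xInf A N : OSub A N) : FN N) ∈ NormTrick.chartSubring (OSub A N) (TP A N False) := by
  refine ⟨(xInf A N).2, fun P hP => ?_⟩
  exact isChart_mem (isChart_inv_jBar A N P hP.mp)

omit [NeZero N] in
theorem inv_jkEl_ne_algebraMap (c : kk A) :
    (jkEl A N)⁻¹ ≠ algebraMap (kk A) (Fk A N) c := by
  intro h
  have h2 : jkEl A N = algebraMap (kk A) (Fk A N) c⁻¹ := by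
    rw [map_inv₀, ← h, inv_inv]
  exact jkEl_ne_algebraMap A N _ h2

end Fermat.Agent.S37.Loc

end
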