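import Mathlib
import Fermat.Agent.S37.LocBase

/-!
# S37 — [LOC]: `Plan2.Loc A N` by the norm trick (helper70)

`loc_of : FibreSum A N → Sep A N → ChartRed A N → Loc A N` (for `ℓ ∤ N`, `A` over `ℓ`).

The whole argument is the abstract `Lib.NormTrick.local_mapDomain_eq`, instantiated twice:

* finite chart: `TP = {P | FinPl P}`, coordinate `x = j`, `c ∈ k` arbitrary;
* chart at infinity: `TP = {P | ¬ FinPl P}`, coordinate `x = 1/j`, `c = 0`.

`O = OSub A N` is the ring of the `y ∈ F_N ∩ Ocal` with reduction in `F_{N,k}` and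
`ρ = rhoO A N : O →+* F_{N,k}` is the reduction map.
-/

set_option autoImplicit false

noncomputable section

namespace Fermat.Agent.S37.Loc

open ModularCurve AlgebraicCurve IntermediateField Fermat.Agent.S24 Fermat.Agent.S18.Content
  Fermat.Agent.S18.Plan Fermat.Agent.S37.Plan2 Fermat.Agent.S37.EvalBasic Fermat.Agent.Lib

set_option synthInstance.maxHeartbeats 400000
set_option maxHeartbeats 400000

variable (A : ValuationSubring Kbar) (N : ℕ) [NeZero N]

/-! ### The finite chart -/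

theorem fibK_some_eq (c : kk A) :
    {P : Place Kbar (FN N) | P ∈ TP A N True ∧ ∃ a : A, IsLocalRing.residue A a = c ∧
        ((xFin A N : OSub A N) : FN N) - algebraMap Kbar (FN N) (A.subtype a) ∈
          P.toValuationSubring.nonunits} = fibK A N (some c) := by
  ext P
  constructor
  · rintro ⟨-, a, ha, h⟩
    exact ⟨a, ha, h⟩
  · rintro ⟨a, ha, h⟩
    exact ⟨iff_true_intro ⟨a, h⟩, a, ha, h⟩

theorem fibk_some_eq (c : kk A) : {Q : Place (kk A) (Fk A N) | rhoO A N (xFin A N) -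
    algebraMap (kk A) (Fk A N) c ∈ Q.toValuationSubring.nonunits} = fibk A N (some c) := by
  rw [rhoO_xFin]; rfl

theorem hsum_fin (hfs : FibreSum A N) (c : kk A) (b : OSub A N) (hne : rhoO A N b ≠ 0) :
    ∑ᶠ P ∈ {P : Place Kbar (FN N) | P ∈ TP A N True ∧ ∃ a : A, IsLocalRing.residue A a = c ∧
        ((xFin A N : OSub A N) : FN N) - algebraMap Kbar (FN N) (A.subtype a) ∈
          P.toValuationSubring.nonunits}, P.ord (b : FN N)
      = ∑ᶠ Q ∈ {Q : Place (kk A) (Fk A N) | rhoO A N (xFin A N) -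
        algebraMap (kk A) (Fk A N) c ∈ Q.toValuationSubring.nonunits}, Q.ord (rhoO A N b) := by
  rw [fibK_some_eq, fibk_some_eq]
  exact hfs b (OSub_mem_Ocal A N b) (OSub_red_mem A N b)
    (fun h => hne ((rhoO_eq_zero_iff A N b).mpr h)) (some c)

/-- **The finite chart.** -/
theorem mapDomain_fin [FiniteDimensional (kk A)⟮S18.PlacesModL.jb A N⟯ (Fk A N)]
    [Algebra.IsSeparable (kk A)⟮S18.PlacesModL.jb A N⟯ (Fk A N)]
    (hfs : FibreSum A N) (hsep : Sep A N) (hcr : ChartRed A N)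
    {r : Place Kbar (FN N) → Place (kk A) (Fk A N)} (hr : Eval A N r)
    (y : OSub A N) (hy : rhoO A N y ≠ 0) (c : kk A) (Q₀ : Place (kk A) (Fk A N))
    (hQ₀ : jkEl A N - algebraMap (kk A) (Fk A N) c ∈ Q₀.toValuationSubring.nonunits)
    (D : Place Kbar (FN N) →₀ ℤ) (hD : ∀ P, D P = P.ord (y : FN N)) :
    Finsupp.mapDomain r D Q₀ = Q₀.ord (rhoO A N y) := by
  classical
  have hρx := rhoO_xFin A N
  have he : jkEl A N - algebraMap (kk A) (Fk A N) c ≠ 0 :=
    sub_ne_zero.mpr (jkEl_ne_algebraMap A N c)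
  have hSQ : {Q : Place (kk A) (Fk A N) |
      jkEl A N - algebraMap (kk A) (Fk A N) c ∈ Q.toValuationSubring.nonunits}.Finite :=
    NormTrick.finite_setOf_mem_nonunits he (finite_ord_Fk A N _ he)
  obtain ⟨g, hgO, hgk, hgch, -, hgsep⟩ := (hsep hSQ.toFinset).1 (fun Q hQ =>
    mem_of_sub_mem_nonunits Q ((Set.Finite.mem_toFinset hSQ).mp hQ))
  refine NormTrick.local_mapDomain_eq (OSub A N) (rhoO A N) r (inv_mem_OSub A N)
    (finite_ord_FN N) (finite_ord_Fk A N)
    A.subtype (IsLocalRing.residue A) IsLocalRing.residue_surjective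
    (fun a h => (IsLocalRing.residue_ne_zero_iff_isUnit a).mp h)
    (algebraMap_mem_OSub A N) (rhoO_algebraMap A N) (TP A N True)
    (heval_chart hr True) (hval_chart hr True) (xFin A N) (xFin_mem A N) c
    ?hxtr ?hbackT ?hρ ?hsum ⟨g, hgO, hgk⟩ ?hg ?hsep y hy Q₀ ?hQ₀ D hD
  case hxtr =>
    intro c'
    rw [hρx]
    exact jkEl_ne_algebraMap A N c'
  case hbackT =>
    intro P hP
    rw [hρx] at hP
    exact iff_true_intro ((typePres A N r hr P).mp (mem_of_sub_mem_nonunits (r P) hP))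
  case hρ =>
    intro b hb Q hQ
    rw [hρx] at hQ
    obtain ⟨hk, h⟩ := hcr.1 b (OSub_mem_Ocal A N b)
      ⟨OSub_mem_Ocal A N b, fun P hP => hb.2 P (iff_true_intro hP)⟩
    exact h Q (mem_of_sub_mem_nonunits Q hQ)
  case hsum =>
    intro b _ hne
    exact hsum_fin A N hfs c b hne
  case hg => exact ⟨⟨hgO, hgk⟩, fun P hP => hgch.2 P (hP.mpr trivial)⟩
  case hsep =>
    intro Q Q' hQ hQ' hne a
    rw [hρx] at hQ hQ'
    exact hgsep Q ((Set.Finite.mem_toFinset hSQ).mpr hQ) Q'
      ((Set.Finite.mem_toFinset hSQ).mpr hQ') hne a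
  case hQ₀ =>
    rw [hρx]
    exact hQ₀

/-- **The chart at infinity.** -/
theorem mapDomain_inf [FiniteDimensional (kk A)⟮S18.PlacesModL.jb A N⟯ (Fk A N)]
    [Algebra.IsSeparable (kk A)⟮S18.PlacesModL.jb A N⟯ (Fk A N)]
    (hfs : FibreSum A N) (hsep : Sep A N) (hcr : ChartRed A N)
    {r : Place Kbar (FN N) → Place (kk A) (Fk A N)} (hr : Eval A N r)
    (y : OSub A N) (hy : rhoO A N y ≠ 0) (Q₀ : Place (kk A) (Fk A N))
    (hQ₀ : ¬ FinPlk A N Q₀)
    (D : Place Kbar (FN N) →₀ ℤ) (hD : ∀ P, D P = P.ord (y : FN N)) :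
    Finsupp.mapDomain r D Q₀ = Q₀.ord (rhoO A N y) := by
  classical
  have hρx := rhoO_xInf A N
  have hmem : ∀ Q : Place (kk A) (Fk A N),
      (jkEl A N)⁻¹ ∈ Q.toValuationSubring.nonunits ↔ ¬ FinPlk A N Q := by
    intro Q
    constructor
    · intro h
      exact notMem_of_inv_mem_nonunits _ (jkEl_ne_zero A N) h
    · intro h
      exact inv_mem_nonunits_of_notMem _ h
  have hmem' : ∀ Q : Place (kk A) (Fk A N),
      rhoO A N (xInf A N) - algebraMap (kk A) (Fk A N) 0 ∈ Q.toValuationSubring.nonunits ↔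
        ¬ FinPlk A N Q := by
    intro Q
    rw [hρx, map_zero, sub_zero]
    exact hmem Q
  have he : (jkEl A N)⁻¹ ≠ 0 := inv_ne_zero (jkEl_ne_zero A N)
  have hSQ : {Q : Place (kk A) (Fk A N) | ¬ FinPlk A N Q}.Finite := by
    have h1 := NormTrick.finite_setOf_mem_nonunits he (finite_ord_Fk A N _ he)
    exact h1.subset (fun Q hQ => (hmem Q).mpr hQ)
  obtain ⟨g, hgO, hgk, hgch, -, hgsep⟩ := (hsep hSQ.toFinset).2 (fun Q hQ =>
    (Set.Finite.mem_toFinset hSQ).mp hQ)
  refine NormTrick.local_mapDomain_eq (OSub A N) (rhoO A N) r (inv_mem_OSub A N)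
    (finite_ord_FN N) (finite_ord_Fk A N)
    A.subtype (IsLocalRing.residue A) IsLocalRing.residue_surjective
    (fun a h => (IsLocalRing.residue_ne_zero_iff_isUnit a).mp h)
    (algebraMap_mem_OSub A N) (rhoO_algebraMap A N) (TP A N False)
    (heval_chart hr False) (hval_chart hr False) (xInf A N) (xInf_mem A N) 0
    ?hxtr ?hbackT ?hρ ?hsum ⟨g, hgO, hgk⟩ ?hg ?hsep y hy Q₀ ?hQ₀ D hD
  case hxtr =>
    intro c'
    rw [hρx]
    exact inv_jkEl_ne_algebraMap A N c'
  case hbackT =>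
    intro P hP
    have h1 := (hmem' (r P)).mp hP
    exact iff_false_intro (fun hFin => h1 ((typePres A N r hr P).mpr hFin))
  case hρ =>
    intro b hb Q hQ
    obtain ⟨hk, h⟩ := hcr.2 b (OSub_mem_Ocal A N b)
      ⟨OSub_mem_Ocal A N b, fun P hP => hb.2 P (iff_false_intro hP)⟩
    exact h Q ((hmem' Q).mp hQ)
  case hsum =>
    intro b hb hne
    have hK : {P : Place Kbar (FN N) | P ∈ TP A N False ∧ ∃ a : A, IsLocalRing.residue A a = 0 ∧
        ((xInf A N : OSub A N) : FN N) - algebraMap Kbar (FN N) (A.subtype a) ∈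
          P.toValuationSubring.nonunits} = fibK A N none := by
      ext P
      constructor
      · rintro ⟨h, -⟩
        exact h.mp
      · intro hP
        have hP' : ¬ FinPl A N P := hP
        refine ⟨iff_false_intro hP', ?_⟩
        have hch := isChart_inv_jBar A N P hP'
        obtain ⟨b', hb'⟩ := exists_value N P (isChart_mem hch)
        obtain ⟨hbA, hk, hv⟩ := eval_value hr P (jBar N)⁻¹ (inv_jBar_mem_Ocal A N) hch b' hb'
        refine ⟨⟨b', hbA⟩, ?_, hb'⟩
        have e : (⟨red A ⟨_, inv_jBar_mem_Ocal A N⟩, hk⟩ : Fk A N) = (jkEl A N)⁻¹ :=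
          Subtype.ext (red_inv_jBar A N)
        rw [e] at hv
        have h1 : (jkEl A N)⁻¹ ∈ (r P).toValuationSubring.nonunits :=
          (hmem (r P)).mpr (fun hFin => hP' ((typePres A N r hr P).mp hFin))
        have h2 := (r P).toValuationSubring.nonunits.sub_mem h1 hv
        rw [sub_sub_cancel] at h2
        exact (algebraMap_mem_nonunits_iff (r P) _).mp h2
    have hk' : {Q : Place (kk A) (Fk A N) | rhoO A N (xInf A N) -
        algebraMap (kk A) (Fk A N) 0 ∈ Q.toValuationSubring.nonunits} = fibk A N none := by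
      ext Q
      exact hmem' Q
    rw [hK, hk']
    exact hfs b (OSub_mem_Ocal A N b) (OSub_red_mem A N b) (fun h => hne ((rhoO_eq_zero_iff A N b).mpr h)) none
  case hg => exact ⟨⟨hgO, hgk⟩, fun P hP => hgch.2 P hP.mp⟩
  case hsep =>
    intro Q Q' hQ hQ' hne a
    exact hgsep Q ((Set.Finite.mem_toFinset hSQ).mpr ((hmem' Q).mp hQ)) Q'
      ((Set.Finite.mem_toFinset hSQ).mpr ((hmem' Q').mp hQ')) hne a
  case hQ₀ => exact (hmem' Q₀).mpr hQ₀

/-! ### [LOC] -/

/-- `Plan2.Loc A N`, given that `F_{N,k} / k(j̄)` is finite separable. -/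
theorem loc_of_aux [FiniteDimensional (kk A)⟮S18.PlacesModL.jb A N⟯ (Fk A N)]
    [Algebra.IsSeparable (kk A)⟮S18.PlacesModL.jb A N⟯ (Fk A N)]
    (hfs : FibreSum A N) (hsep : Sep A N) (hcr : ChartRed A N) : Plan2.Loc A N := by
  intro r hr
  have := S18.PlacesModL.isAlgClosed_kk A
  refine ⟨fun P => ?_, ?_⟩
  · rw [S18.Char0.deg_eq_one N P]
    exact Lib.FFSep.deg_eq_one (S18.PlacesModL.jb A N) (r P)
  · intro y hy hyk hne D hD Q
    have hyO : iota A y ∈ Ocal A := iota_mem_Ocal A y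
    have hyk' : red A ⟨iota A y, hyO⟩ ∈ Fk A N := by
      rw [red_iota]; exact hyk
    let yO : OSub A N := ⟨⟨iota A y, hy⟩, hyO, hyk'⟩
    have hρy : rhoO A N yO = ⟨coeffMap (IsLocalRing.residue A) y, hyk⟩ :=
      Subtype.ext (red_iota A y)
    have hyne : rhoO A N yO ≠ 0 := by
      rw [hρy]
      intro h
      exact hne (congrArg Subtype.val h)
    rw [← hρy]
    by_cases hQ : FinPlk A N Q
    · obtain ⟨c, hc⟩ := Lib.FFSep.exists_residue (S18.PlacesModL.jb A N) Q hQ
      have hc' : jkEl A N - algebraMap (kk A) (Fk A N) c ∈ Q.toValuationSubring.nonunits := by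
        rcases hc with hc | hc
        · exact absurd hc (jkEl_ne_algebraMap A N c)
        · exact NormTrick.mem_nonunits_of_ord_pos hc
      exact mapDomain_fin A N hfs hsep hcr hr yO hyne c Q hc' D hD
    · exact mapDomain_inf A N hfs hsep hcr hr yO hyne Q hQ D hD

end Fermat.Agent.S37.Loc

namespace Fermat.Agent.S37.Loc

open ModularCurve AlgebraicCurve Fermat.Agent.S24 Fermat.Agent.S18.Content
  Fermat.Agent.S18.Plan Fermat.Agent.S37.Plan2

set_option synthInstance.maxHeartbeats 400000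

/-- **[LOC]** the evaluation property implies the Prelude's place-reduction axioms, given the
fibre sums, separation and the reduction of the chart rings. -/
theorem loc_of (N : ℕ) [NeZero N] (ℓ : ℕ) [Fact ℓ.Prime] (hℓ : ¬ ℓ ∣ N)
    (A : ValuationSubring Kbar) (hA : A.LiesOverPrime ℓ)
    (hfs : Plan2.FibreSum A N) (hsep : Plan2.Sep A N) (hcr : Plan2.ChartRed A N) :
    Plan2.Loc A N := by
  have := S18.PlacesModL.finiteDimensional_jb N ℓ hℓ A hA
  have := S18.PlacesModL.isSeparable_jb N ℓ hℓ A hA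
  exact loc_of_aux A N hfs hsep hcr

end Fermat.Agent.S37.Loc

end
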