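import Mathlib
import Fermat.Agent.S37.Plan2
import Fermat.Agent.S37.TopBridge
import Fermat.Agent.S37.HeckeInputs

/-!
# S37 main assembly (owner: helper26)

From the contracts of `S37/Plan2.lean` at one pair `(ℓ, A)`:

* `Plan2.RMap A N`, `Plan2.Loc A N`, `Plan2.Gen A N`, `Plan2.Gal A N`, `Plan2.ES A N ℓ`,
* the divisor-level core of S18 (`S18.TopBridge.DivCoreFor`) for every place reduction,

we get helper6's place-level local core `∃ r, TopBridge.PlaceCore N p ℓ A r`
(`placeCore_of_plan2`); hence the `hcomm`-free core [G1] (`core_of_plan2`) and the frozen S37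
conclusion (`result_of_plan2`).
-/

set_option autoImplicit false

noncomputable section

namespace Fermat.Agent.S37.Main

open ModularCurve AlgebraicCurve Fermat.Agent.S24 Fermat.Agent.S18.Content Fermat.Agent.S18.Plan

set_option synthInstance.maxHeartbeats 400000
set_option maxHeartbeats 3200000

/-- The hypotheses of the S37 program at one pair `(ℓ, A)`. -/
structure LocalInputs (N p ℓ : ℕ) [NeZero N] [NeZero ℓ] (A : ValuationSubring Kbar) : Prop where
  rmap : Plan2.RMap A N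
  loc : Plan2.Loc A N
  gen : Plan2.Gen A N
  gal : Plan2.Gal A N
  es : Plan2.ES A N ℓ
  div : ∀ r : Place Kbar (FN N) → Place (kk A) (Fk A N), IsPlaceReductionModL A N r →
    PrincipalGeneratedByIntegral A (IsLocalRing.residue A) N →
    ∀ n : ℕ, S18.TopBridge.DivCoreFor A N (p ^ n) r

theorem placeCore_of_plan2 (N p ℓ : ℕ) [NeZero N] (hℓ : ℓ.Prime) (A : ValuationSubring Kbar)
    (hA : A.LiesOverPrime ℓ) (h : @LocalInputs N p ℓ _ ⟨hℓ.ne_zero⟩ A) :
    ∃ r, @TopBridge.PlaceCore N p ℓ _ ⟨hℓ.ne_zero⟩ A r := by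
  haveI : NeZero ℓ := ⟨hℓ.ne_zero⟩
  obtain ⟨r, hE⟩ := h.rmap
  have hr : IsPlaceReductionModL A N r := h.loc r hE
  obtain ⟨φ, hφ⟩ := Lib.FrobExists.exists_isFrobeniusAt A ℓ hℓ hA
  -- the Frobenius automorphism of the residue field
  set τ : kk A ≃+* kk A :=
    MulSemiringAction.toRingAut (A.decompositionSubgroup ℚ) (kk A)
      ⟨φ, hφ.mem_decompositionSubgroup⟩ with hτdef
  have hτ : ∀ x : kk A, τ x = x ^ ℓ := fun x => hφ.smul_residue_eq x
  refine ⟨r, HeckeInputs.heckeInputsAlong N ℓ, hr, h.gen, h.div r hr h.gen, ?_,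
    MulAction.toPerm (Defs.coeffAut (kk A) N τ), ?_, ?_⟩
  · rintro σ ⟨s, hs, rfl⟩ P
    have hg := h.gal r hE s P
    have h1 : MulSemiringAction.toRingAut (A.decompositionSubgroup ℚ) (kk A) s = 1 := hs
    rw [h1, map_one, one_smul] at hg
    exact hg
  · intro σ hσ P
    have hg := h.gal r hE ⟨σ, hσ.mem_decompositionSubgroup⟩ P
    have h1 : MulSemiringAction.toRingAut (A.decompositionSubgroup ℚ) (kk A)
        ⟨σ, hσ.mem_decompositionSubgroup⟩ = τ := by
      refine RingEquiv.ext fun x => ?_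
      rw [hτ x]
      exact hσ.smul_residue_eq x
    rw [h1] at hg
    exact hg
  · intro hα hβ hP P
    have key := h.es r hE hα hβ τ hτ P
    rw [key]
    congr 1
    rw [Finsupp.smul_single, nsmul_eq_mul, mul_one]
    rfl

/-- **[G1]** the `hcomm`-free core from the Plan2 contracts. -/
theorem core_of_plan2 (N p ℓ : ℕ) [NeZero N] (hℓ : ℓ.Prime) (A : ValuationSubring Kbar)
    (hA : A.LiesOverPrime ℓ) (h : @LocalInputs N p ℓ _ ⟨hℓ.ne_zero⟩ A) :
    TopBridge.Core N p ℓ hℓ A :=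
  TopBridge.core_of_placeCore N p ℓ hℓ A (placeCore_of_plan2 N p ℓ hℓ A hA h)

/-- **The frozen S37 conclusion from the Plan2 contracts** at every `ℓ ∤ N p` and `A` over `ℓ`. -/
theorem result_of_plan2 (N p : ℕ) [NeZero N] (hcomm : HeckeOperatorsCommuteBar N)
    (h : ∀ (ℓ : ℕ) (hℓ : ℓ.Prime), ¬ ℓ ∣ N * p → ∀ A : ValuationSubring Kbar,
      A.LiesOverPrime ℓ → @LocalInputs N p ℓ _ ⟨hℓ.ne_zero⟩ A) :
    letI := heckeModuleBar N
    ∀ (_ : SMulCommClass (AlgebraicClosure ℚ ≃ₐ[ℚ] AlgebraicClosure ℚ) HeckeAlg (JZero N)),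
      SpecializationExists (K := ℚ) (L := AlgebraicClosure ℚ) N p (JZero N) :=
  TopBridge.result_of_placeCore N p hcomm fun ℓ hℓ hNp A hA =>
    placeCore_of_plan2 N p ℓ hℓ A hA (h ℓ hℓ hNp A hA)

end Fermat.Agent.S37.Main

end
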