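import Mathlib
import Fermat.Agent.S37.Plan2
import Fermat.Agent.Lib.FFPlaces

/-!
# S37 — sub-plan of `Plan2.Sep` (owner: helper98, sub-lead of the [SEP] block)

`Plan2.Sep A N` (separation of finitely many places of `F_{N,k}` of the same type by reductions of
chart elements) is proved in four steps; `N' = (if ℓ = 2 then 9 else 4) * N` is the auxiliary level
of S18, and everything is *free of any place map `r`*:

* `InclOne`  **[L1]**   : level one, explicit: the reduction of `L_{F_1}(c (j)_∞) ∩ Ocal`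
                          (polynomials in `j` of degree `≤ c` with coefficients in `A`) lies in
                          `WJ k F_{1,k} c`;
* `Incl0`    **[INCL0]**: `redSp (pullRR 1 N' (c (j)_∞)) ≤ WJ k F_{N',k} c`
                          (from `Plan.CharStmt A 1 N'` and `InclOne`);
* `Surj`     **[SURJ]** : for `c` large, `WJ k F_{N',k} c ≤ redSp (pullRR N N' (c (j)_∞))`
                          (`Incl0` + `Plan.RR0` + `Plan.RRl` + (Dim));
* `RadCore`  **[RADCORE]**: for `g ∈ pullRR N N' B ∩ Ocal` with `red g ∈ F_{N,k}` there is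
                          `y ∈ L_{F_N}(ℓ^b B) ∩ Ocal` with `red y = (red g)^(ℓ^b)`
                          (from `Plan.CharStmt A N N'`: a coefficient of the characteristic
                          polynomial);
* `RadFin`, `RadInf` **[RAD]**: every `z ∈ F_{N,k}` integral over `k[j̄]` (resp. `k[j̄⁻¹]`) has
                          `z^(ℓ^b)` in the reduction of the chart ring of the finite-type places
                          (resp. of the other places);
* `Plan2.Sep` then follows from `Lib/RadicialSep` (helper64).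
-/

set_option autoImplicit false

noncomputable section

namespace Fermat.Agent.S37.SepPlan

open ModularCurve AlgebraicCurve Fermat.Agent.S24 Fermat.Agent.S18.Content Fermat.Agent.S18.Plan
open Fermat.Agent.S37.Plan2

set_option synthInstance.maxHeartbeats 400000
set_option maxHeartbeats 3200000

variable (A : ValuationSubring Kbar)

/-- **[L1]** level one: for `a ∈ L_{F_1}(c (j)_∞) ∩ Ocal`, `red a ∈ WJ k F_{1,k} c`. -/
def InclOne : Prop :=
  ∀ (Cp : Divisor Kbar (FN 1)) (c : ℕ), (∀ P, Cp P = max 0 (-(P.ord (jBar 1)))) →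
    ∀ a : FN 1, a ∈ riemannRochSpace (c • Cp) → ∀ ha : (a : Om) ∈ Ocal A,
      red A ⟨(a : Om), ha⟩ ∈ WJ (kk A) (Fk A 1) c

/-- **[INCL0]** `redSp (pullRR 1 N' (c (j)_∞)) ≤ WJ k F_{N',k} c`, with no place map. -/
def Incl0 (N' : ℕ) : Prop :=
  ∀ (Cp : Divisor Kbar (FN 1)) (c : ℕ), (∀ P, Cp P = max 0 (-(P.ord (jBar 1)))) →
    redSp A (pullRR 1 N' (c • Cp)) ≤ WJ (kk A) (Fk A N') c

/-- **[SURJ]** for `c` large every element of `WJ k F_{N',k} c` is the reduction of an element of
`pullRR N N' (c (j)_∞) ∩ Ocal`. -/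
def Surj (N N' : ℕ) [NeZero N] : Prop :=
  ∃ c₀ : ℕ, ∀ c : ℕ, c₀ ≤ c →
    ∀ Cp : Divisor Kbar (FN N), (∀ P, Cp P = max 0 (-(P.ord (jBar N)))) →
      WJ (kk A) (Fk A N') c ≤ redSp A (pullRR N N' (c • Cp))

/-- **[RADCORE]** descent from level `N'` to level `N` up to a power of Frobenius. -/
def RadCore (N N' ℓ : ℕ) : Prop :=
  ∃ b : ℕ, ∀ (B : Divisor Kbar (FN N)) (g : Ocal A), (g : Om) ∈ pullRR N N' B →
    red A g ∈ Fk A N →
    ∃ (y : FN N) (hy : (y : Om) ∈ Ocal A),
      y ∈ riemannRochSpace ((ℓ ^ b) • B) ∧ red A ⟨(y : Om), hy⟩ = red A g ^ (ℓ ^ b)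

/-- **[RAD], finite chart**: `z ∈ F_{N,k}` integral over `k[j̄]` ⇒ `z^(ℓ^b) = red y`, `y` in the
chart ring of the finite-type places. -/
def RadFin (N : ℕ) [NeZero N] (ℓ b : ℕ) : Prop :=
  ∀ z : Fk A N, IsIntegral (Fermat.Agent.Lib.FFPlaces.polyRing (kk A) (jkEl A N)) z →
    ∃ (y : FN N) (hy : (y : Om) ∈ Ocal A),
      IsChartFin A N y ∧ red A ⟨(y : Om), hy⟩ = (z : Omk A) ^ (ℓ ^ b)

/-- **[RAD], chart at infinity**: `z ∈ F_{N,k}` integral over `k[j̄⁻¹]` ⇒ `z^(ℓ^b) = red y`, `y` in
the chart ring of the places not of finite type. -/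
def RadInf (N : ℕ) [NeZero N] (ℓ b : ℕ) : Prop :=
  ∀ z : Fk A N, IsIntegral (Fermat.Agent.Lib.FFPlaces.polyRing (kk A) (jkEl A N)⁻¹) z →
    ∃ (y : FN N) (hy : (y : Om) ∈ Ocal A),
      IsChartInf A N y ∧ red A ⟨(y : Om), hy⟩ = (z : Omk A) ^ (ℓ ^ b)

end Fermat.Agent.S37.SepPlan

end
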